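/-
S16 (Eisenstein ideal index), part (A) = lower bound `n ∣ m`: shared DEFINITIONS (helper21).
Definitions only; the slice statements are in NOTES/W2A-S16-A.md.

* `transT`, `transU`   : the transfer maps of the Hecke correspondences `T_ℓ` (`ℓ ∤ N`), `U_q` (`q ∣ N`)
                          on `Γ₀(N)`:  `α_x γ = (trans γ x) α_{x'}`.
* `heckeTFun`, `heckeUFun`, `heckeOn p ℓ` : the Hecke operators on FUNCTIONS `Γ₀(N) → A`
                          (`(T ψ)(γ) = ∑_x ψ (trans γ x)`), no homomorphism property needed.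
* `IsDR p φ`            : `φ : Γ₀(p) → ℤ` is the Dedekind–Rademacher homomorphism of the modular unit
                          `u = Δ(pz)/Δ(z)`:  `Λ(γ z) - Λ(z) = 2πi φ(γ)` for a holomorphic logarithm `Λ` of `u`.
* `heckeMapS16 p`, `LowerBound p` : the statement of part (A).
-/
import Mathlib
import Fermat.Prelude.Def_CuspForm_HeckeLocal
import Fermat.Prelude.Def_CuspForm_HeckeEvalForms
import Fermat.Prelude.Def_HeckeGalois_EichlerShimura
import Fermat.Prelude.Def_ModularCurve_ModularUnit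
import Fermat.Prelude.Def_ModularCurve_PeriodHomPair
import Fermat.Prelude.Sol.S_ModularForm_heckeU_slash_eq_self_of_mem_Gamma0

set_option autoImplicit false

noncomputable section

open UpperHalfPlane ModularForm CongruenceSubgroup ModularCurve ModularCurve.Period
open scoped MatrixGroups Manifold Real
open P2MW.S_ModularForm_heckeU_slash_eq_self_of_mem_Gamma0.ModularForm.HeckeSlashInvariance

namespace H21S16

section transfer

variable {N : ℕ}

theorem dvd_of_mem_Gamma0 (γ : Gamma0 N) : (N : ℤ) ∣ (γ : SL(2, ℤ)) 1 0 :=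
  (ZMod.intCast_zmod_eq_zero_iff_dvd _ _).mp (Gamma0_mem.mp γ.2)

theorem mem_Gamma0_of_dvd {g : SL(2, ℤ)} (h : (N : ℤ) ∣ g 1 0) : g ∈ Gamma0 N :=
  Gamma0_mem.mpr ((ZMod.intCast_zmod_eq_zero_iff_dvd _ _).mpr h)

/-- the transfer of `T_ℓ` (`ℓ ∤ N`):  `heckeRep ℓ x * γ = transT γ x * heckeRep ℓ (redMatrix ℓ γ • x)` -/
def transT {ℓ : ℕ} [Fact ℓ.Prime] (hℓN : ¬ ℓ ∣ N) (γ : Gamma0 N) (x : OnePoint (ZMod ℓ)) :
    Gamma0 N :=
  ⟨Classical.choose (heckeRep_mul hℓN (γ : SL(2, ℤ)) (dvd_of_mem_Gamma0 γ) x),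
    mem_Gamma0_of_dvd
      (Classical.choose_spec (heckeRep_mul hℓN (γ : SL(2, ℤ)) (dvd_of_mem_Gamma0 γ) x)).1⟩

theorem transT_spec {ℓ : ℕ} [Fact ℓ.Prime] (hℓN : ¬ ℓ ∣ N) (γ : Gamma0 N)
    (x : OnePoint (ZMod ℓ)) :
    heckeRep ℓ x * Matrix.SpecialLinearGroup.mapGL ℝ (γ : SL(2, ℤ))
      = Matrix.SpecialLinearGroup.mapGL ℝ ((transT hℓN γ x : Gamma0 N) : SL(2, ℤ))
        * heckeRep ℓ (redMatrix ℓ (γ : SL(2, ℤ)) • x) :=
  (Classical.choose_spec (heckeRep_mul hℓN (γ : SL(2, ℤ)) (dvd_of_mem_Gamma0 γ) x)).2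

theorem dvd_of_dvd_of_mem_Gamma0 {q : ℕ} (hqN : q ∣ N) (γ : Gamma0 N) :
    (q : ℤ) ∣ (γ : SL(2, ℤ)) 1 0 :=
  (Int.natCast_dvd_natCast.mpr hqN).trans (dvd_of_mem_Gamma0 γ)

/-- the transfer of `U_q` (`q ∣ N`):
`heckeMatrix q x * γ = transU γ x * heckeMatrix q (affinePerm γ x)` -/
def transU {q : ℕ} [NeZero q] (hqN : q ∣ N) (γ : Gamma0 N) (x : ZMod q) : Gamma0 N :=
  ⟨Classical.choose (heckeMatrix_mul_of_dvd (γ : SL(2, ℤ)) (dvd_of_dvd_of_mem_Gamma0 hqN γ) x),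
    mem_Gamma0_of_dvd (by
      rw [(Classical.choose_spec
        (heckeMatrix_mul_of_dvd (γ : SL(2, ℤ)) (dvd_of_dvd_of_mem_Gamma0 hqN γ) x)).1]
      exact Dvd.dvd.mul_left (dvd_of_mem_Gamma0 γ) _)⟩

theorem transU_spec {q : ℕ} [NeZero q] (hqN : q ∣ N) (γ : Gamma0 N) (x : ZMod q) :
    heckeMatrix q x.val * Matrix.SpecialLinearGroup.mapGL ℝ (γ : SL(2, ℤ))
      = Matrix.SpecialLinearGroup.mapGL ℝ ((transU hqN γ x : Gamma0 N) : SL(2, ℤ))
        * heckeMatrix q (affinePerm (γ : SL(2, ℤ))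
            ((ZMod.intCast_zmod_eq_zero_iff_dvd _ _).mpr (dvd_of_dvd_of_mem_Gamma0 hqN γ)) x).val :=
  (Classical.choose_spec
    (heckeMatrix_mul_of_dvd (γ : SL(2, ℤ)) (dvd_of_dvd_of_mem_Gamma0 hqN γ) x)).2

variable {A : Type*} [AddCommMonoid A]

/-- `T_ℓ` on functions `Γ₀(N) → A` -/
def heckeTFun {ℓ : ℕ} [Fact ℓ.Prime] (hℓN : ¬ ℓ ∣ N) (ψ : Gamma0 N → A) : Gamma0 N → A :=
  fun γ => ∑ x : OnePoint (ZMod ℓ), ψ (transT hℓN γ x)

/-- `U_q` on functions `Γ₀(N) → A` -/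
def heckeUFun {q : ℕ} [NeZero q] (hqN : q ∣ N) (ψ : Gamma0 N → A) : Gamma0 N → A :=
  fun γ => ∑ x : ZMod q, ψ (transU hqN γ x)

end transfer

section primeLevel

variable (p : ℕ) [Fact p.Prime] {A : Type*} [AddCommMonoid A]

/-- the Hecke operator attached to the prime `ℓ` on functions `Γ₀(p) → A`:
`U_p` if `ℓ = p`, `T_ℓ` otherwise (same case distinction as `CuspForm.heckeFormsGen`) -/
def heckeOn (ℓ : Nat.Primes) (ψ : Gamma0 p → A) : Gamma0 p → A :=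
  haveI : Fact (ℓ : ℕ).Prime := ⟨ℓ.2⟩
  haveI : NeZero (ℓ : ℕ) := ⟨ℓ.2.ne_zero⟩
  if h : (ℓ : ℕ) ∣ p then heckeUFun h ψ else heckeTFun h ψ

/-- the element `T = [[1,1],[0,1]]` of `Γ₀(p)` -/
def Tg : Gamma0 p := ⟨ModularGroup.T, by
  rw [Gamma0_mem]
  simp [ModularGroup.T]⟩

/-- the function underlying a homomorphism `Γ₀(p) → A` -/
def toFun' {B : Type*} [AddCommGroup B] (ψ : Additive (Gamma0 p) →+ B) : Gamma0 p → B :=
  fun γ => ψ (Additive.ofMul γ)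

/-- `φ` is the Dedekind–Rademacher homomorphism of the modular unit `Δ(pz)/Δ(z)` -/
def IsDR (φ : Additive (Gamma0 p) →+ ℤ) : Prop :=
  ∃ Λ : ℍ → ℂ, MDiff Λ ∧
    (∀ z : ℍ, Complex.exp (Λ z)
      = ModularForm.discriminant (ModularForm.heckeDiagMatrix p • z) / ModularForm.discriminant z) ∧
    ∀ (γ : Gamma0 p) (z : ℍ),
      Λ ((γ : SL(2, ℤ)) • z) - Λ z = 2 * π * Complex.I * ((φ (Additive.ofMul γ) : ℤ) : ℂ)

/-- the action of the abstract Hecke algebra on the lattice of integral cusp forms of level `p` -/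
def heckeMapS16 : HeckeAlg →+* ↥(CuspForm.heckeLatticeAlgebra p ∅) :=
  (CuspForm.latticeRestrictHom p ∅).toRingHom.comp (CuspForm.heckeEvalForms p 2)

/-- **Part (A) of S16**: every relation among the Hecke operators on `S₂(Γ₀(p))` holds for the
Eisenstein system modulo `n = (p-1)/gcd(p-1,12)` -/
def LowerBound : Prop :=
  ∀ P : HeckeAlg, heckeMapS16 p P = 0 →
    ((eisensteinNumerator p : ℕ) : ℤ) ∣ MvPolynomial.aeval (eisensteinSystem p) P

end primeLevel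

end H21S16

end
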