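/-
S16 part (A), slice DR2 (helper6): the Dedekind–Rademacher homomorphism `φ` of the modular unit
`u = Δ(pz)/Δ(z)` is an eigenvector of the Hecke operators on functions `Γ₀(p) → ℤ` with the
Eisenstein eigenvalues:  `heckeOn p ℓ φ = eisensteinSystem p ℓ · φ`.

Proof.
* norm relation (`h6dr_norm_relation`): `∏_{x ∈ P¹(F_ℓ)} Δ(α_x z) = C · Δ(z)^(ℓ+1)`, since the
  quotient is a holomorphic `SL₂(ℤ)`-invariant function bounded at `i∞`, hence constant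
  (`H12S23.exists_poly_of_holo_invariant` at `M = 0`);
* hence `∏_x u(α_x z) = u(z)^(ℓ+1)` (`ℓ ≠ p`) and `∏_j u((z+j)/p) = C⁻¹ u(z)`;
* so `∑_x Λ(α_x z) - e Λ(z)` is a continuous logarithm of a constant, hence constant
  (`h6dr_const_of_exp_const`), and the transfer relation `α_x γ = t_x α_{x'}` gives
  `∑_x φ(t_x) = e φ(γ)` (`h6dr_core`).
-/
import Fermat.Agent.S16.H21ADefs
import Fermat.Agent.S23.LevelOneJ

set_option autoImplicit false
noncomputable section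
open UpperHalfPlane ModularForm CongruenceSubgroup ModularCurve ModularCurve.Period
open scoped MatrixGroups Manifold Real
open P2MW.S_ModularForm_heckeU_slash_eq_self_of_mem_Gamma0.ModularForm.HeckeSlashInvariance

namespace H21S16

local notation "Δ" => ModularForm.discriminant

/-- a continuous logarithm of a constant is constant -/
theorem h6dr_const_of_exp_const {W : ℍ → ℂ} (hW : Continuous W) {c : ℂ}
    (h : ∀ z, Complex.exp (W z) = c) (z w : ℍ) : W z = W w := by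
  have hloc : IsLocallyConstant W := by
    rw [IsLocallyConstant.iff_eventually_eq]
    intro x
    have := hW.continuousAt.eventually (Metric.ball_mem_nhds (W x) (by norm_num : (0:ℝ) < 1))
    filter_upwards [this] with y hy
    have h1 : Complex.exp (W y - W x) = 1 := by
      rw [Complex.exp_sub, h y, h x, div_self]
      rw [← h x]; exact Complex.exp_ne_zero _
    obtain ⟨n, hn⟩ := Complex.exp_eq_one_iff.mp h1
    have hlt : ‖W y - W x‖ < 1 := by simpa [dist_eq_norm] using hy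
    rw [hn] at hlt
    have hn0 : n = 0 := by
      by_contra hne
      have h1 : (1 : ℝ) ≤ |(n : ℝ)| := by
        have : (1 : ℤ) ≤ |n| := Int.one_le_abs hne
        exact_mod_cast this
      have h2 : ‖(n : ℂ) * (2 * π * Complex.I)‖ = |(n : ℝ)| * (2 * π) := by
        simp [abs_of_pos Real.pi_pos]
      rw [h2] at hlt
      have := Real.pi_gt_three
      nlinarith
    rw [hn0] at hn
    simp at hn
    exact sub_eq_zero.mp hn
  exact hloc.apply_eq_of_preconnectedSpace z w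

/-- `Δ` is `1`-periodic -/
theorem h6dr_disc_periodic (z w : ℍ) (m : ℤ) (h : (z : ℂ) = w + m) : Δ z = Δ w := by
  have hq1 : Function.Periodic.qParam 1 (z : ℂ) = Function.Periodic.qParam 1 (w : ℂ) := by
    simp only [Function.Periodic.qParam, h]
    have : 2 * (π : ℂ) * Complex.I * ((w : ℂ) + m) / ((1 : ℝ) : ℂ)
        = 2 * π * Complex.I * w / ((1 : ℝ) : ℂ) + m * (2 * π * Complex.I) := by
      push_cast
      ring
    rw [this, Complex.exp_add, Complex.exp_int_mul_two_pi_mul_I, mul_one]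
  rw [discriminant_eq_q_prod, discriminant_eq_q_prod]
  simp only [eta_q, hq1]

section norm

variable (ℓ : ℕ) [Fact ℓ.Prime]

omit [Fact ℓ.Prime] in
theorem h6dr_det_heckeRep_pos (x : OnePoint (ZMod ℓ)) : 0 < ((heckeRep ℓ x).det : ℝ) := by
  induction x using OnePoint.rec with
  | infty => exact det_heckeDiagMatrix_pos ℓ
  | coe j => exact det_heckeMatrix_pos ℓ j.val

/-- the constants relating the slash translate and the plain translate -/
def h6dr_c (x : OnePoint (ZMod ℓ)) : ℂ :=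
  OnePoint.elim x ((ℓ : ℂ) ^ ((12 : ℤ) - 1)) (fun _ => (ℓ : ℂ)⁻¹)

theorem h6dr_c_ne_zero (x : OnePoint (ZMod ℓ)) : h6dr_c ℓ x ≠ 0 := by
  have hℓ : (ℓ : ℂ) ≠ 0 := Nat.cast_ne_zero.mpr (Fact.out : ℓ.Prime).ne_zero
  induction x using OnePoint.rec with
  | infty => exact zpow_ne_zero _ hℓ
  | coe j => exact inv_ne_zero hℓ

theorem h6dr_slash_apply (x : OnePoint (ZMod ℓ)) (z : ℍ) :
    (Δ ∣[(12 : ℤ)] heckeRep ℓ x) z = h6dr_c ℓ x * Δ (heckeRep ℓ x • z) := by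
  have hℓ : ℓ ≠ 0 := (Fact.out : ℓ.Prime).ne_zero
  induction x using OnePoint.rec with
  | infty => exact slash_heckeDiagMatrix_apply 12 hℓ Δ z
  | coe j => exact slash_heckeMatrix_apply 12 hℓ j.val Δ z

theorem h6dr_disc_slash (g : SL(2, ℤ)) :
    Δ ∣[(12 : ℤ)] (Matrix.SpecialLinearGroup.mapGL ℝ g) = Δ :=
  SlashInvariantFormClass.slash_action_eq CuspForm.discriminant _ ⟨g, rfl⟩

theorem h6dr_disc_smul (g : SL(2, ℤ)) (z : ℍ) :
    Δ (g • z) = denom (Matrix.SpecialLinearGroup.mapGL ℝ g) z ^ (12 : ℤ) * Δ z := by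
  have h := congrFun (h6dr_disc_slash g) z
  have h2 := SL_slash_apply (k := 12) Δ g z
  rw [SL_slash] at h2
  have h' : (Δ ∣[(12 : ℤ)] Matrix.SpecialLinearGroup.toGL
      ((Matrix.SpecialLinearGroup.map (Int.castRingHom ℝ)) g)) z = Δ z := h
  rw [h'] at h2
  have hd : denom (Matrix.SpecialLinearGroup.mapGL ℝ g) z ≠ 0 := denom_ne_zero _ z
  have : (Matrix.SpecialLinearGroup.toGL ((Matrix.SpecialLinearGroup.map (Int.castRingHom ℝ)) g))
      = Matrix.SpecialLinearGroup.mapGL ℝ g := rfl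
  rw [this] at h2
  rw [h2, mul_comm, mul_assoc, ← zpow_add₀ hd]
  simp

theorem h6dr_slash_slash (g : SL(2, ℤ)) (x : OnePoint (ZMod ℓ)) :
    (Δ ∣[(12 : ℤ)] heckeRep ℓ x) ∣[(12 : ℤ)] (Matrix.SpecialLinearGroup.mapGL ℝ g)
      = Δ ∣[(12 : ℤ)] heckeRep ℓ (redMatrix ℓ g • x) := by
  have h1 : ¬ ℓ ∣ 1 := (Fact.out : ℓ.Prime).one_lt.ne' ∘ Nat.dvd_one.mp
  obtain ⟨g', -, hmul⟩ := heckeRep_mul (N := 1) h1 g (by simp) x
  rw [← SlashAction.slash_mul, hmul, SlashAction.slash_mul, h6dr_disc_slash]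

/-- the plain norm of `Δ` along the Hecke correspondence -/
def h6dr_Nrm (z : ℍ) : ℂ := ∏ x : OnePoint (ZMod ℓ), Δ (heckeRep ℓ x • z)

theorem h6dr_Nrm_ne_zero (z : ℍ) : h6dr_Nrm ℓ z ≠ 0 :=
  Finset.prod_ne_zero_iff.mpr fun _ _ => discriminant_ne_zero _

theorem h6dr_card : Fintype.card (OnePoint (ZMod ℓ)) = ℓ + 1 := by
  rw [show Fintype.card (OnePoint (ZMod ℓ)) = Fintype.card (Option (ZMod ℓ)) from rfl,
    Fintype.card_option, ZMod.card]

theorem h6dr_translate_smul (g : SL(2, ℤ)) (x : OnePoint (ZMod ℓ)) (z : ℍ) :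
    h6dr_c ℓ x * Δ (heckeRep ℓ x • g • z)
      = denom (Matrix.SpecialLinearGroup.mapGL ℝ g) z ^ (12 : ℤ)
        * (h6dr_c ℓ (redMatrix ℓ g • x) * Δ (heckeRep ℓ (redMatrix ℓ g • x) • z)) := by
  rw [← h6dr_slash_apply, ← h6dr_slash_apply, ← h6dr_slash_slash]
  have h2 := SL_slash_apply (k := 12) (Δ ∣[(12 : ℤ)] heckeRep ℓ x) g z
  rw [SL_slash] at h2
  have hd : denom (Matrix.SpecialLinearGroup.mapGL ℝ g) z ≠ 0 := denom_ne_zero _ z
  have : (Matrix.SpecialLinearGroup.toGL ((Matrix.SpecialLinearGroup.map (Int.castRingHom ℝ)) g))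
      = Matrix.SpecialLinearGroup.mapGL ℝ g := rfl
  rw [this] at h2
  change _ = _ * ((Δ ∣[(12 : ℤ)] heckeRep ℓ x) ∣[(12 : ℤ)]
    ((Matrix.SpecialLinearGroup.mapGL ℝ g : GL (Fin 2) ℝ))) z
  rw [h2, mul_comm, mul_assoc, ← zpow_add₀ hd]
  simp

theorem h6dr_Nrm_smul (g : SL(2, ℤ)) (z : ℍ) :
    h6dr_Nrm ℓ (g • z)
      = (denom (Matrix.SpecialLinearGroup.mapGL ℝ g) z ^ (12 : ℤ)) ^ (ℓ + 1) * h6dr_Nrm ℓ z := by
  have hc : (∏ x : OnePoint (ZMod ℓ), h6dr_c ℓ x) ≠ 0 :=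
    Finset.prod_ne_zero_iff.mpr fun x _ => h6dr_c_ne_zero ℓ x
  apply mul_left_cancel₀ hc
  unfold h6dr_Nrm
  rw [← Finset.prod_mul_distrib]
  rw [Finset.prod_congr rfl (fun x _ => h6dr_translate_smul ℓ g x z)]
  rw [Finset.prod_mul_distrib, Finset.prod_const, Finset.card_univ, h6dr_card]
  have hperm := Equiv.prod_comp (MulAction.toPerm (redMatrix ℓ g))
    (fun x => h6dr_c ℓ x * Δ (heckeRep ℓ x • z))
  simp only [MulAction.toPerm_apply] at hperm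
  rw [hperm, Finset.prod_mul_distrib]
  ring


/-- the weight-zero quotient `∏_x Δ(α_x z) / Δ(z)^(ℓ+1)` -/
def h6dr_K (z : ℍ) : ℂ := h6dr_Nrm ℓ z / Δ z ^ (ℓ + 1)

theorem h6dr_K_slash (g : SL(2, ℤ)) : h6dr_K ℓ ∣[(0 : ℤ)] g = h6dr_K ℓ := by
  funext z
  rw [SL_slash_apply]
  simp only [neg_zero, zpow_zero, mul_one]
  unfold h6dr_K
  rw [h6dr_Nrm_smul, h6dr_disc_smul, mul_pow]
  have hd : denom (Matrix.SpecialLinearGroup.mapGL ℝ g) z ≠ 0 := denom_ne_zero _ z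
  have hd12 : (denom (Matrix.SpecialLinearGroup.mapGL ℝ g) z ^ (12 : ℤ)) ^ (ℓ + 1) ≠ 0 :=
    pow_ne_zero _ (zpow_ne_zero _ hd)
  have hΔ : Δ z ^ (ℓ + 1) ≠ 0 := pow_ne_zero _ (discriminant_ne_zero z)
  field_simp

theorem h6dr_disc_mdiff : MDiff Δ := CuspForm.discriminant.holo'

theorem h6dr_Nrm_mdiff : MDiff (h6dr_Nrm ℓ) := by
  have : h6dr_Nrm ℓ = ∏ x : OnePoint (ZMod ℓ), (fun z => Δ (heckeRep ℓ x • z)) := by
    funext z
    simp [h6dr_Nrm, Finset.prod_apply]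
  rw [this]
  exact MDifferentiable.prod
    (fun x _ => h6dr_disc_mdiff.comp (mdifferentiable_smul (h6dr_det_heckeRep_pos ℓ x)))

theorem h6dr_K_mdiff : MDiff (h6dr_K ℓ) :=
  (h6dr_Nrm_mdiff ℓ).div (h6dr_disc_mdiff.pow (ℓ + 1))
    (fun z => pow_ne_zero _ (discriminant_ne_zero z))

/-- the bounded factor of `Δ` -/
def h6dr_g (z : ℍ) : ℂ := ∏' n : ℕ, (1 - eta_q n (z : ℂ)) ^ 24

omit [Fact ℓ.Prime] in
theorem h6dr_norm_disc (z : ℍ) : ‖Δ z‖ = Real.exp (-2 * π * z.im) * ‖h6dr_g z‖ := by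
  rw [discriminant_eq_q_prod, norm_mul]
  congr 1
  simp [Function.Periodic.qParam, Complex.norm_exp]

omit [Fact ℓ.Prime] in
theorem h6dr_g_ne_zero (z : ℍ) : h6dr_g z ≠ 0 := by
  intro h
  have := h6dr_norm_disc z
  rw [h, norm_zero, mul_zero, norm_eq_zero] at this
  exact discriminant_ne_zero z this

theorem h6dr_im_heckeRep (x : OnePoint (ZMod ℓ)) (z : ℍ) :
    (heckeRep ℓ x • z).im = OnePoint.elim x ((ℓ : ℝ) * z.im) (fun _ => z.im / ℓ) := by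
  have hℓ : ℓ ≠ 0 := (Fact.out : ℓ.Prime).ne_zero
  induction x using OnePoint.rec with
  | infty =>
    have h := congrArg Complex.im (coe_heckeDiagMatrix_smul hℓ z)
    simpa using h
  | coe j =>
    have h := congrArg Complex.im (coe_heckeMatrix_smul hℓ j.val z)
    simp only [heckeRep_coe, OnePoint.elim_some]
    rw [UpperHalfPlane.coe_im] at h
    rw [h]
    have : ((z : ℂ) + (j.val : ℂ)) / (ℓ : ℂ) = (((z : ℂ) + ((j.val : ℝ) : ℂ)) / ((ℓ : ℝ) : ℂ)) := by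
      push_cast; rfl
    rw [this, Complex.div_ofReal_im]
    simp

theorem h6dr_sum_im (z : ℍ) :
    ∑ x : OnePoint (ZMod ℓ), (heckeRep ℓ x • z).im = ((ℓ : ℝ) + 1) * z.im := by
  have hℓ : (ℓ : ℝ) ≠ 0 := Nat.cast_ne_zero.mpr (Fact.out : ℓ.Prime).ne_zero
  simp only [h6dr_im_heckeRep]
  rw [show (∑ x : OnePoint (ZMod ℓ), OnePoint.elim x ((ℓ : ℝ) * z.im) (fun _ => z.im / ℓ))
    = ∑ x : Option (ZMod ℓ), Option.elim x ((ℓ : ℝ) * z.im) (fun _ => z.im / ℓ) from rfl]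
  rw [Fintype.sum_option]
  simp only [Option.elim_none, Option.elim_some, Finset.sum_const, Finset.card_univ, ZMod.card,
    nsmul_eq_mul]
  field_simp

theorem h6dr_norm_K (z : ℍ) :
    ‖h6dr_K ℓ z‖ = ‖(∏ x : OnePoint (ZMod ℓ), h6dr_g (heckeRep ℓ x • z)) / h6dr_g z ^ (ℓ + 1)‖ := by
  unfold h6dr_K h6dr_Nrm
  rw [norm_div, norm_div, norm_prod, norm_prod, norm_pow, norm_pow]
  simp only [h6dr_norm_disc]
  rw [Finset.prod_mul_distrib, ← Real.exp_sum, ← Finset.mul_sum, h6dr_sum_im, mul_pow,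
    ← Real.exp_nat_mul]
  have he : Real.exp (-2 * π * (((ℓ : ℝ) + 1) * z.im)) = Real.exp (((ℓ + 1 : ℕ) : ℝ) * (-2 * π * z.im)) := by
    congr 1
    push_cast
    ring
  rw [he]
  have h1 : Real.exp (((ℓ + 1 : ℕ) : ℝ) * (-2 * π * z.im)) ≠ 0 := (Real.exp_pos _).ne'
  have h2 : ‖h6dr_g z‖ ^ (ℓ + 1) ≠ 0 := pow_ne_zero _ (norm_ne_zero_iff.mpr (h6dr_g_ne_zero z))
  field_simp

theorem h6dr_tendsto_smul (x : OnePoint (ZMod ℓ)) :
    Filter.Tendsto (fun z : ℍ => heckeRep ℓ x • z) atImInfty atImInfty := by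
  have hℓ : (0 : ℝ) < ℓ := Nat.cast_pos.mpr (Fact.out : ℓ.Prime).pos
  rw [atImInfty, Filter.tendsto_comap_iff]
  have him : Filter.Tendsto UpperHalfPlane.im (Filter.comap UpperHalfPlane.im Filter.atTop)
      Filter.atTop := Filter.tendsto_comap
  induction x using OnePoint.rec with
  | infty =>
    have : (UpperHalfPlane.im ∘ fun z : ℍ => heckeRep ℓ (OnePoint.infty : OnePoint (ZMod ℓ)) • z)
        = fun z : ℍ => (ℓ : ℝ) * z.im := by
      funext z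
      simp only [Function.comp_apply]
      rw [h6dr_im_heckeRep]
      rfl
    rw [this]
    exact Filter.Tendsto.const_mul_atTop hℓ him
  | coe j =>
    have : (UpperHalfPlane.im ∘ fun z : ℍ => heckeRep ℓ ((j : ZMod ℓ) : OnePoint (ZMod ℓ)) • z)
        = fun z : ℍ => z.im / (ℓ : ℝ) := by
      funext z
      simp only [Function.comp_apply]
      rw [h6dr_im_heckeRep]
      rfl
    rw [this]
    exact Filter.Tendsto.atTop_div_const hℓ him

omit [Fact ℓ.Prime] in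
theorem h6dr_g_tendsto : Filter.Tendsto h6dr_g atImInfty (nhds 1) :=
  tendsto_atImInfty_tprod_one_sub_eta_q_pow

theorem h6dr_K_bdd : IsBoundedAtImInfty (h6dr_K ℓ) := by
  have hG : Filter.Tendsto
      (fun z : ℍ => (∏ x : OnePoint (ZMod ℓ), h6dr_g (heckeRep ℓ x • z)) / h6dr_g z ^ (ℓ + 1))
      atImInfty (nhds ((∏ _x : OnePoint (ZMod ℓ), (1 : ℂ)) / 1 ^ (ℓ + 1))) := by
    refine Filter.Tendsto.div ?_ (h6dr_g_tendsto.pow (ℓ + 1)) (by simp)
    exact tendsto_finsetProd _ (fun x _ => h6dr_g_tendsto.comp (h6dr_tendsto_smul ℓ x))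
  have hO := hG.isBigO_one ℝ
  unfold IsBoundedAtImInfty Filter.BoundedAtFilter
  refine Asymptotics.IsBigO.of_norm_left ?_
  have := hO.norm_left
  refine this.congr_left (fun z => ?_)
  rw [h6dr_norm_K]

/-- **norm relation**: `∏_{x ∈ P¹(F_ℓ)} Δ(α_x z) = C · Δ(z)^(ℓ+1)` -/
theorem h6dr_norm_relation :
    ∃ C : ℂ, C ≠ 0 ∧ ∀ z : ℍ, h6dr_Nrm ℓ z = C * Δ z ^ (ℓ + 1) := by
  obtain ⟨P, hP, hPe⟩ := H12S23.exists_poly_of_holo_invariant 0 (h6dr_K ℓ) (h6dr_K_mdiff ℓ)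
    (h6dr_K_slash ℓ) (by simpa using h6dr_K_bdd ℓ)
  have hPC : P = Polynomial.C (P.coeff 0) :=
    Polynomial.eq_C_of_natDegree_le_zero hP
  have hK : ∀ z : ℍ, h6dr_K ℓ z = P.coeff 0 := by
    intro z
    rw [hPe z, hPC]
    simp
  have hrel : ∀ z : ℍ, h6dr_Nrm ℓ z = P.coeff 0 * Δ z ^ (ℓ + 1) := by
    intro z
    have hΔ : Δ z ^ (ℓ + 1) ≠ 0 := pow_ne_zero _ (discriminant_ne_zero z)
    rw [← hK z, h6dr_K, div_mul_cancel₀ _ hΔ]
  refine ⟨P.coeff 0, ?_, hrel⟩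
  intro h0
  have := hrel UpperHalfPlane.I
  rw [h0, zero_mul] at this
  exact h6dr_Nrm_ne_zero ℓ _ this

end norm


section core

variable (p : ℕ) [Fact p.Prime]

omit [Fact p.Prime] in
/-- the abstract transfer argument: if `∏_i exp Λ(a_i z) = c · exp(Λ z)^e` and
`a_i γ = t_i a_{σ i}`, then `∑_i φ(t_i) = e · φ(γ)`. -/
theorem h6dr_core {ι : Type} [Fintype ι] (a : ι → GL (Fin 2) ℝ)
    (hdet : ∀ i, 0 < ((a i).det : ℝ)) (e : ℕ) (c : ℂ) (Λ : ℍ → ℂ) (hΛ : MDiff Λ)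
    (hprod : ∀ z : ℍ, ∏ i, Complex.exp (Λ (a i • z)) = c * Complex.exp (Λ z) ^ e)
    (φ : Gamma0 p → ℤ)
    (hφ : ∀ (γ : Gamma0 p) (z : ℍ),
      Λ ((γ : SL(2, ℤ)) • z) - Λ z = 2 * π * Complex.I * ((φ γ : ℤ) : ℂ))
    (γ : Gamma0 p) (t : ι → Gamma0 p) (σ : ι ≃ ι)
    (hspec : ∀ (i : ι) (z : ℍ), a i • ((γ : SL(2, ℤ)) • z) = ((t i : Gamma0 p) : SL(2, ℤ)) • (a (σ i) • z)) :
    ∑ i, φ (t i) = (e : ℤ) * φ γ := by
  set W : ℍ → ℂ := fun z => ∑ i, Λ (a i • z) - (e : ℂ) * Λ z with hW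
  have hcont : Continuous W := by
    have h1 : ∀ i, Continuous fun z : ℍ => Λ (a i • z) := fun i =>
      hΛ.continuous.comp (mdifferentiable_smul (hdet i)).continuous
    exact (continuous_finsetSum _ (fun i _ => h1 i)).sub (continuous_const.mul hΛ.continuous)
  have hexp : ∀ z, Complex.exp (W z) = c := by
    intro z
    simp only [hW]
    rw [Complex.exp_sub, Complex.exp_sum, hprod z, ← Complex.exp_nat_mul,
      mul_div_assoc, div_self (Complex.exp_ne_zero _), mul_one]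
  have hconst := h6dr_const_of_exp_const hcont hexp ((γ : SL(2, ℤ)) • UpperHalfPlane.I)
    UpperHalfPlane.I
  simp only [hW] at hconst
  have hsum : ∑ i, Λ (a i • ((γ : SL(2, ℤ)) • UpperHalfPlane.I))
      = ∑ i, Λ (a i • UpperHalfPlane.I) + 2 * π * Complex.I * ((∑ i, φ (t i) : ℤ) : ℂ) := by
    have h1 : ∀ i, Λ (a i • ((γ : SL(2, ℤ)) • UpperHalfPlane.I))
        = Λ (a (σ i) • UpperHalfPlane.I) + 2 * π * Complex.I * ((φ (t i) : ℤ) : ℂ) := by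
      intro i
      rw [hspec i, ← hφ (t i)]
      ring
    rw [Finset.sum_congr rfl (fun i _ => h1 i), Finset.sum_add_distrib,
      Equiv.sum_comp σ (fun i => Λ (a i • UpperHalfPlane.I))]
    push_cast
    rw [Finset.mul_sum]
  have hγ := hφ γ UpperHalfPlane.I
  have h2πi : (2 * π * Complex.I : ℂ) ≠ 0 := by
    simp [Real.pi_ne_zero]
  have hfin : (2 * π * Complex.I : ℂ) * ((∑ i, φ (t i) : ℤ) : ℂ)
      = (2 * π * Complex.I : ℂ) * (((e : ℤ) * φ γ : ℤ) : ℂ) := by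
    push_cast
    push_cast at hsum
    linear_combination hconst - hsum + (e : ℂ) * hγ
  exact_mod_cast mul_left_cancel₀ h2πi hfin


/-- multiplication by `p` on `P¹(F_ℓ)` -/
def h6dr_mulPerm (ℓ : ℕ) [Fact ℓ.Prime] (hℓp : ¬ ℓ ∣ p) :
    OnePoint (ZMod ℓ) ≃ OnePoint (ZMod ℓ) :=
  Equiv.optionCongr (Equiv.mulLeft₀ (p : ZMod ℓ)
    (fun h => hℓp ((ZMod.natCast_eq_zero_iff p ℓ).mp h)))

theorem h6dr_diag_comm (ℓ : ℕ) [Fact ℓ.Prime] (hℓp : ¬ ℓ ∣ p) (x : OnePoint (ZMod ℓ)) (z : ℍ) :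
    Δ (heckeDiagMatrix p • heckeRep ℓ x • z)
      = Δ (heckeRep ℓ (h6dr_mulPerm p ℓ hℓp x) • heckeDiagMatrix p • z) := by
  have hℓ : ℓ ≠ 0 := (Fact.out : ℓ.Prime).ne_zero
  have hp : p ≠ 0 := (Fact.out : p.Prime).ne_zero
  have hℓC : (ℓ : ℂ) ≠ 0 := Nat.cast_ne_zero.mpr hℓ
  induction x using OnePoint.rec with
  | infty =>
    refine h6dr_disc_periodic _ _ 0 ?_
    have : h6dr_mulPerm p ℓ hℓp (OnePoint.infty) = OnePoint.infty := rfl
    rw [this, heckeRep_infty, coe_heckeDiagMatrix_smul hp, coe_heckeDiagMatrix_smul hℓ,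
      coe_heckeDiagMatrix_smul hℓ, coe_heckeDiagMatrix_smul hp]
    push_cast
    ring
  | coe j =>
    have hσ : h6dr_mulPerm p ℓ hℓp ((j : ZMod ℓ) : OnePoint (ZMod ℓ))
        = (((p : ZMod ℓ) * j : ZMod ℓ) : OnePoint (ZMod ℓ)) := rfl
    obtain ⟨m, hm⟩ : (ℓ : ℤ) ∣ (p : ℤ) * (j.val : ℤ) - (((p : ZMod ℓ) * j).val : ℤ) := by
      rw [← ZMod.intCast_zmod_eq_zero_iff_dvd]
      push_cast
      rw [ZMod.natCast_zmod_val, ZMod.natCast_zmod_val, sub_self]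
    refine h6dr_disc_periodic _ _ m ?_
    rw [hσ, heckeRep_coe, heckeRep_coe, coe_heckeDiagMatrix_smul hp, coe_heckeMatrix_smul hℓ,
      coe_heckeMatrix_smul hℓ, coe_heckeDiagMatrix_smul hp]
    have hmC : (p : ℂ) * (j.val : ℂ) - ((((p : ZMod ℓ) * j).val : ℕ) : ℂ) = (ℓ : ℂ) * (m : ℂ) := by
      exact_mod_cast congrArg (Int.cast : ℤ → ℂ) hm
    field_simp
    linear_combination hmC

theorem h6dr_Nrm_diag (ℓ : ℕ) [Fact ℓ.Prime] (hℓp : ¬ ℓ ∣ p) (z : ℍ) :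
    ∏ x : OnePoint (ZMod ℓ), Δ (heckeDiagMatrix p • heckeRep ℓ x • z)
      = h6dr_Nrm ℓ (heckeDiagMatrix p • z) := by
  rw [Finset.prod_congr rfl (fun x _ => h6dr_diag_comm p ℓ hℓp x z)]
  exact Equiv.prod_comp (h6dr_mulPerm p ℓ hℓp)
    (fun x => Δ (heckeRep ℓ x • heckeDiagMatrix p • z))

/-- the modular unit `u = Δ(pz)/Δ(z)` satisfies `∏_x u(α_x z) = u(z)^(ℓ+1)` for `ℓ ≠ p` -/
theorem h6dr_unit_prod_T (ℓ : ℕ) [Fact ℓ.Prime] (hℓp : ¬ ℓ ∣ p) (z : ℍ) :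
    ∏ x : OnePoint (ZMod ℓ),
        (Δ (heckeDiagMatrix p • heckeRep ℓ x • z) / Δ (heckeRep ℓ x • z))
      = 1 * (Δ (heckeDiagMatrix p • z) / Δ z) ^ (ℓ + 1) := by
  obtain ⟨C, hC, hrel⟩ := h6dr_norm_relation ℓ
  rw [Finset.prod_div_distrib, h6dr_Nrm_diag p ℓ hℓp z]
  change h6dr_Nrm ℓ (heckeDiagMatrix p • z) / h6dr_Nrm ℓ z = _
  rw [hrel, hrel, one_mul, div_pow]
  have hΔ : Δ z ^ (ℓ + 1) ≠ 0 := pow_ne_zero _ (discriminant_ne_zero z)
  field_simp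

/-- the modular unit `u = Δ(pz)/Δ(z)` satisfies `∏_j u((z+j)/p) = C⁻¹ u(z)` -/
theorem h6dr_unit_prod_U :
    ∃ c : ℂ, ∀ z : ℍ, ∏ j : ZMod p,
        (Δ (heckeDiagMatrix p • heckeMatrix p j.val • z) / Δ (heckeMatrix p j.val • z))
      = c * (Δ (heckeDiagMatrix p • z) / Δ z) ^ 1 := by
  have hp : p ≠ 0 := (Fact.out : p.Prime).ne_zero
  have hpC : (p : ℂ) ≠ 0 := Nat.cast_ne_zero.mpr hp
  obtain ⟨C, hC, hrel⟩ := h6dr_norm_relation p
  refine ⟨C⁻¹, fun z => ?_⟩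
  have h1 : ∀ j : ZMod p, Δ (heckeDiagMatrix p • heckeMatrix p j.val • z) = Δ z := by
    intro j
    refine h6dr_disc_periodic _ _ (j.val : ℤ) ?_
    rw [coe_heckeDiagMatrix_smul hp, coe_heckeMatrix_smul hp]
    push_cast
    field_simp
  have h2 : Δ (heckeDiagMatrix p • z) * ∏ j : ZMod p, Δ (heckeMatrix p j.val • z)
      = C * Δ z ^ (p + 1) := by
    rw [← hrel z, h6dr_Nrm]
    rw [show (∏ x : OnePoint (ZMod p), Δ (heckeRep p x • z))
      = ∏ x : Option (ZMod p), Δ (heckeRep p x • z) from rfl, Fintype.prod_option]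
    rfl
  rw [Finset.prod_div_distrib, Finset.prod_congr rfl (fun j _ => h1 j), Finset.prod_const,
    Finset.card_univ, ZMod.card, pow_one]
  have hΔ : Δ z ≠ 0 := discriminant_ne_zero z
  have hΔp : Δ (heckeDiagMatrix p • z) ≠ 0 := discriminant_ne_zero _
  have hprod : (∏ j : ZMod p, Δ (heckeMatrix p j.val • z)) ≠ 0 :=
    Finset.prod_ne_zero_iff.mpr fun _ _ => discriminant_ne_zero _
  field_simp
  rw [mul_comm] at h2
  linear_combination (-1 : ℂ) * h2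


theorem h6dr_T_case (ℓ : ℕ) [Fact ℓ.Prime] (hℓp : ¬ ℓ ∣ p) (φ : Additive (Gamma0 p) →+ ℤ)
    (h : IsDR p φ) (γ : Gamma0 p) :
    heckeTFun hℓp (toFun' p φ) γ = (1 + (ℓ : ℤ)) * φ (Additive.ofMul γ) := by
  obtain ⟨Λ, hΛ, hexp, hφ⟩ := h
  have hprod : ∀ z : ℍ, ∏ x : OnePoint (ZMod ℓ), Complex.exp (Λ (heckeRep ℓ x • z))
      = 1 * Complex.exp (Λ z) ^ (ℓ + 1) := by
    intro z
    simp only [hexp]
    exact h6dr_unit_prod_T p ℓ hℓp z
  have hspec : ∀ (x : OnePoint (ZMod ℓ)) (z : ℍ),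
      heckeRep ℓ x • ((γ : SL(2, ℤ)) • z)
        = ((transT hℓp γ x : Gamma0 p) : SL(2, ℤ))
          • (heckeRep ℓ (MulAction.toPerm (redMatrix ℓ (γ : SL(2, ℤ))) x) • z) := by
    intro x z
    have h1 := congrArg (fun g : GL (Fin 2) ℝ => g • z) (transT_spec hℓp γ x)
    simp only [mul_smul] at h1
    exact h1
  have := h6dr_core p (heckeRep ℓ) (h6dr_det_heckeRep_pos ℓ) (ℓ + 1) 1 Λ hΛ hprod
    (toFun' p φ) hφ γ (transT hℓp γ) (MulAction.toPerm (redMatrix ℓ (γ : SL(2, ℤ)))) hspec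
  rw [heckeTFun, this]
  simp only [toFun']
  push_cast
  ring

theorem h6dr_U_case (q : ℕ) [NeZero q] (hq : q ∣ p) (hqp : q = p)
    (φ : Additive (Gamma0 p) →+ ℤ) (h : IsDR p φ) (γ : Gamma0 p) :
    heckeUFun hq (toFun' p φ) γ = φ (Additive.ofMul γ) := by
  subst hqp
  obtain ⟨Λ, hΛ, hexp, hφ⟩ := h
  obtain ⟨c, hc⟩ := h6dr_unit_prod_U q
  have hprod : ∀ z : ℍ, ∏ j : ZMod q, Complex.exp (Λ (heckeMatrix q j.val • z))
      = c * Complex.exp (Λ z) ^ 1 := by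
    intro z
    simp only [hexp]
    exact hc z
  have hspec : ∀ (x : ZMod q) (z : ℍ),
      heckeMatrix q x.val • ((γ : SL(2, ℤ)) • z)
        = ((transU hq γ x : Gamma0 q) : SL(2, ℤ))
          • (heckeMatrix q ((affinePerm (γ : SL(2, ℤ))
            ((ZMod.intCast_zmod_eq_zero_iff_dvd _ _).mpr (dvd_of_dvd_of_mem_Gamma0 hq γ))) x).val
              • z) := by
    intro x z
    have h1 := congrArg (fun g : GL (Fin 2) ℝ => g • z) (transU_spec hq γ x)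
    simp only [mul_smul] at h1
    exact h1
  have := h6dr_core q (fun j : ZMod q => heckeMatrix q j.val)
    (fun j => det_heckeMatrix_pos q j.val) 1 c Λ hΛ hprod
    (toFun' q φ) hφ γ (transU hq γ) (affinePerm (γ : SL(2, ℤ))
      ((ZMod.intCast_zmod_eq_zero_iff_dvd _ _).mpr (dvd_of_dvd_of_mem_Gamma0 hq γ))) hspec
  rw [heckeUFun, this]
  simp [toFun']

end core

variable (p : ℕ) [Fact p.Prime]

/-- **DR2**: the Dedekind–Rademacher homomorphism is an eigenvector of all Hecke operators with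
the Eisenstein eigenvalues -/
theorem isDR_heckeOn (φ : Additive (Gamma0 p) →+ ℤ) (h : IsDR p φ) (ℓ : Nat.Primes) :
    heckeOn p ℓ (toFun' p φ) = fun γ => eisensteinSystem p ℓ * φ (Additive.ofMul γ) := by
  funext γ
  unfold heckeOn
  by_cases hd : (ℓ : ℕ) ∣ p
  · rw [dif_pos hd, eisensteinSystem_of_dvd hd, one_mul]
    have hqp : (ℓ : ℕ) = p :=
      (Nat.prime_dvd_prime_iff_eq ℓ.2 (Fact.out : p.Prime)).mp hd
    exact @h6dr_U_case p _ (ℓ : ℕ) ⟨ℓ.2.ne_zero⟩ hd hqp φ h γ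
  · rw [dif_neg hd, eisensteinSystem_of_not_dvd hd]
    exact @h6dr_T_case p _ (ℓ : ℕ) ⟨ℓ.2⟩ hd φ h γ

end H21S16

end
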