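/-
S16 (Eisenstein ideal index), part (A) = lower bound: ASSEMBLY (helper21).

`lowerBound_of_slices`: the slices H1, H2 (Hecke operators and periods), DR1', DR2, C (the
Dedekind–Rademacher homomorphism), G1, G2 (group theory) + Eichler–Shimura (S21) + the integral
structure (S23) imply `LowerBound p`.
-/
import Fermat.Agent.S16.H21ADefs
import Fermat.Agent.RR.E1Prim

set_option autoImplicit false

noncomputable section

open UpperHalfPlane ModularForm CongruenceSubgroup ModularCurve ModularCurve.Period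
open scoped MatrixGroups Manifold Real

namespace H21S16

section functions

variable {N : ℕ}

theorem h21a_heckeTFun_add {A : Type*} [AddCommMonoid A] {ℓ : ℕ} [Fact ℓ.Prime] (hℓN : ¬ ℓ ∣ N)
    (ψ₁ ψ₂ : Gamma0 N → A) :
    heckeTFun hℓN (ψ₁ + ψ₂) = heckeTFun hℓN ψ₁ + heckeTFun hℓN ψ₂ := by
  funext γ
  simp only [heckeTFun, Pi.add_apply, Finset.sum_add_distrib]

theorem h21a_heckeUFun_add {A : Type*} [AddCommMonoid A] {q : ℕ} [NeZero q] (hqN : q ∣ N)
    (ψ₁ ψ₂ : Gamma0 N → A) :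
    heckeUFun hqN (ψ₁ + ψ₂) = heckeUFun hqN ψ₁ + heckeUFun hqN ψ₂ := by
  funext γ
  simp only [heckeUFun, Pi.add_apply, Finset.sum_add_distrib]

theorem h21a_heckeTFun_map {A B : Type*} [AddCommMonoid A] [AddCommMonoid B] {ℓ : ℕ}
    [Fact ℓ.Prime] (hℓN : ¬ ℓ ∣ N) (c : A →+ B) (ψ : Gamma0 N → A) :
    heckeTFun hℓN (fun γ => c (ψ γ)) = fun γ => c (heckeTFun hℓN ψ γ) := by
  funext γ
  simp only [heckeTFun, map_sum]

theorem h21a_heckeUFun_map {A B : Type*} [AddCommMonoid A] [AddCommMonoid B] {q : ℕ}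
    [NeZero q] (hqN : q ∣ N) (c : A →+ B) (ψ : Gamma0 N → A) :
    heckeUFun hqN (fun γ => c (ψ γ)) = fun γ => c (heckeUFun hqN ψ γ) := by
  funext γ
  simp only [heckeUFun, map_sum]

end functions

section heckeOn

variable (p : ℕ)

theorem h21a_heckeOn_add {A : Type*} [AddCommMonoid A] (ℓ : Nat.Primes) (ψ₁ ψ₂ : Gamma0 p → A) :
    heckeOn p ℓ (ψ₁ + ψ₂) = heckeOn p ℓ ψ₁ + heckeOn p ℓ ψ₂ := by
  have : Fact (ℓ : ℕ).Prime := ⟨ℓ.2⟩
  have : NeZero (ℓ : ℕ) := ⟨ℓ.2.ne_zero⟩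
  unfold heckeOn
  split_ifs with h
  · exact h21a_heckeUFun_add h ψ₁ ψ₂
  · exact h21a_heckeTFun_add h ψ₁ ψ₂

theorem h21a_heckeOn_map {A B : Type*} [AddCommMonoid A] [AddCommMonoid B] (ℓ : Nat.Primes)
    (c : A →+ B) (ψ : Gamma0 p → A) :
    heckeOn p ℓ (fun γ => c (ψ γ)) = fun γ => c (heckeOn p ℓ ψ γ) := by
  have : Fact (ℓ : ℕ).Prime := ⟨ℓ.2⟩
  have : NeZero (ℓ : ℕ) := ⟨ℓ.2.ne_zero⟩
  unfold heckeOn
  split_ifs with h
  · exact h21a_heckeUFun_map h c ψ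
  · exact h21a_heckeTFun_map h c ψ

theorem h21a_heckeOn_smul (ℓ : Nat.Primes) (a : ℂ) (ψ : Gamma0 p → ℂ) :
    heckeOn p ℓ (a • ψ) = a • heckeOn p ℓ ψ :=
  h21a_heckeOn_map p ℓ (AddMonoidHom.mulLeft a) ψ

theorem h21a_heckeOn_neg (ℓ : Nat.Primes) (ψ : Gamma0 p → ℂ) :
    heckeOn p ℓ (-ψ) = -heckeOn p ℓ ψ :=
  h21a_heckeOn_map p ℓ (-AddMonoidHom.id ℂ) ψ

theorem h21a_heckeOn_sub (ℓ : Nat.Primes) (ψ₁ ψ₂ : Gamma0 p → ℂ) :
    heckeOn p ℓ (ψ₁ - ψ₂) = heckeOn p ℓ ψ₁ - heckeOn p ℓ ψ₂ := by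
  rw [sub_eq_add_neg, h21a_heckeOn_add, h21a_heckeOn_neg, ← sub_eq_add_neg]

/-- a function with values in `ℤ ⊆ ℂ` -/
def IsIntFun (F : Gamma0 p → ℂ) : Prop := ∀ γ, ∃ n : ℤ, F γ = (n : ℂ)

theorem h21a_isIntFun_heckeOn (ℓ : Nat.Primes) {F : Gamma0 p → ℂ} (hF : IsIntFun p F) :
    IsIntFun p (heckeOn p ℓ F) := by
  choose n hn using hF
  have : F = fun γ => (Int.castAddHom ℂ) (n γ) := funext hn
  rw [this, h21a_heckeOn_map p ℓ (Int.castAddHom ℂ) n]
  exact fun γ => ⟨_, rfl⟩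

theorem h21a_isIntFun_add {F G : Gamma0 p → ℂ} (hF : IsIntFun p F) (hG : IsIntFun p G) :
    IsIntFun p (F + G) := fun γ => by
  obtain ⟨m, hm⟩ := hF γ
  obtain ⟨n, hn⟩ := hG γ
  exact ⟨m + n, by rw [Pi.add_apply, hm, hn]; push_cast; rfl⟩

theorem h21a_isIntFun_int_smul (a : ℤ) {F : Gamma0 p → ℂ} (hF : IsIntFun p F) :
    IsIntFun p ((a : ℂ) • F) := fun γ => by
  obtain ⟨m, hm⟩ := hF γ
  exact ⟨a * m, by rw [Pi.smul_apply, hm, smul_eq_mul]; push_cast; rfl⟩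

end heckeOn

section assembly

variable (p : ℕ) [Fact p.Prime]

/-- the Hecke operator attached to `P` on `S₂(Γ₀(p))` -/
def tEnd (P : HeckeAlg) : Module.End ℂ (CuspForm (Gamma0 p) 2) :=
  ((CuspForm.heckeEvalForms p 2 P : CuspForm.heckeAlgebra p 2 ∅) :
    Module.End ℂ (CuspForm (Gamma0 p) 2))

theorem h21a_tEnd_X (ℓ : Nat.Primes) :
    tEnd p (MvPolynomial.X ℓ) =
      ((CuspForm.heckeFormsGen p 2 ℓ : CuspForm.heckeAlgebra p 2 ∅) :
        Module.End ℂ (CuspForm (Gamma0 p) 2)) := by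
  unfold tEnd
  rw [show (MvPolynomial.X ℓ : HeckeAlg) = ModularCurve.heckeGen ℓ from rfl,
    CuspForm.heckeEvalForms_heckeGen]

theorem h21a_tEnd_C (a : ℤ) (f : CuspForm (Gamma0 p) 2) :
    tEnd p (MvPolynomial.C a) f = (a : ℂ) • f := by
  unfold tEnd
  rw [CuspForm.heckeEvalForms_C]
  simp only [eq_intCast, SubringClass.coe_intCast, Module.End.intCast_apply]
  exact (Int.cast_smul_eq_zsmul ℂ a f).symm

theorem h21a_tEnd_add (P Q : HeckeAlg) : tEnd p (P + Q) = tEnd p P + tEnd p Q := by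
  unfold tEnd
  rw [map_add]
  rfl

theorem h21a_tEnd_mul (P Q : HeckeAlg) : tEnd p (P * Q) = tEnd p P * tEnd p Q := by
  unfold tEnd
  rw [map_mul]
  rfl

theorem h21a_tEnd_eq_zero (hint : CuspForm.HasIntegralStructure p 2) (P : HeckeAlg)
    (hP : heckeMapS16 p P = 0) : tEnd p P = 0 := by
  have h1 : CuspForm.latticeRestrictHom p ∅ (CuspForm.heckeEvalForms p 2 P) = 0 := hP
  have h2 : CuspForm.heckeEvalForms p 2 P = 0 :=
    (CuspForm.latticeRestrictHom_bijective p ∅ hint).1 (h1.trans (map_zero _).symm)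
  unfold tEnd
  rw [h2]
  rfl

/-- the function `Ξ(f, g, a) = periodHomPair (f, g) + a φ` on `Γ₀(p)` -/
def xiFun (φ : Additive (Gamma0 p) →+ ℤ) (f g : CuspForm (Gamma0 p) 2) (a : ℂ) :
    Gamma0 p → ℂ :=
  toFun' p (periodHomPair p (f, g)) + a • fun γ => ((φ (Additive.ofMul γ) : ℤ) : ℂ)

theorem h21a_periodHomPair_apply (f g : CuspForm (Gamma0 p) 2) :
    periodHomPair p (f, g) =
      periodMap p f + charInvolution p ℂ ℂ (periodMap p f)
        + (periodMap p g - charInvolution p ℂ ℂ (periodMap p g)) := by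
  obtain ⟨pml, hpml, h⟩ := periodHomPair_def p (H21E1.existsPeriodMapLinear p)
  rw [h]
  simp only [LinearMap.coprod_apply, LinearMap.comp_apply, LinearMap.add_apply,
    LinearMap.sub_apply, LinearMap.id_apply, hpml]

theorem h21a_toFun'_add (ψ₁ ψ₂ : Additive (Gamma0 p) →+ ℂ) :
    toFun' p (ψ₁ + ψ₂) = toFun' p ψ₁ + toFun' p ψ₂ := rfl

theorem h21a_toFun'_sub (ψ₁ ψ₂ : Additive (Gamma0 p) →+ ℂ) :
    toFun' p (ψ₁ - ψ₂) = toFun' p ψ₁ - toFun' p ψ₂ := rfl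

section slices

variable
  (H1 : ∀ (ℓ : Nat.Primes) (f : CuspForm (Gamma0 p) 2),
    toFun' p (periodMap p
        (((CuspForm.heckeFormsGen p 2 ℓ : CuspForm.heckeAlgebra p 2 ∅) :
          Module.End ℂ (CuspForm (Gamma0 p) 2)) f))
      = heckeOn p ℓ (toFun' p (periodMap p f)))
  (H2 : ∀ (ℓ : Nat.Primes) (ψ : Additive (Gamma0 p) →+ ℂ) (γ : Gamma0 p),
    heckeOn p ℓ (toFun' p (charInvolution p ℤ ℂ ψ)) γ
      = heckeOn p ℓ (toFun' p ψ) (jConjGamma0 p γ))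
  (φ : Additive (Gamma0 p) →+ ℤ)
  (hφH : ∀ ℓ : Nat.Primes, heckeOn p ℓ (toFun' p φ)
    = fun γ => eisensteinSystem p ℓ * φ (Additive.ofMul γ))

include H1 H2 in
theorem h21a_charInv_hecke (ℓ : Nat.Primes) (f : CuspForm (Gamma0 p) 2) :
    toFun' p (charInvolution p ℂ ℂ (periodMap p
        (((CuspForm.heckeFormsGen p 2 ℓ : CuspForm.heckeAlgebra p 2 ∅) :
          Module.End ℂ (CuspForm (Gamma0 p) 2)) f)))
      = heckeOn p ℓ (toFun' p (charInvolution p ℂ ℂ (periodMap p f))) := by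
  funext γ
  have h2 := H2 ℓ (periodMap p f) γ
  have h1 := congrFun (H1 ℓ f) (jConjGamma0 p γ)
  rw [show charInvolution p ℂ ℂ (periodMap p f) = charInvolution p ℤ ℂ (periodMap p f) from rfl,
    h2, ← h1]
  rfl

include H1 H2 in
theorem h21a_periodHomPair_hecke (ℓ : Nat.Primes) (f g : CuspForm (Gamma0 p) 2) :
    toFun' p (periodHomPair p (tEnd p (MvPolynomial.X ℓ) f, tEnd p (MvPolynomial.X ℓ) g))
      = heckeOn p ℓ (toFun' p (periodHomPair p (f, g))) := by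
  rw [h21a_tEnd_X, h21a_periodHomPair_apply, h21a_periodHomPair_apply, h21a_toFun'_add,
    h21a_toFun'_add, h21a_toFun'_sub, h21a_toFun'_add, h21a_toFun'_add, h21a_toFun'_sub,
    h21a_heckeOn_add, h21a_heckeOn_add, h21a_heckeOn_sub, H1, H1,
    h21a_charInv_hecke p H1 H2, h21a_charInv_hecke p H1 H2]

include hφH in
theorem h21a_phi_hecke (ℓ : Nat.Primes) (a : ℂ) :
    (((eisensteinSystem p ℓ : ℤ) : ℂ) * a) • (fun γ => ((φ (Additive.ofMul γ) : ℤ) : ℂ))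
      = heckeOn p ℓ (a • fun γ => ((φ (Additive.ofMul γ) : ℤ) : ℂ)) := by
  rw [h21a_heckeOn_smul]
  have h := h21a_heckeOn_map p ℓ (Int.castAddHom ℂ) (toFun' p φ)
  have h' : (fun γ => (Int.castAddHom ℂ) (toFun' p φ γ))
      = fun γ => ((φ (Additive.ofMul γ) : ℤ) : ℂ) := rfl
  rw [h'] at h
  rw [h, hφH ℓ]
  funext γ
  simp only [Pi.smul_apply, smul_eq_mul, Int.coe_castAddHom, Int.cast_mul]
  ring

include H1 H2 hφH in
theorem h21a_xi_hecke (ℓ : Nat.Primes) (f g : CuspForm (Gamma0 p) 2) (a : ℂ) :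
    xiFun p φ (tEnd p (MvPolynomial.X ℓ) f) (tEnd p (MvPolynomial.X ℓ) g)
        (((eisensteinSystem p ℓ : ℤ) : ℂ) * a)
      = heckeOn p ℓ (xiFun p φ f g a) := by
  unfold xiFun
  rw [h21a_heckeOn_add, h21a_periodHomPair_hecke p H1 H2, h21a_phi_hecke p φ hφH]

include H1 H2 hφH in
/-- the main induction: the Hecke algebra preserves integrality of `Ξ` -/
theorem h21a_xi_int (P : HeckeAlg) :
    ∀ (f g : CuspForm (Gamma0 p) 2) (a : ℂ), IsIntFun p (xiFun p φ f g a) →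
      IsIntFun p (xiFun p φ (tEnd p P f) (tEnd p P g)
        (((MvPolynomial.aeval (eisensteinSystem p) P : ℤ) : ℂ) * a)) := by
  induction P using MvPolynomial.induction_on with
  | C c =>
    intro f g a h
    have e : xiFun p φ (tEnd p (MvPolynomial.C c) f) (tEnd p (MvPolynomial.C c) g)
        (((MvPolynomial.aeval (eisensteinSystem p) (MvPolynomial.C c) : ℤ) : ℂ) * a)
        = (c : ℂ) • xiFun p φ f g a := by
      unfold xiFun
      rw [h21a_tEnd_C, h21a_tEnd_C, ← Prod.smul_mk, map_smul, MvPolynomial.aeval_C]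
      funext γ
      simp only [toFun', Pi.add_apply, Pi.smul_apply, smul_eq_mul, AddMonoidHom.smul_apply,
        Algebra.algebraMap_self, RingHom.id_apply]
      ring
    rw [e]
    exact h21a_isIntFun_int_smul p c h
  | add P Q hP hQ =>
    intro f g a h
    have e : xiFun p φ (tEnd p (P + Q) f) (tEnd p (P + Q) g)
        (((MvPolynomial.aeval (eisensteinSystem p) (P + Q) : ℤ) : ℂ) * a)
        = xiFun p φ (tEnd p P f) (tEnd p P g)
            (((MvPolynomial.aeval (eisensteinSystem p) P : ℤ) : ℂ) * a)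
          + xiFun p φ (tEnd p Q f) (tEnd p Q g)
            (((MvPolynomial.aeval (eisensteinSystem p) Q : ℤ) : ℂ) * a) := by
      unfold xiFun
      rw [h21a_tEnd_add, LinearMap.add_apply, LinearMap.add_apply, ← Prod.mk_add_mk, map_add,
        map_add]
      funext γ
      simp only [toFun', Pi.add_apply, Pi.smul_apply, smul_eq_mul, AddMonoidHom.add_apply,
        Int.cast_add]
      ring
    rw [e]
    exact h21a_isIntFun_add p (hP f g a h) (hQ f g a h)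
  | mul_X P ℓ hP =>
    intro f g a h
    have h1 : IsIntFun p (xiFun p φ (tEnd p (MvPolynomial.X ℓ) f) (tEnd p (MvPolynomial.X ℓ) g)
        (((eisensteinSystem p ℓ : ℤ) : ℂ) * a)) := by
      rw [h21a_xi_hecke p H1 H2 φ hφH]
      exact h21a_isIntFun_heckeOn p ℓ h
    have h2 := hP _ _ _ h1
    have e : xiFun p φ (tEnd p (P * MvPolynomial.X ℓ) f) (tEnd p (P * MvPolynomial.X ℓ) g)
        (((MvPolynomial.aeval (eisensteinSystem p) (P * MvPolynomial.X ℓ) : ℤ) : ℂ) * a)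
        = xiFun p φ (tEnd p P (tEnd p (MvPolynomial.X ℓ) f))
            (tEnd p P (tEnd p (MvPolynomial.X ℓ) g))
            (((MvPolynomial.aeval (eisensteinSystem p) P : ℤ) : ℂ) *
              (((eisensteinSystem p ℓ : ℤ) : ℂ) * a)) := by
      rw [h21a_tEnd_mul, map_mul, MvPolynomial.aeval_X]
      simp only [Module.End.mul_apply, Int.cast_mul, mul_assoc]
    rw [e]
    exact h2

end slices

/-- the arithmetic at the end of the argument -/
theorem h21a_arith (m : ℕ) (hm : 0 < m) (c : ℤ) {X : Type*} (φ : X → ℤ)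
    (hC : ∀ e : ℕ, (∀ x, (e : ℤ) ∣ φ x) → e ∣ Nat.gcd m 12)
    (h : ∀ x, (m : ℤ) ∣ c * φ x) : ((m / Nat.gcd m 12 : ℕ) : ℤ) ∣ c := by
  set d : ℕ := Int.gcd m c with hd
  have hdpos : 0 < d := Int.gcd_pos_of_ne_zero_left _ (by exact_mod_cast hm.ne')
  have hdm : (d : ℤ) ∣ (m : ℤ) := Int.gcd_dvd_left _ _
  have hdc : (d : ℤ) ∣ c := Int.gcd_dvd_right _ _
  have hdm' : d ∣ m := by exact_mod_cast hdm
  obtain ⟨e, he⟩ := hdm'
  obtain ⟨c', hc'⟩ := hdc
  have hcop : Int.gcd (e : ℤ) c' = 1 := by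
    have h1 : Int.gcd ((d : ℤ) * e) ((d : ℤ) * c') = d * Int.gcd (e : ℤ) c' := by
      rw [Int.gcd_mul_left]
      simp
    have h2 : Int.gcd ((d : ℤ) * e) ((d : ℤ) * c') = d := by
      rw [← hc']
      have : ((d : ℤ) * e) = (m : ℤ) := by exact_mod_cast he.symm
      rw [this]
    rw [h2] at h1
    have h3 : d * 1 = d * Int.gcd (e : ℤ) c' := by rw [mul_one]; exact h1
    exact (Nat.eq_of_mul_eq_mul_left hdpos h3).symm
  have hediv : ∀ x, (e : ℤ) ∣ φ x := by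
    intro x
    have h1 := h x
    rw [hc', he] at h1
    push_cast at h1
    have h2 : (e : ℤ) ∣ c' * φ x := by
      have h3 : (d : ℤ) * e ∣ (d : ℤ) * (c' * φ x) := by
        rw [← mul_assoc]
        exact h1
      exact (mul_dvd_mul_iff_left (by exact_mod_cast hdpos.ne')).mp h3
    exact Int.dvd_of_dvd_mul_right_of_gcd_one h2 hcop
  have heg := hC e hediv
  have hgm : Nat.gcd m 12 ∣ m := Nat.gcd_dvd_left _ _
  have hgpos : 0 < Nat.gcd m 12 := Nat.gcd_pos_of_pos_left _ hm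
  have hepos : 0 < e := by
    rcases Nat.eq_zero_or_pos e with h0 | h0
    · rw [h0, mul_zero] at he
      omega
    · exact h0
  obtain ⟨k, hk⟩ := heg
  have hnd : m / Nat.gcd m 12 ∣ d := by
    refine ⟨k, ?_⟩
    have h1 : m = m / Nat.gcd m 12 * Nat.gcd m 12 := (Nat.div_mul_cancel hgm).symm
    have h2 : d * e = m / Nat.gcd m 12 * (e * k) := by
      rw [← hk, ← h1, he]
    have h3 : e * d = e * (m / Nat.gcd m 12 * k) := by
      rw [mul_comm e d, h2]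
      ring
    exact Nat.eq_of_mul_eq_mul_left hepos h3
  exact (Int.natCast_dvd_natCast.mpr hnd).trans ⟨c', hc'⟩

/-- **S16, part (A)**, from the slices -/
theorem lowerBound_of_slices
    (hint : CuspForm.HasIntegralStructure p 2)
    (hES : LinearMap.range (periodHomPair p) = parabolicHoms ℂ (Gamma0 p) ℂ)
    (H1 : ∀ (ℓ : Nat.Primes) (f : CuspForm (Gamma0 p) 2),
      toFun' p (periodMap p
          (((CuspForm.heckeFormsGen p 2 ℓ : CuspForm.heckeAlgebra p 2 ∅) :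
            Module.End ℂ (CuspForm (Gamma0 p) 2)) f))
        = heckeOn p ℓ (toFun' p (periodMap p f)))
    (H2 : ∀ (ℓ : Nat.Primes) (ψ : Additive (Gamma0 p) →+ ℂ) (γ : Gamma0 p),
      heckeOn p ℓ (toFun' p (charInvolution p ℤ ℂ ψ)) γ
        = heckeOn p ℓ (toFun' p ψ) (jConjGamma0 p γ))
    (φ : Additive (Gamma0 p) →+ ℤ)
    (hφT : φ (Additive.ofMul (Tg p)) = (p : ℤ) - 1)
    (hφH : ∀ ℓ : Nat.Primes, heckeOn p ℓ (toFun' p φ)
      = fun γ => eisensteinSystem p ℓ * φ (Additive.ofMul γ))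
    (hφC : ∀ e : ℕ, (∀ γ : Gamma0 p, (e : ℤ) ∣ φ (Additive.ofMul γ)) → e ∣ Nat.gcd (p - 1) 12)
    (ψ₁ : Additive (Gamma0 p) →+ ℤ) (hψ₁ : ψ₁ (Additive.ofMul (Tg p)) = 1)
    (G2 : ∀ ψ : Additive (Gamma0 p) →+ ℂ, ψ (Additive.ofMul (Tg p)) = 0 →
      ψ ∈ parabolicHoms ℂ (Gamma0 p) ℂ) :
    LowerBound p := by
  intro P hP
  have hp2 : 2 ≤ p := (Fact.out : p.Prime).two_le
  have hm : 0 < p - 1 := by omega
  have hmC : ((p : ℂ) - 1) ≠ 0 := by
    have : (1 : ℝ) < p := by exact_mod_cast hp2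
    intro h0
    have h1 : (p : ℂ) = 1 := by linear_combination h0
    have h2 : (p : ℕ) = 1 := by exact_mod_cast h1
    omega
  -- the parabolic class `ψ₁ - φ/(p-1)`
  set ψ' : Additive (Gamma0 p) →+ ℂ :=
    (Int.castAddHom ℂ).comp ψ₁ - ((p : ℂ) - 1)⁻¹ • (Int.castAddHom ℂ).comp φ with hψ'
  have hψ'T : ψ' (Additive.ofMul (Tg p)) = 0 := by
    rw [hψ']
    simp only [AddMonoidHom.sub_apply, AddMonoidHom.smul_apply, AddMonoidHom.comp_apply,
      Int.coe_castAddHom, hψ₁, hφT, smul_eq_mul]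
    push_cast
    field_simp
    ring
  have hpar := G2 ψ' hψ'T
  rw [← hES] at hpar
  obtain ⟨⟨f₁, g₁⟩, hfg⟩ := hpar
  -- `Ξ(f₁, g₁, 1/(p-1)) = ψ₁` is integral
  have hint1 : IsIntFun p (xiFun p φ f₁ g₁ ((p : ℂ) - 1)⁻¹) := by
    intro γ
    refine ⟨ψ₁ (Additive.ofMul γ), ?_⟩
    unfold xiFun
    rw [hfg, hψ']
    simp only [toFun', Pi.add_apply, Pi.smul_apply, AddMonoidHom.sub_apply,
      AddMonoidHom.smul_apply, AddMonoidHom.comp_apply, Int.coe_castAddHom, smul_eq_mul]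
    ring
  have hint2 := h21a_xi_int p H1 H2 φ hφH P f₁ g₁ _ hint1
  rw [h21a_tEnd_eq_zero p hint P hP] at hint2
  -- so `(P(eis)/(p-1)) φ` is integral
  have hdiv : ∀ γ : Gamma0 p, (((p - 1 : ℕ) : ℤ)) ∣
      MvPolynomial.aeval (eisensteinSystem p) P * φ (Additive.ofMul γ) := by
    intro γ
    obtain ⟨n, hn⟩ := hint2 γ
    refine ⟨n, ?_⟩
    unfold xiFun at hn
    simp only [LinearMap.zero_apply, toFun', Pi.add_apply, Pi.smul_apply, smul_eq_mul] at hn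
    rw [show ((0 : CuspForm (Gamma0 p) 2), (0 : CuspForm (Gamma0 p) 2)) = 0 from rfl,
      map_zero] at hn
    simp only [AddMonoidHom.zero_apply, zero_add] at hn
    have h1 : ((MvPolynomial.aeval (eisensteinSystem p) P : ℤ) : ℂ)
        * ((φ (Additive.ofMul γ) : ℤ) : ℂ) = ((p : ℂ) - 1) * n := by
      field_simp at hn
      linear_combination hn
    have h2 : (((p - 1 : ℕ) : ℤ) : ℂ) = (p : ℂ) - 1 := by
      rw [Nat.cast_sub (by omega : 1 ≤ p)]
      push_cast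
      rfl
    have h3 : ((MvPolynomial.aeval (eisensteinSystem p) P * φ (Additive.ofMul γ) : ℤ) : ℂ)
        = ((((p - 1 : ℕ) : ℤ) * n : ℤ) : ℂ) := by
      push_cast
      rw [h1]
      push_cast [Nat.cast_sub (by omega : 1 ≤ p)]
      ring
    exact_mod_cast h3
  exact h21a_arith (p - 1) hm _ (fun γ : Gamma0 p => φ (Additive.ofMul γ)) hφC hdiv

end assembly

end H21S16

end
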