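/-
S16 part (A), slices DR1 + DR1' (helper15): the Dedekind–Rademacher homomorphism of the modular
unit `u = Δ(pz)/Δ(z)` exists, and `φ(T) = p - 1`.

Construction: `u = q^(p-1) V(q)^24` with `V(q) = P(q^p)/P(q)`, `P(q) = ∏ (1 - q^(n+1))`, holomorphic
without zeros on the unit disc; `V = exp G` (primitive of `V'/V` on the disc), and
`Λ(z) = (p-1) 2πi z + 24 G(q)`.  Integer-valued continuous functions on `ℍ` are constant.
-/
import Mathlib
import Fermat.Agent.S16.H21ADefs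
import Fermat.Agent.H23.DeltaN
import Fermat.Agent.H23.RevPrelim

set_option autoImplicit false

noncomputable section

open UpperHalfPlane ModularForm CongruenceSubgroup ModularCurve ModularCurve.Period
open scoped MatrixGroups Manifold Real Topology

namespace H21S16

local notation "𝕢" => Function.Periodic.qParam

/-- the Euler product `∏ (1 - q^(n+1))` on the unit disc -/
def h15dr_P (q : ℂ) : ℂ := ∏' n : ℕ, (1 - q ^ (n + 1))

theorem h15dr_P_diff : DifferentiableOn ℂ h15dr_P (Metric.ball (0 : ℂ) 1) :=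
  differentiableOn_tprod_one_sub_pow

theorem h15dr_P_zero : h15dr_P 0 = 1 := by
  simp [h15dr_P]

theorem h15dr_P_ne_zero {q : ℂ} (hq : ‖q‖ < 1) : h15dr_P q ≠ 0 := by
  have h := tprod_one_add_ne_zero_of_summable (f := fun n : ℕ => -q ^ (n + 1)) ?_ ?_
  · simpa [h15dr_P, sub_eq_add_neg] using h
  · intro i
    rw [← sub_eq_add_neg, sub_ne_zero]
    intro h1
    have : ‖q ^ (i + 1)‖ < 1 := by
      rw [norm_pow]
      exact pow_lt_one₀ (norm_nonneg _) hq (by omega)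
    rw [← h1] at this
    simp at this
  · simpa using (summable_nat_add_iff 1).mpr (summable_geometric_of_lt_one (norm_nonneg _) hq)

/-- the quotient `P(q^p)/P(q)` -/
def h15dr_V (p : ℕ) (q : ℂ) : ℂ := h15dr_P (q ^ p) / h15dr_P q

theorem h15dr_pow_mem {p : ℕ} (hp : p ≠ 0) {q : ℂ} (hq : q ∈ Metric.ball (0 : ℂ) 1) :
    q ^ p ∈ Metric.ball (0 : ℂ) 1 := by
  rw [Metric.mem_ball, dist_zero_right] at hq ⊢
  rw [norm_pow]
  exact pow_lt_one₀ (norm_nonneg _) hq hp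

theorem h15dr_V_diff {p : ℕ} (hp : p ≠ 0) : DifferentiableOn ℂ (h15dr_V p) (Metric.ball (0 : ℂ) 1) := by
  unfold h15dr_V
  refine DifferentiableOn.div ?_ h15dr_P_diff ?_
  · exact h15dr_P_diff.comp (by fun_prop) (fun q hq => h15dr_pow_mem hp hq)
  · intro q hq
    exact h15dr_P_ne_zero (by simpa [Metric.mem_ball, dist_zero_right] using hq)

theorem h15dr_V_ne_zero {p : ℕ} (hp : p ≠ 0) {q : ℂ} (hq : q ∈ Metric.ball (0 : ℂ) 1) :
    h15dr_V p q ≠ 0 := by
  unfold h15dr_V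
  have h1 := h15dr_pow_mem hp hq
  rw [Metric.mem_ball, dist_zero_right] at hq h1
  exact div_ne_zero (h15dr_P_ne_zero h1) (h15dr_P_ne_zero hq)

theorem h15dr_V_zero {p : ℕ} (hp : p ≠ 0) : h15dr_V p 0 = 1 := by
  simp [h15dr_V, zero_pow hp, h15dr_P_zero]

/-- a holomorphic logarithm of `V` on the unit disc, normalised by `G 0 = 0` -/
theorem h15dr_exists_log {p : ℕ} (hp : p ≠ 0) :
    ∃ G : ℂ → ℂ, G 0 = 0 ∧ DifferentiableOn ℂ G (Metric.ball (0 : ℂ) 1) ∧
      ∀ q ∈ Metric.ball (0 : ℂ) 1, Complex.exp (G q) = h15dr_V p q := by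
  have hVd := h15dr_V_diff hp
  have hopen : IsOpen (Metric.ball (0 : ℂ) 1) := Metric.isOpen_ball
  have hf : DifferentiableOn ℂ (logDeriv (h15dr_V p)) (Metric.ball (0 : ℂ) 1) := by
    have hd : DifferentiableOn ℂ (deriv (h15dr_V p)) (Metric.ball (0 : ℂ) 1) :=
      hVd.deriv hopen
    have : logDeriv (h15dr_V p) = fun q => deriv (h15dr_V p) q / h15dr_V p q := by
      funext q; simp [logDeriv]
    rw [this]
    exact hd.div hVd (fun q hq => h15dr_V_ne_zero hp hq)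
  obtain ⟨G, hG0, hG⟩ := (hf.isExactOn_ball).with_val_at 0 0
  have hGd : DifferentiableOn ℂ G (Metric.ball (0 : ℂ) 1) :=
    fun q hq => (hG q hq).differentiableAt.differentiableWithinAt
  refine ⟨G, hG0, hGd, ?_⟩
  have hexpd : DifferentiableOn ℂ (fun q => Complex.exp (G q)) (Metric.ball (0 : ℂ) 1) :=
    fun q hq => ((hG q hq).differentiableAt.cexp).differentiableWithinAt
  have hlog : Set.EqOn (logDeriv (h15dr_V p)) (logDeriv (fun q => Complex.exp (G q)))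
      (Metric.ball (0 : ℂ) 1) := by
    intro q hq
    have h1 : HasDerivAt (fun q => Complex.exp (G q))
        (Complex.exp (G q) * logDeriv (h15dr_V p) q) q := (hG q hq).cexp
    rw [logDeriv_apply (fun q => Complex.exp (G q)), h1.deriv]
    field_simp [Complex.exp_ne_zero]
  obtain ⟨c, hc0, hc⟩ := (logDeriv_eqOn_iff hVd hexpd hopen
    (convex_ball (0 : ℂ) 1).isPreconnected (fun q _ => Complex.exp_ne_zero _)
    (fun q hq => h15dr_V_ne_zero hp hq)).mp hlog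
  have h0 : (0 : ℂ) ∈ Metric.ball (0 : ℂ) 1 := Metric.mem_ball_self one_pos
  have hc1 : c = 1 := by
    have := hc h0
    simp only [Pi.smul_apply, smul_eq_mul, hG0, Complex.exp_zero, mul_one, h15dr_V_zero hp] at this
    exact this.symm
  intro q hq
  have := hc hq
  simp only [Pi.smul_apply, smul_eq_mul, hc1, one_mul] at this
  exact this.symm

theorem h15dr_q_mem (z : ℍ) : 𝕢 1 (z : ℂ) ∈ Metric.ball (0 : ℂ) 1 := by
  rw [Metric.mem_ball, dist_zero_right]
  exact_mod_cast norm_qParam_lt_one 1 z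

theorem h15dr_disc_eq (z : ℍ) :
    ModularForm.discriminant z = 𝕢 1 (z : ℂ) * h15dr_P (𝕢 1 (z : ℂ)) ^ 24 := by
  rw [discriminant_eq_q_prod]
  congr 1
  have hq : ‖𝕢 1 (z : ℂ)‖ < 1 := by exact_mod_cast norm_qParam_lt_one 1 z
  exact (multipliable_one_sub_pow hq).tprod_pow 24

theorem h15dr_q_diag {p : ℕ} (hp : p ≠ 0) (z : ℍ) :
    𝕢 1 ((ModularForm.heckeDiagMatrix p • z : ℍ) : ℂ) = 𝕢 1 (z : ℂ) ^ p := by
  rw [coe_heckeDiagMatrix_smul hp]
  simp only [Function.Periodic.qParam, Complex.ofReal_one, div_one]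
  rw [← Complex.exp_nat_mul]
  congr 1
  ring

/-- the modular unit `Δ(pz)/Δ(z)` in terms of `q` -/
theorem h15dr_unit_eq {p : ℕ} (hp : p ≠ 0) (z : ℍ) :
    ModularForm.discriminant (ModularForm.heckeDiagMatrix p • z) / ModularForm.discriminant z
      = 𝕢 1 (z : ℂ) ^ (p - 1) * h15dr_V p (𝕢 1 (z : ℂ)) ^ 24 := by
  rw [h15dr_disc_eq, h15dr_disc_eq, h15dr_q_diag hp]
  have hq0 : 𝕢 1 (z : ℂ) ≠ 0 := Function.Periodic.qParam_ne_zero _
  have hq := h15dr_q_mem z
  have hP : h15dr_P (𝕢 1 (z : ℂ)) ≠ 0 :=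
    h15dr_P_ne_zero (by simpa [Metric.mem_ball, dist_zero_right] using hq)
  unfold h15dr_V
  obtain ⟨k, rfl⟩ : ∃ k, p = k + 1 := ⟨p - 1, by omega⟩
  simp only [Nat.add_sub_cancel]
  rw [div_pow, pow_succ]
  field_simp

/-- the explicit holomorphic logarithm of `Δ(pz)/Δ(z)` built from a logarithm `G` of `V` -/
def h15dr_Lam (p : ℕ) (G : ℂ → ℂ) (z : ℍ) : ℂ :=
  ((p - 1 : ℕ) : ℂ) * (2 * π * Complex.I * (z : ℂ)) + 24 * G (𝕢 1 (z : ℂ))

theorem h15dr_exp_Lam {p : ℕ} (hp : p ≠ 0) (G : ℂ → ℂ)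
    (hG : ∀ q ∈ Metric.ball (0 : ℂ) 1, Complex.exp (G q) = h15dr_V p q) (z : ℍ) :
    Complex.exp (h15dr_Lam p G z)
      = ModularForm.discriminant (ModularForm.heckeDiagMatrix p • z)
          / ModularForm.discriminant z := by
  rw [h15dr_unit_eq hp, h15dr_Lam, Complex.exp_add, Complex.exp_nat_mul,
    show (24 : ℂ) * G (𝕢 1 (z : ℂ)) = ((24 : ℕ) : ℂ) * G (𝕢 1 (z : ℂ)) by norm_num,
    Complex.exp_nat_mul, hG _ (h15dr_q_mem z)]
  congr 2
  simp [Function.Periodic.qParam]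

theorem h15dr_mdiff_Lam (p : ℕ) (G : ℂ → ℂ)
    (hGd : DifferentiableOn ℂ G (Metric.ball (0 : ℂ) 1)) : MDiff (h15dr_Lam p G) := by
  rw [UpperHalfPlane.mdifferentiable_iff]
  have h1 : DifferentiableOn ℂ
      (fun w : ℂ => ((p - 1 : ℕ) : ℂ) * (2 * π * Complex.I * w) + 24 * G (𝕢 1 w))
      {z : ℂ | 0 < z.im} := by
    intro w hw
    have hq : 𝕢 1 w ∈ Metric.ball (0 : ℂ) 1 := h15dr_q_mem ⟨w, hw⟩
    have hGa : DifferentiableAt ℂ G (𝕢 1 w) :=
      hGd.differentiableAt (Metric.isOpen_ball.mem_nhds hq)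
    have hqd : DifferentiableAt ℂ (𝕢 1) w := by
      unfold Function.Periodic.qParam
      fun_prop
    have : DifferentiableAt ℂ (fun w : ℂ => G (𝕢 1 w)) w := hGa.comp w hqd
    exact (DifferentiableAt.add (by fun_prop) (this.const_mul 24)).differentiableWithinAt
  refine h1.congr ?_
  intro w hw
  simp only [Function.comp_apply, h15dr_Lam]
  rw [ofComplex_apply_of_im_pos hw]

theorem h15dr_Lam_T (p : ℕ) (G : ℂ → ℂ) (z : ℍ) :
    h15dr_Lam p G ((ModularGroup.T : SL(2, ℤ)) • z) - h15dr_Lam p G z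
      = 2 * π * Complex.I * ((p - 1 : ℕ) : ℂ) := by
  simp only [h15dr_Lam]
  have hT : (((ModularGroup.T : SL(2, ℤ)) • z : ℍ) : ℂ) = (z : ℂ) + 1 := by
    rw [UpperHalfPlane.modular_T_smul]
    simp [add_comm]
  rw [hT]
  have hq : 𝕢 1 ((z : ℂ) + 1) = 𝕢 1 (z : ℂ) := by
    simp only [Function.Periodic.qParam, Complex.ofReal_one, div_one]
    rw [mul_add, Complex.exp_add, mul_one, Complex.exp_two_pi_mul_I, mul_one]
  rw [hq]
  ring

/-- a continuous integer-valued function on `ℍ` is constant -/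
theorem h15dr_const_of_int {f : ℍ → ℂ} (hf : Continuous f) (hint : ∀ z, ∃ n : ℤ, f z = n)
    (x y : ℍ) : f x = f y := by
  have key : ∀ x y : ℍ, ∀ a b : ℤ, f x = a → f y = b → ¬ a < b := by
    intro x y a b hx hy hab
    have hg : Continuous (fun z => (f z).re) := Complex.continuous_re.comp hf
    have hsub := intermediate_value_univ x y hg
    have hmem : (a : ℝ) + 1 / 2 ∈ Set.Icc ((f x).re) ((f y).re) := by
      rw [hx, hy]
      simp only [Complex.intCast_re, Set.mem_Icc]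
      have : (a : ℝ) + 1 ≤ b := by exact_mod_cast hab
      constructor <;> linarith
    obtain ⟨z, hz⟩ := hsub hmem
    obtain ⟨m, hm⟩ := hint z
    simp only [hm, Complex.intCast_re] at hz
    have h2 : (2 * m : ℝ) = 2 * a + 1 := by linarith
    have h3 : (2 * m : ℤ) = 2 * a + 1 := by exact_mod_cast h2
    omega
  obtain ⟨a, ha⟩ := hint x
  obtain ⟨b, hb⟩ := hint y
  rcases lt_trichotomy a b with h | h | h
  · exact absurd h (key x y a b ha hb)
  · rw [ha, hb, h]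
  · exact absurd h (key y x b a hb ha)

/-- the modular unit `Δ(pz)/Δ(z)` is `Γ₀(p)`-invariant -/
theorem h15dr_unit_smul (p : ℕ) [NeZero p] (γ : Gamma0 p) (z : ℍ) :
    ModularForm.discriminant (ModularForm.heckeDiagMatrix p • ((γ : SL(2, ℤ)) • z))
        / ModularForm.discriminant ((γ : SL(2, ℤ)) • z)
      = ModularForm.discriminant (ModularForm.heckeDiagMatrix p • z)
          / ModularForm.discriminant z := by
  have h1 := H23.apply_smul_of_slash_eq (H23.deltaN_slash_of_mem_Gamma0 p (γ : SL(2, ℤ)) γ.2) z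
  have h2 := H23.disc_smul (γ : SL(2, ℤ)) z
  have h1' : ModularForm.discriminant (ModularForm.heckeDiagMatrix p • ((γ : SL(2, ℤ)) • z))
      = denom (γ : SL(2, ℤ)) z ^ (12 : ℕ)
        * ModularForm.discriminant (ModularForm.heckeDiagMatrix p • z) := by
    have := h1
    simp only [H23.deltaN] at this
    rw [this]
    norm_cast
  rw [h1', h2]
  have hd : denom (γ : SL(2, ℤ)) z ≠ 0 := denom_ne_zero _ z
  have hΔ := discriminant_ne_zero z
  field_simp

theorem h15dr_two_pi_I_ne : (2 * π * Complex.I : ℂ) ≠ 0 := Complex.two_pi_I_ne_zero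

/-- two logarithms of the same function on `ℍ` have the same differences -/
theorem h15dr_log_diff_eq {Λ Λ' : ℍ → ℂ} (hΛ : Continuous Λ) (hΛ' : Continuous Λ')
    (h : ∀ z, Complex.exp (Λ z) = Complex.exp (Λ' z)) (x y : ℍ) :
    Λ x - Λ y = Λ' x - Λ' y := by
  have hf : Continuous (fun z => (Λ z - Λ' z) / (2 * π * Complex.I)) :=
    (hΛ.sub hΛ').div_const _
  have hint : ∀ z, ∃ n : ℤ, (Λ z - Λ' z) / (2 * π * Complex.I) = n := by
    intro z
    have h1 : Complex.exp (Λ z - Λ' z) = 1 := by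
      rw [Complex.exp_sub, h z, div_self (Complex.exp_ne_zero _)]
    obtain ⟨n, hn⟩ := Complex.exp_eq_one_iff.mp h1
    exact ⟨n, by rw [hn]; field_simp [h15dr_two_pi_I_ne]⟩
  have := h15dr_const_of_int hf hint x y
  have h2 : Λ x - Λ' x = Λ y - Λ' y := by
    have h3 := congrArg (fun t => t * (2 * π * Complex.I)) this
    simpa [div_mul_cancel₀ _ h15dr_two_pi_I_ne] using h3
  linear_combination h2

/-- for a logarithm `Λ` of a `Γ`-invariant function, the difference `Λ(γ z) - Λ(z)` is a constant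
integer multiple of `2πi` -/
theorem h15dr_period_const {Λ : ℍ → ℂ} (hΛ : Continuous Λ) (γ : SL(2, ℤ))
    (h : ∀ z, Complex.exp (Λ (γ • z)) = Complex.exp (Λ z)) :
    ∃ n : ℤ, ∀ z, Λ (γ • z) - Λ z = 2 * π * Complex.I * (n : ℂ) := by
  have hsm : Continuous (fun z : ℍ => γ • z) :=
    continuous_const_smul (Matrix.SpecialLinearGroup.mapGL ℝ γ : GL (Fin 2) ℝ)
  have hf : Continuous (fun z => (Λ (γ • z) - Λ z) / (2 * π * Complex.I)) :=
    ((hΛ.comp hsm).sub hΛ).div_const _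
  have hint : ∀ z, ∃ n : ℤ, (Λ (γ • z) - Λ z) / (2 * π * Complex.I) = n := by
    intro z
    have h1 : Complex.exp (Λ (γ • z) - Λ z) = 1 := by
      rw [Complex.exp_sub, h z, div_self (Complex.exp_ne_zero _)]
    obtain ⟨n, hn⟩ := Complex.exp_eq_one_iff.mp h1
    exact ⟨n, by rw [hn]; field_simp [h15dr_two_pi_I_ne]⟩
  obtain ⟨n, hn⟩ := hint UpperHalfPlane.I
  refine ⟨n, fun z => ?_⟩
  have := h15dr_const_of_int hf hint z UpperHalfPlane.I
  rw [hn] at this
  have h3 := congrArg (fun t => t * (2 * π * Complex.I)) this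
  simp only [div_mul_cancel₀ _ h15dr_two_pi_I_ne] at h3
  rw [h3]; ring

variable (p : ℕ) [Fact p.Prime]

/-- the explicit logarithm, packaged -/
theorem h15dr_exists_Lam :
    ∃ Λ : ℍ → ℂ, MDiff Λ ∧
      (∀ z : ℍ, Complex.exp (Λ z)
        = ModularForm.discriminant (ModularForm.heckeDiagMatrix p • z)
            / ModularForm.discriminant z) ∧
      ∀ z : ℍ, Λ ((ModularGroup.T : SL(2, ℤ)) • z) - Λ z
        = 2 * π * Complex.I * ((p - 1 : ℕ) : ℂ) := by
  have hp : p ≠ 0 := (Fact.out : p.Prime).ne_zero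
  obtain ⟨G, -, hGd, hG⟩ := h15dr_exists_log hp
  exact ⟨h15dr_Lam p G, h15dr_mdiff_Lam p G hGd, h15dr_exp_Lam hp G hG, h15dr_Lam_T p G⟩

/-- DR1: existence (ℍ simply connected, `u = Δ(pz)/Δ(z)` holomorphic without zeros, Γ₀(p)-invariant) -/
theorem exists_isDR : ∃ φ : Additive (Gamma0 p) →+ ℤ, IsDR p φ := by
  have : NeZero p := ⟨(Fact.out : p.Prime).ne_zero⟩
  obtain ⟨Λ, hΛd, hΛe, -⟩ := h15dr_exists_Lam p
  have hΛc : Continuous Λ := hΛd.continuous
  have hper : ∀ γ : Gamma0 p, ∃ n : ℤ, ∀ z : ℍ,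
      Λ ((γ : SL(2, ℤ)) • z) - Λ z = 2 * π * Complex.I * (n : ℂ) := by
    intro γ
    refine h15dr_period_const hΛc (γ : SL(2, ℤ)) (fun z => ?_)
    rw [hΛe, hΛe, h15dr_unit_smul p γ z]
  choose n hn using hper
  have hadd : ∀ γ₁ γ₂ : Gamma0 p, n (γ₁ * γ₂) = n γ₁ + n γ₂ := by
    intro γ₁ γ₂
    have h1 := hn (γ₁ * γ₂) UpperHalfPlane.I
    have h2 := hn γ₁ ((γ₂ : SL(2, ℤ)) • UpperHalfPlane.I)
    have h3 := hn γ₂ UpperHalfPlane.I
    have hmul : (((γ₁ * γ₂ : Gamma0 p) : SL(2, ℤ))) • (UpperHalfPlane.I : ℍ)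
        = (γ₁ : SL(2, ℤ)) • ((γ₂ : SL(2, ℤ)) • UpperHalfPlane.I) := by
      rw [Subgroup.coe_mul, mul_smul]
    rw [hmul] at h1
    have h4 : (2 * π * Complex.I : ℂ) * (n (γ₁ * γ₂) : ℂ)
        = 2 * π * Complex.I * ((n γ₁ + n γ₂ : ℤ) : ℂ) := by
      push_cast
      rw [← h1, mul_add, ← h2, ← h3]
      ring
    exact_mod_cast mul_left_cancel₀ h15dr_two_pi_I_ne h4
  refine ⟨AddMonoidHom.mk' (fun a => n (Additive.toMul a)) (fun a b => ?_), Λ, hΛd, hΛe, ?_⟩
  · simpa using hadd (Additive.toMul a) (Additive.toMul b)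
  · intro γ z
    simpa using hn γ z

/-- DR1': `φ(T) = p - 1` (`u = q^(p-1) (1 + ...)`) -/
theorem isDR_T (φ : Additive (Gamma0 p) →+ ℤ) (h : IsDR p φ) :
    φ (Additive.ofMul (Tg p)) = (p : ℤ) - 1 := by
  obtain ⟨Λ, hΛd, hΛe, hΛγ⟩ := h
  obtain ⟨Λ₀, hΛ₀d, hΛ₀e, hΛ₀T⟩ := h15dr_exists_Lam p
  have hdiff := h15dr_log_diff_eq hΛd.continuous hΛ₀d.continuous
    (fun z => by rw [hΛe, hΛ₀e]) ((ModularGroup.T : SL(2, ℤ)) • UpperHalfPlane.I)
    UpperHalfPlane.I
  have h1 := hΛγ (Tg p) UpperHalfPlane.I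
  have hT : ((Tg p : Gamma0 p) : SL(2, ℤ)) = ModularGroup.T := rfl
  rw [hT, hdiff, hΛ₀T] at h1
  have h2 : (((p - 1 : ℕ) : ℤ) : ℂ) = ((φ (Additive.ofMul (Tg p)) : ℤ) : ℂ) := by
    have := mul_left_cancel₀ h15dr_two_pi_I_ne h1
    exact_mod_cast this
  have h3 : ((p - 1 : ℕ) : ℤ) = φ (Additive.ofMul (Tg p)) := by exact_mod_cast h2
  rw [← h3]
  have hp1 : 1 ≤ p := (Fact.out : p.Prime).one_lt.le
  omega

end H21S16

end
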