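import Mathlib
import Fermat.Prelude.Def_ModularCurve_PeriodMap
import Fermat.Prelude.Def_ModularCurve_GenusNumerics
import Fermat.Agent.S24.C2
import Fermat.Agent.S24.C3
import Fermat.Agent.RR.E2

/-!
# S16, part (A), group theory slice G2 (helper8)

For a prime `p` and a homomorphism `ψ : Γ₀(p) → A` to a torsion-free abelian group:
if `ψ(T) = 0` then `ψ` is parabolic (vanishes on all elements of trace `±2`).

Route: the transfer `SL(2,ℤ) → A` of `ψ` is trivial (`SL(2,ℤ)` is generated by torsion elements);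
`T` has exactly two orbits on `SL(2,ℤ) ⧸ Γ₀(p)`; every element of trace `±2` of `SL(2,ℤ)` is
`± g T^k g⁻¹`.
-/

set_option autoImplicit false
set_option linter.unusedSectionVars false
set_option linter.style.haveILetI false

namespace H8S16

open MatrixGroups CongruenceSubgroup

/-! ## homomorphisms from `SL(2,ℤ)` to torsion-free commutative groups are trivial -/

theorem h8g_hom_trivial {M : Type*} [CommGroup M] [IsMulTorsionFree M] (f : SL(2, ℤ) →* M) :
    f = 1 := by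
  have hS : f ModularGroup.S = 1 := by
    have h1 : f ModularGroup.S ^ 4 = 1 ^ 4 := by
      rw [← map_pow, Fermat.Agent.H16E2.h16e2_S_pow_four, map_one, one_pow]
    exact pow_left_injective (by norm_num : (4 : ℕ) ≠ 0) h1
  have hST : f (ModularGroup.S * ModularGroup.T) = 1 := by
    have h1 : f (ModularGroup.S * ModularGroup.T) ^ 6 = 1 ^ 6 := by
      rw [← map_pow, Fermat.Agent.H16E2.h16e2_ST_pow_six, map_one, one_pow]
    exact pow_left_injective (by norm_num : (6 : ℕ) ≠ 0) h1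
  have hT : f ModularGroup.T = 1 := by
    rw [map_mul, hS, one_mul] at hST
    exact hST
  have hker : (⊤ : Subgroup SL(2, ℤ)) ≤ f.ker := by
    rw [← SpecialLinearGroup.SL2Z_generators, Subgroup.closure_le]
    intro g hg
    rcases hg with rfl | hg
    · exact hS
    · rw [Set.mem_singleton_iff] at hg
      rw [hg]
      exact hT
  ext g
  exact hker (Subgroup.mem_top g)

/-! ## elements of trace `±2` -/

/-- an element of `SL(2,ℤ)` with first column `(1, 0)` is a power of `T` -/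
theorem h8g_eq_T_zpow (h : SL(2, ℤ)) (h00 : h 0 0 = 1) (h10 : h 1 0 = 0) :
    h = ModularGroup.T ^ (h 0 1) := by
  have hdet := Matrix.det_fin_two (h : Matrix (Fin 2) (Fin 2) ℤ)
  rw [h.det_coe, h00, h10] at hdet
  have h11 : h 1 1 = 1 := by linarith
  apply Subtype.ext
  rw [ModularGroup.coe_T_zpow]
  ext i j
  fin_cases i <;> fin_cases j <;> simp [h00, h10, h11]

/-- completion of a primitive vector to an element of `SL(2,ℤ)` -/
theorem h8g_exists_col (x y : ℤ) (hxy : IsCoprime x y) :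
    ∃ g : SL(2, ℤ), g 0 0 = x ∧ g 1 0 = y := by
  obtain ⟨u, v, huv⟩ := hxy
  refine ⟨⟨!![x, -v; y, u], ?_⟩, rfl, rfl⟩
  rw [Matrix.det_fin_two_of]
  linarith

/-- a fixed primitive vector of an element of trace `2` -/
theorem h8g_exists_fixed (γ : SL(2, ℤ)) (htr : γ 0 0 + γ 1 1 = 2) :
    ∃ x y : ℤ, IsCoprime x y ∧ γ 0 0 * x + γ 0 1 * y = x ∧ γ 1 0 * x + γ 1 1 * y = y := by
  have hdet := Matrix.det_fin_two (γ : Matrix (Fin 2) (Fin 2) ℤ)
  rw [γ.det_coe] at hdet
  set a := γ 0 0 with ha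
  set b := γ 0 1 with hb
  set c := γ 1 0 with hc
  set d := γ 1 1 with hd
  have hd' : d = 2 - a := by linarith
  have hbc : b * c = -(a - 1) ^ 2 := by
    rw [hd'] at hdet
    linear_combination hdet
  by_cases h0 : b = 0 ∧ a = 1
  · refine ⟨0, 1, isCoprime_zero_left.mpr isUnit_one, ?_, ?_⟩
    · rw [h0.1]; ring
    · rw [hd', h0.2]; ring
  · -- the vector `(b, 1 - a)` is nonzero
    have hne : Int.gcd b (1 - a) ≠ 0 := by
      intro h
      rw [Int.gcd_eq_zero_iff] at h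
      exact h0 ⟨h.1, by linarith [h.2]⟩
    obtain ⟨x, y, hco, hx, hy⟩ : ∃ x y : ℤ, IsCoprime x y ∧ b = x * (Int.gcd b (1 - a) : ℤ) ∧
        (1 - a) = y * (Int.gcd b (1 - a) : ℤ) := by
      obtain ⟨x, y, hxy, hx, hy⟩ := Int.exists_gcd_one (Nat.pos_of_ne_zero hne)
      exact ⟨x, y, Int.isCoprime_iff_gcd_eq_one.mpr hxy, hx, hy⟩
    have hg0 : (Int.gcd b (1 - a) : ℤ) ≠ 0 := by exact_mod_cast hne
    refine ⟨x, y, hco, ?_, ?_⟩
    · apply mul_right_cancel₀ hg0
      generalize (Int.gcd b (1 - a) : ℤ) = G at hx hy ⊢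
      have e1 : (a * x + b * y) * G = a * (x * G) + b * (y * G) := by ring
      rw [e1, ← hx, ← hy]
      ring
    · apply mul_right_cancel₀ hg0
      generalize (Int.gcd b (1 - a) : ℤ) = G at hx hy ⊢
      have e1 : (c * x + d * y) * G = c * (x * G) + d * (y * G) := by ring
      rw [e1, ← hx, ← hy, hd']
      linear_combination hbc

/-- elements of trace `2` are conjugate to powers of `T` -/
theorem h8g_trace_two (γ : SL(2, ℤ)) (htr : γ 0 0 + γ 1 1 = 2) :
    ∃ (g : SL(2, ℤ)) (k : ℤ), γ = g * ModularGroup.T ^ k * g⁻¹ := by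
  obtain ⟨x, y, hco, hx, hy⟩ := h8g_exists_fixed γ htr
  obtain ⟨g, hg0, hg1⟩ := h8g_exists_col x y hco
  have hgdet := Matrix.det_fin_two (g : Matrix (Fin 2) (Fin 2) ℤ)
  rw [g.det_coe, hg0, hg1] at hgdet
  have h00 : (g⁻¹ * γ * g) 0 0 = 1 := by
    rw [Matrix.SpecialLinearGroup.coe_mul, Matrix.SpecialLinearGroup.coe_mul,
      Matrix.SpecialLinearGroup.coe_inv]
    simp only [Matrix.adjugate_fin_two, Matrix.mul_apply, Fin.sum_univ_two, Matrix.of_apply,
      Matrix.cons_val', Matrix.cons_val_zero, Matrix.cons_val_one, Matrix.cons_val_fin_one,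
      hg0, hg1]
    linear_combination (g 1 1) * hx - (g 0 1) * hy - hgdet
  have h10 : (g⁻¹ * γ * g) 1 0 = 0 := by
    rw [Matrix.SpecialLinearGroup.coe_mul, Matrix.SpecialLinearGroup.coe_mul,
      Matrix.SpecialLinearGroup.coe_inv]
    simp only [Matrix.adjugate_fin_two, Matrix.mul_apply, Fin.sum_univ_two, Matrix.of_apply,
      Matrix.cons_val', Matrix.cons_val_zero, Matrix.cons_val_one, Matrix.cons_val_fin_one,
      hg0, hg1]
    linear_combination (-y) * hx + x * hy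
  refine ⟨g, (g⁻¹ * γ * g) 0 1, ?_⟩
  rw [← h8g_eq_T_zpow _ h00 h10]
  group

/-! ## the transfer argument, abstractly -/

section transfer

variable {G : Type*} [Group G] (H : Subgroup G) {M : Type*} [CommGroup M] (ϕ : H →* M)

theorem h8g_conj_zpow (r t : G) (j : ℤ) : (r⁻¹ * t * r) ^ j = r⁻¹ * t ^ j * r := by
  have h := conj_zpow (a := r⁻¹) (b := t) (i := j)
  rw [inv_inv] at h
  exact h

/-- `r⁻¹ g^m r ∈ H` for the minimal period `m` of the coset `r H` under `g` -/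
theorem h8g_conj_mem (g r : G) :
    r⁻¹ * g ^ Function.minimalPeriod (g • ·) (r : G ⧸ H) * r ∈ H := by
  rw [mul_assoc, ← QuotientGroup.eq]
  show (r : G ⧸ H) = g ^ Function.minimalPeriod (g • ·) (r : G ⧸ H) • (r : G ⧸ H)
  exact (MulAction.pow_smul_eq_iff_minimalPeriod_dvd.mpr dvd_rfl).symm

/-- the value of `ϕ` attached to the orbit of `r H` under `g` -/
noncomputable def h8g_c (g r : G) : M :=
  ϕ ⟨r⁻¹ * g ^ Function.minimalPeriod (g • ·) (r : G ⧸ H) * r, h8g_conj_mem H g r⟩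

theorem h8g_minimalPeriod_zpow_smul (g : G) (i : ℤ) (x : G ⧸ H) :
    Function.minimalPeriod (g • ·) (g ^ i • x) = Function.minimalPeriod (g • ·) x := by
  have hc : ∀ m : ℕ, g ^ m * g ^ i = g ^ i * g ^ m := fun m =>
    (((Commute.refl g).pow_left m).zpow_right i).eq
  apply Nat.dvd_antisymm
  · rw [← MulAction.pow_smul_eq_iff_minimalPeriod_dvd, smul_smul, hc, ← smul_smul,
      MulAction.pow_smul_eq_iff_minimalPeriod_dvd.mpr dvd_rfl]
  · rw [← MulAction.pow_smul_eq_iff_minimalPeriod_dvd]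
    have h1 : g ^ Function.minimalPeriod (g • ·) (g ^ i • x) • (g ^ i • x) = g ^ i • x :=
      MulAction.pow_smul_eq_iff_minimalPeriod_dvd.mpr dvd_rfl
    rw [smul_smul, hc, ← smul_smul] at h1
    exact smul_left_cancel (g ^ i) h1

/-- `c` is constant on the orbits of `⟨g⟩` -/
theorem h8g_c_congr (g r r' : G)
    (h : (MulAction.orbitRel (Subgroup.zpowers g) (G ⧸ H)).r (r' : G ⧸ H) (r : G ⧸ H)) :
    h8g_c H ϕ g r' = h8g_c H ϕ g r := by
  rw [MulAction.orbitRel_apply, MulAction.mem_orbit_iff] at h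
  obtain ⟨⟨_, i, rfl⟩, hi⟩ := h
  have hi' : ((g ^ i * r : G) : G ⧸ H) = (r' : G ⧸ H) := hi
  have hm : Function.minimalPeriod (g • ·) (r' : G ⧸ H)
      = Function.minimalPeriod (g • ·) (r : G ⧸ H) := by
    rw [← hi']
    exact h8g_minimalPeriod_zpow_smul H g i (r : G ⧸ H)
  rw [QuotientGroup.eq] at hi'
  set η : H := ⟨(g ^ i * r)⁻¹ * r', hi'⟩ with hη
  have hr' : r' = g ^ i * r * η := by
    rw [hη]
    show r' = g ^ i * r * ((g ^ i * r)⁻¹ * r')
    group
  have key : (⟨r'⁻¹ * g ^ Function.minimalPeriod (g • ·) (r' : G ⧸ H) * r',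
      h8g_conj_mem H g r'⟩ : H)
      = η⁻¹ * ⟨r⁻¹ * g ^ Function.minimalPeriod (g • ·) (r : G ⧸ H) * r,
        h8g_conj_mem H g r⟩ * η := by
    apply Subtype.ext
    simp only [Subgroup.coe_mul, Subgroup.coe_inv]
    rw [hm]
    generalize Function.minimalPeriod (g • ·) (r : G ⧸ H) = m
    rw [hr']
    have hcomm : g ^ m * g ^ i = g ^ i * g ^ m :=
      (((Commute.refl g).pow_left m).zpow_right i).eq
    calc (g ^ i * r * (η : G))⁻¹ * g ^ m * (g ^ i * r * (η : G))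
        = (η : G)⁻¹ * r⁻¹ * ((g ^ i)⁻¹ * (g ^ m * g ^ i)) * r * (η : G) := by group
      _ = (η : G)⁻¹ * (r⁻¹ * g ^ m * r) * (η : G) := by
          rw [hcomm]; group
  rw [h8g_c, h8g_c, key, map_mul, map_mul, map_inv]
  rw [mul_comm (ϕ η)⁻¹, mul_assoc, inv_mul_cancel, mul_one]

variable [H.FiniteIndex]

/-- the transfer in terms of `c` -/
theorem h8g_transfer_eq (g : G)
    [Fintype (Quotient (MulAction.orbitRel (Subgroup.zpowers g) (G ⧸ H)))] :
    MonoidHom.transfer ϕ g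
      = ∏ q : Quotient (MulAction.orbitRel (Subgroup.zpowers g) (G ⧸ H)),
          h8g_c H ϕ g q.out.out := by
  rw [MonoidHom.transfer_eq_prod_quotient_orbitRel_zpowers_quot]
  refine Finset.prod_congr rfl fun q _ => ?_
  rw [h8g_c]
  congr 1
  apply Subtype.ext
  simp only
  rw [QuotientGroup.out_eq']

/-- with two orbits: `c(r) c(r') = transfer` when `r H`, `r' H` are in different orbits -/
theorem h8g_two_orbits (g : G)
    (hcard : Nat.card (Quotient (MulAction.orbitRel (Subgroup.zpowers g) (G ⧸ H))) = 2)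
    (r r' : G)
    (hne : ¬ (MulAction.orbitRel (Subgroup.zpowers g) (G ⧸ H)).r (r' : G ⧸ H) (r : G ⧸ H)) :
    h8g_c H ϕ g r * h8g_c H ϕ g r' = MonoidHom.transfer ϕ g := by
  classical
  haveI : Finite (Quotient (MulAction.orbitRel (Subgroup.zpowers g) (G ⧸ H))) :=
    Nat.finite_of_card_ne_zero (by rw [hcard]; norm_num)
  letI : Fintype (Quotient (MulAction.orbitRel (Subgroup.zpowers g) (G ⧸ H))) :=
    Fintype.ofFinite _
  rw [h8g_transfer_eq]
  set qr : Quotient (MulAction.orbitRel (Subgroup.zpowers g) (G ⧸ H)) :=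
    Quotient.mk'' (r : G ⧸ H) with hqr
  set qr' : Quotient (MulAction.orbitRel (Subgroup.zpowers g) (G ⧸ H)) :=
    Quotient.mk'' (r' : G ⧸ H) with hqr'
  have hqne : qr ≠ qr' := by
    intro h
    apply hne
    exact Quotient.eq''.mp h.symm
  have hval : ∀ (q : Quotient (MulAction.orbitRel (Subgroup.zpowers g) (G ⧸ H))) (s : G),
      q = Quotient.mk'' (s : G ⧸ H) → h8g_c H ϕ g q.out.out = h8g_c H ϕ g s := by
    intro q s hq
    apply h8g_c_congr
    rw [QuotientGroup.out_eq']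
    have : (Quotient.mk'' q.out : Quotient (MulAction.orbitRel (Subgroup.zpowers g) (G ⧸ H)))
        = Quotient.mk'' (s : G ⧸ H) := by
      rw [Quotient.out_eq', hq]
    exact Quotient.eq''.mp this
  have huniv : (Finset.univ : Finset (Quotient (MulAction.orbitRel (Subgroup.zpowers g)
      (G ⧸ H)))) = {qr, qr'} := by
    symm
    apply Finset.eq_univ_of_card
    rw [Finset.card_pair hqne, ← Nat.card_eq_fintype_card, hcard]
  rw [huniv, Finset.prod_pair hqne, hval qr r rfl, hval qr' r' rfl]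

end transfer

/-! ## `Γ₀(p)` -/

section Gamma0

theorem h8g_cuspCount_prime (p : ℕ) (hp : p.Prime) : ModularCurve.cuspCount p = 2 := by
  unfold ModularCurve.cuspCount
  rw [Nat.Prime.divisors hp, Finset.sum_pair hp.one_lt.ne]
  simp [Nat.div_self hp.pos]

theorem h8g_T_mem (N : ℕ) : ModularGroup.T ∈ Gamma0 N := by
  rw [Gamma0_mem]
  simp [ModularGroup.T]

theorem h8g_S_sq_mem (N : ℕ) : ModularGroup.S ^ 2 ∈ Gamma0 N := by
  rw [Gamma0_mem, RH24.h8_S_sq_coe]
  simp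

/-- `T` as an element of `Γ₀(N)` -/
def h8g_T (N : ℕ) : Gamma0 N := ⟨ModularGroup.T, h8g_T_mem N⟩

variable (p : ℕ) [Fact p.Prime]
variable {M : Type*} [CommGroup M] [IsMulTorsionFree M] (ϕ : Gamma0 p →* M)

theorem h8g_card_orbits :
    Nat.card (Quotient (MulAction.orbitRel (Subgroup.zpowers ModularGroup.T)
      (SL(2, ℤ) ⧸ Gamma0 p))) = 2 := by
  haveI : NeZero p := ⟨(Fact.out : p.Prime).ne_zero⟩
  have h := RH24.card_orbits_T p
  rw [h8g_cuspCount_prime p Fact.out] at h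
  exact h

theorem h8g_c_one : h8g_c (Gamma0 p) ϕ ModularGroup.T 1 = ϕ (h8g_T p) := by
  have hfix : Function.minimalPeriod (ModularGroup.T • ·) (((1 : SL(2, ℤ)) : SL(2, ℤ) ⧸ Gamma0 p))
      = 1 := by
    rw [Function.minimalPeriod_eq_one_iff_isFixedPt]
    show ModularGroup.T • (((1 : SL(2, ℤ)) : SL(2, ℤ) ⧸ Gamma0 p)) = _
    rw [MulAction.Quotient.smul_coe, QuotientGroup.eq]
    simp [h8g_T_mem p]
  rw [h8g_c]
  congr 1
  apply Subtype.ext
  simp only [h8g_T]
  rw [hfix]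
  simp

/-- if `ϕ(T) = 1` then all the orbit values are `1` -/
theorem h8g_c_eq_one (hT : ϕ (h8g_T p) = 1) (r : SL(2, ℤ)) :
    h8g_c (Gamma0 p) ϕ ModularGroup.T r = 1 := by
  haveI : NeZero p := ⟨(Fact.out : p.Prime).ne_zero⟩
  by_cases h : (MulAction.orbitRel (Subgroup.zpowers ModularGroup.T) (SL(2, ℤ) ⧸ Gamma0 p)).r
      (r : SL(2, ℤ) ⧸ Gamma0 p) ((1 : SL(2, ℤ)) : SL(2, ℤ) ⧸ Gamma0 p)
  · rw [h8g_c_congr (Gamma0 p) ϕ ModularGroup.T 1 r h, h8g_c_one, hT]
  · have h2 := h8g_two_orbits (Gamma0 p) ϕ ModularGroup.T (h8g_card_orbits p) 1 r h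
    rw [h8g_hom_trivial (MonoidHom.transfer ϕ), MonoidHom.one_apply, h8g_c_one, hT, one_mul] at h2
    exact h2

/-- `ϕ` kills the elements of trace `2` -/
theorem h8g_trace_two_eq_one (hT : ϕ (h8g_T p) = 1) (γ : Gamma0 p)
    (htr : (γ : SL(2, ℤ)) 0 0 + (γ : SL(2, ℤ)) 1 1 = 2) : ϕ γ = 1 := by
  obtain ⟨g, k, hg⟩ := h8g_trace_two (γ : SL(2, ℤ)) htr
  set r : SL(2, ℤ) := g⁻¹ with hr
  set m : ℕ := Function.minimalPeriod (ModularGroup.T • ·) (r : SL(2, ℤ) ⧸ Gamma0 p) with hm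
  have hγ : (γ : SL(2, ℤ)) = r⁻¹ * ModularGroup.T ^ k * r := by
    rw [hg, hr, inv_inv]
  have hfix : ModularGroup.T ^ k • (r : SL(2, ℤ) ⧸ Gamma0 p) = (r : SL(2, ℤ) ⧸ Gamma0 p) := by
    rw [MulAction.Quotient.smul_coe, eq_comm, QuotientGroup.eq, smul_eq_mul, ← mul_assoc, ← hγ]
    exact γ.2
  obtain ⟨j, hj⟩ := MulAction.zpow_smul_eq_iff_minimalPeriod_dvd.mp hfix
  have hpow : γ = (⟨r⁻¹ * ModularGroup.T ^ m * r, h8g_conj_mem (Gamma0 p) ModularGroup.T r⟩ :
      Gamma0 p) ^ j := by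
    apply Subtype.ext
    rw [Subgroup.coe_zpow, hγ]
    simp only
    rw [hj, zpow_mul, zpow_natCast]
    generalize ModularGroup.T ^ m = t
    exact (h8g_conj_zpow r t j).symm
  have hc := h8g_c_eq_one p ϕ hT r
  rw [h8g_c] at hc
  rw [hpow, map_zpow, hc, one_zpow]

theorem h8g_S_sq_eq_one : ϕ ⟨ModularGroup.S ^ 2, h8g_S_sq_mem p⟩ = 1 := by
  have h1 : ϕ ⟨ModularGroup.S ^ 2, h8g_S_sq_mem p⟩ ^ 2 = 1 ^ 2 := by
    rw [← map_pow, one_pow]
    have : (⟨ModularGroup.S ^ 2, h8g_S_sq_mem p⟩ : Gamma0 p) ^ 2 = 1 := by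
      apply Subtype.ext
      rw [Subgroup.coe_pow]
      simp only [Subgroup.coe_one]
      rw [← pow_mul]
      exact Fermat.Agent.H16E2.h16e2_S_pow_four
    rw [this, map_one]
  exact pow_left_injective (by norm_num : (2 : ℕ) ≠ 0) h1

/-- `ϕ` kills the elements of trace `±2` -/
theorem h8g_parabolic_eq_one (hT : ϕ (h8g_T p) = 1) (γ : Gamma0 p)
    (htr : (((γ : SL(2, ℤ)) : Matrix (Fin 2) (Fin 2) ℤ)).trace ^ 2 = 4) : ϕ γ = 1 := by
  rw [Matrix.trace_fin_two] at htr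
  have h2 : (γ : SL(2, ℤ)) 0 0 + (γ : SL(2, ℤ)) 1 1 = 2 ∨
      (γ : SL(2, ℤ)) 0 0 + (γ : SL(2, ℤ)) 1 1 = -2 := by
    have h3 : ((γ : SL(2, ℤ)) 0 0 + (γ : SL(2, ℤ)) 1 1 - 2) *
        ((γ : SL(2, ℤ)) 0 0 + (γ : SL(2, ℤ)) 1 1 + 2) = 0 := by
      linear_combination htr
    rcases mul_eq_zero.mp h3 with h | h
    · left; linarith
    · right; linarith
  rcases h2 with h | h
  · exact h8g_trace_two_eq_one p ϕ hT γ h
  · set s : Gamma0 p := ⟨ModularGroup.S ^ 2, h8g_S_sq_mem p⟩ with hs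
    have h5 : ((s * γ : Gamma0 p) : SL(2, ℤ)) 0 0 + ((s * γ : Gamma0 p) : SL(2, ℤ)) 1 1 = 2 := by
      rw [Subgroup.coe_mul, Matrix.SpecialLinearGroup.coe_mul]
      simp only [hs]
      rw [RH24.h8_S_sq_coe]
      simp only [Matrix.mul_apply, Fin.sum_univ_two, Matrix.of_apply, Matrix.cons_val',
        Matrix.cons_val_zero, Matrix.cons_val_one, Matrix.cons_val_fin_one]
      linarith
    have h6 := h8g_trace_two_eq_one p ϕ hT (s * γ) h5
    rw [map_mul, h8g_S_sq_eq_one, one_mul] at h6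
    exact h6

end Gamma0

/-- **(G2)** a homomorphism `Γ₀(p) → A` to a torsion-free abelian group which vanishes at `T`
is parabolic. -/
theorem h8g_isParabolicHom_of_T (p : ℕ) [Fact p.Prime] {A : Type*} [AddCommGroup A]
    [IsAddTorsionFree A] (ψ : Additive (Gamma0 p) →+ A)
    (hT : ψ (Additive.ofMul (h8g_T p)) = 0) :
    ModularCurve.Period.IsParabolicHom (Gamma0 p) ψ := by
  intro γ hγ
  have h := h8g_parabolic_eq_one p (AddMonoidHom.toMultiplicativeRight ψ)
    (by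
      show Multiplicative.ofAdd (ψ (Additive.ofMul (h8g_T p))) = 1
      rw [hT]
      rfl) γ hγ
  exact h

end H8S16
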