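import Fermat.Agent.S16.H21ADefs
import Fermat.Agent.S16.H8GroupPar

/-!
# S16, part (A), slice G2 (helper8), in the shape of NOTES/W2A-S16-A.md
-/

set_option autoImplicit false

noncomputable section

open UpperHalfPlane ModularForm CongruenceSubgroup ModularCurve ModularCurve.Period
open scoped MatrixGroups Manifold Real

namespace H21S16

variable (p : ℕ) [Fact p.Prime]

/-- G2, general coefficients -/
theorem h8g_parabolic_of_T_eq_zero' {A : Type*} [AddCommGroup A] [IsAddTorsionFree A]
    (ψ : Additive (Gamma0 p) →+ A) (h : ψ (Additive.ofMul (Tg p)) = 0) :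
    IsParabolicHom (Gamma0 p) ψ :=
  H8S16.h8g_isParabolicHom_of_T p ψ h

/-- G2 -/
theorem parabolic_of_T_eq_zero (ψ : Additive (Gamma0 p) →+ ℂ)
    (h : ψ (Additive.ofMul (Tg p)) = 0) : ψ ∈ parabolicHoms ℂ (Gamma0 p) ℂ :=
  mem_parabolicHoms_iff.mpr (h8g_parabolic_of_T_eq_zero' p ψ h)

end H21S16

end
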