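/-
S16, part (A), slice H1 (helper22): the period map is Hecke-equivariant,
`periodMap (T_ℓ f) = heckeOn p ℓ (periodMap f)` on `Γ₀(p)`.
-/
import Mathlib
import Fermat.Agent.S16.H21ADefs
import Fermat.Agent.RR.E1Prim
import Fermat.Agent.S22.HeckePeriod

set_option autoImplicit false
set_option linter.style.haveILetI false
set_option linter.unusedSectionVars false

noncomputable section

open UpperHalfPlane ModularForm CongruenceSubgroup ModularCurve ModularCurve.Period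
open scoped MatrixGroups Manifold Real
open P2MW.S_ModularForm_heckeU_slash_eq_self_of_mem_Gamma0.ModularForm.HeckeSlashInvariance

namespace H21S16

section general

variable {N : ℕ} [NeZero N]

/-- `prim f` is the Eichler integral of order one. -/
theorem h22a_prim_eq (f : CuspForm (Gamma0 N) 2) : H21E1.prim f = H22.eichler 1 1 ⇑f := by
  refine (H21E1.isPrimOf_prim f).unique ⟨fun τ => ?_, ?_⟩
  · have := H22.eichler_hasDerivAt one_pos (H22.cusp_periodic f) (H22.cusp_mdiff f)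
      (H22.cusp_isZeroAtImInfty f) 0 τ
    rwa [H22.eichler_zero one_pos (H22.cusp_periodic f) (H22.cusp_mdiff f)
      (H22.cusp_isZeroAtImInfty f)] at this
  · exact H22.eichler_isZeroAtImInfty one_pos (H22.cusp_periodic f) (H22.cusp_mdiff f)
      (H22.cusp_isZeroAtImInfty f) 1

/-- the general mechanism in weight `0`, pointwise. -/
theorem h22a_period_general {X : Type} [Fintype X] (F F' : ℍ → ℂ) (α : X → GL (Fin 2) ℝ)
    (hF' : ∀ z, F' z = ∑ x, F (α x • z))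
    (γ : SL(2, ℤ)) (perm : Equiv.Perm X) (γ' : X → SL(2, ℤ))
    (hmul : ∀ x, α x * (γ : GL (Fin 2) ℝ) = (γ' x : GL (Fin 2) ℝ) * α (perm x))
    (v : X → ℂ) (hv : ∀ x z, F ((γ' x) • z) - F z = v x) (z : ℍ) :
    F' (γ • z) - F' z = ∑ x, v x := by
  have h1 : F' (γ • z) = ∑ x, F ((γ' x) • (α (perm x) • z)) := by
    rw [hF']
    refine Finset.sum_congr rfl fun x _ => ?_
    have : α x • (γ • z) = (γ' x) • (α (perm x) • z) := by
      change α x • ((γ : GL (Fin 2) ℝ) • z) = (γ' x : GL (Fin 2) ℝ) • (α (perm x) • z)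
      rw [← mul_smul, ← mul_smul, hmul x]
    rw [this]
  have h2 : F' z = ∑ x, F (α (perm x) • z) := by
    rw [hF']
    exact (Equiv.sum_comp perm (fun x => F (α x • z))).symm
  rw [h1, h2, ← Finset.sum_sub_distrib]
  exact Finset.sum_congr rfl fun x _ => hv x _

theorem h22a_slash_heckeRep {ℓ : ℕ} [NeZero ℓ] (F : ℍ → ℂ) (x : OnePoint (ZMod ℓ)) (z : ℍ) :
    (F ∣[(0 : ℤ)] heckeRep ℓ x) z = (ℓ : ℂ)⁻¹ * F (heckeRep ℓ x • z) := by
  induction x using OnePoint.rec with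
  | infty =>
    rw [heckeRep_infty, slash_heckeDiagMatrix_apply 0 (NeZero.ne ℓ)]
    norm_num
  | coe j =>
    rw [heckeRep_coe, slash_heckeMatrix_apply 0 (NeZero.ne ℓ)]

/-- Hecke relation for `T_ℓ` on periods. -/
theorem h22a_periodMap_heckeT {ℓ : ℕ} [Fact ℓ.Prime] (hℓ : ℓ.Prime) (hℓN : ¬ ℓ ∣ N)
    (f : CuspForm (Gamma0 N) 2) (γ : Gamma0 N) :
    periodMap N (CuspForm.heckeTLin 2 hℓ hℓN f) (Additive.ofMul γ) =
      ∑ x : OnePoint (ZMod ℓ), periodMap N f (Additive.ofMul (transT hℓN γ x)) := by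
  haveI : NeZero ℓ := ⟨hℓ.ne_zero⟩
  have hℓc : (ℓ : ℂ) ≠ 0 := by exact_mod_cast hℓ.ne_zero
  have hE := H22.eichler_heckeT 0 hℓ hℓN f
  rw [H21E1.periodMap_apply _ γ UpperHalfPlane.I]
  refine (h22a_period_general (H21E1.prim f) (H21E1.prim (CuspForm.heckeTLin 2 hℓ hℓN f))
    (heckeRep ℓ) ?_ (γ : SL(2, ℤ)) (MulAction.toPerm (redMatrix ℓ (γ : SL(2, ℤ))))
    (fun x => ((transT hℓN γ x : Gamma0 N) : SL(2, ℤ))) (fun x => transT_spec hℓN γ x)
    (fun x => periodMap N f (Additive.ofMul (transT hℓN γ x)))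
    (fun x z => (H21E1.periodMap_apply f (transT hℓN γ x) z).symm) UpperHalfPlane.I)
  intro z
  rw [h22a_prim_eq, h22a_prim_eq]
  have hE' : H22.eichler 1 1 ⇑(CuspForm.heckeTLin 2 hℓ hℓN f) =
      (ℓ : ℂ) • ModularForm.heckeT 0 ℓ (H22.eichler 1 1 ⇑f) := by
    simpa using hE
  rw [hE', heckeT_eq_sum_onePoint, Pi.smul_apply, Finset.sum_apply, smul_eq_mul, Finset.mul_sum]
  refine Finset.sum_congr rfl fun x _ => ?_
  rw [h22a_slash_heckeRep, ← mul_assoc, mul_inv_cancel₀ hℓc, one_mul]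

/-- Hecke relation for `U_q` on periods. -/
theorem h22a_periodMap_heckeU {q : ℕ} [NeZero q] (hqN : q ∣ N)
    (f : CuspForm (Gamma0 N) 2) (γ : Gamma0 N) :
    periodMap N (CuspForm.heckeULin 2 hqN f) (Additive.ofMul γ) =
      ∑ x : ZMod q, periodMap N f (Additive.ofMul (transU hqN γ x)) := by
  have hqc : (q : ℂ) ≠ 0 := by exact_mod_cast NeZero.ne q
  have hE := H22.eichler_heckeU 0 hqN f
  rw [H21E1.periodMap_apply _ γ UpperHalfPlane.I]
  refine (h22a_period_general (H21E1.prim f) (H21E1.prim (CuspForm.heckeULin 2 hqN f))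
    (fun x : ZMod q => ModularForm.heckeMatrix q x.val) ?_ (γ : SL(2, ℤ))
    (affinePerm (γ : SL(2, ℤ))
      ((ZMod.intCast_zmod_eq_zero_iff_dvd _ _).mpr (dvd_of_dvd_of_mem_Gamma0 hqN γ)))
    (fun x => ((transU hqN γ x : Gamma0 N) : SL(2, ℤ))) (fun x => transU_spec hqN γ x)
    (fun x => periodMap N f (Additive.ofMul (transU hqN γ x)))
    (fun x z => (H21E1.periodMap_apply f (transU hqN γ x) z).symm) UpperHalfPlane.I)
  intro z
  rw [h22a_prim_eq, h22a_prim_eq]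
  have hE' : H22.eichler 1 1 ⇑(CuspForm.heckeULin 2 hqN f) =
      (q : ℂ) • ModularForm.heckeU 0 q (H22.eichler 1 1 ⇑f) := by
    simpa using hE
  rw [hE', heckeU_eq_sum_zmod, Pi.smul_apply, Finset.sum_apply, smul_eq_mul, Finset.mul_sum]
  refine Finset.sum_congr rfl fun x _ => ?_
  rw [slash_heckeMatrix_apply 0 (NeZero.ne q), ← mul_assoc, mul_inv_cancel₀ hqc, one_mul]

end general

variable (p : ℕ) [Fact p.Prime]

/-- **H1**: the period map is Hecke-equivariant -/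
theorem periodMap_heckeOn (ℓ : Nat.Primes) (f : CuspForm (Gamma0 p) 2) :
    toFun' p (periodMap p
        (((CuspForm.heckeFormsGen p 2 ℓ : CuspForm.heckeAlgebra p 2 ∅) :
          Module.End ℂ (CuspForm (Gamma0 p) 2)) f))
      = heckeOn p ℓ (toFun' p (periodMap p f)) := by
  haveI : Fact (ℓ : ℕ).Prime := ⟨ℓ.2⟩
  haveI : NeZero (ℓ : ℕ) := ⟨ℓ.2.ne_zero⟩
  funext γ
  unfold heckeOn toFun'
  by_cases h : (ℓ : ℕ) ∣ p
  · rw [dif_pos h, CuspForm.heckeFormsGen_of_dvd h, CuspForm.heckeAlgebra.coe_U]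
    exact h22a_periodMap_heckeU h f γ
  · rw [dif_neg h, CuspForm.heckeFormsGen_of_not_dvd h, CuspForm.heckeAlgebra.coe_T]
    exact h22a_periodMap_heckeT ℓ.2 h f γ

end H21S16
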