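/-
S16 part (A), slice H2 (helper27): the Hecke operators on functions `Γ₀(p) → B` commute with the
involution `γ ↦ J γ J`, `J = diag(1, -1)`.

`H21S16.heckeOn_jConj`.
-/
import Mathlib
import Fermat.Agent.S16.H21ADefs

set_option autoImplicit false
set_option linter.unusedSectionVars false

noncomputable section

open UpperHalfPlane ModularForm CongruenceSubgroup ModularCurve ModularCurve.Period
open scoped MatrixGroups Manifold Real
open P2MW.S_ModularForm_heckeU_slash_eq_self_of_mem_Gamma0.ModularForm.HeckeSlashInvariance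
open Matrix.SpecialLinearGroup OnePoint

namespace H21S16

section matrices

/-- `J = diag(1, -1)` -/
def h27h2_J : GL (Fin 2) ℝ :=
  Matrix.GeneralLinearGroup.mkOfDetNeZero !![1, 0; 0, -1] (by simp [Matrix.det_fin_two_of])

theorem h27h2_J_val : (h27h2_J : Matrix (Fin 2) (Fin 2) ℝ) = !![1, 0; 0, -1] := rfl

theorem h27h2_J_mul_J : h27h2_J * h27h2_J = 1 := by
  apply Units.ext
  rw [Units.val_mul, h27h2_J_val]
  ext i j
  fin_cases i <;> fin_cases j <;> simp [Matrix.mul_apply, Fin.sum_univ_two]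

theorem h27h2_mapGL_jConj (g : SL(2, ℤ)) :
    mapGL ℝ (jConjSL g) = h27h2_J * mapGL ℝ g * h27h2_J := by
  apply Units.ext
  rw [Units.val_mul, Units.val_mul, h27h2_J_val]
  ext i j
  fin_cases i <;> fin_cases j <;>
    simp [Matrix.mul_apply, Fin.sum_univ_two, jConjMat, Matrix.vecMul, dotProduct]

theorem h27h2_Tzpow_mem (N : ℕ) (m : ℤ) : ModularGroup.T ^ m ∈ Gamma0 N := by
  rw [Gamma0_mem, ModularGroup.coe_T_zpow]
  simp

/-- `J [[1, x], [0, q]] J = T^m [[1, -x], [0, q]]` -/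
theorem h27h2_exists_tau_matrix (N : ℕ) {q : ℕ} [NeZero q] (x : ZMod q) :
    ∃ t : Gamma0 N, h27h2_J * heckeMatrix q x.val * h27h2_J
      = mapGL ℝ (t : SL(2, ℤ)) * heckeMatrix q (-x).val := by
  obtain ⟨e, he⟩ : (q : ℤ) ∣ (x.val : ℤ) + ((-x).val : ℤ) := by
    rw [← ZMod.intCast_zmod_eq_zero_iff_dvd]
    push_cast
    simp
  refine ⟨⟨ModularGroup.T ^ (-e), h27h2_Tzpow_mem N (-e)⟩, ?_⟩
  have hq : q ≠ 0 := NeZero.ne q
  have he' : ((x.val : ℝ)) + ((-x).val : ℝ) = (q : ℝ) * (e : ℝ) := by exact_mod_cast he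
  apply Units.ext
  rw [Units.val_mul, Units.val_mul, Units.val_mul, h27h2_J_val, val_heckeMatrix hq,
    val_heckeMatrix hq]
  show _ = ((ModularGroup.T ^ (-e) : SL(2, ℤ)) : Matrix (Fin 2) (Fin 2) ℤ).map _ * _
  rw [ModularGroup.coe_T_zpow]
  ext i j
  fin_cases i <;> fin_cases j <;>
    simp [Matrix.mul_apply, Fin.sum_univ_two, -ZMod.natCast_val]
  linear_combination -he'

end matrices

section Ucase

variable {N q : ℕ} [NeZero q]

/-- the translation `τ x` with `J α_x J = τ_x α_{-x}` -/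
def h27h2_tauU (N : ℕ) {q : ℕ} [NeZero q] (x : ZMod q) : Gamma0 N :=
  Classical.choose (h27h2_exists_tau_matrix N x)

theorem h27h2_tauU_spec (N : ℕ) {q : ℕ} [NeZero q] (x : ZMod q) :
    h27h2_J * heckeMatrix q x.val * h27h2_J
      = mapGL ℝ ((h27h2_tauU N x : Gamma0 N) : SL(2, ℤ)) * heckeMatrix q (-x).val :=
  Classical.choose_spec (h27h2_exists_tau_matrix N x)

theorem h27h2_affinePerm_jConj (g : SL(2, ℤ)) (hc : ((g 1 0 : ℤ) : ZMod q) = 0)
    (hc' : (((jConjSL g) 1 0 : ℤ) : ZMod q) = 0) (x : ZMod q) :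
    affinePerm (jConjSL g) hc' (-x) = - affinePerm g hc x := by
  rw [affinePerm_apply, affinePerm_apply]
  have h1 : (jConjSL g) 1 1 = g 1 1 := by
    show jConjMat (g : Matrix (Fin 2) (Fin 2) ℤ) 1 1 = _
    simp
  have h2 : (jConjSL g) 0 1 = - g 0 1 := by
    show jConjMat (g : Matrix (Fin 2) (Fin 2) ℤ) 0 1 = _
    simp
  rw [h1, h2]
  push_cast
  ring

theorem h27h2_transU_jConj (hqN : q ∣ N) (γ : Gamma0 N) (x : ZMod q) :
    h27h2_tauU N x * transU hqN (jConjGamma0 N γ) (-x)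
      = jConjGamma0 N (transU hqN γ x) * h27h2_tauU N (affinePerm (γ : SL(2, ℤ))
          ((ZMod.intCast_zmod_eq_zero_iff_dvd _ _).mpr (dvd_of_dvd_of_mem_Gamma0 hqN γ)) x) := by
  set y := affinePerm (γ : SL(2, ℤ))
    ((ZMod.intCast_zmod_eq_zero_iff_dvd _ _).mpr (dvd_of_dvd_of_mem_Gamma0 hqN γ)) x with hy
  apply Subtype.ext
  apply mapGL_injective (S := ℝ)
  have h1 := transU_spec hqN (jConjGamma0 N γ) (-x)
  have h2 := transU_spec hqN γ x
  have h3 := h27h2_tauU_spec N x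
  have h4 := h27h2_tauU_spec N y
  have hy' : affinePerm ((jConjGamma0 N γ : Gamma0 N) : SL(2, ℤ))
      ((ZMod.intCast_zmod_eq_zero_iff_dvd _ _).mpr
        (dvd_of_dvd_of_mem_Gamma0 hqN (jConjGamma0 N γ))) (-x) = -y :=
    h27h2_affinePerm_jConj _ _ _ x
  rw [hy'] at h1
  rw [← hy] at h2
  have hJ := h27h2_J_mul_J
  refine mul_right_cancel (b := heckeMatrix q (-y).val) ?_
  simp only [Subgroup.coe_mul, map_mul, jConjGamma0_coe, h27h2_mapGL_jConj] at h1 ⊢
  calc mapGL ℝ ((h27h2_tauU N x : Gamma0 N) : SL(2, ℤ))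
        * mapGL ℝ ((transU hqN (jConjGamma0 N γ) (-x) : Gamma0 N) : SL(2, ℤ))
        * heckeMatrix q (-y).val
      = mapGL ℝ ((h27h2_tauU N x : Gamma0 N) : SL(2, ℤ)) * (heckeMatrix q (-x).val
          * (h27h2_J * mapGL ℝ (γ : SL(2, ℤ)) * h27h2_J)) := by
        rw [h1, mul_assoc]
    _ = (h27h2_J * heckeMatrix q x.val * h27h2_J)
          * (h27h2_J * mapGL ℝ (γ : SL(2, ℤ)) * h27h2_J) := by
        rw [h3]; simp only [mul_assoc]
    _ = h27h2_J * (heckeMatrix q x.val * mapGL ℝ (γ : SL(2, ℤ))) * h27h2_J := by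
        calc (h27h2_J * heckeMatrix q x.val * h27h2_J)
              * (h27h2_J * mapGL ℝ (γ : SL(2, ℤ)) * h27h2_J)
            = h27h2_J * heckeMatrix q x.val * (h27h2_J * h27h2_J)
              * mapGL ℝ (γ : SL(2, ℤ)) * h27h2_J := by group
          _ = _ := by rw [hJ]; group
    _ = h27h2_J * (mapGL ℝ ((transU hqN γ x : Gamma0 N) : SL(2, ℤ)) * heckeMatrix q y.val)
          * h27h2_J := by rw [h2]
    _ = (h27h2_J * mapGL ℝ ((transU hqN γ x : Gamma0 N) : SL(2, ℤ)) * h27h2_J)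
          * (h27h2_J * heckeMatrix q y.val * h27h2_J) := by
        calc h27h2_J * (mapGL ℝ ((transU hqN γ x : Gamma0 N) : SL(2, ℤ)) * heckeMatrix q y.val)
              * h27h2_J
            = h27h2_J * mapGL ℝ ((transU hqN γ x : Gamma0 N) : SL(2, ℤ)) * 1
              * heckeMatrix q y.val * h27h2_J := by group
          _ = _ := by rw [← hJ]; group
    _ = _ := by rw [h4]; simp only [mul_assoc]

theorem h27h2_heckeUFun_jConj (hqN : q ∣ N) {B : Type*} [AddCommGroup B]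
    (ψ : Additive (Gamma0 N) →+ B) (γ : Gamma0 N) :
    heckeUFun hqN (fun δ => ψ (Additive.ofMul (jConjGamma0 N δ))) γ
      = heckeUFun hqN (fun δ => ψ (Additive.ofMul δ)) (jConjGamma0 N γ) := by
  unfold heckeUFun
  set σ := affinePerm (γ : SL(2, ℤ))
    ((ZMod.intCast_zmod_eq_zero_iff_dvd _ _).mpr (dvd_of_dvd_of_mem_Gamma0 hqN γ)) with hσdef
  have hpt : ∀ x : ZMod q,
      ψ (Additive.ofMul (h27h2_tauU N x))
        + ψ (Additive.ofMul (transU hqN (jConjGamma0 N γ) (-x)))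
      = ψ (Additive.ofMul (jConjGamma0 N (transU hqN γ x)))
        + ψ (Additive.ofMul (h27h2_tauU N (σ x))) := by
    intro x
    have e := congrArg (fun δ : Gamma0 N => ψ (Additive.ofMul δ)) (h27h2_transU_jConj hqN γ x)
    simp only [ofMul_mul, map_add] at e
    exact e
  have hsum : ∑ x : ZMod q, (ψ (Additive.ofMul (h27h2_tauU N x))
        + ψ (Additive.ofMul (transU hqN (jConjGamma0 N γ) (-x))))
      = ∑ x : ZMod q, (ψ (Additive.ofMul (jConjGamma0 N (transU hqN γ x)))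
        + ψ (Additive.ofMul (h27h2_tauU N (σ x)))) :=
    Finset.sum_congr rfl fun x _ => hpt x
  rw [Finset.sum_add_distrib, Finset.sum_add_distrib] at hsum
  have hσ : ∑ x : ZMod q, ψ (Additive.ofMul (h27h2_tauU N (σ x)))
      = ∑ x : ZMod q, ψ (Additive.ofMul (h27h2_tauU N x)) :=
    Equiv.sum_comp σ (fun x => ψ (Additive.ofMul (h27h2_tauU N x)))
  have hneg : ∑ x : ZMod q, ψ (Additive.ofMul (transU hqN (jConjGamma0 N γ) (-x)))
      = ∑ x : ZMod q, ψ (Additive.ofMul (transU hqN (jConjGamma0 N γ) x)) :=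
    Equiv.sum_comp (Equiv.neg (ZMod q))
      (fun x => ψ (Additive.ofMul (transU hqN (jConjGamma0 N γ) x)))
  rw [hσ, hneg, add_comm] at hsum
  exact (add_right_cancel hsum).symm

end Ucase

section Tcase

variable {N ℓ : ℕ} [Fact ℓ.Prime]

/-- `x ↦ -x` on `ℙ¹(𝔽_ℓ)` -/
def h27h2_negP (ℓ : ℕ) : Equiv.Perm (OnePoint (ZMod ℓ)) where
  toFun x := x.elim (∞ : OnePoint (ZMod ℓ)) (fun j => ((-j : ZMod ℓ) : OnePoint (ZMod ℓ)))
  invFun x := x.elim (∞ : OnePoint (ZMod ℓ)) (fun j => ((-j : ZMod ℓ) : OnePoint (ZMod ℓ)))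
  left_inv x := by
    induction x using OnePoint.rec with
    | infty => rfl
    | coe j => simp
  right_inv x := by
    induction x using OnePoint.rec with
    | infty => rfl
    | coe j => simp

@[simp] theorem h27h2_negP_infty : h27h2_negP ℓ (∞ : OnePoint (ZMod ℓ)) = ∞ := rfl

@[simp] theorem h27h2_negP_coe (j : ZMod ℓ) :
    h27h2_negP ℓ (j : OnePoint (ZMod ℓ)) = ((-j : ZMod ℓ) : OnePoint (ZMod ℓ)) := rfl

theorem h27h2_exists_tau_rep (N : ℕ) (x : OnePoint (ZMod ℓ)) :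
    ∃ t : Gamma0 N, h27h2_J * heckeRep ℓ x * h27h2_J
      = mapGL ℝ (t : SL(2, ℤ)) * heckeRep ℓ (h27h2_negP ℓ x) := by
  have hℓ : ℓ ≠ 0 := (Fact.out : ℓ.Prime).ne_zero
  induction x using OnePoint.rec with
  | infty =>
    refine ⟨1, ?_⟩
    rw [h27h2_negP_infty, heckeRep_infty, OneMemClass.coe_one, map_one, one_mul]
    apply Units.ext
    rw [Units.val_mul, Units.val_mul, h27h2_J_val, val_heckeDiagMatrix hℓ]
    ext i j
    fin_cases i <;> fin_cases j <;> simp [Matrix.mul_apply, Fin.sum_univ_two]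
  | coe j =>
    rw [h27h2_negP_coe, heckeRep_coe, heckeRep_coe]
    exact h27h2_exists_tau_matrix N j

/-- the translation `τ x` with `J α_x J = τ_x α_{-x}` -/
def h27h2_tauT (N : ℕ) (x : OnePoint (ZMod ℓ)) : Gamma0 N :=
  Classical.choose (h27h2_exists_tau_rep N x)

theorem h27h2_tauT_spec (N : ℕ) (x : OnePoint (ZMod ℓ)) :
    h27h2_J * heckeRep ℓ x * h27h2_J
      = mapGL ℝ ((h27h2_tauT N x : Gamma0 N) : SL(2, ℤ)) * heckeRep ℓ (h27h2_negP ℓ x) :=
  Classical.choose_spec (h27h2_exists_tau_rep N x)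

theorem h27h2_redMatrix_jConj (g : SL(2, ℤ)) (x : OnePoint (ZMod ℓ)) :
    redMatrix ℓ (jConjSL g) • (h27h2_negP ℓ x) = h27h2_negP ℓ (redMatrix ℓ g • x) := by
  have h00 : (jConjSL g) 0 0 = g 0 0 := by
    show jConjMat (g : Matrix (Fin 2) (Fin 2) ℤ) 0 0 = _
    simp
  have h01 : (jConjSL g) 0 1 = - g 0 1 := by
    show jConjMat (g : Matrix (Fin 2) (Fin 2) ℤ) 0 1 = _
    simp
  have h10 : (jConjSL g) 1 0 = - g 1 0 := by
    show jConjMat (g : Matrix (Fin 2) (Fin 2) ℤ) 1 0 = _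
    simp
  have h11 : (jConjSL g) 1 1 = g 1 1 := by
    show jConjMat (g : Matrix (Fin 2) (Fin 2) ℤ) 1 1 = _
    simp
  induction x using OnePoint.rec with
  | infty =>
    rw [h27h2_negP_infty, OnePoint.smul_infty_eq_ite, OnePoint.smul_infty_eq_ite,
      redMatrix_apply_one_zero, redMatrix_apply_one_zero, redMatrix_apply_zero_zero,
      redMatrix_apply_zero_zero, h10, h11]
    by_cases hc : ((g 1 0 : ℤ) : ZMod ℓ) = 0
    · rw [if_pos hc, if_pos (by push_cast; rw [hc, neg_zero])]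
      rfl
    · rw [if_neg hc, if_neg (by push_cast; simpa using hc)]
      rw [h27h2_negP_coe]
      push_cast
      rw [div_neg]
  | coe j =>
    rw [h27h2_negP_coe, OnePoint.smul_some_eq_ite, OnePoint.smul_some_eq_ite,
      redMatrix_apply_one_zero, redMatrix_apply_one_zero, redMatrix_apply_zero_zero,
      redMatrix_apply_zero_zero, redMatrix_apply_one_one, redMatrix_apply_one_one,
      redMatrix_apply_zero_one, redMatrix_apply_zero_one, h00, h01, h10, h11]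
    have e1 : ((-(g 1 0) : ℤ) : ZMod ℓ) * (-j) + ((g 0 0 : ℤ) : ZMod ℓ)
        = ((g 1 0 : ℤ) : ZMod ℓ) * j + ((g 0 0 : ℤ) : ZMod ℓ) := by push_cast; ring
    have e2 : ((g 1 1 : ℤ) : ZMod ℓ) * (-j) + ((-(g 0 1) : ℤ) : ZMod ℓ)
        = -(((g 1 1 : ℤ) : ZMod ℓ) * j + ((g 0 1 : ℤ) : ZMod ℓ)) := by push_cast; ring
    rw [e1, e2]
    by_cases hc : ((g 1 0 : ℤ) : ZMod ℓ) * j + ((g 0 0 : ℤ) : ZMod ℓ) = 0
    · rw [if_pos hc, if_pos hc]
      rfl
    · rw [if_neg hc, if_neg hc, h27h2_negP_coe, neg_div]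

theorem h27h2_transT_jConj (hℓN : ¬ ℓ ∣ N) (γ : Gamma0 N) (x : OnePoint (ZMod ℓ)) :
    h27h2_tauT N x * transT hℓN (jConjGamma0 N γ) (h27h2_negP ℓ x)
      = jConjGamma0 N (transT hℓN γ x) * h27h2_tauT N (redMatrix ℓ (γ : SL(2, ℤ)) • x) := by
  set y := redMatrix ℓ (γ : SL(2, ℤ)) • x with hy
  apply Subtype.ext
  apply mapGL_injective (S := ℝ)
  have h1 := transT_spec hℓN (jConjGamma0 N γ) (h27h2_negP ℓ x)
  have h2 := transT_spec hℓN γ x
  have h3 := h27h2_tauT_spec N x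
  have h4 := h27h2_tauT_spec N y
  have hy' : redMatrix ℓ ((jConjGamma0 N γ : Gamma0 N) : SL(2, ℤ)) • (h27h2_negP ℓ x)
      = h27h2_negP ℓ y := h27h2_redMatrix_jConj _ x
  rw [hy'] at h1
  rw [← hy] at h2
  have hJ := h27h2_J_mul_J
  refine mul_right_cancel (b := heckeRep ℓ (h27h2_negP ℓ y)) ?_
  simp only [Subgroup.coe_mul, map_mul, jConjGamma0_coe, h27h2_mapGL_jConj] at h1 ⊢
  calc mapGL ℝ ((h27h2_tauT N x : Gamma0 N) : SL(2, ℤ))
        * mapGL ℝ ((transT hℓN (jConjGamma0 N γ) (h27h2_negP ℓ x) : Gamma0 N) : SL(2, ℤ))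
        * heckeRep ℓ (h27h2_negP ℓ y)
      = mapGL ℝ ((h27h2_tauT N x : Gamma0 N) : SL(2, ℤ)) * (heckeRep ℓ (h27h2_negP ℓ x)
          * (h27h2_J * mapGL ℝ (γ : SL(2, ℤ)) * h27h2_J)) := by
        rw [h1, mul_assoc]
    _ = (h27h2_J * heckeRep ℓ x * h27h2_J)
          * (h27h2_J * mapGL ℝ (γ : SL(2, ℤ)) * h27h2_J) := by
        rw [h3]; simp only [mul_assoc]
    _ = h27h2_J * (heckeRep ℓ x * mapGL ℝ (γ : SL(2, ℤ))) * h27h2_J := by
        calc (h27h2_J * heckeRep ℓ x * h27h2_J)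
              * (h27h2_J * mapGL ℝ (γ : SL(2, ℤ)) * h27h2_J)
            = h27h2_J * heckeRep ℓ x * (h27h2_J * h27h2_J)
              * mapGL ℝ (γ : SL(2, ℤ)) * h27h2_J := by group
          _ = _ := by rw [hJ]; group
    _ = h27h2_J * (mapGL ℝ ((transT hℓN γ x : Gamma0 N) : SL(2, ℤ)) * heckeRep ℓ y)
          * h27h2_J := by rw [h2]
    _ = (h27h2_J * mapGL ℝ ((transT hℓN γ x : Gamma0 N) : SL(2, ℤ)) * h27h2_J)
          * (h27h2_J * heckeRep ℓ y * h27h2_J) := by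
        calc h27h2_J * (mapGL ℝ ((transT hℓN γ x : Gamma0 N) : SL(2, ℤ)) * heckeRep ℓ y)
              * h27h2_J
            = h27h2_J * mapGL ℝ ((transT hℓN γ x : Gamma0 N) : SL(2, ℤ)) * 1
              * heckeRep ℓ y * h27h2_J := by group
          _ = _ := by rw [← hJ]; group
    _ = _ := by rw [h4]; simp only [mul_assoc]

theorem h27h2_heckeTFun_jConj (hℓN : ¬ ℓ ∣ N) {B : Type*} [AddCommGroup B]
    (ψ : Additive (Gamma0 N) →+ B) (γ : Gamma0 N) :
    heckeTFun hℓN (fun δ => ψ (Additive.ofMul (jConjGamma0 N δ))) γ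
      = heckeTFun hℓN (fun δ => ψ (Additive.ofMul δ)) (jConjGamma0 N γ) := by
  unfold heckeTFun
  set σ : Equiv.Perm (OnePoint (ZMod ℓ)) := MulAction.toPerm (redMatrix ℓ (γ : SL(2, ℤ)))
    with hσdef
  have hpt : ∀ x : OnePoint (ZMod ℓ),
      ψ (Additive.ofMul (h27h2_tauT N x))
        + ψ (Additive.ofMul (transT hℓN (jConjGamma0 N γ) (h27h2_negP ℓ x)))
      = ψ (Additive.ofMul (jConjGamma0 N (transT hℓN γ x)))
        + ψ (Additive.ofMul (h27h2_tauT N (σ x))) := by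
    intro x
    have e := congrArg (fun δ : Gamma0 N => ψ (Additive.ofMul δ)) (h27h2_transT_jConj hℓN γ x)
    simp only [ofMul_mul, map_add] at e
    exact e
  have hsum : ∑ x : OnePoint (ZMod ℓ), (ψ (Additive.ofMul (h27h2_tauT N x))
        + ψ (Additive.ofMul (transT hℓN (jConjGamma0 N γ) (h27h2_negP ℓ x))))
      = ∑ x : OnePoint (ZMod ℓ), (ψ (Additive.ofMul (jConjGamma0 N (transT hℓN γ x)))
        + ψ (Additive.ofMul (h27h2_tauT N (σ x)))) :=
    Finset.sum_congr rfl fun x _ => hpt x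
  rw [Finset.sum_add_distrib, Finset.sum_add_distrib] at hsum
  have hσ : ∑ x : OnePoint (ZMod ℓ), ψ (Additive.ofMul (h27h2_tauT N (σ x)))
      = ∑ x : OnePoint (ZMod ℓ), ψ (Additive.ofMul (h27h2_tauT N x)) :=
    Equiv.sum_comp σ (fun x => ψ (Additive.ofMul (h27h2_tauT N x)))
  have hneg : ∑ x : OnePoint (ZMod ℓ),
        ψ (Additive.ofMul (transT hℓN (jConjGamma0 N γ) (h27h2_negP ℓ x)))
      = ∑ x : OnePoint (ZMod ℓ), ψ (Additive.ofMul (transT hℓN (jConjGamma0 N γ) x)) :=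
    Equiv.sum_comp (h27h2_negP ℓ)
      (fun x => ψ (Additive.ofMul (transT hℓN (jConjGamma0 N γ) x)))
  rw [hσ, hneg, add_comm] at hsum
  exact (add_right_cancel hsum).symm

end Tcase

section final

variable (p : ℕ) [Fact p.Prime]

/-- **H2**: the Hecke operators commute with the involution `γ ↦ J γ J`. -/
theorem heckeOn_jConj (ℓ : Nat.Primes) {B : Type*} [AddCommGroup B]
    (ψ : Additive (Gamma0 p) →+ B) (γ : Gamma0 p) :
    heckeOn p ℓ (toFun' p (charInvolution p ℤ B ψ)) γ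
      = heckeOn p ℓ (toFun' p ψ) (jConjGamma0 p γ) := by
  have : Fact (ℓ : ℕ).Prime := ⟨ℓ.2⟩
  have : NeZero (ℓ : ℕ) := ⟨ℓ.2.ne_zero⟩
  unfold heckeOn
  by_cases h : (ℓ : ℕ) ∣ p
  · simp only [dif_pos h]
    exact h27h2_heckeUFun_jConj h ψ γ
  · simp only [dif_neg h]
    exact h27h2_heckeTFun_jConj h ψ γ

end final

end H21S16

end
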