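/-
S16 (Eisenstein ideal index), part (A) = lower bound: WIRING of the landed slices (helper21).

`lowerBound_of_DR2_C` : `LowerBound p` from the integral structure (S23), Eichler–Shimura (S21)
and the two slices DR2 (`φ` is an Eisenstein eigenvector) and C (content of `φ`), using the landed
slices H1 (helper22), H2 (helper27), DR1 + DR1' (helper15), G1 + G2 (helper8).
-/
import Fermat.Agent.S16.A_ASM_helper21
import Fermat.Agent.S16.A_H1_helper22
import Fermat.Agent.S16.A_H2_helper27
import Fermat.Agent.S16.A_G1_helper8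
import Fermat.Agent.S16.A_G2_helper8
import Fermat.Agent.S16.A_DR1_helper15

set_option autoImplicit false

noncomputable section

open UpperHalfPlane ModularForm CongruenceSubgroup ModularCurve ModularCurve.Period
open scoped MatrixGroups Manifold Real

namespace H21S16

variable (p : ℕ) [Fact p.Prime]

/-- the statement of slice DR2 -/
def DR2Statement : Prop :=
  ∀ (φ : Additive (Gamma0 p) →+ ℤ), IsDR p φ → ∀ ℓ : Nat.Primes,
    heckeOn p ℓ (toFun' p φ) = fun γ => eisensteinSystem p ℓ * φ (Additive.ofMul γ)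

/-- the statement of slice C -/
def CStatement : Prop :=
  ∀ (φ : Additive (Gamma0 p) →+ ℤ), IsDR p φ → ∀ e : ℕ,
    (∀ γ : Gamma0 p, (e : ℤ) ∣ φ (Additive.ofMul γ)) → e ∣ Nat.gcd (p - 1) 12

theorem lowerBound_of_DR2_C (hint : CuspForm.HasIntegralStructure p 2)
    (hES : LinearMap.range (periodHomPair p) = parabolicHoms ℂ (Gamma0 p) ℂ)
    (hDR2 : DR2Statement p) (hC : CStatement p) : LowerBound p := by
  obtain ⟨φ, hφ⟩ := exists_isDR p
  obtain ⟨ψ₁, hψ₁⟩ := exists_psi_one p
  exact lowerBound_of_slices p hint hES (periodMap_heckeOn p)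
    (fun ℓ ψ γ => heckeOn_jConj p ℓ ψ γ) φ (isDR_T p φ hφ) (hDR2 φ hφ) (hC φ hφ) ψ₁ hψ₁
    (parabolic_of_T_eq_zero p)

end H21S16

end
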