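/-
S16 (Eisenstein ideal index), part (A) = lower bound: FINAL WIRING (helper21).

`lowerBound_of_C` : `LowerBound p` from slice C alone; everything else is landed:
S21 (Eichler–Shimura), S23 (integral structure), H1 (helper22), H2 (helper27), DR1 + DR1' (helper15),
DR2 (helper6), G1 + G2 (helper8), assembly (helper21).
-/
import Fermat.Agent.S16.A_Main_helper21
import Fermat.Agent.S16.A_DR2_helper6
import Fermat.Agent.S21
import Fermat.Agent.S23

set_option autoImplicit false

noncomputable section

open UpperHalfPlane ModularForm CongruenceSubgroup ModularCurve ModularCurve.Period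
open scoped MatrixGroups Manifold Real

namespace H21S16

variable (p : ℕ) [Fact p.Prime]

theorem dr2Statement : DR2Statement p := fun φ h ℓ => isDR_heckeOn p φ h ℓ

theorem lowerBound_of_C (hC : CStatement p) : LowerBound p :=
  lowerBound_of_DR2_C p (Fermat.Agent.S23.result p) (Fermat.Agent.S21.result p).2
    (dr2Statement p) hC

end H21S16

end
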