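/-
S16 (Eisenstein ideal index), part (A): the LOWER BOUND, unconditional (helper21, wiring).

`H21S16.lowerBound p : LowerBound p`, i.e. every polynomial relation `P` among the Hecke operators
on the integral cusp forms of level `p` satisfies `n ∣ P(eisensteinSystem)`,
`n = (p - 1) / gcd (p - 1, 12)`.

Slices: S21 (Eichler–Shimura, T-RR), S23 (integral structure), H1 (helper22), H2 (helper27),
DR1 + DR1' (helper15), DR2 (helper6), C (helper29 + helper23 + helper11 + helper13),
G1 + G2 (helper8), assembly (helper21).
-/
import Fermat.Agent.S16.A_Final_helper21
import Fermat.Agent.S16.A_C_helper29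

set_option autoImplicit false

noncomputable section

namespace H21S16

variable (p : ℕ) [Fact p.Prime]

theorem cStatement : CStatement p := fun φ h e he => isDR_content p φ h e he

/-- **S16, part (A)** -/
theorem lowerBound : LowerBound p := lowerBound_of_C p (cStatement p)

end H21S16

end
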