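import Mathlib
import Fermat.Prelude.Def_ModularForm_HeckeOperator

/-!
# S16, part (B), slice B2 (helper12): the key identity `G ∣[2] W_p = - U_p G`

For a prime `p` and `G ∈ M₂(Γ₀(p))`:

* `H12B2.trace_eq` : `0 = G + Σ_{j < p} G ∣[2] (S T^j)` (trace to level one, `M₂(SL₂(ℤ)) = 0`);
* `H12B2.trace_identity` : `G + U_p (G ∣[2] W_p) = 0`;
* `H12B2.conj_Gamma0` : `W_p` normalises `Γ₀(p)`; `H12B2.fricke` : `G ∣[k] W_p ∈ M_k(Γ₀(p))`;
* `H12B2.slash_Wp_eq_neg_heckeU` : `G ∣[2] W_p = - heckeU 2 p G`.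

Here `W_p = [[0,-1],[p,0]]` and the slash action is Mathlib's (`|det|^(k-1)` normalisation).
-/

set_option autoImplicit false
set_option linter.style.haveILetI false

open UpperHalfPlane ModularForm CongruenceSubgroup
open scoped MatrixGroups ModularForm Manifold

noncomputable section

namespace H12B2

/-- the right coset representative `S T^j` of `Γ₀(p)` in `SL(2,ℤ)` -/
def stj (j : ℕ) : SL(2, ℤ) := ModularGroup.S * ModularGroup.T ^ (j : ℤ)

theorem coe_stj (j : ℕ) : ((stj j : SL(2, ℤ)) : Matrix (Fin 2) (Fin 2) ℤ) = !![0, -1; 1, (j : ℤ)] := by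
  rw [stj, Matrix.SpecialLinearGroup.coe_mul, ModularGroup.coe_S, ModularGroup.coe_T_zpow]
  ext i k
  fin_cases i <;> fin_cases k <;> simp [Matrix.mul_apply, Fin.sum_univ_two]

/-- representatives of the left cosets `g Γ₀(p)` -/
def rep (p : ℕ) : Option (Fin p) → SL(2, ℤ)
  | none => 1
  | some j => (stj (j : ℕ))⁻¹

theorem stj_mul_apply_one_zero (j : ℕ) (g : SL(2, ℤ)) :
    ((stj j * g : SL(2, ℤ)) : Matrix (Fin 2) (Fin 2) ℤ) 1 0 = g.1 0 0 + j * g.1 1 0 := by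
  rw [Matrix.SpecialLinearGroup.coe_mul, coe_stj]
  simp [Matrix.mul_apply, Fin.sum_univ_two]

theorem stj_mul_inv_apply_one_zero (i j : ℕ) :
    ((stj i * (stj j)⁻¹ : SL(2, ℤ)) : Matrix (Fin 2) (Fin 2) ℤ) 1 0 = (j : ℤ) - i := by
  rw [stj_mul_apply_one_zero, Matrix.SpecialLinearGroup.coe_inv, coe_stj,
    Matrix.adjugate_fin_two_of]
  simp
  ring

variable (p : ℕ) [Fact p.Prime]

theorem exists_rep (g : SL(2, ℤ)) : ∃ o : Option (Fin p), (rep p o)⁻¹ * g ∈ Gamma0 p := by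
  haveI : NeZero p := ⟨(Fact.out : p.Prime).ne_zero⟩
  by_cases hc : ((g.1 1 0 : ℤ) : ZMod p) = 0
  · refine ⟨none, ?_⟩
    simpa [rep, Gamma0_mem] using hc
  · -- j ≡ - a c⁻¹
    set j : ZMod p := - ((g.1 0 0 : ℤ) : ZMod p) * ((g.1 1 0 : ℤ) : ZMod p)⁻¹ with hj
    refine ⟨some ⟨j.val, ZMod.val_lt j⟩, ?_⟩
    rw [Gamma0_mem]
    show (((((stj j.val)⁻¹)⁻¹ * g : SL(2, ℤ)) : Matrix (Fin 2) (Fin 2) ℤ) 1 0 : ZMod p) = 0
    rw [inv_inv, stj_mul_apply_one_zero]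
    push_cast
    rw [ZMod.natCast_zmod_val, hj]
    field_simp
    ring

theorem rep_injective (o o' : Option (Fin p)) (h : (rep p o)⁻¹ * rep p o' ∈ Gamma0 p) : o = o' := by
  haveI : NeZero p := ⟨(Fact.out : p.Prime).ne_zero⟩
  have hp1 : (1 : ZMod p) ≠ 0 := by
    haveI : Fact (1 < p) := ⟨(Fact.out : p.Prime).one_lt⟩
    exact one_ne_zero
  rw [Gamma0_mem] at h
  rcases o with _ | i <;> rcases o' with _ | j
  · rfl
  · exfalso
    have : ((1 : SL(2,ℤ))⁻¹ * (stj (j : ℕ))⁻¹ : SL(2, ℤ)) = (stj (j : ℕ))⁻¹ := by simp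
    simp only [rep] at h
    rw [this, Matrix.SpecialLinearGroup.coe_inv, coe_stj, Matrix.adjugate_fin_two_of] at h
    simp at h
  · exfalso
    simp only [rep, inv_inv, mul_one] at h
    rw [coe_stj] at h
    simp at h
  · simp only [rep, inv_inv] at h
    rw [stj_mul_inv_apply_one_zero] at h
    push_cast at h
    have h2 : ((j : ℕ) : ZMod p) = ((i : ℕ) : ZMod p) := sub_eq_zero.mp h
    have h3 : (j : ℕ) = (i : ℕ) := by
      have := congrArg ZMod.val h2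
      rwa [ZMod.val_natCast_of_lt j.2, ZMod.val_natCast_of_lt i.2] at this
    exact congrArg some (Fin.ext h3.symm)


/-! ### The trace to level one -/

/-- the coset space `SL(2,ℤ) / Γ₀(p)` (inside `GL(2,ℝ)`) -/
abbrev Qp : Type := (𝒮ℒ ⧸ ((Gamma0 p : Subgroup (GL (Fin 2) ℝ)).subgroupOf 𝒮ℒ))

/-- `SL(2,ℤ)` into `𝒮ℒ` -/
def toSL (g : SL(2, ℤ)) : 𝒮ℒ := ⟨Matrix.SpecialLinearGroup.mapGL ℝ g, ⟨g, rfl⟩⟩

theorem toSL_mul (g h : SL(2, ℤ)) : toSL (g * h) = toSL g * toSL h :=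
  Subtype.ext (map_mul _ g h)

theorem toSL_inv (g : SL(2, ℤ)) : toSL g⁻¹ = (toSL g)⁻¹ :=
  Subtype.ext (map_inv _ g)

omit [Fact p.Prime] in
theorem toSL_mem_iff (g : SL(2, ℤ)) :
    toSL g ∈ (Gamma0 p : Subgroup (GL (Fin 2) ℝ)).subgroupOf 𝒮ℒ ↔ g ∈ Gamma0 p := by
  rw [Subgroup.mem_subgroupOf]
  exact Subgroup.mem_map_iff_mem Matrix.SpecialLinearGroup.mapGL_injective

/-- the enumeration of the cosets -/
def cosetMap (o : Option (Fin p)) : Qp p := QuotientGroup.mk (toSL (rep p o))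

theorem cosetMap_bijective : Function.Bijective (cosetMap p) := by
  constructor
  · intro o o' h
    rw [cosetMap, cosetMap, QuotientGroup.eq, ← toSL_inv, ← toSL_mul, toSL_mem_iff] at h
    exact rep_injective p o o' h
  · intro q
    induction q using QuotientGroup.induction_on with
    | H g =>
      obtain ⟨g, ⟨g', rfl⟩⟩ := g
      obtain ⟨o, ho⟩ := exists_rep p g'
      refine ⟨o, ?_⟩
      rw [cosetMap, QuotientGroup.eq]
      have : (toSL (rep p o))⁻¹ * (⟨Matrix.SpecialLinearGroup.mapGL ℝ g', ⟨g', rfl⟩⟩ : 𝒮ℒ) =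
          toSL ((rep p o)⁻¹ * g') := by
        rw [toSL_mul, toSL_inv]; rfl
      rw [this, toSL_mem_iff]
      exact ho

theorem trace_eq (G : ModularForm (Gamma0 p) 2) :
    (0 : ℍ → ℂ) = (G : ℍ → ℂ) + ∑ j ∈ Finset.range p,
      ((G : ℍ → ℂ) ∣[(2 : ℤ)] (Matrix.SpecialLinearGroup.mapGL ℝ (stj j))) := by
  have h0 : ModularForm.trace 𝒮ℒ G = 0 :=
    rank_zero_iff_forall_zero.mp levelOne_weight_two_rank_zero _
  have h1 : (⇑(ModularForm.trace 𝒮ℒ G) : ℍ → ℂ) = 0 := by rw [h0]; rfl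
  rw [ModularForm.coe_trace] at h1
  letI := Fintype.ofFinite (Qp p)
  have h2 : ∑ q : Qp p, SlashInvariantForm.quotientFunc G q =
      ∑ o : Option (Fin p), SlashInvariantForm.quotientFunc G (cosetMap p o) :=
    (Fintype.sum_bijective (cosetMap p) (cosetMap_bijective p) _ _ (fun _ => rfl)).symm
  rw [h2, Fintype.sum_option] at h1
  rw [← h1]
  congr 1
  · show SlashInvariantForm.quotientFunc G (QuotientGroup.mk (toSL (rep p none))) = _
    rw [show (QuotientGroup.mk (toSL (rep p none)) : Qp p) = ⟦toSL (rep p none)⟧ from rfl,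
      SlashInvariantForm.quotientFunc_mk]
    simp [rep, toSL]
  · rw [← Fin.sum_univ_eq_sum_range (fun j => (G : ℍ → ℂ) ∣[(2 : ℤ)]
      (Matrix.SpecialLinearGroup.mapGL ℝ (stj j)))]
    refine Finset.sum_congr rfl fun j _ => ?_
    show SlashInvariantForm.quotientFunc G (QuotientGroup.mk (toSL (rep p (some j)))) = _
    rw [show (QuotientGroup.mk (toSL (rep p (some j))) : Qp p) = ⟦toSL (rep p (some j))⟧ from rfl,
      SlashInvariantForm.quotientFunc_mk]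
    simp [rep, toSL]


/-! ### The Fricke involution -/

section fricke


omit [Fact p.Prime]
variable [NeZero p]

/-- the Fricke (Atkin–Lehner) matrix `[[0,-1],[p,0]]` -/
def Wp : GL (Fin 2) ℝ :=
  Matrix.GeneralLinearGroup.mkOfDetNeZero !![0, -1; (p : ℝ), 0]
    (by rw [Matrix.det_fin_two_of]; simpa using NeZero.ne p)

@[simp] theorem val_Wp : ((Wp p : GL (Fin 2) ℝ) : Matrix (Fin 2) (Fin 2) ℝ) = !![0, -1; (p : ℝ), 0] := rfl

/-- the scalar matrix `p` -/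
def scal : GL (Fin 2) ℝ :=
  Matrix.GeneralLinearGroup.mkOfDetNeZero !![(p : ℝ), 0; 0, (p : ℝ)]
    (by rw [Matrix.det_fin_two_of]; simpa using NeZero.ne p)

@[simp] theorem val_scal : ((scal p : GL (Fin 2) ℝ) : Matrix (Fin 2) (Fin 2) ℝ) = !![(p : ℝ), 0; 0, (p : ℝ)] := rfl

theorem det_Wp : ((Wp p).det : ℝ) = p := by
  rw [Matrix.GeneralLinearGroup.val_det_apply, val_Wp, Matrix.det_fin_two_of]
  ring

theorem det_scal : ((scal p).det : ℝ) = (p : ℝ) ^ 2 := by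
  rw [Matrix.GeneralLinearGroup.val_det_apply, val_scal, Matrix.det_fin_two_of]
  ring

theorem det_Wp_pos : 0 < ((Wp p).det : ℝ) := by
  rw [det_Wp]; exact_mod_cast Nat.pos_of_ne_zero (NeZero.ne p)

theorem det_scal_pos : 0 < ((scal p).det : ℝ) := by
  rw [det_scal]
  have : (0 : ℝ) < p := by exact_mod_cast Nat.pos_of_ne_zero (NeZero.ne p)
  positivity

theorem σ_Wp : UpperHalfPlane.σ (Wp p) = .refl ℝ ℂ := by
  rw [UpperHalfPlane.σ, if_pos (det_Wp_pos p)]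

theorem σ_scal : UpperHalfPlane.σ (scal p) = .refl ℝ ℂ := by
  rw [UpperHalfPlane.σ, if_pos (det_scal_pos p)]

theorem denom_scal (τ : ℍ) : UpperHalfPlane.denom (scal p) τ = p := by
  simp [UpperHalfPlane.denom]

theorem denom_Wp (τ : ℍ) : UpperHalfPlane.denom (Wp p) τ = p * τ := by
  simp [UpperHalfPlane.denom]

theorem coe_scal_smul (τ : ℍ) : scal p • τ = τ := by
  apply UpperHalfPlane.ext
  rw [UpperHalfPlane.coe_smul_of_det_pos (det_scal_pos p)]
  have hp' : (p : ℂ) ≠ 0 := by exact_mod_cast NeZero.ne p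
  simp [UpperHalfPlane.num, UpperHalfPlane.denom]
  field_simp

theorem slash_scal (f : ℍ → ℂ) : f ∣[(2 : ℤ)] scal p = f := by
  ext τ
  have hp' : (p : ℂ) ≠ 0 := by exact_mod_cast NeZero.ne p
  rw [ModularForm.slash_apply, σ_scal, det_scal, denom_scal, coe_scal_smul]
  simp only [ContinuousAlgEquiv.refl_apply]
  have : |(p : ℝ) ^ 2| = (p : ℝ) ^ 2 := abs_of_nonneg (by positivity)
  rw [this]
  push_cast
  rw [zpow_one, zpow_neg]
  have h2 : ((p : ℂ) ^ (2 : ℤ)) = (p : ℂ) ^ 2 := by norm_cast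
  rw [h2]
  field_simp

theorem Wp_mul_heckeMatrix (j : ℕ) (g : SL(2, ℤ))
    (hg : (g : Matrix (Fin 2) (Fin 2) ℤ) = !![0, -1; 1, (j : ℤ)]) :
    Wp p * heckeMatrix p j = scal p * Matrix.SpecialLinearGroup.mapGL ℝ g := by
  apply Matrix.GeneralLinearGroup.ext
  intro i k
  rw [Matrix.GeneralLinearGroup.coe_mul, Matrix.GeneralLinearGroup.coe_mul,
    val_heckeMatrix (NeZero.ne p), val_Wp, val_scal, Matrix.SpecialLinearGroup.mapGL_coe_matrix]
  simp only [Matrix.SpecialLinearGroup.map_apply_coe, RingHom.mapMatrix_apply, hg]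
  fin_cases i <;> fin_cases k <;> simp [Matrix.mul_apply, Fin.sum_univ_two]



theorem slash_stj (f : ℍ → ℂ) (j : ℕ) :
    f ∣[(2 : ℤ)] (Matrix.SpecialLinearGroup.mapGL ℝ (stj j)) =
      (f ∣[(2 : ℤ)] Wp p) ∣[(2 : ℤ)] heckeMatrix p j := by
  rw [← SlashAction.slash_mul, Wp_mul_heckeMatrix p j (stj j) (coe_stj j),
    SlashAction.slash_mul, slash_scal]

end fricke

section key

variable [NeZero p]

/-- the trace identity `G + U_p (G | W_p) = 0` -/
theorem trace_identity (G : ModularForm (Gamma0 p) 2) :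
    (G : ℍ → ℂ) + heckeU 2 p ((G : ℍ → ℂ) ∣[(2 : ℤ)] Wp p) = 0 := by
  rw [heckeU_def]
  rw [trace_eq p G]
  congr 1
  exact (Finset.sum_congr rfl fun j _ => (slash_stj p _ j).symm)

end key


/-! ### `W_p` normalises `Γ₀(p)` -/

section normal

variable [NeZero p]

omit [Fact p.Prime] in
theorem exists_conj (γ : SL(2, ℤ)) (hγ : γ ∈ Gamma0 p) :
    ∃ γ' ∈ Gamma0 p, Wp p * Matrix.SpecialLinearGroup.mapGL ℝ γ =
        Matrix.SpecialLinearGroup.mapGL ℝ γ' * Wp p ∧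
      Matrix.SpecialLinearGroup.mapGL ℝ γ * Wp p =
        Wp p * Matrix.SpecialLinearGroup.mapGL ℝ γ' := by
  rw [Gamma0_mem, ZMod.intCast_zmod_eq_zero_iff_dvd] at hγ
  obtain ⟨c', hc'⟩ := hγ
  have hdet : γ.1 0 0 * γ.1 1 1 - γ.1 0 1 * γ.1 1 0 = 1 := by
    have := γ.2
    rwa [Matrix.det_fin_two] at this
  let γ' : SL(2, ℤ) := ⟨!![γ.1 1 1, -c'; -(p : ℤ) * γ.1 0 1, γ.1 0 0], by
    rw [Matrix.det_fin_two_of]
    rw [hc'] at hdet
    linear_combination hdet⟩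
  have hγ' : (γ' : Matrix (Fin 2) (Fin 2) ℤ) = !![γ.1 1 1, -c'; -(p : ℤ) * γ.1 0 1, γ.1 0 0] := rfl
  have hc'' : ((γ.1 1 0 : ℤ) : ℝ) = (p : ℝ) * (c' : ℝ) := by rw [hc']; push_cast; ring
  refine ⟨γ', ?_, ?_, ?_⟩
  · rw [Gamma0_mem, hγ']
    simp
  · apply Matrix.GeneralLinearGroup.ext
    intro i k
    rw [Matrix.GeneralLinearGroup.coe_mul, Matrix.GeneralLinearGroup.coe_mul,
      val_Wp, Matrix.SpecialLinearGroup.mapGL_coe_matrix,
      Matrix.SpecialLinearGroup.mapGL_coe_matrix]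
    simp only [Matrix.SpecialLinearGroup.map_apply_coe, RingHom.mapMatrix_apply, hγ']
    fin_cases i <;> fin_cases k <;>
      simp [Matrix.mul_apply, Fin.sum_univ_two, hc''] <;> ring
  · apply Matrix.GeneralLinearGroup.ext
    intro i k
    rw [Matrix.GeneralLinearGroup.coe_mul, Matrix.GeneralLinearGroup.coe_mul,
      val_Wp, Matrix.SpecialLinearGroup.mapGL_coe_matrix,
      Matrix.SpecialLinearGroup.mapGL_coe_matrix]
    simp only [Matrix.SpecialLinearGroup.map_apply_coe, RingHom.mapMatrix_apply, hγ']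
    fin_cases i <;> fin_cases k <;>
      simp [Matrix.mul_apply, Fin.sum_univ_two, hc''] <;> ring

open ConjAct Pointwise in
omit [Fact p.Prime] in
theorem conj_Gamma0 :
    toConjAct (Wp p)⁻¹ • (Gamma0 p : Subgroup (GL (Fin 2) ℝ)) =
      (Gamma0 p : Subgroup (GL (Fin 2) ℝ)) := by
  ext x
  rw [Subgroup.mem_smul_pointwise_iff_exists]
  constructor
  · rintro ⟨y, hy, rfl⟩
    obtain ⟨γ, hγ, rfl⟩ := Subgroup.mem_map.mp hy
    obtain ⟨γ', hγ', -, h2⟩ := exists_conj p γ hγ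
    rw [ConjAct.smul_def, ConjAct.ofConjAct_toConjAct, inv_inv, mul_assoc, h2, ← mul_assoc,
      inv_mul_cancel, one_mul]
    exact Subgroup.mem_map_of_mem _ hγ'
  · intro hx
    obtain ⟨γ, hγ, rfl⟩ := Subgroup.mem_map.mp hx
    obtain ⟨γ', hγ', h1, -⟩ := exists_conj p γ hγ
    refine ⟨Matrix.SpecialLinearGroup.mapGL ℝ γ', Subgroup.mem_map_of_mem _ hγ', ?_⟩
    rw [ConjAct.smul_def, ConjAct.ofConjAct_toConjAct, inv_inv, mul_assoc, ← h1, ← mul_assoc,
      inv_mul_cancel, one_mul]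

end normal


/-! ### The key identity `G ∣ W_p = - U_p G` -/

section keyid

variable [NeZero p]

/-- transport of a modular form along an equality of levels -/
def castLevel {Γ Γ' : Subgroup (GL (Fin 2) ℝ)} (h : Γ = Γ') {k : ℤ} (f : ModularForm Γ k) :
    ModularForm Γ' k := h ▸ f

theorem coe_castLevel {Γ Γ' : Subgroup (GL (Fin 2) ℝ)} (h : Γ = Γ') {k : ℤ}
    (f : ModularForm Γ k) : (⇑(castLevel h f) : ℍ → ℂ) = ⇑f := by
  subst h; rfl

omit [Fact p.Prime] in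
/-- `G ∣ W_p` as a modular form of level `Γ₀(p)` (any weight) -/
def fricke {k : ℤ} (G : ModularForm (Gamma0 p) k) : ModularForm (Gamma0 p) k :=
  castLevel (conj_Gamma0 p) (ModularForm.translate G (Wp p))

omit [Fact p.Prime] in
theorem coe_fricke {k : ℤ} (G : ModularForm (Gamma0 p) k) :
    (⇑(fricke p G) : ℍ → ℂ) = (G : ℍ → ℂ) ∣[k] Wp p := by
  rw [fricke, coe_castLevel, ModularForm.coe_translate]

/-- the scalar matrix `-p` -/
def nscal : GL (Fin 2) ℝ :=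
  Matrix.GeneralLinearGroup.mkOfDetNeZero !![-(p : ℝ), 0; 0, -(p : ℝ)]
    (by rw [Matrix.det_fin_two_of]; simpa using NeZero.ne p)

omit [Fact p.Prime] in
@[simp] theorem val_nscal :
    ((nscal p : GL (Fin 2) ℝ) : Matrix (Fin 2) (Fin 2) ℝ) = !![-(p : ℝ), 0; 0, -(p : ℝ)] := rfl

omit [Fact p.Prime] in
theorem det_nscal : ((nscal p).det : ℝ) = (p : ℝ) ^ 2 := by
  rw [Matrix.GeneralLinearGroup.val_det_apply, val_nscal, Matrix.det_fin_two_of]
  ring

omit [Fact p.Prime] in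
theorem det_nscal_pos : 0 < ((nscal p).det : ℝ) := by
  rw [det_nscal]
  have : (0 : ℝ) < p := by exact_mod_cast Nat.pos_of_ne_zero (NeZero.ne p)
  positivity

omit [Fact p.Prime] in
theorem σ_nscal : UpperHalfPlane.σ (nscal p) = .refl ℝ ℂ := by
  rw [UpperHalfPlane.σ, if_pos (det_nscal_pos p)]

omit [Fact p.Prime] in
theorem denom_nscal (τ : ℍ) : UpperHalfPlane.denom (nscal p) τ = -(p : ℂ) := by
  simp [UpperHalfPlane.denom]

omit [Fact p.Prime] in
theorem coe_nscal_smul (τ : ℍ) : nscal p • τ = τ := by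
  apply UpperHalfPlane.ext
  rw [UpperHalfPlane.coe_smul_of_det_pos (det_nscal_pos p)]
  have hp' : (p : ℂ) ≠ 0 := by exact_mod_cast NeZero.ne p
  simp [UpperHalfPlane.num, UpperHalfPlane.denom]
  field_simp

omit [Fact p.Prime] in
theorem slash_nscal (f : ℍ → ℂ) : f ∣[(2 : ℤ)] nscal p = f := by
  ext τ
  have hp' : (p : ℂ) ≠ 0 := by exact_mod_cast NeZero.ne p
  rw [ModularForm.slash_apply, σ_nscal, det_nscal, denom_nscal, coe_nscal_smul]
  simp only [ContinuousAlgEquiv.refl_apply]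
  have : |(p : ℝ) ^ 2| = (p : ℝ) ^ 2 := abs_of_nonneg (by positivity)
  rw [this]
  push_cast
  rw [zpow_one, zpow_neg]
  have h2 : ((-(p : ℂ)) ^ (2 : ℤ)) = (p : ℂ) ^ 2 := by
    rw [show ((-(p : ℂ)) ^ (2 : ℤ)) = (-(p : ℂ)) ^ (2 : ℕ) by norm_cast]
    ring
  rw [h2]
  field_simp

omit [Fact p.Prime] in
theorem Wp_mul_Wp : Wp p * Wp p = nscal p := by
  apply Matrix.GeneralLinearGroup.ext
  intro i k
  rw [Matrix.GeneralLinearGroup.coe_mul, val_Wp, val_nscal]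
  fin_cases i <;> fin_cases k <;> simp [Matrix.mul_apply, Fin.sum_univ_two]

omit [Fact p.Prime] in
theorem slash_Wp_Wp (f : ℍ → ℂ) : (f ∣[(2 : ℤ)] Wp p) ∣[(2 : ℤ)] Wp p = f := by
  rw [← SlashAction.slash_mul, Wp_mul_Wp, slash_nscal]

/-- **KEY**: `G ∣[2] W_p = - U_p G` for `G ∈ M₂(Γ₀(p))`. -/
theorem slash_Wp_eq_neg_heckeU (G : ModularForm (Gamma0 p) 2) :
    (G : ℍ → ℂ) ∣[(2 : ℤ)] Wp p = - heckeU 2 p (G : ℍ → ℂ) := by
  have h := trace_identity p (fricke p G)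
  rw [coe_fricke, slash_Wp_Wp] at h
  exact eq_neg_of_add_eq_zero_left h

end keyid

end H12B2
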