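import Mathlib
import Fermat.Prelude.Def_CuspForm_HeckeLocal
import Fermat.Prelude.Def_CuspForm_HeckeEvalForms
import Fermat.Prelude.Def_HeckeGalois_EichlerShimura
import Fermat.Prelude.Def_ModularCurve_ModularUnit

/-!
# S16, part (B) (upper bound `m ∣ n`): shapes (helper4, coordinator of part (B))

`RED` (helper26) reduces S16 to `EisMod p n` (part (A), helper21) and
`∀ m, EisMod p m → m ∣ n` (part (B), this file), `n = eisensteinNumerator p`.

Part (B) is cut as follows (all statements are `Prop`s; each owner proves `theorem … : <Prop>`):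

* `EisStatement`  : the Eisenstein series `p E₂(pz) - E₂(z) = (p-1) + 24 Σ σ'(k) q^k` is a
                    weight-2 modular form on `Γ₀(p)`;
* `B1Statement`   : (Hecke trick) no form `≡ unit mod l^k` when some prime `r ≠ p, l` has
                    `l^k ∤ r² - 1`;
* `B2Statement`   : (level-one trick) no form `≡ unit mod 3` if `p ≡ 1 (3)`, none `≡ unit mod 4`
                    if `p ≡ 1 (4)`;
* `B3Statement`   : no form of odd level `≡ unit mod 8`;
* `h4s16_partB`   : the four statements imply `∀ m, EisMod p m → m ∣ eisensteinNumerator p`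
                    (proved in `H4BRed.lean`).
-/

set_option autoImplicit false

namespace H4S16

open ModularFormClass

/-- `σ'(k)`: the sum of the divisors of `k` prime to `p`. -/
def sigmaPrime (p k : ℕ) : ℕ := ∑ d ∈ k.divisors.filter (fun d => ¬ p ∣ d), d

/-- **EisMod**: some `f` in the integral lattice of weight-2 cusp forms of level `p` is congruent
to `e' = Σ σ'(k) q^k` modulo `m` (for `m = 0`: equal). -/
def EisMod (p m : ℕ) : Prop :=
  ∃ f ∈ CuspForm.intLattice p 2, ∀ k : ℕ, 1 ≤ k →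
    ∃ a : ℤ, qCoeff f k = (a : ℂ) ∧ (m : ℤ) ∣ a - (sigmaPrime p k : ℤ)

/-- A weight-2 modular form on `Γ₀(N)` with integral `q`-expansion, constant term `a` and all
higher coefficients divisible by `M`. -/
def IntCong (N : ℕ) (a M : ℤ) : Prop :=
  ∃ G : ModularForm (CongruenceSubgroup.Gamma0 N) 2,
    qCoeff G 0 = (a : ℂ) ∧ ∀ j : ℕ, 1 ≤ j → ∃ b : ℤ, qCoeff G j = ((M * b : ℤ) : ℂ)

/-- A weight-2 modular form on `Γ₀(N)` with integral `q`-expansion congruent to a constant prime
to `l` modulo `l ^ k`. -/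
def UnitMod (N l k : ℕ) : Prop :=
  ∃ a : ℤ, ¬ ((l : ℤ) ∣ a) ∧ IntCong N a ((l : ℤ) ^ k)

/-- The Eisenstein series of weight 2 and level `p`, normalised as
`24 e = (p - 1) + 24 Σ σ'(k) q^k`. -/
def EisForm (p : ℕ) : Prop :=
  ∃ E : ModularForm (CongruenceSubgroup.Gamma0 p) 2,
    qCoeff E 0 = ((p : ℂ) - 1) ∧
      ∀ k : ℕ, 1 ≤ k → qCoeff E k = (24 * (sigmaPrime p k : ℂ))

/-- **B-EIS** -/
def EisStatement : Prop := ∀ p : ℕ, p.Prime → EisForm p

/-- **B1** (Hecke trick, helper16's argument). -/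
def B1Statement : Prop :=
  ∀ p l r k : ℕ, p.Prime → l.Prime → r.Prime → r ≠ p → r ≠ l → ¬ (l ^ k ∣ r ^ 2 - 1) →
    ¬ UnitMod p l k

/-- **B2** (level-one trick with `E₆ ≡ 1 mod 8, 9`). -/
def B2Statement : Prop :=
  ∀ p : ℕ, p.Prime → (p % 3 = 1 → ¬ UnitMod p 3 1) ∧ (p % 4 = 1 → ¬ UnitMod p 2 2)

/-- **B3'** (level-one version, helper19): no weight-2 form of odd level is congruent to an odd
constant modulo 8. -/
def B3Statement : Prop := ∀ N : ℕ, Odd N → ¬ UnitMod N 2 3

/-- The conclusion of part (B). -/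
def PartB : Prop :=
  ∀ p : ℕ, p.Prime → ∀ m : ℕ, EisMod p m → m ∣ ModularCurve.eisensteinNumerator p

end H4S16
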