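import Mathlib
import Fermat.Agent.S16.H12B2Key
import Fermat.Agent.S16.H4BDefs
import Fermat.Prelude.Thm_ModularFormClass_qCoeff_heckeU
import Fermat.Prelude.Thm_ModularFormClass_qCoeff_heckeT
import Fermat.Prelude.Thm_CongruenceSubgroup_one_mem_strictPeriods_Gamma0
import Fermat.Prelude.Thm_ModularForm_mdifferentiable_heckeT
import Fermat.Prelude.Thm_ModularForm_mdifferentiable_heckeU
import Fermat.Prelude.Thm_ModularForm_isBoundedAtImInfty_heckeT
import Fermat.Prelude.Thm_ModularForm_isBoundedAtImInfty_heckeU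
import Fermat.Prelude.Thm_ModularForm_periodic_heckeT_comp_ofComplex
import Fermat.Prelude.Thm_ModularForm_periodic_heckeU_comp_ofComplex

/-!
# S16, part (B), slice B2 (helper12): the level-one trick

`H4S16.B2Statement`: for a prime `p ≡ 1 (3)` no weight-2 form on `Γ₀(p)` with integral
`q`-expansion is congruent to a unit mod 3, and for `p ≡ 1 (4)` none is congruent to a unit mod 4.

Proof: `A := G³ - a³ E₆ ≡ 0 mod M` (`E₆ ≡ 1 mod 504`); by the `q`-expansion principle at the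
other cusp (`B0Six`, the interface to BRIDGE + Gauss invariance) `A ∣ W_p ≡ 0 mod M`; but
`A ∣[6] W_p = p² (G ∣[2] W_p)³ - a³ p⁵ E₆(pτ)` and `G ∣[2] W_p = - U_p G` (`H12B2Key`), so the
constant term is `- a³ p² (1 + p³)`, which is not divisible by `M`.

* `H12B2.B0Six p M` : the interface;
* `H12B2.dvd_of_b0` : `M ∣ a³ p² (1 + p³)`;
* `H12B2.b2_of_b0` : `B2Statement` from `B0Six p 3` (`p ≡ 1 (3)`) and `B0Six p 4` (`p ≡ 1 (4)`).
-/

set_option autoImplicit false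
set_option linter.style.haveILetI false

open UpperHalfPlane ModularForm CongruenceSubgroup ModularFormClass
open scoped MatrixGroups ModularForm Manifold

noncomputable section

namespace H12B2

/-- restriction of the level of a modular form -/
def restrictLevel {Γ Γ' : Subgroup (GL (Fin 2) ℝ)} (h : Γ ≤ Γ') {k : ℤ} (f : ModularForm Γ' k) :
    ModularForm Γ k where
  toFun := f
  slash_action_eq' γ hγ := SlashInvariantFormClass.slash_action_eq f γ (h hγ)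
  holo' := ModularFormClass.holo f
  bdd_at_cusps' hc := ModularFormClass.bdd_at_cusps f (hc.mono h)

@[simp] theorem coe_restrictLevel {Γ Γ' : Subgroup (GL (Fin 2) ℝ)} (h : Γ ≤ Γ') {k : ℤ}
    (f : ModularForm Γ' k) : (⇑(restrictLevel h f) : ℍ → ℂ) = ⇑f := rfl

variable (p : ℕ)

theorem Gamma0_le_SL : (Gamma0 p : Subgroup (GL (Fin 2) ℝ)) ≤ 𝒮ℒ := by
  rintro x ⟨g, -, rfl⟩
  exact ⟨g, rfl⟩

/-- `E₆` as a form of level `Γ₀(p)` -/
def E6p : ModularForm (Gamma0 p) 6 := restrictLevel (Gamma0_le_SL p) E₆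

/-- `G³` as a form of weight 6 -/
def cube (G : ModularForm (Gamma0 p) 2) : ModularForm (Gamma0 p) 6 :=
  ModularForm.mcast (by norm_num) (G.pow 3)

theorem coe_cube (G : ModularForm (Gamma0 p) 2) : (⇑(cube p G) : ℍ → ℂ) = ⇑G ^ 3 := by
  rw [cube]
  exact ModularForm.coe_pow G 3

/-- the form `A = G³ - a³ E₆` -/
def formA (G : ModularForm (Gamma0 p) 2) (a : ℤ) : ModularForm (Gamma0 p) 6 :=
  cube p G - ((a : ℂ) ^ 3) • E6p p

theorem qExpansion_formA (G : ModularForm (Gamma0 p) 2) (a : ℤ) :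
    qExpansion 1 (formA p G a) = (qExpansion 1 G) ^ 3 - ((a : ℂ) ^ 3) • qExpansion 1 E₆ := by
  have hΓ := one_mem_strictPeriods_Gamma0 p
  have h1 : (⇑(formA p G a) : ℍ → ℂ) = ⇑(cube p G) - ⇑(((a : ℂ) ^ 3) • E6p p) := rfl
  rw [h1, ModularForm.qExpansion_sub one_pos hΓ]
  congr 1
  · rw [cube]
    exact ModularForm.qExpansion_pow one_pos hΓ G 3
  · have h2 : (⇑(((a : ℂ) ^ 3) • E6p p) : ℍ → ℂ) = ((a : ℂ) ^ 3) • ⇑(E6p p) := rfl
    rw [h2, ModularForm.qExpansion_smul one_pos hΓ]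
    rfl


/-! ### The Fricke transform of `A` -/

section frickeA

variable [NeZero p]

theorem Wp_eq_S_mul_diag :
    Wp p = Matrix.SpecialLinearGroup.mapGL ℝ ModularGroup.S * heckeDiagMatrix p := by
  apply Matrix.GeneralLinearGroup.ext
  intro i k
  rw [Matrix.GeneralLinearGroup.coe_mul, val_heckeDiagMatrix (NeZero.ne p), val_Wp,
    Matrix.SpecialLinearGroup.mapGL_coe_matrix]
  simp only [Matrix.SpecialLinearGroup.map_apply_coe, RingHom.mapMatrix_apply, ModularGroup.coe_S]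
  fin_cases i <;> fin_cases k <;> simp [Matrix.mul_apply, Fin.sum_univ_two]

theorem slash_Wp_E6 :
    (E₆ : ℍ → ℂ) ∣[(6 : ℤ)] Wp p = (E₆ : ℍ → ℂ) ∣[(6 : ℤ)] heckeDiagMatrix p := by
  rw [Wp_eq_S_mul_diag, SlashAction.slash_mul]
  congr 1
  exact SlashInvariantFormClass.slash_action_eq E₆ _ ⟨ModularGroup.S, rfl⟩

theorem abs_det_Wp : |((Wp p).det : ℝ)| = p := by
  rw [det_Wp]; exact abs_of_nonneg (Nat.cast_nonneg p)

theorem slash_Wp_cube (f : ℍ → ℂ) :
    (f ^ 3) ∣[(6 : ℤ)] Wp p = ((p : ℂ) ^ 2) • (f ∣[(2 : ℤ)] Wp p) ^ 3 := by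
  have h1 : (f * f) ∣[(2 : ℤ) + 2] Wp p = (p : ℝ) • (f ∣[(2 : ℤ)] Wp p * f ∣[(2 : ℤ)] Wp p) := by
    rw [ModularForm.mul_slash, abs_det_Wp]
  have h2 : ((f * f) * f) ∣[((2 : ℤ) + 2) + 2] Wp p =
      (p : ℝ) • ((f * f) ∣[(2 : ℤ) + 2] Wp p * f ∣[(2 : ℤ)] Wp p) := by
    rw [ModularForm.mul_slash, abs_det_Wp]
  have h3 : f ^ 3 = (f * f) * f := by ring
  rw [h3, show (6 : ℤ) = ((2 : ℤ) + 2) + 2 by norm_num, h2, h1]
  ext τ
  simp only [Pi.smul_apply, Pi.mul_apply, Pi.pow_apply, Complex.real_smul, smul_eq_mul]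
  push_cast
  ring

theorem σ_Wp_apply (c : ℂ) : (UpperHalfPlane.σ (Wp p)) c = c := by
  rw [σ_Wp]; rfl

theorem coe_fricke_formA (G : ModularForm (Gamma0 p) 2) (a : ℤ) :
    (⇑(fricke p (formA p G a)) : ℍ → ℂ) =
      ((p : ℂ) ^ 2) • (⇑(fricke p G)) ^ 3 - ((a : ℂ) ^ 3) • ⇑(fricke p (E6p p)) := by
  rw [coe_fricke, coe_fricke, coe_fricke]
  have h1 : (⇑(formA p G a) : ℍ → ℂ) = ⇑G ^ 3 + (-((a : ℂ) ^ 3)) • ⇑E₆ := by
    show (⇑(cube p G) : ℍ → ℂ) - ((a : ℂ) ^ 3) • ⇑(E6p p) = _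
    rw [coe_cube, sub_eq_add_neg, _root_.neg_smul]
    rfl
  rw [h1, SlashAction.add_slash, ModularForm.smul_slash, slash_Wp_cube, σ_Wp_apply]
  rw [sub_eq_add_neg, _root_.neg_smul]
  rfl

/-- the Fricke transform of `A` as a combination of modular forms -/
theorem fricke_formA (G : ModularForm (Gamma0 p) 2) (a : ℤ) :
    fricke p (formA p G a) =
      ((p : ℂ) ^ 2) • cube p (fricke p G) - ((a : ℂ) ^ 3) • fricke p (E6p p) := by
  apply DFunLike.coe_injective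
  rw [coe_fricke_formA]
  show _ = ((p : ℂ) ^ 2) • (⇑(cube p (fricke p G)) : ℍ → ℂ) - _
  rw [coe_cube]
  rfl

theorem qExpansion_fricke_formA (G : ModularForm (Gamma0 p) 2) (a : ℤ) :
    qExpansion 1 (fricke p (formA p G a)) =
      ((p : ℂ) ^ 2) • (qExpansion 1 (fricke p G)) ^ 3 -
        ((a : ℂ) ^ 3) • qExpansion 1 (fricke p (E6p p)) := by
  have hΓ := one_mem_strictPeriods_Gamma0 p
  rw [fricke_formA]
  have h1 : (⇑(((p : ℂ) ^ 2) • cube p (fricke p G) - ((a : ℂ) ^ 3) • fricke p (E6p p)) : ℍ → ℂ) =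
      ⇑(((p : ℂ) ^ 2) • cube p (fricke p G)) - ⇑(((a : ℂ) ^ 3) • fricke p (E6p p)) := rfl
  rw [h1, ModularForm.qExpansion_sub one_pos hΓ]
  congr 1
  · have h2 : (⇑(((p : ℂ) ^ 2) • cube p (fricke p G)) : ℍ → ℂ) =
        ((p : ℂ) ^ 2) • ⇑(cube p (fricke p G)) := rfl
    rw [h2, ModularForm.qExpansion_smul one_pos hΓ]
    congr 1
    rw [cube]
    exact ModularForm.qExpansion_pow one_pos hΓ (fricke p G) 3
  · have h2 : (⇑(((a : ℂ) ^ 3) • fricke p (E6p p)) : ℍ → ℂ) =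
        ((a : ℂ) ^ 3) • ⇑(fricke p (E6p p)) := rfl
    rw [h2, ModularForm.qExpansion_smul one_pos hΓ]

end frickeA


/-! ### Coefficients -/

section coeffs

variable [Fact p.Prime] [NeZero p]

theorem qCoeff_fricke (G : ModularForm (Gamma0 p) 2) (n : ℕ) :
    qCoeff (fricke p G) n = - qCoeff G (n * p) := by
  have hΓ := one_mem_strictPeriods_Gamma0 p
  have h1 : heckeU 2 p (G : ℍ → ℂ) = (-1 : ℂ) • ⇑(fricke p G) := by
    rw [coe_fricke, slash_Wp_eq_neg_heckeU]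
    simp
  have h2 := ModularFormClass.qCoeff_heckeU G hΓ (NeZero.ne p) n
  rw [coeffHeckeU_apply] at h2
  rw [← h2, qCoeff, qCoeff, h1, ModularForm.qExpansion_smul one_pos hΓ]
  simp

omit [Fact p.Prime] in
theorem fricke_E6p_eq :
    (⇑(fricke p (E6p p)) : ℍ → ℂ) = heckeT 6 p (E₆ : ℍ → ℂ) - heckeU 6 p (E₆ : ℍ → ℂ) := by
  rw [coe_fricke, heckeT_eq_heckeU_add]
  show (E₆ : ℍ → ℂ) ∣[(6 : ℤ)] Wp p = _
  rw [slash_Wp_E6]
  abel

omit [Fact p.Prime] in
theorem qCoeff_fricke_E6p (n : ℕ) :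
    qCoeff (fricke p (E6p p)) n =
      if p ∣ n then (p : ℂ) ^ 5 * qCoeff E₆ (n / p) else 0 := by
  have hΓ : (1 : ℝ) ∈ (𝒮ℒ).strictPeriods := _root_.one_mem_strictPeriods_SL
  have hper : Function.Periodic ((E₆ : ℍ → ℂ) ∘ ofComplex) 1 :=
    SlashInvariantFormClass.periodic_comp_ofComplex E₆ hΓ
  have hhol : MDiff (E₆ : ℍ → ℂ) := ModularFormClass.holo E₆
  have hbdd : IsBoundedAtImInfty (E₆ : ℍ → ℂ) := ModularFormClass.bdd_at_infty E₆
  have hT : AnalyticAt ℂ (cuspFunction 1 (heckeT 6 p (E₆ : ℍ → ℂ))) 0 :=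
    analyticAt_cuspFunction_zero one_pos (periodic_heckeT_comp_ofComplex hper 6 p)
      (mdifferentiable_heckeT hhol 6 p) (isBoundedAtImInfty_heckeT hbdd 6 p)
  have hU : AnalyticAt ℂ (cuspFunction 1 (heckeU 6 p (E₆ : ℍ → ℂ))) 0 :=
    analyticAt_cuspFunction_zero one_pos (periodic_heckeU_comp_ofComplex hper 6 p)
      (mdifferentiable_heckeU hhol 6 p) (isBoundedAtImInfty_heckeU hbdd 6 p)
  rw [qCoeff, fricke_E6p_eq, qExpansion_sub hT hU, map_sub]
  have h1 := ModularFormClass.qCoeff_heckeT E₆ hΓ (NeZero.ne p) n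
  have h2 := ModularFormClass.qCoeff_heckeU (k := 6) E₆ hΓ (NeZero.ne p) n
  rw [qCoeff] at h1 h2
  rw [h1, h2, coeffHeckeT_apply, coeffHeckeU_apply]
  split_ifs <;> simp

end coeffs


/-! ### Integral power series -/

section integral

open PowerSeries

/-- the `q`-expansion of `E₆` over `ℤ` -/
def e6Z : PowerSeries ℤ :=
  PowerSeries.mk fun m => if m = 0 then 1 else -504 * (ArithmeticFunction.sigma 5 m : ℤ)

theorem qExpansion_E6 :
    qExpansion 1 (E₆ : ℍ → ℂ) = e6Z.map (Int.castRingHom ℂ) := by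
  ext m
  rw [PowerSeries.coeff_map, e6Z, PowerSeries.coeff_mk]
  have h := EisensteinSeries.E_qExpansion_coeff (k := 6) (by norm_num) ⟨3, rfl⟩ m
  rw [h]
  have hb : bernoulli 6 = 1 / 42 := by decide +kernel
  by_cases hm : m = 0
  · simp [hm]
  · simp only [hm, if_false]
    rw [hb]
    push_cast
    norm_num

theorem e6Z_map_eq_one (M : ℕ) (hM : M ∣ 504) :
    e6Z.map (Int.castRingHom (ZMod M)) = 1 := by
  ext m
  rw [PowerSeries.coeff_map, e6Z, PowerSeries.coeff_mk, PowerSeries.coeff_one]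
  by_cases hm : m = 0
  · simp [hm]
  · simp only [hm, if_false]
    have h504 : ((504 : ℤ) : ZMod M) = 0 := by
      rw [ZMod.intCast_zmod_eq_zero_iff_dvd]
      exact_mod_cast hM
    rw [eq_intCast, Int.cast_mul, Int.cast_neg, h504, neg_zero, zero_mul]

end integral


/-! ### The level-one trick -/

section main

open PowerSeries

/-- **B0 at weight 6** (interface to BRIDGE + Gauss invariance): if all `q`-coefficients of
`A ∈ M₆(Γ₀(p))` are integers divisible by `M`, and the `q`-coefficients of `A ∣ W_p` are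
integers, then the latter are divisible by `M` as well. -/
def B0Six (p M : ℕ) [NeZero p] : Prop :=
  ∀ A : ModularForm (Gamma0 p) 6,
    (∀ n, ∃ c : ℤ, qCoeff A n = (((M : ℤ) * c : ℤ) : ℂ)) →
    (∀ n, ∃ d : ℤ, qCoeff ((A : ℍ → ℂ) ∣[(6 : ℤ)] Wp p) n = (d : ℂ)) →
    ∀ n, ∃ d : ℤ, qCoeff ((A : ℍ → ℂ) ∣[(6 : ℤ)] Wp p) n = (((M : ℤ) * d : ℤ) : ℂ)

variable [Fact p.Prime] [NeZero p]

theorem dvd_of_b0 (M : ℕ) (hM504 : M ∣ 504) (hB0 : B0Six p M)
    (G : ModularForm (Gamma0 p) 2) (a : ℤ) (h0 : qCoeff G 0 = (a : ℂ))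
    (hj : ∀ j : ℕ, 1 ≤ j → ∃ b : ℤ, qCoeff G j = (((M : ℤ) * b : ℤ) : ℂ)) :
    (M : ℤ) ∣ a ^ 3 * (p : ℤ) ^ 2 * (1 + (p : ℤ) ^ 3) := by
  classical
  -- integral coefficients of `G`
  let bb : ℕ → ℤ := fun n => if h : 1 ≤ n then (M : ℤ) * (hj n h).choose else a
  have hbb : ∀ n, qCoeff G n = (bb n : ℂ) := by
    intro n
    by_cases h : 1 ≤ n
    · simp only [bb, dif_pos h]
      exact (hj n h).choose_spec
    · have hn : n = 0 := by omega
      subst hn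
      simp only [bb, dif_neg h]
      exact h0
  have hbb0 : bb 0 = a := by simp [bb]
  have hbbM : ∀ n, 1 ≤ n → ((bb n : ℤ) : ZMod M) = 0 := by
    intro n h
    simp only [bb, dif_pos h]
    simp
  set gZ : PowerSeries ℤ := PowerSeries.mk bb with hgZ
  have hG : qExpansion 1 (G : ℍ → ℂ) = gZ.map (Int.castRingHom ℂ) := by
    ext n
    rw [PowerSeries.coeff_map, hgZ, PowerSeries.coeff_mk]
    exact hbb n
  -- `A`
  have hA : qExpansion 1 (formA p G a) =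
      (gZ ^ 3 - PowerSeries.C (a ^ 3) * e6Z).map (Int.castRingHom ℂ) := by
    rw [qExpansion_formA, hG, qExpansion_E6, map_sub, map_pow, map_mul, PowerSeries.map_C,
      PowerSeries.smul_eq_C_mul]
    simp
  have hgZM : gZ.map (Int.castRingHom (ZMod M)) = PowerSeries.C ((a : ZMod M)) := by
    ext n
    rw [PowerSeries.coeff_map, hgZ, PowerSeries.coeff_mk, PowerSeries.coeff_C]
    by_cases hn : n = 0
    · subst hn
      simp [hbb0]
    · rw [if_neg hn]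
      exact hbbM n (by omega)
  have hAM : (gZ ^ 3 - PowerSeries.C (a ^ 3) * e6Z).map (Int.castRingHom (ZMod M)) = 0 := by
    rw [map_sub, map_pow, map_mul, hgZM, e6Z_map_eq_one M hM504, PowerSeries.map_C, mul_one,
      ← map_pow]
    simp
  have hA1 : ∀ n, ∃ c : ℤ, qCoeff (formA p G a) n = (((M : ℤ) * c : ℤ) : ℂ) := by
    intro n
    have h1 := congrArg (PowerSeries.coeff n) hAM
    rw [PowerSeries.coeff_map, map_zero, eq_intCast, ZMod.intCast_zmod_eq_zero_iff_dvd] at h1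
    obtain ⟨c, hc⟩ := h1
    refine ⟨c, ?_⟩
    rw [qCoeff, hA, PowerSeries.coeff_map, hc]
    rfl
  -- the Fricke side
  set hZ : PowerSeries ℤ := PowerSeries.mk (fun n => - bb (n * p)) with hhZ
  have hH : qExpansion 1 (fricke p G) = hZ.map (Int.castRingHom ℂ) := by
    ext n
    rw [PowerSeries.coeff_map, hhZ, PowerSeries.coeff_mk]
    have := qCoeff_fricke p G n
    rw [qCoeff] at this
    rw [this, hbb]
    simp
  set e6pZ : PowerSeries ℤ := PowerSeries.mk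
    (fun n => if p ∣ n then (p : ℤ) ^ 5 * PowerSeries.coeff (n / p) e6Z else 0) with he6pZ
  have hE : qExpansion 1 (fricke p (E6p p)) = e6pZ.map (Int.castRingHom ℂ) := by
    ext n
    rw [PowerSeries.coeff_map, he6pZ, PowerSeries.coeff_mk]
    have := qCoeff_fricke_E6p p n
    rw [qCoeff] at this
    rw [this, qCoeff, qExpansion_E6, PowerSeries.coeff_map]
    split_ifs <;> simp
  have hFA : qExpansion 1 (fricke p (formA p G a)) =
      (PowerSeries.C ((p : ℤ) ^ 2) * hZ ^ 3 - PowerSeries.C (a ^ 3) * e6pZ).map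
        (Int.castRingHom ℂ) := by
    rw [qExpansion_fricke_formA, hH, hE, PowerSeries.smul_eq_C_mul, PowerSeries.smul_eq_C_mul]
    simp only [map_sub, map_mul, map_pow, PowerSeries.map_C]
    simp
  have hA2 : ∀ n, ∃ d : ℤ, qCoeff ((formA p G a : ℍ → ℂ) ∣[(6 : ℤ)] Wp p) n = (d : ℂ) := by
    intro n
    refine ⟨PowerSeries.coeff n
      (PowerSeries.C ((p : ℤ) ^ 2) * hZ ^ 3 - PowerSeries.C (a ^ 3) * e6pZ), ?_⟩
    rw [← coe_fricke, qCoeff, hFA, PowerSeries.coeff_map]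
    rfl
  obtain ⟨d, hd⟩ := hB0 (formA p G a) hA1 hA2 0
  rw [← coe_fricke, qCoeff, hFA, PowerSeries.coeff_map] at hd
  have hd' : PowerSeries.coeff 0
      (PowerSeries.C ((p : ℤ) ^ 2) * hZ ^ 3 - PowerSeries.C (a ^ 3) * e6pZ) = (M : ℤ) * d := by
    have : ((PowerSeries.coeff 0
      (PowerSeries.C ((p : ℤ) ^ 2) * hZ ^ 3 - PowerSeries.C (a ^ 3) * e6pZ) : ℤ) : ℂ) =
        (((M : ℤ) * d : ℤ) : ℂ) := hd
    exact_mod_cast this
  have hc0 : PowerSeries.coeff 0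
      (PowerSeries.C ((p : ℤ) ^ 2) * hZ ^ 3 - PowerSeries.C (a ^ 3) * e6pZ) =
        (p : ℤ) ^ 2 * (-a) ^ 3 - a ^ 3 * ((p : ℤ) ^ 5 * 1) := by
    have h1 : PowerSeries.constantCoeff hZ = -a := by
      rw [← PowerSeries.coeff_zero_eq_constantCoeff_apply, hhZ, PowerSeries.coeff_mk, zero_mul,
        hbb0]
    have h2 : PowerSeries.constantCoeff e6pZ = (p : ℤ) ^ 5 * 1 := by
      rw [← PowerSeries.coeff_zero_eq_constantCoeff_apply, he6pZ, PowerSeries.coeff_mk,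
        if_pos (dvd_zero p), Nat.zero_div, e6Z, PowerSeries.coeff_mk, if_pos rfl]
    simp only [PowerSeries.coeff_zero_eq_constantCoeff_apply, map_sub, map_mul, map_pow,
      PowerSeries.constantCoeff_C, h1, h2]
  rw [hc0] at hd'
  refine ⟨-d, ?_⟩
  linear_combination -hd'

end main


/-! ### Assembly of `B2Statement` -/

section assembly

theorem not_three_dvd (a : ℤ) (p : ℕ) (ha : ¬ (3 : ℤ) ∣ a) (hp : p % 3 = 1) :
    ¬ (3 : ℤ) ∣ a ^ 3 * (p : ℤ) ^ 2 * (1 + (p : ℤ) ^ 3) := by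
  intro h
  have h3 : Prime (3 : ℤ) := Int.prime_three
  have hp1 : (p : ℤ) ≡ 1 [ZMOD 3] := by
    have : (p : ℤ) % 3 = 1 := by omega
    exact this
  rcases h3.dvd_mul.mp h with h1 | h1
  · rcases h3.dvd_mul.mp h1 with h2 | h2
    · exact ha (h3.dvd_of_dvd_pow h2)
    · have := h3.dvd_of_dvd_pow h2
      omega
  · have h4 : (1 + (p : ℤ) ^ 3) ≡ 1 + 1 ^ 3 [ZMOD 3] := (Int.ModEq.refl 1).add (hp1.pow 3)
    have h5 : (1 + (p : ℤ) ^ 3) % 3 = 2 := by
      have := h4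
      unfold Int.ModEq at this
      rw [this]
      norm_num
    omega

theorem not_four_dvd (a : ℤ) (p : ℕ) (ha : ¬ (2 : ℤ) ∣ a) (hp : p % 4 = 1) :
    ¬ (4 : ℤ) ∣ a ^ 3 * (p : ℤ) ^ 2 * (1 + (p : ℤ) ^ 3) := by
  intro h
  have hp1 : (p : ℤ) ≡ 1 [ZMOD 4] := by
    have : (p : ℤ) % 4 = 1 := by omega
    exact this
  have ha' : a % 4 = 1 ∨ a % 4 = 3 := by omega
  have key : ∀ r : ℤ, a ≡ r [ZMOD 4] →
      (a ^ 3 * (p : ℤ) ^ 2 * (1 + (p : ℤ) ^ 3)) % 4 = (r ^ 3 * 1 ^ 2 * (1 + 1 ^ 3)) % 4 := by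
    intro r hr
    exact ((hr.pow 3).mul (hp1.pow 2)).mul ((Int.ModEq.refl 1).add (hp1.pow 3))
  have h0 : (a ^ 3 * (p : ℤ) ^ 2 * (1 + (p : ℤ) ^ 3)) % 4 = 0 := Int.emod_eq_zero_of_dvd h
  rcases ha' with h1 | h1
  · have := key 1 (by unfold Int.ModEq; rw [h1]; norm_num)
    rw [h0] at this
    norm_num at this
  · have := key 3 (by unfold Int.ModEq; rw [h1]; norm_num)
    rw [h0] at this
    norm_num at this

/-- **B2** from the interface `B0Six`. -/
theorem b2_of_b0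
    (h : ∀ (p : ℕ) [NeZero p], p.Prime →
      (p % 3 = 1 → B0Six p 3) ∧ (p % 4 = 1 → B0Six p 4)) :
    H4S16.B2Statement := by
  intro p hp
  haveI : Fact p.Prime := ⟨hp⟩
  haveI : NeZero p := ⟨hp.ne_zero⟩
  constructor
  · rintro hp3 ⟨a, ha, G, h0, hj⟩
    have hd := dvd_of_b0 p 3 (by norm_num) ((h p hp).1 hp3) G a h0 (fun j hj1 => by
      obtain ⟨b, hb⟩ := hj j hj1
      refine ⟨b, ?_⟩
      rw [hb]
      norm_num)
    exact not_three_dvd a p (by exact_mod_cast ha) hp3 (by exact_mod_cast hd)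
  · rintro hp4 ⟨a, ha, G, h0, hj⟩
    have hd := dvd_of_b0 p 4 (by norm_num) ((h p hp).2 hp4) G a h0 (fun j hj1 => by
      obtain ⟨b, hb⟩ := hj j hj1
      refine ⟨b, ?_⟩
      rw [hb]
      norm_num)
    exact not_four_dvd a p (by exact_mod_cast ha) hp4 (by exact_mod_cast hd)

end assembly

end H12B2
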