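import Fermat.Agent.S28.WP2Series
import Fermat.Agent.S28.WP2J
import Fermat.Agent.S28.ModEq.ConjMap
import Fermat.Agent.S28.ModEq.Final
import Fermat.Agent.S28.ModEq.FormalJ

/-!
# S16 BRIDGE, slice BR-U (helper11): `Δ(q^N)/Δ(q) ∈ F_N`

From the modular equation package `HasModEq p` (S28/WP1): the Lagrange relation
`G(j(q^m), j(q^{mp})) = p^12 · Δ(q^{mp})/Δ(q^m) · (∂Φ/∂X)(j(q^m), j(q^{mp}))` over every ring,
nonvanishing of `(∂Φ/∂X)(j(q^m), j(q^{mp}))` over `ℚ`, hence
`Δ(q^{mp})/Δ(q^m) ∈ ℚ(j(q^m), j(q^{mp}))`, and by induction on `N`: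

`h11br_uN_mem N : qExpand ℚ N (deltaq ℚ) * deltaqInv ℚ ∈ modularFunctionFieldFull N`.
-/

set_option autoImplicit false
set_option linter.style.longLine false
set_option linter.unusedVariables false
set_option linter.unusedSectionVars false

open ModularCurve HahnSeries Polynomial H28S28

noncomputable section

namespace H11BR

/-- The part of `HasModEq` concerning the modular polynomial `Φ` and the Lagrange interpolant `G`. -/
def h11br_IsModPair (p : ℕ) [NeZero p] (Φ G : Polynomial (Polynomial ℤ)) : Prop :=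
  ∀ (A : Type) [CommRing A] (ζ : Aˣ), (Polynomial.cyclotomic p A).eval (ζ : A) = 0 →
    Φ.map (baseEval A p) = ∏ i : Option (Fin p), (X - Polynomial.C (xconj A p ζ i)) ∧
    G.map (baseEval A p) = ∑ i : Option (Fin p),
      Polynomial.C (yconj A p ζ i) *
        ∏ i' ∈ Finset.univ.erase i, (X - Polynomial.C (xconj A p ζ i'))

theorem h11br_exists_modPair (p : ℕ) [NeZero p] (h : HasModEq p) :
    ∃ Φ G, h11br_IsModPair p Φ G := by
  obtain ⟨Φ, T, G, -, -, -, -, -, h3⟩ := h
  exact ⟨Φ, G, fun A _ ζ hζ => ⟨(h3 A ζ hζ).1, (h3 A ζ hζ).2.2⟩⟩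

section Alg

variable {R : Type*} [CommRing R] {ι : Type*} [Fintype ι] [DecidableEq ι]

/-- value of the Lagrange numerator at a node -/
theorem h11br_eval_lag (x y : ι → R) (i₀ : ι) :
    (∑ i : ι, Polynomial.C (y i) * ∏ i' ∈ Finset.univ.erase i, (X - Polynomial.C (x i'))).eval
        (x i₀) = y i₀ * ∏ i' ∈ Finset.univ.erase i₀, (x i₀ - x i') := by
  rw [Polynomial.eval_finsetSum]
  rw [Finset.sum_eq_single i₀]
  · simp [Polynomial.eval_prod]
  · intro i _ hi
    rw [Polynomial.eval_mul, Polynomial.eval_prod]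
    have : ∏ i' ∈ Finset.univ.erase i, (X - Polynomial.C (x i')).eval (x i₀) = 0 := by
      apply Finset.prod_eq_zero (Finset.mem_erase.mpr ⟨Ne.symm hi, Finset.mem_univ i₀⟩)
      simp
    rw [this, mul_zero]
  · intro h
    exact absurd (Finset.mem_univ i₀) h

/-- value of the derivative of `∏ (X - x i)` at a node -/
theorem h11br_eval_deriv (x : ι → R) (i₀ : ι) :
    (Polynomial.derivative (∏ i : ι, (X - Polynomial.C (x i)))).eval (x i₀) =
      ∏ i' ∈ Finset.univ.erase i₀, (x i₀ - x i') := by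
  rw [Polynomial.derivative_prod_finset, Polynomial.eval_finsetSum]
  rw [Finset.sum_eq_single i₀]
  · simp [Polynomial.eval_prod]
  · intro i _ hi
    rw [Polynomial.eval_mul, Polynomial.eval_prod]
    have : ∏ i' ∈ Finset.univ.erase i, (X - Polynomial.C (x i')).eval (x i₀) = 0 := by
      apply Finset.prod_eq_zero (Finset.mem_erase.mpr ⟨Ne.symm hi, Finset.mem_univ i₀⟩)
      simp
    rw [this, zero_mul]
  · intro h
    exact absurd (Finset.mem_univ i₀) h

end Alg

section Rel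

variable (p : ℕ) [NeZero p] (Φ G : Polynomial (Polynomial ℤ)) (hΦG : h11br_IsModPair p Φ G)

include hΦG

/-- the key evaluation over a ring with a root `ζ` of the cyclotomic polynomial -/
theorem h11br_eval_G (A : Type) [CommRing A] (ζ : Aˣ)
    (hζ : (Polynomial.cyclotomic p A).eval (ζ : A) = 0) :
    (G.map (baseEval A p)).eval (xconj A p ζ none) =
      yconj A p ζ none *
        (Polynomial.derivative (Φ.map (baseEval A p))).eval (xconj A p ζ none) := by
  rw [(hΦG A ζ hζ).2, (hΦG A ζ hζ).1, h11br_eval_lag, h11br_eval_deriv]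

/-- `(∂Φ/∂X)` at `(j(s^p), j(s^{p²}))` as a product of differences of conjugates -/
theorem h11br_eval_dPhi (A : Type) [CommRing A] (ζ : Aˣ)
    (hζ : (Polynomial.cyclotomic p A).eval (ζ : A) = 0) :
    (Polynomial.derivative (Φ.map (baseEval A p))).eval (xconj A p ζ none) =
      ∏ i' ∈ Finset.univ.erase (none : Option (Fin p)),
        (xconj A p ζ none - xconj A p ζ i') := by
  rw [(hΦG A ζ hζ).1, h11br_eval_deriv]

/-- the Lagrange relation over `ℤ`:
`G(j, j_p) = p^12 Δ(q^p) Δ(q)⁻¹ · Φ'(j, j_p)`. -/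
theorem h11br_G_rel_int :
    h10ev2 G (jqModC ℤ) (qExpand ℤ p (jqModC ℤ)) =
      ((p : LaurentSeries ℤ) ^ 12 * qExpand ℤ p (deltaq ℤ) * deltaqInv ℤ) *
        h10ev2 (Polynomial.derivative Φ) (jqModC ℤ) (qExpand ℤ p (jqModC ℤ)) := by
  obtain ⟨ζ, hζ⟩ := h10_exists_zeta p
  have hkey := h11br_eval_G p Φ G hΦG h10Qbar ζ hζ
  set ι : LaurentSeries ℤ →+* LaurentSeries h10Qbar :=
    (qExpand h10Qbar p).comp (coeffMap (Int.castRingHom h10Qbar)) with hι
  have hinj : Function.Injective ι := by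
    rw [hι, RingHom.coe_comp]
    exact (qExpand_injective p).comp (h10_coeffMap_injective _ h10_intCast_Qbar_injective)
  apply hinj
  rw [map_mul, h10ev2_hom, h10ev2_hom]
  have h1 : ι (jqModC ℤ) = qExpand h10Qbar p (jqModC h10Qbar) := by
    rw [hι, RingHom.comp_apply, coeffMap_jqModC]
  have h2 : ι (qExpand ℤ p (jqModC ℤ)) = xconj h10Qbar p ζ none := by
    rw [hι, RingHom.comp_apply, coeffMap_qExpand, coeffMap_jqModC, qExpand_qExpand]
    rfl
  have h3 : ι ((p : LaurentSeries ℤ) ^ 12 * qExpand ℤ p (deltaq ℤ) * deltaqInv ℤ) =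
      yconj h10Qbar p ζ none := by
    rw [map_mul, map_mul, map_pow, map_natCast]
    rw [hι, RingHom.comp_apply, RingHom.comp_apply, coeffMap_qExpand,
      H23M.h21_coeffMap_deltaq, H23M.h21_coeffMap_deltaqInv, qExpand_qExpand]
    rfl
  rw [h1, h2, h3, h10ev2_eq_eval_map, h10ev2_eq_eval_map, ← h10_baseEval_eq,
    ← Polynomial.derivative_map]
  exact hkey

/-- nonvanishing of `Φ'(j, j_p)` over `ℤ` (for `p ≥ 2`) -/
theorem h11br_dPhi_ne_zero_int (hp : 1 < p) :
    h10ev2 (Polynomial.derivative Φ) (jqModC ℤ) (qExpand ℤ p (jqModC ℤ)) ≠ 0 := by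
  obtain ⟨ζ, hζ⟩ := h10_exists_zeta p
  have hkey := h11br_eval_dPhi p Φ G hΦG h10Qbar ζ hζ
  set ι : LaurentSeries ℤ →+* LaurentSeries h10Qbar :=
    (qExpand h10Qbar p).comp (coeffMap (Int.castRingHom h10Qbar)) with hι
  intro h0
  have h0' := congrArg ι h0
  rw [map_zero, h10ev2_hom] at h0'
  have h1 : ι (jqModC ℤ) = qExpand h10Qbar p (jqModC h10Qbar) := by
    rw [hι, RingHom.comp_apply, coeffMap_jqModC]
  have h2 : ι (qExpand ℤ p (jqModC ℤ)) = xconj h10Qbar p ζ none := by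
    rw [hι, RingHom.comp_apply, coeffMap_qExpand, coeffMap_jqModC, qExpand_qExpand]
    rfl
  rw [h1, h2, h10ev2_eq_eval_map, ← h10_baseEval_eq, ← Polynomial.derivative_map, hkey] at h0'
  rw [Finset.prod_eq_zero_iff] at h0'
  obtain ⟨i, hi, hi0⟩ := h0'
  have hne : i ≠ none := (Finset.mem_erase.mp hi).1
  cases i with
  | none => exact hne rfl
  | some b =>
    have heq : xconj h10Qbar p ζ none = xconj h10Qbar p ζ (some b) := sub_eq_zero.mp hi0
    have hc := congrArg (fun x : LaurentSeries h10Qbar => x.coeff (-((p * p : ℕ) : ℤ))) heq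
    simp only [xconj] at hc
    rw [h10_qExpand_coeff_neg, coeff_jqModC_neg_one, tw_coeff, coeff_jqModC_of_lt] at hc
    · simp at hc
    · have : (1 : ℤ) < ((p * p : ℕ) : ℤ) := by
        have : 1 < p * p := by nlinarith
        exact_mod_cast this
      linarith

/-- the Lagrange relation over any ring, at level `(m, m p)` -/
theorem h11br_G_rel (R : Type) [CommRing R] (m : ℕ) [NeZero m] [NeZero (m * p)] :
    h10ev2 G (qExpand R m (jqModC R)) (qExpand R (m * p) (jqModC R)) =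
      ((p : LaurentSeries R) ^ 12 * qExpand R (m * p) (deltaq R) * qExpand R m (deltaqInv R)) *
        h10ev2 (Polynomial.derivative Φ) (qExpand R m (jqModC R))
          (qExpand R (m * p) (jqModC R)) := by
  have h := h11br_G_rel_int p Φ G hΦG
  have h' := congrArg ((qExpand R m).comp (coeffMap (Int.castRingHom R))) h
  rw [map_mul, h10ev2_hom, h10ev2_hom] at h'
  simpa [coeffMap_jqModC, coeffMap_qExpand, qExpand_qExpand, H23M.h21_coeffMap_deltaq,
    H23M.h21_coeffMap_deltaqInv] using h'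

/-- nonvanishing of `Φ'(j(q^m), j(q^{mp}))` over `ℚ` -/
theorem h11br_dPhi_ne_zero (hp : 1 < p) (m : ℕ) [NeZero m] [NeZero (m * p)] :
    h10ev2 (Polynomial.derivative Φ) (qExpand ℚ m (jqModC ℚ))
      (qExpand ℚ (m * p) (jqModC ℚ)) ≠ 0 := by
  have h := h11br_dPhi_ne_zero_int p Φ G hΦG hp
  have hinj : Function.Injective ((qExpand ℚ m).comp (coeffMap (Int.castRingHom ℚ))) := by
    rw [RingHom.coe_comp]
    exact (qExpand_injective m).comp
      (h10_coeffMap_injective _ (Int.castRingHom ℚ).injective_int)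
  intro h0
  apply h
  apply hinj
  rw [map_zero, h10ev2_hom]
  simpa [coeffMap_jqModC, coeffMap_qExpand, qExpand_qExpand] using h0

end Rel

section Mem

/-- evaluation of an integer polynomial stays in an intermediate field -/
theorem h11br_ev_mem (K : IntermediateField ℚ (LaurentSeries ℚ)) (c : Polynomial ℤ)
    (a : LaurentSeries ℚ) (ha : a ∈ K) : h10ev a c ∈ K := by
  unfold h10ev
  rw [Polynomial.coe_eval₂RingHom, Polynomial.eval₂_eq_sum_range]
  refine K.sum_mem fun n _ => K.mul_mem ?_ (K.pow_mem ha n)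
  have : (Int.castRingHom (LaurentSeries ℚ)) (c.coeff n) = ((c.coeff n : ℤ) : LaurentSeries ℚ) := rfl
  rw [this]
  exact intCast_mem K _

/-- two-variable evaluation stays in an intermediate field -/
theorem h11br_ev2_mem (K : IntermediateField ℚ (LaurentSeries ℚ)) (Ψ : Polynomial (Polynomial ℤ))
    (a b : LaurentSeries ℚ) (ha : a ∈ K) (hb : b ∈ K) : h10ev2 Ψ a b ∈ K := by
  unfold h10ev2
  rw [Polynomial.eval₂_eq_sum_range]
  exact K.sum_mem fun n _ => K.mul_mem (h11br_ev_mem K _ a ha) (K.pow_mem hb n)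

/-- `Δ(q^{mp})/Δ(q^m)` lies in every intermediate field containing `j(q^m)` and `j(q^{mp})` -/
theorem h11br_step_mem (p : ℕ) (hp : p.Prime) (m : ℕ) [NeZero m] [NeZero (m * p)]
    (K : IntermediateField ℚ (LaurentSeries ℚ))
    (ha : qExpand ℚ m (jqModC ℚ) ∈ K) (hb : qExpand ℚ (m * p) (jqModC ℚ) ∈ K) :
    qExpand ℚ (m * p) (deltaq ℚ) * qExpand ℚ m (deltaqInv ℚ) ∈ K := by
  have : NeZero p := ⟨hp.ne_zero⟩
  have : Fact p.Prime := ⟨hp⟩
  obtain ⟨Φ, G, hΦG⟩ := h11br_exists_modPair p (H23M.h15g_hasModEq p)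
  have hrel := h11br_G_rel p Φ G hΦG ℚ m
  have hne := h11br_dPhi_ne_zero p Φ G hΦG hp.one_lt m
  set D := h10ev2 (Polynomial.derivative Φ) (qExpand ℚ m (jqModC ℚ))
    (qExpand ℚ (m * p) (jqModC ℚ)) with hD
  set Gv := h10ev2 G (qExpand ℚ m (jqModC ℚ)) (qExpand ℚ (m * p) (jqModC ℚ)) with hGv
  have hDK : D ∈ K := h11br_ev2_mem K _ _ _ ha hb
  have hGK : Gv ∈ K := h11br_ev2_mem K _ _ _ ha hb
  have hp0 : ((p : LaurentSeries ℚ) ^ 12) ≠ 0 := by
    apply pow_ne_zero
    have hC : (p : LaurentSeries ℚ) = HahnSeries.C (p : ℚ) := by simp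
    rw [hC]
    intro h0
    have := HahnSeries.C_injective (Γ := ℤ) (R := ℚ) (h0.trans (map_zero _).symm)
    exact hp.ne_zero (by exact_mod_cast this)
  have hpK : ((p : LaurentSeries ℚ) ^ 12) ∈ K := K.pow_mem (natCast_mem K p) 12
  have hval : qExpand ℚ (m * p) (deltaq ℚ) * qExpand ℚ m (deltaqInv ℚ) =
      Gv * (D⁻¹ * ((p : LaurentSeries ℚ) ^ 12)⁻¹) := by
    rw [hrel]
    have h3 : (↑p ^ 12 * (qExpand ℚ (m * p)) (deltaq ℚ) * (qExpand ℚ m) (deltaqInv ℚ) * D) *
        (D⁻¹ * ((p : LaurentSeries ℚ) ^ 12)⁻¹) =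
        (qExpand ℚ (m * p)) (deltaq ℚ) * (qExpand ℚ m) (deltaqInv ℚ) * (D * D⁻¹) *
          ((p : LaurentSeries ℚ) ^ 12 * ((p : LaurentSeries ℚ) ^ 12)⁻¹) := by ring
    rw [h3, mul_inv_cancel₀ hne, mul_inv_cancel₀ hp0, mul_one, mul_one]
  rw [hval]
  exact K.mul_mem hGK (K.mul_mem (K.inv_mem hDK) (K.inv_mem hpK))

/-- **BR-U**: `Δ(q^N)/Δ(q) ∈ F_N`. -/
theorem h11br_uN_mem : ∀ (N : ℕ) [NeZero N],
    qExpand ℚ N (deltaq ℚ) * deltaqInv ℚ ∈ modularFunctionFieldFull N := by
  intro N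
  induction N using Nat.strong_induction_on with
  | _ N ih =>
    intro hN
    by_cases h1 : N = 1
    · subst h1
      rw [qExpand_one_apply, H23M.deltaq_mul_deltaqInv]
      exact one_mem _
    · obtain ⟨p, hp, m, rfl⟩ : ∃ p : ℕ, p.Prime ∧ ∃ m, N = m * p := by
        obtain ⟨p, hp, hpN⟩ := Nat.exists_prime_and_dvd h1
        obtain ⟨m, rfl⟩ := hpN
        exact ⟨p, hp, m, mul_comm p m⟩
      have hm0 : m ≠ 0 := fun h => by
        subst h
        exact (NeZero.ne (0 * p)) (zero_mul p)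
      have : NeZero m := ⟨hm0⟩
      have hlt : m < m * p := by
        have := hp.one_lt
        nlinarith [Nat.pos_of_ne_zero hm0]
      have hm := ih m hlt
      have hle : modularFunctionFieldFull m ≤ modularFunctionFieldFull (m * p) :=
        full_degeneracy_le (dvd_mul_right m p)
      have hstep := h11br_step_mem p hp m (modularFunctionFieldFull (m * p))
        (by rw [jqModC_rat]; exact jqd_mem_full (m * p) (dvd_mul_right m p))
        (by rw [jqModC_rat]; exact jqd_mem_full (m * p) dvd_rfl)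
      have hprod : qExpand ℚ (m * p) (deltaq ℚ) * deltaqInv ℚ =
          (qExpand ℚ (m * p) (deltaq ℚ) * qExpand ℚ m (deltaqInv ℚ)) *
            (qExpand ℚ m (deltaq ℚ) * deltaqInv ℚ) := by
        have h1' : qExpand ℚ m (deltaqInv ℚ) * qExpand ℚ m (deltaq ℚ) = 1 := by
          rw [← map_mul, mul_comm, H23M.deltaq_mul_deltaqInv, map_one]
        calc qExpand ℚ (m * p) (deltaq ℚ) * deltaqInv ℚ
            = qExpand ℚ (m * p) (deltaq ℚ) *
                (qExpand ℚ m (deltaqInv ℚ) * qExpand ℚ m (deltaq ℚ)) * deltaqInv ℚ := by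
              rw [h1', mul_one]
          _ = _ := by ring
      rw [hprod]
      exact (modularFunctionFieldFull (m * p)).mul_mem hstep (hle hm)

end Mem

end H11BR

end
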