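import Fermat.Agent.S16.DescQ_helper23
import Fermat.Prelude.Def_ModularCurve_X0ModL

/-!
# S16 (B), BRIDGE BR-D (helper23): adapters of the descent `ℂ → ℚ` to the BRIDGE shapes

* `mem_of_aeval_rel` / `mem_of_aeval_rel₂` / `mem_full_of_rel`: a relation
  `x̂ · Q(ĵ, û) = P(ĵ, û)` with `P, Q ∈ ℂ[X₀, X₁]`, `Q(ĵ, û) ≠ 0` puts `x` in every subfield of
  `ℚ((q))` containing `j, u`;
* `isIntegral_of_rel`: if `x̂` is a root of the image of a monic `Φ ∈ ℂ[j][T]`, then `x` is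
  integral over `ℚ[j]`.
-/

set_option autoImplicit false

noncomputable section

namespace H23Q

open ModularCurve

theorem hatQ_jq : hatQ jq = jqModC ℂ := by
  rw [← jqModC_rat]
  exact coeffMap_jqModC _

theorem algebraMap_eq_C_complex (c : ℂ) :
    algebraMap ℂ (LaurentSeries ℂ) c = (HahnSeries.C c : LaurentSeries ℂ) := by
  rw [algebraMap_laurentSeries_eq_single]
  rfl

theorem mvAeval_eq_eval₂ {ι : Type*} (f : ι → LaurentSeries ℂ) (P : MvPolynomial ι ℂ) :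
    MvPolynomial.aeval f P =
      MvPolynomial.eval₂ (HahnSeries.C : ℂ →+* LaurentSeries ℂ) f P := by
  rw [MvPolynomial.aeval_def]
  congr 1
  ext c : 1
  exact algebraMap_eq_C_complex c

theorem aeval_eq_eval₂ (f : LaurentSeries ℂ) (P : Polynomial ℂ) :
    Polynomial.aeval f P =
      Polynomial.eval₂ (HahnSeries.C : ℂ →+* LaurentSeries ℂ) f P := by
  rw [Polynomial.aeval_def]
  congr 1
  ext c : 1
  exact algebraMap_eq_C_complex c

/-- **Field descent**, polynomial relation in a family of generators. -/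
theorem mem_of_aeval_rel (K₀ : IntermediateField ℚ (LaurentSeries ℚ)) {ι : Type*}
    (w : ι → LaurentSeries ℚ) (hw : ∀ i, w i ∈ K₀) (x : LaurentSeries ℚ)
    (P Q : MvPolynomial ι ℂ)
    (hQ : MvPolynomial.aeval (fun i => hatQ (w i)) Q ≠ 0)
    (h : hatQ x * MvPolynomial.aeval (fun i => hatQ (w i)) Q =
      MvPolynomial.aeval (fun i => hatQ (w i)) P) : x ∈ K₀ := by
  refine mem_of_hat_mul_eq K₀ x _ _ ?_ ?_ hQ h
  · rw [mvAeval_eq_eval₂]
    exact mvEval₂_mem_span K₀.toSubalgebra w hw P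
  · rw [mvAeval_eq_eval₂]
    exact mvEval₂_mem_span K₀.toSubalgebra w hw Q

/-- **Field descent**, two generators, in the shape of the BRIDGE (`h11br_field`). -/
theorem mem_of_aeval_rel₂ (K₀ : IntermediateField ℚ (LaurentSeries ℚ))
    (j₀ u₀ x : LaurentSeries ℚ) (hj : j₀ ∈ K₀) (hu : u₀ ∈ K₀)
    (jc uc Xc : LaurentSeries ℂ) (hjc : hatQ j₀ = jc) (huc : hatQ u₀ = uc) (hXc : hatQ x = Xc)
    (P Q : MvPolynomial (Fin 2) ℂ)
    (hQ : MvPolynomial.aeval ![jc, uc] Q ≠ 0)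
    (h : Xc * MvPolynomial.aeval ![jc, uc] Q = MvPolynomial.aeval ![jc, uc] P) : x ∈ K₀ := by
  have hf : (![jc, uc] : Fin 2 → LaurentSeries ℂ) = fun i => hatQ ((![j₀, u₀] : Fin 2 → _) i) := by
    funext i
    fin_cases i
    · exact hjc.symm
    · exact huc.symm
  rw [hf] at hQ h
  rw [← hXc] at h
  refine mem_of_aeval_rel K₀ ![j₀, u₀] ?_ x P Q hQ h
  intro i
  fin_cases i
  · exact hj
  · exact hu

theorem jq_mem_full (N : ℕ) [NeZero N] : jq ∈ modularFunctionFieldFull N := by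
  have h := jqd_mem_full N (one_dvd N)
  rwa [qExpand_one_apply] at h

/-- **Field descent** into `modularFunctionFieldFull N`, generators `j` and `u`. -/
theorem mem_full_of_rel (N : ℕ) [NeZero N] (u₀ x : LaurentSeries ℚ)
    (hu : u₀ ∈ modularFunctionFieldFull N)
    (uc Xc : LaurentSeries ℂ) (huc : hatQ u₀ = uc) (hXc : hatQ x = Xc)
    (P Q : MvPolynomial (Fin 2) ℂ)
    (hQ : MvPolynomial.aeval ![jqModC ℂ, uc] Q ≠ 0)
    (h : Xc * MvPolynomial.aeval ![jqModC ℂ, uc] Q = MvPolynomial.aeval ![jqModC ℂ, uc] P) :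
    x ∈ modularFunctionFieldFull N :=
  mem_of_aeval_rel₂ _ jq u₀ x (jq_mem_full N) hu _ _ _ hatQ_jq huc hXc P Q hQ h

/-- **Descent of integrality**, generic ring homomorphism `ℂ[j] → ℂ((q))`. -/
theorem isIntegral_of_rel' (x : LaurentSeries ℚ) (Xc : LaurentSeries ℂ) (hXc : hatQ x = Xc)
    (f : Polynomial ℂ →+* LaurentSeries ℂ)
    (hf : ∀ P, f P = Polynomial.eval₂ (HahnSeries.C : ℂ →+* LaurentSeries ℂ) (jqModC ℂ) P)
    (Φ : Polynomial (Polynomial ℂ)) (hΦ : Φ.Monic)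
    (h : (Φ.map f).eval Xc = 0) : IsIntegral ↥(Algebra.adjoin ℚ {jq}) x := by
  refine isIntegral_of_hat (Algebra.adjoin ℚ {jq}) x (Φ.map f) (hΦ.map f) ?_ (by rw [hXc]; exact h)
  intro i
  rw [Polynomial.coeff_map, hf, ← hatQ_jq]
  exact eval₂_mem_span _ (Algebra.subset_adjoin (Set.mem_singleton _)) _

/-- **Descent of integrality**, in the shape of the BRIDGE (`h11br_integral`). -/
theorem isIntegral_of_rel (x : LaurentSeries ℚ) (Xc : LaurentSeries ℂ) (hXc : hatQ x = Xc)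
    (Φ : Polynomial (Polynomial ℂ)) (hΦ : Φ.Monic)
    (h : (Φ.map (Polynomial.aeval (jqModC ℂ)).toRingHom).eval Xc = 0) :
    IsIntegral ↥(Algebra.adjoin ℚ {jq}) x :=
  isIntegral_of_rel' x Xc hXc _ (fun P => aeval_eq_eval₂ _ P) Φ hΦ h

/-- `x̂` for `x = ofPowerSeries κ · Δ⁻ᵏ`-type elements: `hatQ` commutes with `ofPowerSeries`. -/
theorem hatQ_ofPowerSeries (κ : PowerSeries ℚ) :
    hatQ (HahnSeries.ofPowerSeries ℤ ℚ κ) =
      HahnSeries.ofPowerSeries ℤ ℂ (κ.map (algebraMap ℚ ℂ)) :=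
  coeffMap_ofPowerSeries _ κ

end H23Q

end
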