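import Mathlib
import Fermat.Agent.H23.ForwardR1

/-!
# S16 BRIDGE, slice BR-A (helper13): analytic relations for a modular form of weight `12 k`

`K` is a modular form of weight `12 k` on `Γ₀(N)` (`k ≥ 1`).  With the coset families
`T_q = (Δ(N·)|q) · Δ^(k-1)` and `K_q = K|q` (`q ∈ SL(2,ℤ)/Γ₀(N)`), both of weight `12 k`,
S23's coset polynomial lemmas (`H23.h20_exists_poly_nodal`, `H23.h20_exists_poly_lagNum`) give

* `H13Br.bridge_A1`: `K · ∑ (n+1) ψ_{n+1}(E₄³, Δ) T₁ⁿ = ∑ g_n(E₄³, Δ) T₁ⁿ`, `T₁ = Δ(N·) Δ^(k-1)`,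
  with `ψ_n, g_n` homogeneous of degree `k (μ - n)`, the left factor not identically zero;
* `H13Br.bridge_A2`: `∑_{n ≤ μ} ψ'_n(E₄³, Δ) Kⁿ = 0` with `ψ'_n` homogeneous of degree
  `k (μ - n)` and `ψ'_μ(E₄³, Δ) = 1`.
-/

set_option autoImplicit false

noncomputable section

open UpperHalfPlane ModularForm SlashInvariantForm SlashInvariantFormClass ModularFormClass
  CuspFormClass MatrixGroups OnePoint Filter EisensteinSeries Asymptotics

open scoped Topology Manifold

namespace H13Br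

open H23 Matrix.SpecialLinearGroup

attribute [local instance] h20_Q_fintype h20_Q_decEq h20_Q_nonempty

variable (N : ℕ) [NeZero N] (k : ℕ)
  (K : ModularForm (CongruenceSubgroup.Gamma0 N) (((12 * k : ℕ) : ℤ)))

/-- The family of translates of `Δ(N·) · Δ^(k-1)`. -/
def brT (q : h20_Q N) : ℍ → ℂ := fun z => h20_T N q z * ModularForm.discriminant z ^ (k - 1)

/-- The family of translates of `K`. -/
def brK (q : h20_Q N) : ℍ → ℂ := SlashInvariantForm.quotientFunc K q

lemma brT_one (z : ℍ) : brT N k (((1 : 𝒮ℒ) : h20_Q N)) z =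
    deltaN N z * ModularForm.discriminant z ^ (k - 1) := by
  unfold brT
  rw [h20_T_one]

omit [NeZero N] in
lemma brK_one : brK N k K (((1 : 𝒮ℒ) : h20_Q N)) = ⇑K := by
  unfold brK
  rw [h20_quotientFunc_one]

lemma disc_mem_holBdd : (ModularForm.discriminant : ℍ → ℂ) ∈ h20_holBdd :=
  ⟨ModularFormClass.holo CuspForm.discriminant, ModularFormClass.bdd_at_infty CuspForm.discriminant⟩

lemma brT_mem (q : h20_Q N) : brT N k q ∈ h20_holBdd :=
  h20_holBdd.mul_mem (h20_T_mem N q) (h20_holBdd.pow_mem disc_mem_holBdd (k - 1))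

lemma brK_mem (q : h20_Q N) : brK N k K q ∈ h20_holBdd := by
  obtain ⟨γ, hγ⟩ := h20_quotientFunc_eq_slash (k := ((12 * k : ℕ) : ℤ)) K q
  unfold brK
  rw [hγ]
  exact ⟨(ModularForm.translate K (mapGL ℝ γ)).holo', ModularFormClass.bdd_at_infty_slash K γ⟩

lemma br_perm (hk : 1 ≤ k) (γ : SL(2, ℤ)) :
    ∃ σ : Equiv.Perm (h20_Q N),
      (∀ q, brT N k q ∣[((12 * k : ℕ) : ℤ)] γ = brT N k (σ q)) ∧
      (∀ q, brK N k K q ∣[((12 * k : ℕ) : ℤ)] γ = brK N k K (σ q)) := by
  refine ⟨h20_sigma N γ, fun q => h20_slash_of_pointwise (fun z => ?_), fun q => ?_⟩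
  · have h1 := h20_slash_pointwise (w := 12)
      (h20_quotientFunc_sigma (k := 12) (deltaNForm N) γ q) z
    have h2 := h20_disc_smul γ z
    unfold brT h20_T
    rw [h1, h2, mul_pow, ← pow_mul]
    have he : 12 * k = 12 + 12 * (k - 1) := by omega
    rw [he, pow_add]
    ring
  · exact h20_quotientFunc_sigma (k := ((12 * k : ℕ) : ℤ)) K γ q

/-- The only coset whose translate `T_q` is `T_1` is the trivial coset. -/
lemma brT_eq (q : h20_Q N) (h : brT N k q = brT N k (((1 : 𝒮ℒ) : h20_Q N))) :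
    q = (((1 : 𝒮ℒ) : h20_Q N)) := by
  apply h20_T_eq_deltaN N q
  funext z
  have h1 := congrFun h z
  unfold brT at h1
  rw [h20_T_one] at h1
  exact mul_right_cancel₀ (pow_ne_zero _ (discriminant_ne_zero z)) h1

/-- **BR-A1**: the Lagrange interpolation relation for `K`, in homogeneous form. -/
theorem bridge_A1 (hk : 1 ≤ k) :
    ∃ (μ : ℕ) (ψ g : ℕ → MvPolynomial (Fin 2) ℂ), 0 < μ ∧
      (∀ n, (ψ n).IsHomogeneous (k * (μ - n))) ∧ (∀ n, (g n).IsHomogeneous (k * (μ - n))) ∧
      (∃ z : ℍ, ∑ n ∈ Finset.range μ, ((n : ℂ) + 1) * MvPolynomial.eval (pt2 z) (ψ (n + 1)) *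
          (deltaN N z * ModularForm.discriminant z ^ (k - 1)) ^ n ≠ 0) ∧
      ∀ z : ℍ, K z * ∑ n ∈ Finset.range μ, ((n : ℂ) + 1) *
          MvPolynomial.eval (pt2 z) (ψ (n + 1)) *
            (deltaN N z * ModularForm.discriminant z ^ (k - 1)) ^ n =
        ∑ n ∈ Finset.range μ, MvPolynomial.eval (pt2 z) (g n) *
          (deltaN N z * ModularForm.discriminant z ^ (k - 1)) ^ n := by
  obtain ⟨ψ, hψ, hψe⟩ := h20_exists_poly_nodal k (brT N k) (brT_mem N k)
    (fun γ => (br_perm N k K hk γ).imp (fun σ h => h.1))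
  obtain ⟨g, hg, hge⟩ := h20_exists_poly_lagNum k (brT N k) (brK N k K) (brT_mem N k)
    (brK_mem N k K) (br_perm N k K hk)
  set μ := Fintype.card (h20_Q N) with hμdef
  have hμ : 0 < μ := Fintype.card_pos
  set q₀ : h20_Q N := (((1 : 𝒮ℒ) : h20_Q N)) with hq₀
  have hTq₀ : ∀ z, brT N k q₀ z = deltaN N z * ModularForm.discriminant z ^ (k - 1) :=
    fun z => brT_one N k z
  have hQe : ∀ z, ∑ n ∈ Finset.range μ, ((n : ℂ) + 1) * MvPolynomial.eval (pt2 z) (ψ (n + 1)) *
      (deltaN N z * ModularForm.discriminant z ^ (k - 1)) ^ n =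
      Polynomial.eval (brT N k q₀ z)
        (Polynomial.derivative (Lagrange.nodal Finset.univ (fun q => brT N k q z))) := by
    intro z
    have hdeg : (Polynomial.derivative
        (Lagrange.nodal Finset.univ (fun q => brT N k q z))).natDegree < μ := by
      refine lt_of_le_of_lt (Polynomial.natDegree_derivative_le _) ?_
      rw [Lagrange.natDegree_nodal, Finset.card_univ]
      omega
    rw [Polynomial.eval_eq_sum_range' hdeg, hTq₀ z]
    refine Finset.sum_congr rfl (fun n _ => ?_)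
    rw [Polynomial.coeff_derivative, ← hψe z (n + 1)]
    ring
  have hPe : ∀ z, ∑ n ∈ Finset.range μ, MvPolynomial.eval (pt2 z) (g n) *
      (deltaN N z * ModularForm.discriminant z ^ (k - 1)) ^ n =
      Polynomial.eval (brT N k q₀ z)
        (h20_lagNum (fun q => brT N k q z) (fun q => brK N k K q z)) := by
    intro z
    rw [Polynomial.eval_eq_sum_range' (h20_natDegree_lagNum_lt _ _), hTq₀ z]
    refine Finset.sum_congr rfl (fun n _ => ?_)
    rw [← hge z n]
  refine ⟨μ, ψ, g, hμ, hψ, hg, ?_, ?_⟩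
  · by_contra hall
    rw [not_exists] at hall
    have hprod : ∏ q ∈ Finset.univ.erase q₀, (fun z => brT N k q₀ z - brT N k q z) = 0 := by
      funext z
      have h1 := not_not.mp (hall z)
      rw [hQe z] at h1
      have h2 := Lagrange.eval_nodal_derivative_eval_node_eq (s := Finset.univ)
        (v := fun q => brT N k q z) (Finset.mem_univ q₀)
      rw [h2, Lagrange.eval_nodal] at h1
      rw [Finset.prod_apply]
      exact h1
    rw [UpperHalfPlane.prod_eq_zero_iff] at hprod
    · obtain ⟨q, hq, hq0⟩ := hprod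
      have hne : q ≠ q₀ := (Finset.mem_erase.mp hq).1
      apply hne
      apply brT_eq N k q
      funext z
      have := congrFun hq0 z
      simp only [Pi.zero_apply] at this
      exact (sub_eq_zero.mp this).symm
    · intro q _
      exact (brT_mem N k q₀).1.sub (brT_mem N k q).1
  · intro z
    rw [hQe z, hPe z]
    have h := h20_eval_lagNum_node (fun q => brT N k q z) (fun q => brK N k K q z) q₀
    rw [h]
    have hK1 : brK N k K q₀ z = K z := congrFun (brK_one N k K) z
    rw [hK1]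

/-- **BR-A2**: the integrality relation for `K`, in homogeneous form. -/
theorem bridge_A2 (hk : 1 ≤ k) :
    ∃ (μ : ℕ) (ψ : ℕ → MvPolynomial (Fin 2) ℂ),
      (∀ n, (ψ n).IsHomogeneous (k * (μ - n))) ∧
      (∀ z : ℍ, MvPolynomial.eval (pt2 z) (ψ μ) = 1) ∧
      ∀ z : ℍ, ∑ n ∈ Finset.range (μ + 1), MvPolynomial.eval (pt2 z) (ψ n) * K z ^ n = 0 := by
  obtain ⟨ψ, hψ, hψe⟩ := h20_exists_poly_nodal k (brK N k K) (brK_mem N k K)
    (fun γ => (br_perm N k K hk γ).imp (fun σ h => h.2))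
  set μ := Fintype.card (h20_Q N) with hμdef
  set q₀ : h20_Q N := (((1 : 𝒮ℒ) : h20_Q N)) with hq₀
  have hdeg : ∀ z, (Lagrange.nodal Finset.univ (fun q => brK N k K q z)).natDegree = μ := by
    intro z
    rw [Lagrange.natDegree_nodal, Finset.card_univ]
  refine ⟨μ, ψ, hψ, fun z => ?_, fun z => ?_⟩
  · rw [← hψe z μ]
    have := (Lagrange.nodal_monic (s := Finset.univ) (v := fun q => brK N k K q z))
    rw [← hdeg z]
    exact this
  · have hroot : Polynomial.eval (brK N k K q₀ z)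
        (Lagrange.nodal Finset.univ (fun q => brK N k K q z)) = 0 :=
      Lagrange.eval_nodal_at_node (s := Finset.univ) (v := fun q => brK N k K q z)
        (Finset.mem_univ q₀)
    have hK1 : brK N k K q₀ z = K z := congrFun (brK_one N k K) z
    rw [hK1, Polynomial.eval_eq_sum_range, hdeg z] at hroot
    rw [← hroot]
    refine Finset.sum_congr rfl (fun n _ => ?_)
    rw [← hψe z n]

end H13Br
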