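import Mathlib
import Fermat.Agent.S16.H13BridgeA
import Fermat.Agent.S28.ModEq.Analytic
import Fermat.Agent.S28.ModEq.Bridge

/-!
# S16 BRIDGE, slice BR-L (helper13): the relations of BR-A for `q`-series over `ℂ`

`K : ModularForm (Γ₀(N)) (12 k)`, `k ≥ 1`, `X = K / Δ^k`.  In `ℂ((q))`:
* `uNq N  = Δ(q^N)/Δ(q)`,
* `Xc N k K = (q-expansion of K) · Δ(q)^(-k)`,
and
* `H13Br.bridge_field`: `Xc · Q(j, u) = P(j, u)` with `Q(j, u) ≠ 0`, `P, Q ∈ ℂ[X₀, X₁]`;
* `H13Br.bridge_integral`: `Xc` is a root of a monic polynomial with coefficients in `ℂ[j]`.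
These are the exact inputs of helper23's descent `H23Q.mem_full_of_rel`, `H23Q.isIntegral_of_rel`.
-/

set_option autoImplicit false

noncomputable section

open UpperHalfPlane ModularForm H23 H23.Rel H23M ModularCurve H28S28
open scoped MatrixGroups Manifold Topology Real

namespace H13Br

variable (N : ℕ) [NeZero N] (k : ℕ)
  (K : ModularForm (CongruenceSubgroup.Gamma0 N) (((12 * k : ℕ) : ℤ)))

/-- `Δ(q^N)/Δ(q)` in `ℂ((q))`. -/
def uNq : LaurentSeries ℂ := qExpand ℂ N (deltaq ℂ) * deltaqInv ℂ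

/-- the `q`-series of `K/Δ^k` in `ℂ((q))`. -/
def Xc : LaurentSeries ℂ :=
  HahnSeries.ofPowerSeries ℤ ℂ (qExpansion 1 (⇑K)) * deltaqInv ℂ ^ k

theorem nice_K : Nice (⇑K) := by
  refine ⟨ModularFormClass.holo K, ?_, ModularFormClass.bdd_at_infty K⟩
  have h := SlashInvariantFormClass.periodic_comp_ofComplex K
    (CongruenceSubgroup.one_mem_strictPeriods_Gamma0 N)
  simpa using h

/-- `K` as a nice function -/
def Kn : niceAlg := ⟨⇑K, nice_K N k K⟩

theorem Lam_injective : Function.Injective Lam := by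
  rw [injective_iff_map_eq_zero]
  intro F hF
  rw [Lam_apply] at hF
  have h1 : qExpansion 1 (F : ℍ → ℂ) = 0 := by
    have hinj := HahnSeries.ofPowerSeries_injective (Γ := ℤ) (R := ℂ)
    apply hinj
    rw [hF, map_zero]
  have h2 := eq_zero_of_qExpansion_eq_zero F.2 h1
  exact Subtype.ext h2

theorem evw_pair0 (w : ℍ) :
    (fun i => evw w ((![E4n ^ 3, Dn] : Fin 2 → niceAlg) i)) = pt2 w := by
  funext i
  fin_cases i
  · simp only [Fin.zero_eta, Matrix.cons_val_zero, map_pow]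
    rfl
  · rfl

theorem evw_aeval (w : ℍ) (φ : MvPolynomial (Fin 2) ℂ) :
    evw w (MvPolynomial.aeval ![E4n ^ 3, Dn] φ) = MvPolynomial.eval (pt2 w) φ := by
  have h1 := MvPolynomial.comp_aeval (R := ℂ) (σ := Fin 2)
    (f := (![E4n ^ 3, Dn] : Fin 2 → niceAlg)) (evw w)
  have h2 := congrArg (fun F : MvPolynomial (Fin 2) ℂ →ₐ[ℂ] ℂ => F φ) h1
  simp only [AlgHom.comp_apply] at h2
  rw [h2, evw_pair0, MvPolynomial.aeval_eq_eval]

theorem LamA_pair0 :
    (fun i => LamA ((![E4n ^ 3, Dn] : Fin 2 → niceAlg) i)) =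
      ![jqModC ℂ * deltaq ℂ, deltaq ℂ] := by
  funext i
  fin_cases i
  · simp only [Fin.zero_eta, Matrix.cons_val_zero, map_pow]
    rw [LamA_apply, Lam_E4n qExpansion_E4, jqModC_mul_deltaq]
  · show LamA Dn = deltaq ℂ
    rw [LamA_apply, Lam_Dn qExpansion_disc]

theorem LamA_aeval (φ : MvPolynomial (Fin 2) ℂ) {d : ℕ} (hφ : φ.IsHomogeneous d) :
    LamA (MvPolynomial.aeval ![E4n ^ 3, Dn] φ) =
      deltaq ℂ ^ d * Polynomial.aeval (jqModC ℂ) (dehom φ) := by
  have h1 := MvPolynomial.comp_aeval (R := ℂ) (σ := Fin 2)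
    (f := (![E4n ^ 3, Dn] : Fin 2 → niceAlg)) LamA
  have h2 := congrArg (fun F : MvPolynomial (Fin 2) ℂ →ₐ[ℂ] LaurentSeries ℂ => F φ) h1
  simp only [AlgHom.comp_apply] at h2
  rw [h2, LamA_pair0, aeval_pair_scale hφ, aeval_dehom]

/-- `T₁ = Δ(N·) Δ^(k-1)` as a nice function -/
def Tn : niceAlg := compDiag N Dn * Dn ^ (k - 1)

theorem evw_Tn (w : ℍ) :
    evw w (Tn N k) = deltaN N w * ModularForm.discriminant w ^ (k - 1) := by
  unfold Tn
  rw [map_mul, map_pow]
  rfl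

theorem LamA_Tn (hk : 1 ≤ k) : LamA (Tn N k) = uNq N * deltaq ℂ ^ k := by
  unfold Tn uNq
  rw [map_mul, map_pow, LamA_apply, LamA_apply, Lam_compDiag, Lam_Dn qExpansion_disc]
  have h : deltaq ℂ ^ k = deltaq ℂ * deltaq ℂ ^ (k - 1) := by
    rw [← pow_succ']
    congr 1
    omega
  rw [h, mul_assoc, ← mul_assoc (deltaqInv ℂ), mul_comm (deltaqInv ℂ), deltaq_mul_deltaqInv,
    one_mul]

theorem LamA_Kn : LamA (Kn N k K) = Xc N k K * deltaq ℂ ^ k := by
  unfold Xc
  rw [mul_assoc, ← mul_pow, mul_comm (deltaqInv ℂ), deltaq_mul_deltaqInv, one_pow, mul_one]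
  rfl

/-- `ℂ[X] → ℂ[X₀, X₁]`, `X ↦ X₀` -/
def toMv : Polynomial ℂ →ₐ[ℂ] MvPolynomial (Fin 2) ℂ := Polynomial.aeval (MvPolynomial.X 0)

theorem aeval_toMv (a b : LaurentSeries ℂ) (p : Polynomial ℂ) :
    MvPolynomial.aeval ![a, b] (toMv p) = Polynomial.aeval a p := by
  unfold toMv
  rw [← Polynomial.aeval_algHom_apply, MvPolynomial.aeval_X]
  rfl

theorem deltaq_pow_ne_zero (n : ℕ) : deltaq ℂ ^ n ≠ 0 := pow_ne_zero _ (deltaq_ne_zero ℂ)

/-- **BR-L (field relation)** -/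
theorem bridge_field (hk : 1 ≤ k) :
    ∃ P Q : MvPolynomial (Fin 2) ℂ,
      MvPolynomial.aeval ![jqModC ℂ, uNq N] Q ≠ 0 ∧
      Xc N k K * MvPolynomial.aeval ![jqModC ℂ, uNq N] Q =
        MvPolynomial.aeval ![jqModC ℂ, uNq N] P := by
  obtain ⟨μ, ψ, g, hμ, hψ, hg, hne, hrel⟩ := bridge_A1 N k K hk
  -- the relation in the algebra of nice functions
  set S : niceAlg := ∑ n ∈ Finset.range μ, algebraMap ℂ niceAlg ((n : ℂ) + 1) *
    MvPolynomial.aeval ![E4n ^ 3, Dn] (ψ (n + 1)) * Tn N k ^ n with hS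
  set R : niceAlg := ∑ n ∈ Finset.range μ,
    MvPolynomial.aeval ![E4n ^ 3, Dn] (g n) * Tn N k ^ n with hR
  have hevS : ∀ w, evw w S = ∑ n ∈ Finset.range μ, ((n : ℂ) + 1) *
      MvPolynomial.eval (pt2 w) (ψ (n + 1)) *
        (deltaN N w * ModularForm.discriminant w ^ (k - 1)) ^ n := by
    intro w
    rw [hS, map_sum]
    refine Finset.sum_congr rfl (fun n _ => ?_)
    rw [map_mul, map_mul, map_pow, evw_aeval, evw_Tn, AlgHom.commutes]
    rfl
  have hevR : ∀ w, evw w R = ∑ n ∈ Finset.range μ, MvPolynomial.eval (pt2 w) (g n) *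
        (deltaN N w * ModularForm.discriminant w ^ (k - 1)) ^ n := by
    intro w
    rw [hR, map_sum]
    refine Finset.sum_congr rfl (fun n _ => ?_)
    rw [map_mul, map_pow, evw_aeval, evw_Tn]
  have hSR : Kn N k K * S = R := niceAlg_ext fun w => by
    rw [map_mul, hevS, hevR]
    exact hrel w
  have hS0 : S ≠ 0 := by
    intro h0
    obtain ⟨z, hz⟩ := hne
    apply hz
    rw [← hevS z, h0, map_zero]
  -- the formal polynomials
  set B : LaurentSeries ℂ := ∑ n ∈ Finset.range μ, algebraMap ℂ (LaurentSeries ℂ) ((n : ℂ) + 1) *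
    Polynomial.aeval (jqModC ℂ) (dehom (ψ (n + 1))) * uNq N ^ n with hB
  set A : LaurentSeries ℂ := ∑ n ∈ Finset.range μ,
    Polynomial.aeval (jqModC ℂ) (dehom (g n)) * uNq N ^ n with hA
  have hLS : LamA S = deltaq ℂ ^ (k * (μ - 1)) * B := by
    rw [hS, map_sum, hB, Finset.mul_sum]
    refine Finset.sum_congr rfl (fun n hn => ?_)
    have hn' : n < μ := Finset.mem_range.mp hn
    rw [map_mul, map_mul, map_pow, LamA_aeval (ψ (n + 1)) (hψ (n + 1)), LamA_Tn N k hk,
      AlgHom.commutes, mul_pow, ← pow_mul]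
    have he : k * (μ - 1) = k * (μ - (n + 1)) + k * n := by
      rw [← Nat.mul_add]
      congr 1
      omega
    rw [he, pow_add]
    ring
  have hLR : LamA R = deltaq ℂ ^ (k * μ) * A := by
    rw [hR, map_sum, hA, Finset.mul_sum]
    refine Finset.sum_congr rfl (fun n hn => ?_)
    have hn' : n < μ := Finset.mem_range.mp hn
    rw [map_mul, map_pow, LamA_aeval (g n) (hg n), LamA_Tn N k hk, mul_pow, ← pow_mul]
    have he : k * μ = k * (μ - n) + k * n := by
      rw [← Nat.mul_add]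
      congr 1
      omega
    rw [he, pow_add]
    ring
  have hB0 : B ≠ 0 := by
    intro h0
    apply hS0
    apply Lam_injective
    rw [map_zero, ← LamA_apply, hLS, h0, mul_zero]
  have hXB : Xc N k K * B = A := by
    have h1 := congrArg LamA hSR
    rw [map_mul, LamA_Kn, hLS, hLR] at h1
    have he : k * μ = k + k * (μ - 1) := by
      obtain ⟨m, hm⟩ : ∃ m, μ = m + 1 := ⟨μ - 1, by omega⟩
      rw [hm, Nat.add_sub_cancel, Nat.mul_succ, add_comm]
    rw [he, pow_add] at h1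
    have h2 : (deltaq ℂ ^ k * deltaq ℂ ^ (k * (μ - 1))) * (Xc N k K * B) =
        (deltaq ℂ ^ k * deltaq ℂ ^ (k * (μ - 1))) * A := by
      rw [← h1]
      ring
    exact mul_left_cancel₀ (mul_ne_zero (deltaq_pow_ne_zero k) (deltaq_pow_ne_zero _)) h2
  refine ⟨∑ n ∈ Finset.range μ, toMv (dehom (g n)) * MvPolynomial.X 1 ^ n,
    ∑ n ∈ Finset.range μ, MvPolynomial.C ((n : ℂ) + 1) * toMv (dehom (ψ (n + 1))) *
      MvPolynomial.X 1 ^ n, ?_, ?_⟩
  · have : MvPolynomial.aeval ![jqModC ℂ, uNq N]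
        (∑ n ∈ Finset.range μ, MvPolynomial.C ((n : ℂ) + 1) * toMv (dehom (ψ (n + 1))) *
          MvPolynomial.X 1 ^ n) = B := by
      rw [map_sum, hB]
      refine Finset.sum_congr rfl (fun n _ => ?_)
      rw [map_mul, map_mul, map_pow, MvPolynomial.aeval_C, aeval_toMv, MvPolynomial.aeval_X]
      rfl
    rw [this]
    exact hB0
  · have h1 : MvPolynomial.aeval ![jqModC ℂ, uNq N]
        (∑ n ∈ Finset.range μ, MvPolynomial.C ((n : ℂ) + 1) * toMv (dehom (ψ (n + 1))) *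
          MvPolynomial.X 1 ^ n) = B := by
      rw [map_sum, hB]
      refine Finset.sum_congr rfl (fun n _ => ?_)
      rw [map_mul, map_mul, map_pow, MvPolynomial.aeval_C, aeval_toMv, MvPolynomial.aeval_X]
      rfl
    have h2 : MvPolynomial.aeval ![jqModC ℂ, uNq N]
        (∑ n ∈ Finset.range μ, toMv (dehom (g n)) * MvPolynomial.X 1 ^ n) = A := by
      rw [map_sum, hA]
      refine Finset.sum_congr rfl (fun n _ => ?_)
      rw [map_mul, map_pow, aeval_toMv, MvPolynomial.aeval_X]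
      rfl
    rw [h1, h2]
    exact hXB

/-- **BR-L (integrality relation)** -/
theorem bridge_integral (hk : 1 ≤ k) :
    ∃ Φ : Polynomial (Polynomial ℂ), Φ.Monic ∧
      (Φ.map (Polynomial.aeval (jqModC ℂ)).toRingHom).eval (Xc N k K) = 0 := by
  obtain ⟨μ, ψ, hψ, hone, hrel⟩ := bridge_A2 N k K hk
  have hsum : ∑ n ∈ Finset.range (μ + 1),
      MvPolynomial.aeval ![E4n ^ 3, Dn] (ψ n) * Kn N k K ^ n = 0 := niceAlg_ext fun w => by
    rw [map_sum, map_zero, ← hrel w]
    refine Finset.sum_congr rfl (fun n _ => ?_)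
    rw [map_mul, map_pow, evw_aeval]
    rfl
  have htop : Polynomial.aeval (jqModC ℂ) (dehom (ψ μ)) = 1 := by
    have h1 : MvPolynomial.aeval ![E4n ^ 3, Dn] (ψ μ) = (1 : niceAlg) := niceAlg_ext fun w => by
      rw [evw_aeval, hone w, map_one]
    have h2 := LamA_aeval (ψ μ) (hψ μ)
    rw [h1, map_one, Nat.sub_self, Nat.mul_zero, pow_zero, one_mul] at h2
    exact h2.symm
  have hform : ∑ n ∈ Finset.range (μ + 1),
      Polynomial.aeval (jqModC ℂ) (dehom (ψ n)) * Xc N k K ^ n = 0 := by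
    have h1 := congrArg LamA hsum
    rw [map_sum, map_zero] at h1
    have h2 : ∑ n ∈ Finset.range (μ + 1),
        LamA (MvPolynomial.aeval ![E4n ^ 3, Dn] (ψ n) * Kn N k K ^ n) =
        deltaq ℂ ^ (k * μ) * ∑ n ∈ Finset.range (μ + 1),
          Polynomial.aeval (jqModC ℂ) (dehom (ψ n)) * Xc N k K ^ n := by
      rw [Finset.mul_sum]
      refine Finset.sum_congr rfl (fun n hn => ?_)
      have hn' : n ≤ μ := Nat.lt_succ_iff.mp (Finset.mem_range.mp hn)
      rw [map_mul, map_pow, LamA_aeval (ψ n) (hψ n), LamA_Kn, mul_pow, ← pow_mul]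
      have he : k * μ = k * (μ - n) + k * n := by
        rw [← Nat.mul_add]
        congr 1
        omega
      rw [he, pow_add]
      ring
    rw [h2] at h1
    exact (mul_eq_zero.mp h1).resolve_left (deltaq_pow_ne_zero _)
  set r : Polynomial (Polynomial ℂ) := ∑ n ∈ Finset.range μ,
    Polynomial.C (dehom (ψ n)) * Polynomial.X ^ n with hr
  have hdeg : r.degree < (μ : WithBot ℕ) := by
    rw [Polynomial.degree_lt_iff_coeff_zero]
    intro m hm
    rw [hr, Polynomial.finsetSum_coeff]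
    refine Finset.sum_eq_zero (fun n hn => ?_)
    have hn' : n < μ := Finset.mem_range.mp hn
    rw [Polynomial.coeff_C_mul, Polynomial.coeff_X_pow, if_neg (by omega), mul_zero]
  refine ⟨Polynomial.X ^ μ + r, Polynomial.monic_X_pow_add hdeg, ?_⟩
  rw [Polynomial.eval_map, Polynomial.eval₂_add, Polynomial.eval₂_pow, Polynomial.eval₂_X, hr,
    Polynomial.eval₂_finsetSum]
  rw [Finset.sum_range_succ, htop, one_mul] at hform
  rw [add_comm, ← hform]
  congr 1
  refine Finset.sum_congr rfl (fun n _ => ?_)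
  rw [Polynomial.eval₂_mul, Polynomial.eval₂_C, Polynomial.eval₂_pow, Polynomial.eval₂_X]
  rfl

end H13Br
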