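import Mathlib
import Fermat.Agent.S28.ChartDomains
import Fermat.Agent.S28.DegreeBounds
import Fermat.Agent.S28.RQ
import Fermat.Agent.S28.WP3Crux

/-!
# S16, slice S3 + lying-over (helper10): T-Igusa internals at `(N, ℓ)`, `ℓ ∤ N`

* `h10s16_mem_chartAlgFin`: `X ∈ F_N ∩ O` integral over `ℚ[j]` lies in `chartAlgFin N ℓ`
  (integral closure of `ℤ_(ℓ)[j]`).
* `h10s16_red_isIntegral`: the reduction mod `ℓ` of an element of `chartAlgFin N ℓ` is integral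
  over `𝔽_ℓ[J]`.
* `h10s16_inv_not_isIntegral`: `J⁻¹` is not integral over `k[J]`.
* `h10s16_no_relation`: for `X ∈ F_N` with `ℓ`-integral `q`-expansion, integral over `ℚ[j]`,
  `Z` any `ℓ`-integral series, `c ∈ ℤ` prime to `ℓ`:  `j · X ≠ c + ℓ · Z`.
-/

set_option autoImplicit false
set_option linter.unusedSectionVars false

open ModularCurve ModularCurve.IgusaScheme H28S28

noncomputable section

namespace H10S16

variable {N : ℕ} [NeZero N] {ℓ : ℕ} [Fact ℓ.Prime]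

/-- An element of `O` which is integral over `ℚ[t] ∩ F₀` lies in the integral closure of
`ℤ_(ℓ)[t]` (the chart algebra).  (Second half of `h28_saturated`.) -/
theorem h10s16_mem_chart_of_isIntegral_RQ (hval : HValN N ℓ)
    (hint : ∀ x ∈ h28O N ℓ, IsIntegral ↥(h28O N ℓ ⊓ (h28F0 N).toSubring) x)
    (t : ↥(modularFunctionFieldFull N)) (hG : HGaussN N ℓ t)
    [IsIntegrallyClosed ↥(h28RQ N t)] (hRQ : IsFractionRing ↥(h28RQ N t) ↥(h28F0 N))
    (o : ↥(modularFunctionFieldFull N)) (ho : o ∈ h28O N ℓ)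
    (h1 : IsIntegral ↥(h28RQ N t) o) : o ∈ chartAlg N ℓ {t} := by
  rw [mem_chartAlg_iff]
  have h2 : IsIntegral ↥(h28Vval hval) o := by
    have := IsIntegral.map_of_comp_eq
      (φ := (((h28O N ℓ ⊓ (h28F0 N).toSubring).subtype).codRestrict
        (h28F0 N) (fun x => x.2.2)).codRestrict (h28Vval hval) (fun x => x.2.1))
      (ψ := RingHom.id ↥(modularFunctionFieldFull N)) (RingHom.ext fun r => rfl) (hint o ho)
    simpa using this
  have h3 : IsIntegral ↥(h28R N ℓ t) o :=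
    h10_isIntegral_of_two ↥(h28F0 N) ↥(modularFunctionFieldFull N) (h28RQ N t) hRQ
      (h28Vval hval) (h28R N ℓ t) (h28_hR t hG) o h1 h2
  have := IsIntegral.map_of_comp_eq
    (φ := ((h28F0 N).subtype.comp (h28R N ℓ t).subtype).codRestrict
      (Algebra.adjoin ↥(GaloisRep.ratLocalizedAt ℓ) {t}) (fun x => x.2))
    (ψ := RingHom.id ↥(modularFunctionFieldFull N)) (RingHom.ext fun r => rfl) h3
  simpa using this

/-- Integrality over `ℚ[t]` (subalgebra of `F_N`) gives integrality over `ℚ[t] ∩ F₀`. -/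
theorem h10s16_isIntegral_RQ_of_adjoin (t : ↥(modularFunctionFieldFull N)) (ht0 : t ∈ h28F0 N)
    (o : ↥(modularFunctionFieldFull N)) (h : IsIntegral ↥(Algebra.adjoin ℚ {t}) o) :
    IsIntegral ↥(h28RQ N t) o := by
  have := IsIntegral.map_of_comp_eq
    (φ := (((Algebra.adjoin ℚ {t}).toSubring.subtype).codRestrict
      (h28F0 N) (fun x => h10_adjoin_le_F0 N t ht0 x.2)).codRestrict (h28RQ N t)
        (fun x => x.2))
    (ψ := RingHom.id ↥(modularFunctionFieldFull N)) (RingHom.ext fun r => rfl) h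
  simpa using this

variable (N ℓ)

/-- **S3a.** For `ℓ ∤ N`: an element of `F_N ∩ O` (e.g. with `ℓ`-integral `q`-expansion) which is
integral over `ℚ[j]` is integral over `ℤ_(ℓ)[j]`, i.e. lies in `chartAlgFin N ℓ`. -/
theorem h10s16_mem_chartAlgFin (hℓN : ¬ ℓ ∣ N) (X : ↥(modularFunctionFieldFull N))
    (hXO : X ∈ h28O N ℓ) (hXj : IsIntegral ↥(Algebra.adjoin ℚ {jFull N}) X) :
    X ∈ chartAlgFin N ℓ := by
  have hval : HValN N ℓ := h13_hval N ℓ
  have hint := h13_isIntegral_O_of_hbound N ℓ (h10_hbound_all N)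
    (h10_degreeLowerBound_all N ℓ hℓN)
  have := h10_RQ_j_isIntegrallyClosed N
  exact h10s16_mem_chart_of_isIntegral_RQ hval hint (jFull N) h28_gauss_j
    (h10_RQ_j_isFractionRing N) X hXO
    (h10s16_isIntegral_RQ_of_adjoin (jFull N) (h28_j_mem_F0 N) X hXj)

/-! ### Reduction of the chart algebra -/

variable {N ℓ}

/-- The reduction of an element of `O` given by an `ℓ`-integral series. -/
theorem h10s16_red_of_eps (x : ↥(h28O N ℓ)) (f : LaurentSeries ↥(GaloisRep.ratLocalizedAt ℓ))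
    (h : ((x : ↥(modularFunctionFieldFull N)) : LaurentSeries ℚ) = epsL ℓ f) :
    h28red N ℓ x = rhoL ℓ f := by
  rw [h28red_apply]
  have hx : (⟨((x : ↥(modularFunctionFieldFull N)) : LaurentSeries ℚ), x.2⟩ : ↥(Obig ℓ)) =
      ⟨epsL ℓ f, epsL_mem_Obig ℓ f⟩ := Subtype.ext h
  rw [hx, redHom_epsL]

/-- Elements of `ℤ_(ℓ)[j]` are `ℓ`-integral polynomials in `j`. -/
theorem h10s16_adjoin_eq_eps (a : ↥(modularFunctionFieldFull N))
    (ha : a ∈ Algebra.adjoin ↥(GaloisRep.ratLocalizedAt ℓ) {jFull N}) :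
    ∃ Q : Polynomial ↥(GaloisRep.ratLocalizedAt ℓ),
      (a : LaurentSeries ℚ) = epsL ℓ (h13ev ℓ (jqModC ↥(GaloisRep.ratLocalizedAt ℓ)) Q) := by
  rw [Algebra.adjoin_singleton_eq_range_aeval] at ha
  obtain ⟨Q, rfl⟩ := ha
  refine ⟨Q, ?_⟩
  rw [h13_epsL_ev, h13_epsL_j]
  have h1 : (Polynomial.aeval (jFull N)) Q =
      Polynomial.aeval (jFull N) (Q.map (h13incl ℓ)) :=
    (Polynomial.aeval_map_algebraMap (A := ℚ) (jFull N) Q).symm
  have h2 := h28_coe_aeval (jFull N) (Q.map (h13incl ℓ))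
  rw [coe_jFull] at h2
  rw [← h2]
  exact congrArg Subtype.val h1

/-- The reduction maps `ℤ_(ℓ)[j]` into `𝔽_ℓ[J]`. -/
theorem h10s16_red_adjoin_mem (a : ↥(h28O N ℓ))
    (ha : (a : ↥(modularFunctionFieldFull N)) ∈
      Algebra.adjoin ↥(GaloisRep.ratLocalizedAt ℓ) {jFull N}) :
    h28red N ℓ a ∈ Algebra.adjoin (ZMod ℓ) {jqModC (ZMod ℓ)} := by
  obtain ⟨Q, hQ⟩ := h10s16_adjoin_eq_eps _ ha
  rw [h10s16_red_of_eps a _ hQ, h13_rhoL_ev, h13_rhoL_j]
  exact Polynomial.aeval_mem_adjoin_singleton _ _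

/-- **S3b.** The reduction of an element of the chart algebra `chartAlgFin N ℓ` (integral
closure of `ℤ_(ℓ)[j]` in `F_N`) is integral over `𝔽_ℓ[J]`. -/
theorem h10s16_red_isIntegral (X : ↥(h28O N ℓ))
    (hX : IsIntegral ↥(Algebra.adjoin ↥(GaloisRep.ratLocalizedAt ℓ) {jFull N})
      (X : ↥(modularFunctionFieldFull N))) :
    IsIntegral ↥(Algebra.adjoin (ZMod ℓ) {jqModC (ZMod ℓ)}) (h28red N ℓ X) := by
  obtain ⟨P, hPm, hPX⟩ := hX
  -- the inclusion `ℤ_(ℓ)[j] → O`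
  set φ₀ : ↥(Algebra.adjoin ↥(GaloisRep.ratLocalizedAt ℓ) {jFull N}) →+* ↥(h28O N ℓ) :=
    ((Algebra.adjoin ↥(GaloisRep.ratLocalizedAt ℓ) {jFull N}).toSubring.subtype).codRestrict
      (h28O N ℓ) (fun x => h28_adjoin_le_O N ℓ {jFull N}
        (fun s hs => by rw [Set.mem_singleton_iff.mp hs]; exact h28_j_mem_O N ℓ) x x.2) with hφ₀
  set φB : ↥(Algebra.adjoin ↥(GaloisRep.ratLocalizedAt ℓ) {jFull N}) →+*
      ↥(Algebra.adjoin (ZMod ℓ) {jqModC (ZMod ℓ)}) :=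
    ((h28red N ℓ).comp φ₀).codRestrict (Algebra.adjoin (ZMod ℓ) {jqModC (ZMod ℓ)})
      (fun a => h10s16_red_adjoin_mem (φ₀ a) a.2) with hφB
  refine ⟨P.map φB, hPm.map φB, ?_⟩
  rw [Polynomial.eval₂_map]
  have hcomp : (algebraMap ↥(Algebra.adjoin (ZMod ℓ) {jqModC (ZMod ℓ)})
      (LaurentSeries (ZMod ℓ))).comp φB = (h28red N ℓ).comp φ₀ := RingHom.ext fun a => rfl
  rw [hcomp, ← Polynomial.hom_eval₂]
  have h0 : Polynomial.eval₂ φ₀ X P = 0 := by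
    apply (h28O N ℓ).subtype_injective
    rw [Polynomial.hom_eval₂, map_zero]
    exact hPX
  rw [h0, map_zero]

/-! ### The contradiction -/

/-- `J⁻¹` is not integral over `k[J]` (`J` transcendental over the field `k`). -/
theorem h10s16_inv_not_isIntegral {k Ω : Type} [Field k] [Field Ω] [Algebra k Ω] {t : Ω}
    (ht : Transcendental k t) : ¬ IsIntegral ↥(Algebra.adjoin k {t}) t⁻¹ := by
  intro h2
  have ht0 : t ≠ 0 := fun h => ht (h ▸ isAlgebraic_zero)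
  have h1 : IsIntegral ↥(Algebra.adjoin k {t}) t :=
    isIntegral_algebraMap (R := ↥(Algebra.adjoin k {t})) (A := Ω)
      (x := ⟨t, Algebra.subset_adjoin (Set.mem_singleton t)⟩)
  obtain ⟨c, hc⟩ := H13Crux.const_of_integral ht
    (IntermediateField.mem_adjoin_simple_self k t) h1 h2 ht0
  exact ht (hc ▸ isAlgebraic_algebraMap c)

variable (N ℓ)

/-- **S3 + lying-over, in `F_N`.** For `ℓ ∤ N`, `X ∈ F_N` with `ℓ`-integral `q`-expansion `x`
and integral over `ℚ[j]`, an `ℓ`-integral series `z` and an integer `c` prime to `ℓ`: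
`j · x = c + ℓ · z` is impossible. -/
theorem h10s16_no_relation_aux (hℓN : ¬ ℓ ∣ N) (X : ↥(modularFunctionFieldFull N))
    (x : LaurentSeries ↥(GaloisRep.ratLocalizedAt ℓ))
    (hx : (X : LaurentSeries ℚ) = epsL ℓ x)
    (hXj : IsIntegral ↥(Algebra.adjoin ℚ {jFull N}) X)
    (z : LaurentSeries ↥(GaloisRep.ratLocalizedAt ℓ)) (c : ℤ) (hc : ¬ (ℓ : ℤ) ∣ c) :
    jqModC ↥(GaloisRep.ratLocalizedAt ℓ) * x ≠
      (c : LaurentSeries ↥(GaloisRep.ratLocalizedAt ℓ)) +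
        (ℓ : LaurentSeries ↥(GaloisRep.ratLocalizedAt ℓ)) * z := by
  intro heq
  have hXO : X ∈ h28O N ℓ := by
    rw [mem_h28O_iff, hx]
    exact epsL_mem_Obig ℓ x
  have h1 : X ∈ chartAlgFin N ℓ := h10s16_mem_chartAlgFin N ℓ hℓN X hXO hXj
  have h2 := h10s16_red_isIntegral (⟨X, hXO⟩ : ↥(h28O N ℓ)) ((mem_chartAlg_iff N ℓ).mp h1)
  rw [h10s16_red_of_eps (⟨X, hXO⟩ : ↥(h28O N ℓ)) x hx] at h2
  -- reduce the relation
  have h3 := congrArg (rhoL ℓ) heq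
  rw [map_mul, map_add, map_mul, map_intCast, map_natCast, natCast_eq_zero_Lk, zero_mul,
    add_zero, h13_rhoL_j] at h3
  have hc0 : ((c : ℤ) : ZMod ℓ) ≠ 0 := by
    rw [Ne, ZMod.intCast_zmod_eq_zero_iff_dvd]
    exact hc
  have hJ0 : jqModC (ZMod ℓ) ≠ 0 := jqModC_ne_zero_of_nontrivial (ZMod ℓ)
  -- `J⁻¹ = c⁻¹ * x̄`
  have h4 : (jqModC (ZMod ℓ))⁻¹ =
      algebraMap ↥(Algebra.adjoin (ZMod ℓ) {jqModC (ZMod ℓ)}) (LaurentSeries (ZMod ℓ))
        (algebraMap (ZMod ℓ) _ (((c : ℤ) : ZMod ℓ)⁻¹)) * rhoL ℓ x := by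
    have h5 : rhoL ℓ x = (jqModC (ZMod ℓ))⁻¹ * ((c : ℤ) : LaurentSeries (ZMod ℓ)) := by
      rw [← h3, ← mul_assoc, inv_mul_cancel₀ hJ0, one_mul]
    have h6 : ((c : ℤ) : LaurentSeries (ZMod ℓ)) =
        algebraMap (ZMod ℓ) (LaurentSeries (ZMod ℓ)) ((c : ℤ) : ZMod ℓ) := by
      rw [map_intCast]
    rw [h5, h6, ← IsScalarTower.algebraMap_apply, mul_comm _ ((jqModC (ZMod ℓ))⁻¹ * _),
      mul_assoc, ← map_mul, mul_inv_cancel₀ hc0, map_one, mul_one]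
  have h7 : IsIntegral ↥(Algebra.adjoin (ZMod ℓ) {jqModC (ZMod ℓ)}) (jqModC (ZMod ℓ))⁻¹ := by
    rw [h4]
    exact isIntegral_algebraMap.mul h2
  exact h10s16_inv_not_isIntegral
    (P2MW.S_ModularCurve_coeff_jqModC_neg_one.ModularCurve.CharLRows.transcendental_jqModC
      (ZMod ℓ)) h7

/-! ### Statements inside `ℚ((q))` -/

/-- `ℚ[j] ⊂ F_N` is isomorphic to `ℚ[j] ⊂ ℚ((q))`. -/
def h10s16_adjoinEquiv :
    ↥(Algebra.adjoin ℚ {jFull N}) ≃ₐ[ℚ] ↥(Algebra.adjoin ℚ {jq}) :=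
  ((Algebra.adjoin ℚ {jFull N}).equivMapOfInjective (h10inclA N) (h10inclA_injective N)).trans
    (Subalgebra.equivOfEq _ _ (by
      rw [AlgHom.map_adjoin, Set.image_singleton, h10inclA_jFull]))

theorem h10s16_adjoinEquiv_coe (a : ↥(Algebra.adjoin ℚ {jFull N})) :
    ((h10s16_adjoinEquiv N a : ↥(Algebra.adjoin ℚ {jq})) : LaurentSeries ℚ) =
      h10inclA N (a : ↥(modularFunctionFieldFull N)) := rfl

theorem h10s16_adjoinEquiv_symm_coe (a : ↥(Algebra.adjoin ℚ {jq})) :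
    h10inclA N (((h10s16_adjoinEquiv N).symm a : ↥(Algebra.adjoin ℚ {jFull N})) :
      ↥(modularFunctionFieldFull N)) = (a : LaurentSeries ℚ) := by
  rw [← h10s16_adjoinEquiv_coe, AlgEquiv.apply_symm_apply]

/-- Integrality over `ℚ[j]` can be checked inside `ℚ((q))`. -/
theorem h10s16_isIntegral_of_laurent (X : ↥(modularFunctionFieldFull N))
    (hXj : IsIntegral ↥(Algebra.adjoin ℚ {jq}) (h10inclA N X)) :
    IsIntegral ↥(Algebra.adjoin ℚ {jFull N}) X := by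
  obtain ⟨P, hPm, hPX⟩ := hXj
  set ψ : ↥(Algebra.adjoin ℚ {jq}) →+* ↥(Algebra.adjoin ℚ {jFull N}) :=
    ((h10s16_adjoinEquiv N).symm : ↥(Algebra.adjoin ℚ {jq}) →+* ↥(Algebra.adjoin ℚ {jFull N}))
    with hψ
  refine ⟨P.map ψ, hPm.map ψ, ?_⟩
  apply h10inclA_injective N
  rw [Polynomial.eval₂_map, map_zero]
  have h1 := Polynomial.hom_eval₂ P
    ((algebraMap ↥(Algebra.adjoin ℚ {jFull N}) ↥(modularFunctionFieldFull N)).comp ψ)
    ((h10inclA N : ↥(modularFunctionFieldFull N) →+* LaurentSeries ℚ)) X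
  have h2 : ((h10inclA N : ↥(modularFunctionFieldFull N) →+* LaurentSeries ℚ)).comp
      ((algebraMap ↥(Algebra.adjoin ℚ {jFull N}) ↥(modularFunctionFieldFull N)).comp ψ) =
      algebraMap ↥(Algebra.adjoin ℚ {jq}) (LaurentSeries ℚ) :=
    RingHom.ext fun a => h10s16_adjoinEquiv_symm_coe N a
  rw [h2] at h1
  exact h1.trans hPX

/-- **S16 slice S3 + lying-over.** Let `ℓ ∤ N`.  If `X ∈ F_N = ℚ(j(q^d) : d ∣ N)` has
`ℓ`-integral `q`-expansion and is integral over `ℚ[j]`, `Z` is any `ℓ`-integral series and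
`c` is an integer prime to `ℓ`, then `j · X ≠ c + ℓ · Z`. -/
theorem h10s16_no_relation (hℓN : ¬ ℓ ∣ N) (X Z : LaurentSeries ℚ)
    (hXF : X ∈ modularFunctionFieldFull N)
    (hXint : ∀ n, X.coeff n ∈ GaloisRep.ratLocalizedAt ℓ)
    (hZint : ∀ n, Z.coeff n ∈ GaloisRep.ratLocalizedAt ℓ)
    (hXj : IsIntegral ↥(Algebra.adjoin ℚ {jq}) X)
    (c : ℤ) (hc : ¬ (ℓ : ℤ) ∣ c) :
    jq * X ≠ (c : LaurentSeries ℚ) + (ℓ : LaurentSeries ℚ) * Z := by
  obtain ⟨x, hx⟩ := exists_epsL_eq ℓ X hXint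
  obtain ⟨z, hz⟩ := exists_epsL_eq ℓ Z hZint
  intro heq
  refine h10s16_no_relation_aux N ℓ hℓN ⟨X, hXF⟩ x hx.symm
    (h10s16_isIntegral_of_laurent N ⟨X, hXF⟩ hXj) z c hc ?_
  apply epsL_injective ℓ
  rw [map_mul, map_add, map_mul, map_intCast, map_natCast, h13_epsL_j, hx, hz]
  exact heq

end H10S16
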