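import Mathlib
import Fermat.Agent.S16.H13BridgeL
import Fermat.Agent.S16.BridgeU_helper11
import Fermat.Agent.S16.DescQ2_helper23
import Fermat.Agent.S28.ModEq.Universal
import Fermat.Agent.S16.Igusa_helper10

/-!
# S16 BRIDGE, slice BR-E (helper13): assembly

For a modular form `K` of weight `12 k` on `Γ₀(N)` (`k ≥ 1`) with rational `q`-expansion `κ`,
the `q`-series `x = κ · Δ(q)^(-k) ∈ ℚ((q))` of `K / Δ^k` lies in
`F_N = modularFunctionFieldFull N` and is integral over `ℚ[j]`.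
-/

set_option autoImplicit false

noncomputable section

open UpperHalfPlane ModularForm H23 H23.Rel H23M ModularCurve H28S28
open scoped MatrixGroups Manifold Topology Real

namespace H13Br

variable (N : ℕ) [NeZero N] (k : ℕ)
  (K : ModularForm (CongruenceSubgroup.Gamma0 N) (((12 * k : ℕ) : ℤ)))

/-- the `q`-series of `K/Δ^k` over `ℚ` -/
def xQ (κ : PowerSeries ℚ) : LaurentSeries ℚ :=
  HahnSeries.ofPowerSeries ℤ ℚ κ * deltaqInv ℚ ^ k

theorem hatQ_uN :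
    H23Q.hatQ (qExpand ℚ N (deltaq ℚ) * deltaqInv ℚ) = uNq N := by
  unfold uNq
  rw [map_mul, coeffMap_qExpand, h22u_coeffMap_deltaq, h22u_coeffMap_deltaqInv]

theorem hatQ_xQ (κ : PowerSeries ℚ)
    (hκ : qExpansion 1 (⇑K) = κ.map (algebraMap ℚ ℂ)) :
    H23Q.hatQ (xQ k κ) = Xc N k K := by
  unfold xQ Xc
  rw [map_mul, map_pow, H23Q.hatQ_ofPowerSeries, h22u_coeffMap_deltaqInv, hκ]

/-- **BRIDGE (field part)**: `x ∈ F_N`. -/
theorem bridge_mem (hk : 1 ≤ k) (κ : PowerSeries ℚ)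
    (hκ : qExpansion 1 (⇑K) = κ.map (algebraMap ℚ ℂ)) :
    xQ k κ ∈ modularFunctionFieldFull N := by
  obtain ⟨P, Q, hQ, h⟩ := bridge_field N k K hk
  exact H23Q.mem_full_of_rel N _ (xQ k κ) (H11BR.h11br_uN_mem N) (uNq N) (Xc N k K)
    (hatQ_uN N) (hatQ_xQ N k K κ hκ) P Q hQ h

/-- **BRIDGE (integrality part)**: `x` is integral over `ℚ[j]`. -/
theorem bridge_isIntegral (hk : 1 ≤ k) (κ : PowerSeries ℚ)
    (hκ : qExpansion 1 (⇑K) = κ.map (algebraMap ℚ ℂ)) :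
    IsIntegral ↥(Algebra.adjoin ℚ {jq}) (xQ k κ) := by
  obtain ⟨Φ, hΦ, h⟩ := bridge_integral N k K hk
  exact H23Q.isIntegral_of_rel (xQ k κ) (Xc N k K) (hatQ_xQ N k K κ hκ) Φ hΦ h

end H13Br

namespace H13Br

section Integrality

variable (ℓ : ℕ) [Fact ℓ.Prime] (k : ℕ)

omit [Fact ℓ.Prime] in
/-- `ofPowerSeries` of an `ℓ`-integral power series is in the image of `epsL`. -/
theorem exists_epsL_ofPowerSeries (κ : PowerSeries ℚ)
    (hκint : ∀ n, PowerSeries.coeff n κ ∈ GaloisRep.ratLocalizedAt ℓ) :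
    ∃ f : LaurentSeries ↥(GaloisRep.ratLocalizedAt ℓ),
      epsL ℓ f = HahnSeries.ofPowerSeries ℤ ℚ κ := by
  refine exists_epsL_eq ℓ _ (fun n => ?_)
  by_cases hn : 0 ≤ n
  · obtain ⟨m, rfl⟩ := Int.eq_ofNat_of_zero_le hn
    rw [HahnSeries.ofPowerSeries_apply_coeff]
    exact hκint m
  · have : (HahnSeries.ofPowerSeries ℤ ℚ κ).coeff n = 0 := by
      rw [HahnSeries.ofPowerSeries_apply]
      apply HahnSeries.embDomain_notin_range
      rintro ⟨m, hm⟩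
      apply hn
      rw [← hm]
      simp
    rw [this]
    exact zero_mem _

/-- the `q`-series `x = κ·Δ^(-k)` has `ℓ`-integral coefficients if `κ` has. -/
theorem xQ_coeff_mem (κ : PowerSeries ℚ)
    (hκint : ∀ n, PowerSeries.coeff n κ ∈ GaloisRep.ratLocalizedAt ℓ) (n : ℤ) :
    (xQ k κ).coeff n ∈ GaloisRep.ratLocalizedAt ℓ := by
  obtain ⟨f, hf⟩ := exists_epsL_ofPowerSeries ℓ κ hκint
  have h : xQ k κ = epsL ℓ (f * deltaqInv ↥(GaloisRep.ratLocalizedAt ℓ) ^ k) := by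
    unfold xQ
    rw [map_mul, map_pow, hf]
    congr 2
    exact (h22u_coeffMap_deltaqInv (GaloisRep.ratLocalizedAt ℓ).subtype).symm
  rw [h, epsL_coeff]
  exact Subtype.property _

end Integrality

/-- **BRIDGE + Igusa**: for `K ∈ M_{12k}(Γ₀(N))`, `k ≥ 1`, with `ℓ`-integral rational
`q`-expansion `κ`, `ℓ ∤ N`, the series `x = κ/Δ^k` satisfies no relation
`j · x = c + ℓ · Z` with `ℓ ∤ c` and `Z` `ℓ`-integral. -/
theorem bridge_no_relation (N : ℕ) [NeZero N] (ℓ : ℕ) [Fact ℓ.Prime] (hℓN : ¬ ℓ ∣ N) (k : ℕ)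
    (K : ModularForm (CongruenceSubgroup.Gamma0 N) (((12 * k : ℕ) : ℤ))) (hk : 1 ≤ k)
    (κ : PowerSeries ℚ) (hκ : qExpansion 1 (⇑K) = κ.map (algebraMap ℚ ℂ))
    (hκint : ∀ n, PowerSeries.coeff n κ ∈ GaloisRep.ratLocalizedAt ℓ)
    (Z : LaurentSeries ℚ) (hZint : ∀ n, Z.coeff n ∈ GaloisRep.ratLocalizedAt ℓ)
    (c : ℤ) (hc : ¬ (ℓ : ℤ) ∣ c) :
    jq * xQ k κ ≠ (c : LaurentSeries ℚ) + (ℓ : LaurentSeries ℚ) * Z :=
  H10S16.h10s16_no_relation N ℓ hℓN (xQ k κ) Z (bridge_mem N k K hk κ hκ)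
    (xQ_coeff_mem ℓ k κ hκint) hZint (bridge_isIntegral N k K hk κ hκ) c hc

end H13Br
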