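import Mathlib
import Fermat.Agent.S16.H12B2
import Fermat.Agent.S16.H13BridgeE
import Fermat.Agent.S28.GaussInvariance
import Fermat.Agent.S28.ObigCoeff

/-!
# S16, part (B), slice B2: `B0Six` from the Fricke involution of the function field (helper12)
-/

set_option autoImplicit false
set_option linter.style.haveILetI false

open UpperHalfPlane ModularForm CongruenceSubgroup ModularFormClass ModularCurve H28S28
open scoped MatrixGroups ModularForm Manifold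

noncomputable section

namespace H12B2

/-- **BR-W interface** (what B2 consumes): the Atkin–Lehner (Fricke) involution of the function
field `F_p`, acting on `q`-series. -/
def FrickeSigma (p : ℕ) [NeZero p] : Prop :=
  ∃ σ : ↥(modularFunctionFieldFull p) →+* ↥(modularFunctionFieldFull p),
    ((σ (ModularCurve.IgusaScheme.jFull p) : ↥(modularFunctionFieldFull p)) : LaurentSeries ℚ)
        = qExpand ℚ p jq ∧
    ∀ (K : ModularForm (Gamma0 p) (((12 * 1 : ℕ) : ℤ))) (κ κ' : PowerSeries ℚ)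
      (hκ : qExpansion 1 (⇑K) = κ.map (algebraMap ℚ ℂ))
      (_ : qExpansion 1 ((⇑K : ℍ → ℂ) ∣[(((12 * 1 : ℕ) : ℤ))] Wp p) = κ'.map (algebraMap ℚ ℂ)),
      HahnSeries.ofPowerSeries ℤ ℚ κ' =
        (p : LaurentSeries ℚ) ^ 11 *
          ((σ ⟨H13Br.xQ 1 κ, H13Br.bridge_mem p 1 K le_rfl κ hκ⟩ :
            ↥(modularFunctionFieldFull p)) : LaurentSeries ℚ) *
          qExpand ℚ p (deltaq ℚ)

/-! ### Coefficient lemmas -/

theorem qExpand_coeff_mem (S : Subring ℚ) (d : ℕ) [NeZero d] (f : LaurentSeries ℚ)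
    (hf : ∀ n, f.coeff n ∈ S) (n : ℤ) : (qExpand ℚ d f).coeff n ∈ S := by
  by_cases h : (d : ℤ) ∣ n
  · obtain ⟨m, rfl⟩ := h
    rw [qExpand_coeff_mul]
    exact hf m
  · rw [qExpand_coeff_of_not_dvd d f h]
    exact zero_mem _

theorem ofPS_coeff_neg (κ : PowerSeries ℚ) (n : ℤ) (hn : ¬ 0 ≤ n) :
    (HahnSeries.ofPowerSeries ℤ ℚ κ).coeff n = 0 := by
  rw [HahnSeries.ofPowerSeries_apply]
  apply HahnSeries.embDomain_of_notMem_range
  rintro ⟨m, hm⟩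
  apply hn
  rw [← hm]
  simp

theorem ofPS_int_coeff_mem (S : Subring ℚ) (s : PowerSeries ℤ) (n : ℤ) :
    (HahnSeries.ofPowerSeries ℤ ℚ (s.map (Int.castRingHom ℚ))).coeff n ∈ S := by
  by_cases hn : 0 ≤ n
  · obtain ⟨m, rfl⟩ := Int.eq_ofNat_of_zero_le hn
    rw [HahnSeries.ofPowerSeries_apply_coeff, PowerSeries.coeff_map]
    exact intCast_mem S _
  · rw [ofPS_coeff_neg _ n hn]
    exact zero_mem _

theorem deltaq_coeff_mem (S : Subring ℚ) (n : ℤ) : (deltaq ℚ).coeff n ∈ S := by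
  rw [← H23M.h22u_coeffMap_deltaq (A := S) (B := ℚ) S.subtype, coeffMap_coeff]
  exact Subtype.property _

/-! ### `X ↦ X^p` on integral power series -/

/-- `s(X^p)` -/
def expandZ (p : ℕ) (s : PowerSeries ℤ) : PowerSeries ℤ :=
  PowerSeries.mk fun n => if p ∣ n then PowerSeries.coeff (n / p) s else 0

theorem ofPS_expandZ (p : ℕ) [NeZero p] (s : PowerSeries ℤ) :
    HahnSeries.ofPowerSeries ℤ ℚ ((expandZ p s).map (Int.castRingHom ℚ)) =
      qExpand ℚ p (HahnSeries.ofPowerSeries ℤ ℚ (s.map (Int.castRingHom ℚ))) := by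
  have hp : 0 < p := Nat.pos_of_ne_zero (NeZero.ne p)
  ext k
  by_cases hk : 0 ≤ k
  · obtain ⟨m, rfl⟩ := Int.eq_ofNat_of_zero_le hk
    rw [HahnSeries.ofPowerSeries_apply_coeff, PowerSeries.coeff_map, expandZ, PowerSeries.coeff_mk]
    by_cases hd : p ∣ m
    · obtain ⟨r, rfl⟩ := hd
      rw [if_pos (dvd_mul_right p r), Nat.mul_div_cancel_left r hp]
      have : ((p * r : ℕ) : ℤ) = (p : ℤ) * (r : ℤ) := by push_cast; ring
      rw [this, qExpand_coeff_mul, HahnSeries.ofPowerSeries_apply_coeff, PowerSeries.coeff_map]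
    · rw [if_neg hd, qExpand_coeff_of_not_dvd]
      · simp
      · exact_mod_cast hd
  · rw [ofPS_coeff_neg _ k hk]
    by_cases hd : (p : ℤ) ∣ k
    · obtain ⟨r, rfl⟩ := hd
      rw [qExpand_coeff_mul, ofPS_coeff_neg]
      intro hr
      exact hk (mul_nonneg (by positivity) hr)
    · rw [qExpand_coeff_of_not_dvd p _ hd]


/-! ### Products of weight 6 forms -/

section forms

variable (p : ℕ) [NeZero p]

/-- the product of two weight 6 forms, in weight `12 * 1` -/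
def mul12 (A B : ModularForm (Gamma0 p) 6) : ModularForm (Gamma0 p) (((12 * 1 : ℕ) : ℤ)) :=
  ModularForm.mcast (by norm_num) (A.mul B)

theorem coe_mul12 (A B : ModularForm (Gamma0 p) 6) :
    (⇑(mul12 p A B) : ℍ → ℂ) = ⇑A * ⇑B := rfl

theorem qExpansion_mul12 (A B : ModularForm (Gamma0 p) 6) :
    qExpansion 1 (mul12 p A B) = qExpansion 1 A * qExpansion 1 B :=
  ModularForm.qExpansion_mul one_pos (one_mem_strictPeriods_Gamma0 p) A B

theorem slash_Wp_mul12 (A B : ModularForm (Gamma0 p) 6) :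
    (⇑(mul12 p A B) : ℍ → ℂ) ∣[(((12 * 1 : ℕ) : ℤ))] Wp p =
      ⇑((p : ℂ) • mul12 p (fricke p A) (fricke p B)) := by
  have h12 : (((12 * 1 : ℕ) : ℤ)) = (6 : ℤ) + 6 := by norm_num
  have h1 : (⇑A * ⇑B : ℍ → ℂ) ∣[(((12 * 1 : ℕ) : ℤ))] Wp p =
      (p : ℝ) • ((⇑A : ℍ → ℂ) ∣[(6 : ℤ)] Wp p * (⇑B : ℍ → ℂ) ∣[(6 : ℤ)] Wp p) := by
    rw [h12, ModularForm.mul_slash, abs_det_Wp]
  rw [coe_mul12, h1]
  show _ = (p : ℂ) • (⇑(mul12 p (fricke p A) (fricke p B)) : ℍ → ℂ)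
  rw [coe_mul12, coe_fricke, coe_fricke]
  ext τ
  simp only [Pi.smul_apply, Pi.mul_apply, Complex.real_smul, smul_eq_mul]
  push_cast
  ring

theorem qExpansion_slash_Wp_mul12 (A B : ModularForm (Gamma0 p) 6) :
    qExpansion 1 ((⇑(mul12 p A B) : ℍ → ℂ) ∣[(((12 * 1 : ℕ) : ℤ))] Wp p) =
      (p : ℂ) • (qExpansion 1 (fricke p A) * qExpansion 1 (fricke p B)) := by
  rw [slash_Wp_mul12]
  have h2 : (⇑((p : ℂ) • mul12 p (fricke p A) (fricke p B)) : ℍ → ℂ) =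
      (p : ℂ) • ⇑(mul12 p (fricke p A) (fricke p B)) := rfl
  rw [h2, ModularForm.qExpansion_smul one_pos (one_mem_strictPeriods_Gamma0 p), qExpansion_mul12]

/-- the `q`-expansion of `E₆ ∣ W_p` -/
theorem qExpansion_fricke_E6p :
    qExpansion 1 (fricke p (E6p p)) =
      PowerSeries.C ((p : ℂ) ^ 5) * (expandZ p e6Z).map (Int.castRingHom ℂ) := by
  ext n
  have h := qCoeff_fricke_E6p p n
  rw [qCoeff] at h
  rw [h, PowerSeries.coeff_C_mul, PowerSeries.coeff_map, expandZ, PowerSeries.coeff_mk]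
  by_cases hd : p ∣ n
  · rw [if_pos hd, if_pos hd, qCoeff, qExpansion_E6, PowerSeries.coeff_map]
  · rw [if_neg hd, if_neg hd]
    simp

end forms


/-! ### The core -/

section core

variable (p : ℕ) [NeZero p] (ℓ : ℕ) [Fact ℓ.Prime]

theorem dvd_of_div_mem (d : ℤ) (e : ℕ)
    (h : ((d : ℚ) / (ℓ : ℚ) ^ e) ∈ GaloisRep.ratLocalizedAt ℓ) : ((ℓ : ℤ) ^ e) ∣ d := by
  have hℓ0 : (ℓ : ℚ) ≠ 0 := by exact_mod_cast (Fact.out : ℓ.Prime).ne_zero
  set r : ℚ := (d : ℚ) / (ℓ : ℚ) ^ e with hr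
  have hcop : r.den.Coprime ℓ := h
  have hr' : r = Rat.divInt d ((ℓ : ℤ) ^ e) := by
    rw [hr, Rat.divInt_eq_div]
    push_cast
    rfl
  have hdvd : (r.den : ℤ) ∣ (ℓ : ℤ) ^ e := by
    rw [hr']
    exact Rat.den_dvd d _
  have hdvd' : r.den ∣ ℓ ^ e := by exact_mod_cast hdvd
  have hden : r.den = 1 := Nat.Coprime.eq_one_of_dvd (Nat.Coprime.pow_right e hcop) hdvd'
  have hnum : (r.num : ℚ) = r := (Rat.den_eq_one_iff r).mp hden
  refine ⟨r.num, ?_⟩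
  have h1 : (d : ℚ) = ((ℓ : ℤ) ^ e * r.num : ℤ) := by
    push_cast
    rw [hnum, hr]
    field_simp
  exact_mod_cast h1

theorem core_integrality (hσ : FrickeSigma p) (hℓ : ¬ ℓ ∣ p) (e : ℕ)
    (A₁ : ModularForm (Gamma0 p) 6) (c d : ℕ → ℤ)
    (hc : ∀ n, qCoeff A₁ n = (c n : ℂ))
    (hd : ∀ n, qCoeff (fricke p A₁) n = (d n : ℂ) / (ℓ : ℂ) ^ e) :
    ∀ n, ((ℓ : ℤ) ^ e) ∣ d n := by
  obtain ⟨σ, hσj, hW⟩ := hσ
  have hℓ0 : (ℓ : ℚ) ≠ 0 := by exact_mod_cast (Fact.out : ℓ.Prime).ne_zero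
  have hp0 : (p : ℚ) ≠ 0 := by exact_mod_cast NeZero.ne p
  -- `q`-expansions
  have hqA : qExpansion 1 A₁ = (PowerSeries.mk c).map (Int.castRingHom ℂ) := by
    ext n
    rw [PowerSeries.coeff_map, PowerSeries.coeff_mk]
    exact hc n
  have hqF : qExpansion 1 (fricke p A₁) =
      PowerSeries.C (((ℓ : ℂ) ^ e)⁻¹) * (PowerSeries.mk d).map (Int.castRingHom ℂ) := by
    ext n
    rw [PowerSeries.coeff_C_mul, PowerSeries.coeff_map, PowerSeries.coeff_mk]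
    have := hd n
    rw [qCoeff] at this
    rw [this, div_eq_inv_mul]
    rfl
  set K := mul12 p A₁ (E6p p) with hK
  set κ : PowerSeries ℚ := (PowerSeries.mk c * e6Z).map (Int.castRingHom ℚ) with hκdef
  set κ' : PowerSeries ℚ := PowerSeries.C ((p : ℚ) ^ 6 * ((ℓ : ℚ) ^ e)⁻¹) *
    ((PowerSeries.mk d * expandZ p e6Z).map (Int.castRingHom ℚ)) with hκ'def
  have hκ : qExpansion 1 (⇑K) = κ.map (algebraMap ℚ ℂ) := by
    rw [hK, qExpansion_mul12, hqA, hκdef, H23M.h22u_map_map_intCast, map_mul]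
    congr 1
    exact qExpansion_E6
  have hκ' : qExpansion 1 ((⇑K : ℍ → ℂ) ∣[(((12 * 1 : ℕ) : ℤ))] Wp p) =
      κ'.map (algebraMap ℚ ℂ) := by
    have hR : ∀ (r : ℚ) (s : PowerSeries ℤ),
        (PowerSeries.C r * s.map (Int.castRingHom ℚ)).map (algebraMap ℚ ℂ) =
          PowerSeries.C (algebraMap ℚ ℂ r) * s.map (Int.castRingHom ℂ) := by
      intro r s
      rw [RingHom.map_mul, PowerSeries.map_C, H23M.h22u_map_map_intCast]
    rw [hK, qExpansion_slash_Wp_mul12, hqF, qExpansion_fricke_E6p, hκ'def, hR,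
      PowerSeries.smul_eq_C_mul]
    have h1 : (algebraMap ℚ ℂ) ((p : ℚ) ^ 6 * ((ℓ : ℚ) ^ e)⁻¹) =
        (p : ℂ) * (((ℓ : ℂ) ^ e)⁻¹ * (p : ℂ) ^ 5) := by
      simp only [eq_ratCast]
      push_cast
      ring
    rw [h1, RingHom.map_mul (PowerSeries.map (Int.castRingHom ℂ)),
      RingHom.map_mul PowerSeries.C, RingHom.map_mul PowerSeries.C]
    ring
  have hrel := hW K κ κ' hκ hκ'
  -- integrality of `x`
  have hκint : ∀ n, PowerSeries.coeff n κ ∈ GaloisRep.ratLocalizedAt ℓ := by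
    intro n
    rw [hκdef, PowerSeries.coeff_map]
    exact intCast_mem _ _
  have hxO : H13Br.xQ 1 κ ∈ Obig ℓ :=
    h28_mem_Obig_of_coeff _ (fun n => H13Br.xQ_coeff_mem ℓ 1 κ hκint n)
  have hσx := h28_sigma_mem_Obig_of_jd (ℓ := ℓ) hℓ σ p hσj (H13Br.xQ 1 κ)
    (H13Br.bridge_mem p 1 K le_rfl κ hκ) hxO
  set σx : LaurentSeries ℚ := ((σ ⟨H13Br.xQ 1 κ, H13Br.bridge_mem p 1 K le_rfl κ hκ⟩ :
            ↥(modularFunctionFieldFull p)) : LaurentSeries ℚ) with hσxdef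
  -- the inverse of `E₆(q^p)`
  have he6 : PowerSeries.constantCoeff e6Z = ((1 : ℤˣ) : ℤ) := by
    rw [← PowerSeries.coeff_zero_eq_constantCoeff_apply, e6Z, PowerSeries.coeff_mk]
    simp
  set e6inv : PowerSeries ℤ := PowerSeries.invOfUnit e6Z 1 with he6inv
  have hmul : e6Z * e6inv = 1 := PowerSeries.mul_invOfUnit e6Z 1 he6
  set E : LaurentSeries ℚ :=
    qExpand ℚ p (HahnSeries.ofPowerSeries ℤ ℚ (e6Z.map (Int.castRingHom ℚ))) with hE
  set U : LaurentSeries ℚ :=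
    qExpand ℚ p (HahnSeries.ofPowerSeries ℤ ℚ (e6inv.map (Int.castRingHom ℚ))) with hU
  have hEU : E * U = 1 := by
    rw [hE, hU, ← map_mul, ← map_mul, ← map_mul, hmul, map_one, map_one, map_one]
  set D : LaurentSeries ℚ :=
    HahnSeries.ofPowerSeries ℤ ℚ ((PowerSeries.mk d).map (Int.castRingHom ℚ)) with hD
  set Y : LaurentSeries ℚ := HahnSeries.C (((ℓ : ℚ) ^ e)⁻¹) * D with hY
  have hrel2 : (p : LaurentSeries ℚ) ^ 6 * Y * E =
      (p : LaurentSeries ℚ) ^ 11 * σx * qExpand ℚ p (deltaq ℚ) := by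
    have hC : HahnSeries.C ((p : ℚ) ^ 6 * ((ℓ : ℚ) ^ e)⁻¹) =
        (p : LaurentSeries ℚ) ^ 6 * HahnSeries.C (((ℓ : ℚ) ^ e)⁻¹) := by
      rw [RingHom.map_mul, map_pow, map_natCast]
    rw [← hrel, hκ'def, RingHom.map_mul (HahnSeries.ofPowerSeries ℤ ℚ),
      HahnSeries.ofPowerSeries_C, RingHom.map_mul (PowerSeries.map (Int.castRingHom ℚ)),
      RingHom.map_mul (HahnSeries.ofPowerSeries ℤ ℚ), ofPS_expandZ, hC, hY, hD, hE]
    ring
  have hp6 : ((p : LaurentSeries ℚ) ^ 6) ≠ 0 := by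
    apply pow_ne_zero
    rw [← map_natCast (HahnSeries.C : ℚ →+* LaurentSeries ℚ) p]
    intro h
    exact hp0 (HahnSeries.C_injective (by rw [h, map_zero]))
  have hYeq : Y = (p : LaurentSeries ℚ) ^ 5 * σx * qExpand ℚ p (deltaq ℚ) * U := by
    apply mul_left_cancel₀ hp6
    calc (p : LaurentSeries ℚ) ^ 6 * Y = ((p : LaurentSeries ℚ) ^ 6 * Y * E) * U := by
          rw [mul_assoc _ E U, hEU, mul_one]
      _ = _ := by rw [hrel2]; ring
  have hYO : Y ∈ Obig ℓ := by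
    rw [hYeq]
    refine mul_mem (mul_mem (mul_mem (pow_mem (natCast_mem _ p) 5) hσx) ?_) ?_
    · exact h28_mem_Obig_of_coeff _ (qExpand_coeff_mem _ p _ (deltaq_coeff_mem _))
    · exact h28_mem_Obig_of_coeff _ (qExpand_coeff_mem _ p _ (ofPS_int_coeff_mem _ e6inv))
  have hYD : ((ℓ : ℕ) : LaurentSeries ℚ) ^ e * Y = D := by
    have h1 : ((ℓ : ℕ) : LaurentSeries ℚ) ^ e = HahnSeries.C ((ℓ : ℚ) ^ e) := by
      rw [map_pow, map_natCast]
    rw [h1, hY, ← mul_assoc, ← map_mul, mul_inv_cancel₀ (pow_ne_zero e hℓ0), map_one, one_mul]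
  have hYc := h28_coeff_mem_of_mem_Obig ℓ Y hYO e (by
    intro n
    rw [hYD, hD]
    exact ofPS_int_coeff_mem _ _ n)
  intro n
  apply dvd_of_div_mem ℓ (d n) e
  have h2 := hYc (n : ℤ)
  rw [hY, HahnSeries.C_mul_eq_smul, HahnSeries.coeff_smul, hD,
    HahnSeries.ofPowerSeries_apply_coeff, PowerSeries.coeff_map, PowerSeries.coeff_mk] at h2
  rw [div_eq_inv_mul]
  exact h2

theorem b0Six_of_frickeSigma (hσ : FrickeSigma p) (hℓ : ¬ ℓ ∣ p) (e : ℕ) :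
    B0Six p (ℓ ^ e) := by
  intro A hA hB n
  have hΓ := one_mem_strictPeriods_Gamma0 p
  choose c hc using hA
  choose d hd using hB
  have hM : ((ℓ : ℂ) ^ e) ≠ 0 := by
    apply pow_ne_zero
    exact_mod_cast (Fact.out : ℓ.Prime).ne_zero
  set A₁ : ModularForm (Gamma0 p) 6 := (((ℓ : ℂ) ^ e)⁻¹) • A with hA₁
  have hc1 : ∀ n, qCoeff A₁ n = (c n : ℂ) := by
    intro n
    have h2 : (⇑A₁ : ℍ → ℂ) = (((ℓ : ℂ) ^ e)⁻¹) • ⇑A := rfl
    rw [qCoeff, h2, ModularForm.qExpansion_smul one_pos hΓ, PowerSeries.coeff_smul, ← qCoeff,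
      hc n]
    push_cast
    rw [smul_eq_mul]
    field_simp
  have hd1 : ∀ n, qCoeff (fricke p A₁) n = (d n : ℂ) / (ℓ : ℂ) ^ e := by
    intro n
    have h2 : (⇑(fricke p A₁) : ℍ → ℂ) = (((ℓ : ℂ) ^ e)⁻¹) • ⇑(fricke p A) := by
      rw [coe_fricke, coe_fricke]
      show ((((ℓ : ℂ) ^ e)⁻¹) • (⇑A : ℍ → ℂ)) ∣[(6 : ℤ)] Wp p = _
      rw [ModularForm.smul_slash, σ_Wp_apply]
    have h3 := hd n
    rw [← coe_fricke] at h3
    rw [qCoeff, h2, ModularForm.qExpansion_smul one_pos hΓ, PowerSeries.coeff_smul, ← qCoeff, h3]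
    simp only [smul_eq_mul]
    field_simp
  obtain ⟨z, hz⟩ := core_integrality p ℓ hσ hℓ e A₁ c d hc1 hd1 n
  refine ⟨z, ?_⟩
  rw [hd n, hz]
  push_cast
  ring

end core


/-! ### `B2Statement` from the Fricke involution -/

theorem b0Six_three (p : ℕ) [NeZero p] (hσ : FrickeSigma p) (h3 : p % 3 = 1) : B0Six p 3 := by
  have h := b0Six_of_frickeSigma p 3 hσ (by omega) 1
  rwa [pow_one] at h

theorem b0Six_four (p : ℕ) [NeZero p] (hσ : FrickeSigma p) (h4 : p % 4 = 1) : B0Six p 4 := by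
  have h := b0Six_of_frickeSigma p 2 hσ (by omega) 2
  have h22 : (2 : ℕ) ^ 2 = 4 := by norm_num
  rwa [h22] at h

/-- **B2** from BR-W. -/
theorem b2_of_frickeSigma (h : ∀ (p : ℕ) [NeZero p], p.Prime → FrickeSigma p) :
    H4S16.B2Statement :=
  b2_of_b0 (fun p _ hp => ⟨b0Six_three p (h p hp), b0Six_four p (h p hp)⟩)

end H12B2
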