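import Fermat.Agent.S16.BridgeW2_helper11
import Fermat.Agent.S16.H12BRW

/-!
# S16 BRIDGE, slice BR-W (helper11): the interface `H12B2.FrickeSigma` and `B2Statement`

`H11BR.h11w_frickeSigma p : H12B2.FrickeSigma p` (any `p ≠ 0`), hence
`H11BR.h11w_B2 : H4S16.B2Statement` by helper12's `H12B2.b2_of_frickeSigma`.
-/

set_option autoImplicit false

noncomputable section

open UpperHalfPlane ModularForm MatrixGroups CongruenceSubgroup
open ModularCurve H28S28

namespace H11BR

/-- **BR-W**: the Fricke involution of `F_p` with its analytic compatibility. -/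
theorem h11w_frickeSigma (p : ℕ) [NeZero p] : H12B2.FrickeSigma p := by
  refine ⟨h11w_sigma p, h11w_sigma_jFull p, ?_⟩
  intro K κ κ' hκ hκ'
  have h := h11w_slash_rat p 1 K le_rfl κ κ' hκ hκ'
  rw [pow_one] at h
  exact h

/-- **B2** (S16 part B), unconditional. -/
theorem h11w_B2 : H4S16.B2Statement :=
  H12B2.b2_of_frickeSigma (fun p _ _ => h11w_frickeSigma p)

end H11BR

end
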