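import Mathlib
import Fermat.Prelude.Def_ModularForm_HeckeOperatorForms
import Fermat.Prelude.Def_FLTPrelim_Modularity
import Fermat.Prelude.Def_ModularCurve_X0
import Fermat.Prelude.Thm_CongruenceSubgroup_one_mem_strictPeriods_Gamma0
import Fermat.Prelude.Thm_ModularForm_sturm_bound_Gamma0
import Fermat.Prelude.Thm_ModularFormClass_qCoeff_heckeT
import Fermat.Agent.S28.ModEq.Bridge

/-!
# S16, part (B), slice B1 (helper16): the Hecke trick

There is no modular form `G` of weight `2` on `Γ₀(N)` with integral `q`-expansion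
`a₀ + ℓ^k (…)`, `ℓ ∤ a₀`, as soon as there is a prime `r ∤ N`, `r ≠ ℓ`, with `ℓ^k ∤ r² - 1`.

Proof.  `F₀ = G Δ` has weight `14` and `q`-expansion `≡ a₀ Δ mod ℓ^k`.
`T_r^{(14)}(G Δ) - G · T_r^{(12)} Δ ≡ a₀ (r¹³ - r¹¹) Δ(q^r) mod ℓ^k`, so a unit multiple of
`Δ(q^r)` is the reduction mod `ℓ` of an integral form `F₁` of weight `14`; inductively
`c_{m-1} T_r F_m - c_m F_{m-1} ≡ unit · Δ(q^{r^{m+1}})`.  The matrix of the coefficients of index
`r^i` of `F_j` is triangular mod `ℓ` with unit diagonal, so `F₀, …, F_d` are linearly independent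
for every `d`: a contradiction with the finite dimensionality of `M₁₄(Γ₀(N))`.
-/

set_option autoImplicit false
set_option linter.style.haveILetI false
set_option linter.unusedSectionVars false

noncomputable section

open UpperHalfPlane ModularForm ModularFormClass CongruenceSubgroup
open scoped MatrixGroups

namespace H16S16

local notation "Γ₀(" N ")" => CongruenceSubgroup.Gamma0 N

variable {N : ℕ}

theorem h16b_per (N : ℕ) :
    (1 : ℝ) ∈ (Subgroup.map (Matrix.SpecialLinearGroup.mapGL ℝ) Γ₀(N)).strictPeriods :=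
  CongruenceSubgroup.one_mem_strictPeriods_Gamma0 N

/-- the function `f` has the integral `q`-expansion `A` -/
def IntQ (f : ℍ → ℂ) (A : PowerSeries ℤ) : Prop :=
  qExpansion 1 f = PowerSeries.map (Int.castRingHom ℂ) A

theorem IntQ.coeff {f : ℍ → ℂ} {A : PowerSeries ℤ} (h : IntQ f A) (n : ℕ) :
    qCoeff f n = ((PowerSeries.coeff n A : ℤ) : ℂ) := by
  unfold qCoeff
  rw [h, PowerSeries.coeff_map]
  rfl

theorem intQ_of_coeff {f : ℍ → ℂ} {A : PowerSeries ℤ}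
    (h : ∀ n, qCoeff f n = ((PowerSeries.coeff n A : ℤ) : ℂ)) : IntQ f A := by
  unfold IntQ
  ext n
  rw [PowerSeries.coeff_map]
  exact h n

variable {k k' : ℤ}

theorem IntQ.add {F F' : ModularForm Γ₀(N) k} {A A' : PowerSeries ℤ}
    (h : IntQ F A) (h' : IntQ F' A') : IntQ (⇑(F + F')) (A + A') := by
  unfold IntQ at *
  rw [FunLike.coe_add, ModularForm.qExpansion_add one_pos (h16b_per N) F F', h, h', map_add]

theorem IntQ.sub {F F' : ModularForm Γ₀(N) k} {A A' : PowerSeries ℤ}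
    (h : IntQ F A) (h' : IntQ F' A') : IntQ (⇑(F - F')) (A - A') := by
  unfold IntQ at *
  rw [FunLike.coe_sub, ModularForm.qExpansion_sub one_pos (h16b_per N) F F', h, h', map_sub]

theorem IntQ.smul {F : ModularForm Γ₀(N) k} {A : PowerSeries ℤ} (h : IntQ F A) (c : ℤ) :
    IntQ (⇑((c : ℂ) • F)) (c • A) := by
  apply intQ_of_coeff
  intro n
  unfold qCoeff
  rw [FunLike.coe_smul, ModularForm.qExpansion_smul one_pos (h16b_per N) (c : ℂ) F,
    PowerSeries.coeff_smul, map_zsmul, smul_eq_mul, smul_eq_mul, Int.cast_mul]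
  congr 1
  exact h.coeff n

theorem IntQ.mul {F : ModularForm Γ₀(N) k} {F' : ModularForm Γ₀(N) k'} {A A' : PowerSeries ℤ}
    (h : IntQ F A) (h' : IntQ F' A') : IntQ (⇑(F.mul F')) (A * A') := by
  unfold IntQ at *
  rw [ModularForm.qExpansion_mul one_pos (h16b_per N) F F', h, h', map_mul]

/-- division by a nonzero integer dividing all the coefficients -/
theorem IntQ.div {F : ModularForm Γ₀(N) k} {A : PowerSeries ℤ} {c : ℤ} (hc : c ≠ 0)
    (h : IntQ F (c • A)) : IntQ (⇑(((c : ℂ)⁻¹) • F)) A := by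
  apply intQ_of_coeff
  intro n
  have hc' : (c : ℂ) ≠ 0 := by exact_mod_cast hc
  have hn := h.coeff n
  unfold qCoeff at hn ⊢
  rw [FunLike.coe_smul, ModularForm.qExpansion_smul one_pos (h16b_per N) _ F,
    PowerSeries.coeff_smul, hn, map_zsmul, smul_eq_mul, smul_eq_mul, Int.cast_mul,
    ← mul_assoc, inv_mul_cancel₀ hc', one_mul]

/-! ### `Δ` at level `N` -/

/-- `Δ` as a modular form of weight `12` on `Γ₀(N)` -/
def h16b_delta (N : ℕ) : ModularForm Γ₀(N) 12 where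
  toFun := ModularForm.discriminant
  slash_action_eq' := by
    rintro _ ⟨γ, -, rfl⟩
    have hmem : (Matrix.SpecialLinearGroup.mapGL ℝ γ : GL (Fin 2) ℝ) ∈ 𝒮ℒ := ⟨γ, rfl⟩
    exact SlashInvariantFormClass.slash_action_eq CuspForm.discriminant _ hmem
  holo' := ModularFormClass.holo CuspForm.discriminant
  bdd_at_cusps' := by
    intro c hc
    have hle : Subgroup.map (Matrix.SpecialLinearGroup.mapGL ℝ) Γ₀(N) ≤ 𝒮ℒ := by
      rintro _ ⟨γ, -, rfl⟩
      exact ⟨γ, rfl⟩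
    exact ModularFormClass.bdd_at_cusps CuspForm.discriminant (hc.mono hle)

/-- the `q`-expansion of `Δ` with integer coefficients -/
def h16b_D : PowerSeries ℤ := PowerSeries.X * ModularCurve.dedekindEtaUnit

theorem h16b_intQ_delta (N : ℕ) : IntQ (⇑(h16b_delta N)) h16b_D :=
  H23M.qExpansion_disc

theorem h16b_D_coeff_zero : PowerSeries.coeff 0 h16b_D = 0 := by
  unfold h16b_D
  simp

theorem h16b_D_coeff_one : PowerSeries.coeff 1 h16b_D = 1 := by
  unfold h16b_D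
  rw [PowerSeries.coeff_succ_X_mul, PowerSeries.coeff_zero_eq_constantCoeff,
    ModularCurve.constantCoeff_dedekindEtaUnit]

/-! ### Hecke operators on integral `q`-expansions -/

/-- the Hecke operator `T_r` in weight `e + 1` on formal power series -/
def h16b_T (e r : ℕ) (A : PowerSeries ℤ) : PowerSeries ℤ :=
  PowerSeries.mk fun n =>
    PowerSeries.coeff (n * r) A + if r ∣ n then (r : ℤ) ^ e * PowerSeries.coeff (n / r) A else 0

theorem h16b_T_coeff (e r : ℕ) (A : PowerSeries ℤ) (n : ℕ) :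
    PowerSeries.coeff n (h16b_T e r A)
      = PowerSeries.coeff (n * r) A
        + if r ∣ n then (r : ℤ) ^ e * PowerSeries.coeff (n / r) A else 0 := by
  unfold h16b_T
  rw [PowerSeries.coeff_mk]

theorem IntQ.hecke {k : ℤ} (e : ℕ) (hk : k - 1 = (e : ℤ)) {r : ℕ} (hr : r.Prime)
    (hrN : ¬ r ∣ N) {F : ModularForm Γ₀(N) k} {A : PowerSeries ℤ} (h : IntQ F A) :
    IntQ (⇑(ModularForm.heckeTLin k hr hrN F)) (h16b_T e r A) := by
  apply intQ_of_coeff
  intro n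
  rw [ModularForm.coe_heckeTLin_apply,
    ModularFormClass.qCoeff_heckeT F (h16b_per N) hr.ne_zero n, ModularForm.coeffHeckeT_apply,
    h16b_T_coeff, hk, zpow_natCast, h.coeff, h.coeff]
  split_ifs <;> push_cast <;> ring

/-! ### coefficient functionals, finite dimensionality -/

theorem h16b_qCoeff_add (F F' : ModularForm Γ₀(N) k) (n : ℕ) :
    qCoeff (⇑(F + F')) n = qCoeff ⇑F n + qCoeff ⇑F' n := by
  unfold qCoeff
  rw [FunLike.coe_add, ModularForm.qExpansion_add one_pos (h16b_per N) F F', map_add]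

theorem h16b_qCoeff_smul (c : ℂ) (F : ModularForm Γ₀(N) k) (n : ℕ) :
    qCoeff (⇑(c • F)) n = c * qCoeff ⇑F n := by
  unfold qCoeff
  rw [FunLike.coe_smul, ModularForm.qExpansion_smul one_pos (h16b_per N) c F,
    PowerSeries.coeff_smul, smul_eq_mul]

/-- the coefficients of prescribed indices, as a linear map -/
def h16b_Phi (N : ℕ) (k : ℤ) {m : ℕ} (idx : Fin m → ℕ) :
    ModularForm Γ₀(N) k →ₗ[ℂ] (Fin m → ℂ) where
  toFun F i := qCoeff ⇑F (idx i)
  map_add' F F' := by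
    funext i
    exact h16b_qCoeff_add F F' (idx i)
  map_smul' c F := by
    funext i
    simpa using h16b_qCoeff_smul c F (idx i)

theorem h16b_finiteDimensional (N : ℕ) [NeZero N] (k : ℤ) :
    FiniteDimensional ℂ (ModularForm Γ₀(N) k) := by
  refine FiniteDimensional.of_injective
    (h16b_Phi N k (m := (k * (Γ₀(N)).index).toNat / 12 + 1) (fun i => (i : ℕ))) ?_
  refine (injective_iff_map_eq_zero _).mpr fun F hF => ?_
  refine ModularForm.sturm_bound_Gamma0 N F fun n hn => ?_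
  exact congrFun hF ⟨n, Nat.lt_succ_of_le hn⟩

/-- triangularity mod `ℓ` implies linear independence -/
theorem h16b_indep (N : ℕ) (k : ℤ) (ℓ : ℕ) (hℓ : ℓ.Prime) (m : ℕ) (idx : Fin m → ℕ)
    (F : Fin m → ModularForm Γ₀(N) k) (A : Fin m → PowerSeries ℤ)
    (hA : ∀ j, IntQ (⇑(F j)) (A j))
    (hlow : ∀ i j : Fin m, i < j → (ℓ : ℤ) ∣ PowerSeries.coeff (idx i) (A j))
    (hdiag : ∀ i : Fin m, ¬ (ℓ : ℤ) ∣ PowerSeries.coeff (idx i) (A i)) :
    LinearIndependent ℂ F := by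
  haveI : Fact ℓ.Prime := ⟨hℓ⟩
  set B : Matrix (Fin m) (Fin m) ℤ := fun i j => PowerSeries.coeff (idx i) (A j) with hB
  have hdetl : ((Int.castRingHom (ZMod ℓ)).mapMatrix B).det ≠ 0 := by
    have htri : ((Int.castRingHom (ZMod ℓ)).mapMatrix B).IsLowerTriangular := by
      intro i j hij
      have hij' : i < j := hij
      show (Int.castRingHom (ZMod ℓ)) (B i j) = 0
      rw [eq_intCast, ZMod.intCast_zmod_eq_zero_iff_dvd]
      exact hlow i j hij'
    rw [Matrix.det_of_isLowerTriangular _ htri]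
    apply Finset.prod_ne_zero_iff.mpr
    intro i _
    show (Int.castRingHom (ZMod ℓ)) (B i i) ≠ 0
    rw [eq_intCast, Ne, ZMod.intCast_zmod_eq_zero_iff_dvd]
    exact hdiag i
  have hdet : B.det ≠ 0 := by
    intro h
    apply hdetl
    rw [← RingHom.map_det, h, map_zero]
  have hdetC : ((Int.castRingHom ℂ).mapMatrix B).det ≠ 0 := by
    rw [← RingHom.map_det, eq_intCast]
    exact_mod_cast hdet
  have hcols := Matrix.linearIndependent_cols_of_det_ne_zero hdetC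
  apply LinearIndependent.of_comp (h16b_Phi N k idx)
  have : (h16b_Phi N k idx) ∘ F = ((Int.castRingHom ℂ).mapMatrix B).col := by
    funext j
    funext i
    show qCoeff (⇑(F j)) (idx i) = (Int.castRingHom ℂ) (B i j)
    rw [(hA j).coeff, eq_intCast]
  rw [this]
  exact hcols

/-! ### the series `Δ(q^{r^j})` -/

/-- `Δ(q^{r^j})` -/
def h16b_V (r j : ℕ) : PowerSeries ℤ :=
  PowerSeries.mk fun n => if r ^ j ∣ n then PowerSeries.coeff (n / r ^ j) h16b_D else 0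

theorem h16b_V_coeff (r j n : ℕ) :
    PowerSeries.coeff n (h16b_V r j)
      = if r ^ j ∣ n then PowerSeries.coeff (n / r ^ j) h16b_D else 0 := by
  unfold h16b_V
  rw [PowerSeries.coeff_mk]

theorem h16b_V_zero (r n : ℕ) : PowerSeries.coeff n (h16b_V r 0) = PowerSeries.coeff n h16b_D := by
  rw [h16b_V_coeff, pow_zero, if_pos (one_dvd n), Nat.div_one]

theorem h16b_V_one (r n : ℕ) :
    PowerSeries.coeff n (h16b_V r 1)
      = if r ∣ n then PowerSeries.coeff (n / r) h16b_D else 0 := by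
  rw [h16b_V_coeff, pow_one]

theorem h16b_V_shift_up (r : ℕ) (hr : 0 < r) (j n : ℕ) :
    PowerSeries.coeff (n * r) (h16b_V r (j + 1)) = PowerSeries.coeff n (h16b_V r j) := by
  rw [h16b_V_coeff, h16b_V_coeff, pow_succ]
  have h1 : r ^ j * r ∣ n * r ↔ r ^ j ∣ n := Nat.mul_dvd_mul_iff_right hr
  have h2 : n * r / (r ^ j * r) = n / r ^ j := Nat.mul_div_mul_right n (r ^ j) hr
  simp only [h1, h2]

theorem h16b_V_shift_down (r : ℕ) (hr : 0 < r) (j n : ℕ) :
    (if r ∣ n then PowerSeries.coeff (n / r) (h16b_V r j) else 0)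
      = PowerSeries.coeff n (h16b_V r (j + 1)) := by
  by_cases h : r ∣ n
  · obtain ⟨t, rfl⟩ := h
    rw [if_pos (dvd_mul_right r t), Nat.mul_div_cancel_left t hr, h16b_V_coeff, h16b_V_coeff,
      pow_succ']
    have h1 : r * r ^ j ∣ r * t ↔ r ^ j ∣ t := Nat.mul_dvd_mul_iff_left hr
    have h2 : r * t / (r * r ^ j) = t / r ^ j := Nat.mul_div_mul_left t (r ^ j) hr
    simp only [h1, h2]
  · rw [if_neg h, h16b_V_coeff, if_neg]
    intro h'
    exact h (dvd_trans (dvd_pow_self r (Nat.succ_ne_zero j)) h')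

theorem h16b_V_coeff_pow_lt (r : ℕ) (hr : 2 ≤ r) (i j : ℕ) (h : i < j) :
    PowerSeries.coeff (r ^ i) (h16b_V r j) = 0 := by
  rw [h16b_V_coeff, if_neg]
  intro hd
  have h1 : r ^ j ≤ r ^ i := Nat.le_of_dvd (pow_pos (by omega) i) hd
  have h2 : r ^ i < r ^ j := Nat.pow_lt_pow_right (by omega) h
  omega

theorem h16b_V_coeff_pow_self (r : ℕ) (hr : 0 < r) (j : ℕ) :
    PowerSeries.coeff (r ^ j) (h16b_V r j) = 1 := by
  rw [h16b_V_coeff, if_pos dvd_rfl, Nat.div_self (pow_pos hr j), h16b_D_coeff_one]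

/-! ### multiplication by a series congruent to a constant -/

theorem h16b_mul_cong (m : ℤ) (a : ℕ → ℤ) (hn : ∀ n, 1 ≤ n → m ∣ a n) (X : PowerSeries ℤ)
    (n : ℕ) : m ∣ PowerSeries.coeff n (PowerSeries.mk a * X) - a 0 * PowerSeries.coeff n X := by
  choose b hb using fun n => (fun h : 1 ≤ n => hn n h)
  set Y : PowerSeries ℤ := PowerSeries.mk fun n => if h : 1 ≤ n then b n h else 0 with hY
  have hdec : PowerSeries.mk a = PowerSeries.C (a 0) + m • Y := by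
    ext i
    rw [PowerSeries.coeff_mk, map_add, map_zsmul, PowerSeries.coeff_C, hY, PowerSeries.coeff_mk,
      smul_eq_mul]
    by_cases hi : i = 0
    · subst hi
      simp
    · have hi' : 1 ≤ i := Nat.one_le_iff_ne_zero.mpr hi
      rw [if_neg hi, dif_pos hi', zero_add]
      exact hb i hi'
  rw [hdec, add_mul, map_add, PowerSeries.coeff_C_mul, smul_mul_assoc, map_zsmul, smul_eq_mul]
  exact ⟨PowerSeries.coeff n (Y * X), by ring⟩

/-! ### the induction -/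

/-- the inductive statement: a unit multiple of `Δ(q^{r^j})` is, mod `ℓ`, the `q`-expansion of
an integral form of weight `14` -/
def h16b_P (N ℓ r j : ℕ) : Prop :=
  ∃ (F : ModularForm Γ₀(N) (2 + 12)) (A : PowerSeries ℤ) (c : ℤ), IntQ (⇑F) A ∧ ¬ (ℓ : ℤ) ∣ c ∧
    ∀ n, (ℓ : ℤ) ∣ PowerSeries.coeff n A - c * PowerSeries.coeff n (h16b_V r j)

theorem h16b_intQ_G (G : ModularForm Γ₀(N) 2) (a : ℕ → ℤ) (ha : ∀ n, qCoeff ⇑G n = a n) :
    IntQ (⇑G) (PowerSeries.mk a) :=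
  intQ_of_coeff fun n => by rw [ha, PowerSeries.coeff_mk]

theorem h16b_P_zero (N ℓ r k : ℕ) (hk : 1 ≤ k) (G : ModularForm Γ₀(N) 2) (a : ℕ → ℤ)
    (ha : ∀ n, qCoeff ⇑G n = a n) (h0 : ¬ (ℓ : ℤ) ∣ a 0)
    (hn : ∀ n, 1 ≤ n → (ℓ : ℤ) ^ k ∣ a n) : h16b_P N ℓ r 0 := by
  refine ⟨G.mul (h16b_delta N), PowerSeries.mk a * h16b_D, a 0,
    (h16b_intQ_G G a ha).mul (h16b_intQ_delta N), h0, fun n => ?_⟩
  rw [h16b_V_zero]
  have := h16b_mul_cong ((ℓ : ℤ) ^ k) a hn h16b_D n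
  exact dvd_trans (dvd_pow_self _ (by omega)) this

theorem h16b_P_one (N ℓ r k : ℕ) (hℓ : ℓ.Prime) (hr : r.Prime) (hrN : ¬ r ∣ N) (hrℓ : r ≠ ℓ)
    (hk : ¬ ℓ ^ k ∣ r ^ 2 - 1) (G : ModularForm Γ₀(N) 2) (a : ℕ → ℤ)
    (ha : ∀ n, qCoeff ⇑G n = a n) (h0 : ¬ (ℓ : ℤ) ∣ a 0)
    (hn : ∀ n, 1 ≤ n → (ℓ : ℤ) ^ k ∣ a n) : h16b_P N ℓ r 1 := by
  have hG := h16b_intQ_G G a ha
  have hΔ := h16b_intQ_delta N
  -- the form `T₁₄(G Δ) - G · T₁₂ Δ`
  obtain ⟨F1', hF1'⟩ : ∃ F1' : ModularForm Γ₀(N) (2 + 12),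
      F1' = ModularForm.heckeTLin (2 + 12) hr hrN (G.mul (h16b_delta N))
        - G.mul (ModularForm.heckeTLin 12 hr hrN (h16b_delta N)) := ⟨_, rfl⟩
  obtain ⟨A1', hA1'⟩ : ∃ A1' : PowerSeries ℤ,
      A1' = h16b_T 13 r (PowerSeries.mk a * h16b_D)
        - PowerSeries.mk a * h16b_T 11 r h16b_D := ⟨_, rfl⟩
  have hI1' : IntQ (⇑F1') A1' := by
    rw [hF1', hA1']
    exact (IntQ.hecke 13 (by norm_num) hr hrN (hG.mul hΔ)).sub
      (hG.mul (IntQ.hecke 11 (by norm_num) hr hrN hΔ))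
  -- congruence mod `ℓ ^ k`
  have hcong : ∀ n, (ℓ : ℤ) ^ k ∣ PowerSeries.coeff n A1'
      - a 0 * (r : ℤ) ^ 11 * ((r : ℤ) ^ 2 - 1) * PowerSeries.coeff n (h16b_V r 1) := by
    intro n
    obtain ⟨u1, hu1⟩ := h16b_mul_cong ((ℓ : ℤ) ^ k) a hn h16b_D (n * r)
    obtain ⟨u2, hu2⟩ := h16b_mul_cong ((ℓ : ℤ) ^ k) a hn h16b_D (n / r)
    obtain ⟨u3, hu3⟩ := h16b_mul_cong ((ℓ : ℤ) ^ k) a hn (h16b_T 11 r h16b_D) n
    rw [h16b_T_coeff] at hu3
    rw [hA1', map_sub, h16b_T_coeff, h16b_V_one]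
    by_cases hrn : r ∣ n
    · rw [if_pos hrn] at hu3 ⊢
      rw [if_pos hrn]
      refine ⟨u1 + (r : ℤ) ^ 13 * u2 - u3, ?_⟩
      linear_combination hu1 + (r : ℤ) ^ 13 * hu2 - hu3
    · rw [if_neg hrn] at hu3 ⊢
      rw [if_neg hrn]
      refine ⟨u1 - u3, ?_⟩
      linear_combination hu1 - hu3
  -- the `ℓ`-part of `r² - 1`
  have hr2 : 2 ≤ r := hr.two_le
  have hr21 : r ^ 2 - 1 ≠ 0 := by
    have : 4 ≤ r ^ 2 := by nlinarith
    omega
  obtain ⟨v, w, hw, hvw⟩ := Nat.exists_eq_pow_mul_and_not_dvd hr21 ℓ hℓ.ne_one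
  have hvk : v < k := by
    by_contra hcon
    apply hk
    rw [hvw]
    exact dvd_trans (pow_dvd_pow ℓ (not_lt.mp hcon)) (dvd_mul_right _ _)
  have hvwZ : (r : ℤ) ^ 2 - 1 = (ℓ : ℤ) ^ v * (w : ℤ) := by
    have h1 : 1 ≤ r ^ 2 := by nlinarith
    have := congrArg (Nat.cast : ℕ → ℤ) hvw
    rw [Nat.cast_sub h1] at this
    push_cast at this
    exact this
  have hℓ0 : ((ℓ : ℤ) ^ v) ≠ 0 := pow_ne_zero _ (by exact_mod_cast hℓ.ne_zero)
  -- all coefficients of `A1'` are divisible by `ℓ ^ v`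
  have hdiv : ∀ n, (ℓ : ℤ) ^ v ∣ PowerSeries.coeff n A1' := by
    intro n
    have h1 : (ℓ : ℤ) ^ v ∣ PowerSeries.coeff n A1'
        - a 0 * (r : ℤ) ^ 11 * ((r : ℤ) ^ 2 - 1) * PowerSeries.coeff n (h16b_V r 1) :=
      dvd_trans (pow_dvd_pow _ hvk.le) (hcong n)
    have h2 : (ℓ : ℤ) ^ v ∣
        a 0 * (r : ℤ) ^ 11 * ((r : ℤ) ^ 2 - 1) * PowerSeries.coeff n (h16b_V r 1) := by
      rw [hvwZ]
      exact ⟨a 0 * (r : ℤ) ^ 11 * (w : ℤ) * PowerSeries.coeff n (h16b_V r 1), by ring⟩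
    have := dvd_add h1 h2
    rwa [sub_add_cancel] at this
  choose b hb using hdiv
  have hA1 : A1' = ((ℓ : ℤ) ^ v) • PowerSeries.mk b := by
    ext n
    rw [map_zsmul, PowerSeries.coeff_mk, smul_eq_mul]
    exact hb n
  rw [hA1] at hI1'
  refine ⟨(((ℓ : ℤ) ^ v : ℤ) : ℂ)⁻¹ • F1', PowerSeries.mk b, a 0 * (r : ℤ) ^ 11 * (w : ℤ),
    IntQ.div hℓ0 hI1', ?_, fun n => ?_⟩
  · -- the constant is prime to `ℓ`
    have hp : Prime (ℓ : ℤ) := Nat.prime_iff_prime_int.mp hℓ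
    intro hd
    rcases hp.dvd_or_dvd hd with h | h
    · rcases hp.dvd_or_dvd h with h' | h'
      · exact h0 h'
      · have h'' := hp.dvd_of_dvd_pow h'
        have : ℓ ∣ r := by exact_mod_cast h''
        exact hrℓ ((Nat.prime_dvd_prime_iff_eq hℓ hr).mp this).symm
    · exact hw (by exact_mod_cast h)
  · -- the congruence mod `ℓ`
    rw [PowerSeries.coeff_mk]
    obtain ⟨u, hu⟩ := hcong n
    have hkv : (ℓ : ℤ) ^ k = (ℓ : ℤ) ^ v * (ℓ : ℤ) ^ (k - v) := by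
      rw [← pow_add]
      congr 1
      omega
    have hmain : (ℓ : ℤ) ^ v * (b n - a 0 * (r : ℤ) ^ 11 * (w : ℤ)
        * PowerSeries.coeff n (h16b_V r 1)) = (ℓ : ℤ) ^ v * ((ℓ : ℤ) ^ (k - v) * u) := by
      have e1 := hb n
      rw [hvwZ, hkv, e1] at hu
      linear_combination hu
    have h3 := mul_left_cancel₀ hℓ0 hmain
    rw [h3]
    exact dvd_mul_of_dvd_left (dvd_pow_self _ (by omega)) u

theorem h16b_P_step (N ℓ r : ℕ) (hr : r.Prime) (hrN : ¬ r ∣ N) (hℓ : ℓ.Prime) (hrℓ : r ≠ ℓ)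
    (m : ℕ) (h1 : h16b_P N ℓ r m) (h2 : h16b_P N ℓ r (m + 1)) : h16b_P N ℓ r (m + 2) := by
  obtain ⟨F, A, c, hF, hc, hA⟩ := h1
  obtain ⟨F', A', c', hF', hc', hA'⟩ := h2
  have hp : Prime (ℓ : ℤ) := Nat.prime_iff_prime_int.mp hℓ
  refine ⟨(c : ℂ) • ModularForm.heckeTLin (2 + 12) hr hrN F' - (c' : ℂ) • F,
    c • h16b_T 13 r A' - c' • A, c * c' * (r : ℤ) ^ 13,
    ((IntQ.hecke 13 (by norm_num) hr hrN hF').smul c).sub (hF.smul c'), ?_, fun n => ?_⟩
  · intro hd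
    rcases hp.dvd_or_dvd hd with h | h
    · rcases hp.dvd_or_dvd h with h' | h'
      · exact hc h'
      · exact hc' h'
    · have h'' := hp.dvd_of_dvd_pow h
      have : ℓ ∣ r := by exact_mod_cast h''
      exact hrℓ ((Nat.prime_dvd_prime_iff_eq hℓ hr).mp this).symm
  · obtain ⟨u1, hu1⟩ := hA' (n * r)
    obtain ⟨u2, hu2⟩ := hA' (n / r)
    obtain ⟨u3, hu3⟩ := hA n
    rw [h16b_V_shift_up r hr.pos] at hu1
    have hsd := h16b_V_shift_down r hr.pos (m + 1) n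
    rw [map_sub, map_zsmul, map_zsmul, smul_eq_mul, smul_eq_mul, h16b_T_coeff, ← hsd]
    by_cases hrn : r ∣ n
    · rw [if_pos hrn, if_pos hrn]
      refine ⟨c * u1 + c * (r : ℤ) ^ 13 * u2 - c' * u3, ?_⟩
      linear_combination c * hu1 + c * (r : ℤ) ^ 13 * hu2 - c' * hu3
    · rw [if_neg hrn, if_neg hrn]
      refine ⟨c * u1 - c' * u3, ?_⟩
      linear_combination c * hu1 - c' * hu3

theorem h16b_P_all (N ℓ r k : ℕ) (hℓ : ℓ.Prime) (hr : r.Prime) (hrN : ¬ r ∣ N) (hrℓ : r ≠ ℓ)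
    (hk : ¬ ℓ ^ k ∣ r ^ 2 - 1) (G : ModularForm Γ₀(N) 2) (a : ℕ → ℤ)
    (ha : ∀ n, qCoeff ⇑G n = a n) (h0 : ¬ (ℓ : ℤ) ∣ a 0)
    (hn : ∀ n, 1 ≤ n → (ℓ : ℤ) ^ k ∣ a n) (j : ℕ) : h16b_P N ℓ r j := by
  have hk1 : 1 ≤ k := by
    by_contra hcon
    have : k = 0 := by omega
    apply hk
    rw [this, pow_zero]
    exact one_dvd _
  have key : ∀ j, h16b_P N ℓ r j ∧ h16b_P N ℓ r (j + 1) := by
    intro j
    induction j with
    | zero =>
      exact ⟨h16b_P_zero N ℓ r k hk1 G a ha h0 hn, h16b_P_one N ℓ r k hℓ hr hrN hrℓ hk G a ha h0 hn⟩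
    | succ j ih => exact ⟨ih.2, h16b_P_step N ℓ r hr hrN hℓ hrℓ j ih.1 ih.2⟩
  exact (key j).1

/-- **S16, slice B1 (Hecke trick).**  There is no modular form of weight `2` on `Γ₀(N)` with
integral `q`-expansion, constant term prime to `ℓ` and all higher coefficients divisible by
`ℓ ^ k`, if some prime `r ∤ N`, `r ≠ ℓ`, satisfies `ℓ ^ k ∤ r² - 1`. -/
theorem h16_b1 (N : ℕ) [NeZero N] (ℓ r k : ℕ) (hℓ : ℓ.Prime) (hr : r.Prime) (hrN : ¬ r ∣ N)
    (hrℓ : r ≠ ℓ) (hk : ¬ ℓ ^ k ∣ r ^ 2 - 1)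
    (G : ModularForm (CongruenceSubgroup.Gamma0 N) 2) (a : ℕ → ℤ)
    (ha : ∀ n, ModularFormClass.qCoeff G n = a n)
    (h0 : ¬ (ℓ : ℤ) ∣ a 0) (hn : ∀ n, 1 ≤ n → (ℓ : ℤ) ^ k ∣ a n) : False := by
  haveI := h16b_finiteDimensional N (2 + 12)
  set d := Module.finrank ℂ (ModularForm Γ₀(N) (2 + 12)) with hd
  have hall := h16b_P_all N ℓ r k hℓ hr hrN hrℓ hk G a ha h0 hn
  choose F A c hF hc hA using hall
  have hind : LinearIndependent ℂ (fun j : Fin (d + 1) => F j) := by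
    refine h16b_indep N (2 + 12) ℓ hℓ (d + 1) (fun i => r ^ (i : ℕ)) (fun j => F j)
      (fun j => A j) (fun j => hF j) ?_ ?_
    · intro i j hij
      have h := hA j (r ^ (i : ℕ))
      rw [h16b_V_coeff_pow_lt r hr.two_le i j hij, mul_zero, sub_zero] at h
      exact h
    · intro i hdvd
      have h := hA i (r ^ (i : ℕ))
      rw [h16b_V_coeff_pow_self r hr.pos, mul_one] at h
      apply hc i
      have := dvd_sub hdvd h
      rwa [sub_sub_cancel] at this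
  have := hind.fintype_card_le_finrank
  rw [Fintype.card_fin] at this
  omega

end H16S16

end
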