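import Mathlib
import Fermat.Agent.S16.H4BDefs
import Fermat.Agent.S16.B1_helper16

/-!
# S16, part (B), slice B1 in the shape of `H4S16.B1Statement` (helper16)
-/

set_option autoImplicit false
set_option linter.style.haveILetI false

noncomputable section

namespace H16S16

open ModularFormClass

/-- **B1** in helper4's shape. -/
theorem h16_B1Statement : H4S16.B1Statement := by
  intro p l r k hp hl hr hrp hrl hk hU
  obtain ⟨a0, ha0, G, hG0, hGj⟩ := hU
  haveI : NeZero p := ⟨hp.ne_zero⟩
  have hrN : ¬ r ∣ p := fun h => hrp ((Nat.prime_dvd_prime_iff_eq hr hp).mp h)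
  choose b hb using hGj
  refine h16_b1 p l r k hl hr hrN hrl hk G
    (fun n => if h : 1 ≤ n then (l : ℤ) ^ k * b n h else a0) ?_ ?_ ?_
  · intro n
    by_cases h : 1 ≤ n
    · rw [dif_pos h]
      exact hb n h
    · have hn0 : n = 0 := by omega
      subst hn0
      rw [dif_neg h]
      exact hG0
  · rw [dif_neg (by omega)]
    exact ha0
  · intro n h
    rw [dif_pos h]
    exact dvd_mul_right _ _

end H16S16

end
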