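import Mathlib

/-!
# S16, slice B3' (helper19): the level-one algebra

Pure commutative algebra behind the `ℓ = 2` case of the upper bound for the Eisenstein ideal.

Let `g = 1 + 8a`, `e₄ = 1 + 16b`, `e₆ = 1 + 8c` (think: `q`-series of a weight-2 form `G ≡ 1 mod 8`
and of the Eisenstein series `E₄`, `E₆`), and `e₄³ - e₆² = 1728 δ`, `j δ = e₄³`, with `g` and `δ`
invertible.  Then, with `Q := (-g⁴ + 6 g² e₄ - 8 g e₆ + 3 e₄²)/256` (an element of the ring!),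

  `j * (Q³ δ⁻²) = 27³ + 2 Z`

for some `Z` in the ring.  So `j` would be a unit modulo `2` on holomorphic modular functions,
which contradicts the `q`-expansion principle (`H28S28.h28_no_unit_relation`).
-/

set_option autoImplicit false

namespace H19S16

variable {A : Type*} [CommRing A]

/-- step 1: `16 (g³ (U - 3 g R) - 4 W) = 0`. -/
theorem h19_b3_step1 (g e4 e6 R U W d : A)
    (hR16 : 16 * R = g ^ 2 - e4) (hU8 : 8 * U = g ^ 3 - e6)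
    (hrel : e4 ^ 3 - e6 ^ 2 = 1728 * d)
    (hW : W = 27 * d - 12 * g ^ 2 * R ^ 2 + 64 * R ^ 3 + U ^ 2) :
    (16 : A) * (g ^ 3 * (U - 3 * g * R) - 4 * W) = 0 := by
  have e4' : e4 = g ^ 2 - 16 * R := by rw [hR16]; ring
  have e6' : e6 = g ^ 3 - 8 * U := by rw [hU8]; ring
  subst hW
  rw [e4', e6'] at hrel
  linear_combination hrel

/-- step 2: `64 (27 d - (g² Q - 8 S)) = 0`. -/
theorem h19_b3_step2 (g e4 e6 R U V Q S d : A)
    (hR16 : 16 * R = g ^ 2 - e4) (hU8 : 8 * U = g ^ 3 - e6)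
    (hrel : e4 ^ 3 - e6 ^ 2 = 1728 * d)
    (hV : U - 3 * g * R = 4 * V)
    (hQ : Q = 3 * R ^ 2 + g * V) (hS : S = 8 * R ^ 3 + 3 * g * R * V + 2 * V ^ 2) :
    (64 : A) * (27 * d - (g ^ 2 * Q - 8 * S)) = 0 := by
  have e4' : e4 = g ^ 2 - 16 * R := by rw [hR16]; ring
  have hU' : U = 3 * g * R + 4 * V := by rw [← hV]; ring
  have e6' : e6 = g ^ 3 - 8 * (3 * g * R + 4 * V) := by rw [← hU', hU8]; ring
  subst hQ hS
  rw [e4', e6'] at hrel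
  linear_combination -hrel

/-- step 3: `256 Q = -g⁴ + 6 g² e₄ - 8 g e₆ + 3 e₄²`. -/
theorem h19_b3_step3 (g e4 e6 R U V Q : A)
    (hR16 : 16 * R = g ^ 2 - e4) (hU8 : 8 * U = g ^ 3 - e6)
    (hV : U - 3 * g * R = 4 * V) (hQ : Q = 3 * R ^ 2 + g * V) :
    256 * Q = -g ^ 4 + 6 * g ^ 2 * e4 - 8 * g * e6 + 3 * e4 ^ 2 := by
  have e4' : e4 = g ^ 2 - 16 * R := by rw [hR16]; ring
  have e6' : e6 = g ^ 3 - 8 * U := by rw [hU8]; ring
  have hU' : U = 3 * g * R + 4 * V := by rw [← hV]; ring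
  subst hQ
  rw [e4', e6', hU']
  ring

/-- step 4: `j (Q³ δ⁻²) = 27³ + 2 Z`. -/
theorem h19_b3_step4 (e4 Q S' d dinv j : A) (hd : d * dinv = 1)
    (hj : j * d = e4 ^ 3) (h27 : 27 * d = e4 * Q - 8 * S') :
    j * (Q ^ 3 * dinv ^ 2) = 19683 + 2 * (4 * (3 * 729 * (S' * dinv) + 648 * (S' * dinv) ^ 2
      + 64 * (S' * dinv) ^ 3)) := by
  have hjd : j = e4 ^ 3 * dinv := by
    calc j = j * (d * dinv) := by rw [hd, mul_one]
      _ = (j * d) * dinv := by ring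
      _ = e4 ^ 3 * dinv := by rw [hj]
  have h5 : e4 * Q * dinv = 27 + 8 * (S' * dinv) := by
    have h6 : e4 * Q = 27 * d + 8 * S' := by rw [h27]; ring
    calc e4 * Q * dinv = (27 * d + 8 * S') * dinv := by rw [h6]
      _ = 27 * (d * dinv) + 8 * (S' * dinv) := by ring
      _ = 27 + 8 * (S' * dinv) := by rw [hd, mul_one]
  calc j * (Q ^ 3 * dinv ^ 2) = (e4 * Q * dinv) ^ 3 := by rw [hjd]; ring
    _ = (27 + 8 * (S' * dinv)) ^ 3 := by rw [h5]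
    _ = _ := by ring

/-- **The level-one algebra of B3'.**  `A` is a domain in which `2 ≠ 0` (in the application the
ring of `2`-integral Laurent series); `ginv`, `dinv` are inverses of `g = 1 + 8a` and `d`. -/
theorem h19_b3_alg [IsDomain A] (h2 : (2 : A) ≠ 0)
    (a b c d dinv ginv j : A)
    (hg : (1 + 8 * a) * ginv = 1) (hd : d * dinv = 1)
    (hrel : (1 + 16 * b) ^ 3 - (1 + 8 * c) ^ 2 = 1728 * d)
    (hj : j * d = (1 + 16 * b) ^ 3) :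
    ∃ Q Z : A,
      256 * Q = -(1 + 8 * a) ^ 4 + 6 * (1 + 8 * a) ^ 2 * (1 + 16 * b)
          - 8 * (1 + 8 * a) * (1 + 8 * c) + 3 * (1 + 16 * b) ^ 2 ∧
      j * (Q ^ 3 * dinv ^ 2) = 19683 + 2 * Z := by
  have h16 : (16 : A) ≠ 0 := by
    have : (16 : A) = 2 ^ 4 := by norm_num
    rw [this]; exact pow_ne_zero 4 h2
  have h64 : (64 : A) ≠ 0 := by
    have : (64 : A) = 2 ^ 6 := by norm_num
    rw [this]; exact pow_ne_zero 6 h2
  obtain ⟨g, hgdef⟩ : ∃ g : A, g = 1 + 8 * a := ⟨_, rfl⟩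
  obtain ⟨e4, he4⟩ : ∃ e4 : A, e4 = 1 + 16 * b := ⟨_, rfl⟩
  obtain ⟨e6, he6⟩ : ∃ e6 : A, e6 = 1 + 8 * c := ⟨_, rfl⟩
  obtain ⟨R, hR⟩ : ∃ R : A, R = a + 4 * a ^ 2 - b := ⟨_, rfl⟩
  obtain ⟨U, hU⟩ : ∃ U : A, U = 3 * a + 24 * a ^ 2 + 64 * a ^ 3 - c := ⟨_, rfl⟩
  have hR16 : 16 * R = g ^ 2 - e4 := by rw [hR, hgdef, he4]; ring
  have hU8 : 8 * U = g ^ 3 - e6 := by rw [hU, hgdef, he6]; ring
  rw [← hgdef] at hg ⊢
  rw [← he4] at hrel hj ⊢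
  rw [← he6] at hrel ⊢
  obtain ⟨W, hW⟩ : ∃ W : A, W = 27 * d - 12 * g ^ 2 * R ^ 2 + 64 * R ^ 3 + U ^ 2 := ⟨_, rfl⟩
  obtain ⟨V, hV⟩ : ∃ V : A, V = ginv ^ 3 * W := ⟨_, rfl⟩
  have key1 : g ^ 3 * (U - 3 * g * R) = 4 * W :=
    sub_eq_zero.mp ((mul_eq_zero.mp
      (h19_b3_step1 g e4 e6 R U W d hR16 hU8 hrel hW)).resolve_left h16)
  have key2 : U - 3 * g * R = 4 * V := by
    calc U - 3 * g * R = (g * ginv) ^ 3 * (U - 3 * g * R) := by rw [hg]; ring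
      _ = ginv ^ 3 * (g ^ 3 * (U - 3 * g * R)) := by ring
      _ = ginv ^ 3 * (4 * W) := by rw [key1]
      _ = 4 * V := by rw [hV]; ring
  obtain ⟨Q, hQ⟩ : ∃ Q : A, Q = 3 * R ^ 2 + g * V := ⟨_, rfl⟩
  obtain ⟨S, hS⟩ : ∃ S : A, S = 8 * R ^ 3 + 3 * g * R * V + 2 * V ^ 2 := ⟨_, rfl⟩
  have key3 : 27 * d = g ^ 2 * Q - 8 * S :=
    sub_eq_zero.mp ((mul_eq_zero.mp
      (h19_b3_step2 g e4 e6 R U V Q S d hR16 hU8 hrel key2 hQ hS)).resolve_left h64)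
  have key4 : 27 * d = e4 * Q - 8 * (S - 2 * R * Q) := by
    have e4' : e4 = g ^ 2 - 16 * R := by rw [hR16]; ring
    rw [e4', key3]; ring
  exact ⟨Q, _, h19_b3_step3 g e4 e6 R U V Q hR16 hU8 key2 hQ,
    h19_b3_step4 e4 Q (S - 2 * R * Q) d dinv j hd hj key4⟩

end H19S16
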