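import Mathlib
import Fermat.Agent.H23.Rel
import Fermat.Agent.S28.ModEq.Bridge
import Fermat.Agent.S28.ModEq.FormalJ

/-!
# S16, slice B3' (helper19): formal `E₆` and the formal relation `e₄³ - e₆² = 1728 Δ`

* `H19S16.h19_e6 : PowerSeries ℤ`, the `q`-series of `E₆`, with `h19_qExpansion_E6`;
* `H19S16.h19_formal_rel : eisenstein4 ^ 3 - h19_e6 ^ 2 = 1728 * (X * dedekindEtaUnit)`;
* `eisenstein4 = 1 + 16 * h19_b4`, `h19_e6 = 1 + 8 * h19_c6`.
-/

set_option autoImplicit false

noncomputable section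

namespace H19S16

open UpperHalfPlane ModularForm EisensteinSeries ModularCurve
open scoped MatrixGroups

/-- the formal `q`-series of `E₆`. -/
def h19_e6 : PowerSeries ℤ :=
  PowerSeries.mk fun n => if n = 0 then 1 else -504 * ∑ d ∈ n.divisors, (d : ℤ) ^ 5

/-- `(E₄ - 1)/16` as a formal series. -/
def h19_b4 : PowerSeries ℤ :=
  PowerSeries.mk fun n => if n = 0 then 0 else 15 * ∑ d ∈ n.divisors, (d : ℤ) ^ 3

/-- `(E₆ - 1)/8` as a formal series. -/
def h19_c6 : PowerSeries ℤ :=
  PowerSeries.mk fun n => if n = 0 then 0 else -63 * ∑ d ∈ n.divisors, (d : ℤ) ^ 5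

theorem h19_eisenstein4_eq : eisenstein4 = 1 + 16 * h19_b4 := by
  ext n
  rw [eisenstein4, h19_b4, map_add, PowerSeries.coeff_mk, PowerSeries.coeff_one,
    show (16 : PowerSeries ℤ) = PowerSeries.C (16 : ℤ) from (map_ofNat PowerSeries.C 16).symm,
    PowerSeries.coeff_C_mul, PowerSeries.coeff_mk]
  by_cases hn : n = 0
  · simp [hn]
  · simp only [hn, if_false]; ring

theorem h19_e6_eq : h19_e6 = 1 + 8 * h19_c6 := by
  ext n
  rw [h19_e6, h19_c6, map_add, PowerSeries.coeff_mk, PowerSeries.coeff_one,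
    show (8 : PowerSeries ℤ) = PowerSeries.C (8 : ℤ) from (map_ofNat PowerSeries.C 8).symm,
    PowerSeries.coeff_C_mul, PowerSeries.coeff_mk]
  by_cases hn : n = 0
  · simp [hn]
  · simp only [hn, if_false]; ring

theorem h19_qExpansion_E6 :
    UpperHalfPlane.qExpansion 1 (⇑ModularForm.E₆)
      = PowerSeries.map (Int.castRingHom ℂ) h19_e6 := by
  ext m
  rw [PowerSeries.coeff_map, h19_e6, PowerSeries.coeff_mk]
  have h := EisensteinSeries.E_qExpansion_coeff (k := 6) (by norm_num) ⟨3, rfl⟩ m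
  rw [h]
  have hb : bernoulli 6 = 1 / 42 := by decide +kernel
  by_cases hm : m = 0
  · simp [hm]
  · simp only [hm, if_false]
    rw [hb, ArithmeticFunction.sigma_apply]
    push_cast
    norm_num

theorem h19_map_intCast_injective :
    Function.Injective (PowerSeries.map (Int.castRingHom ℂ)) := by
  intro x y h
  ext n
  have := congrArg (PowerSeries.coeff n) h
  simpa using this

/-- the formal relation `e₄³ - e₆² = 1728 Δ` over `ℤ`. -/
theorem h19_formal_rel :
    eisenstein4 ^ 3 - h19_e6 ^ 2 = 1728 * (PowerSeries.X * dedekindEtaUnit) := by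
  apply h19_map_intCast_injective
  have h := H23.Rel.qExpansion_discriminant_eq
  rw [H23M.qExpansion_disc, H23M.qExpansion_E4, h19_qExpansion_E6] at h
  rw [map_sub, map_pow, map_pow, map_mul, h]
  have h1728 : PowerSeries.map (Int.castRingHom ℂ) (1728 : PowerSeries ℤ)
      = PowerSeries.C (1728 : ℂ) := by
    rw [show (1728 : PowerSeries ℤ) = PowerSeries.C (1728 : ℤ) from
      (map_ofNat PowerSeries.C 1728).symm, PowerSeries.map_C]
    simp
  rw [h1728, ← PowerSeries.smul_eq_C_mul, smul_smul]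
  norm_num

end H19S16
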