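import Mathlib
import Fermat.Agent.S16.B3Alg_helper19
import Fermat.Agent.S16.B3Formal_helper19
import Fermat.Agent.S28.QExpPrinciple
import Fermat.Agent.S28.ModEq.ConjMap
import Fermat.Prelude.Thm_CongruenceSubgroup_one_mem_strictPeriods_Gamma0

/-!
# S16, slice B3' (helper19): no weight-2 form on `Γ₀(N)`, `N` odd, is `≡ 1 mod 8`

Level-one argument (only `E₄`, `E₆`, `Δ`; no level 3):
for `G ∈ M₂(Γ₀(N))` with `q`-expansion `1 + 8 α` (`α` a `2`-integral power series) put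

  `Q := (6 G² E₄ + 3 E₄² - G⁴ - 8 G E₆)/256`  (weight 8),  `K := Q³`  (weight 24),  `X := K/Δ²`.

Then the `q`-series of `Q` is `2`-integral and `j · X = 27³ + 2 Z` with `Z` `2`-integral
(`H19S16.h19_b3_alg`), which contradicts `H28S28.h28_no_unit_relation` as soon as BRIDGE provides
`X ∈ F_N` and the integrality of `X` over `ℚ[j]`.

Main result: `H19S16.h19_b3` (BRIDGE for the single form `K` is a hypothesis).
Reusable: `h19_restrict` (restriction of a modular form to a subgroup), `h19_E4N`, `h19_E6N`,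
`h19_nice` (forms on `Γ₀(N)` are `H23.Nice`), `h19_Kform`, `h19_qExpansion_Kform`.
-/

set_option autoImplicit false

noncomputable section

namespace H19S16

open UpperHalfPlane ModularForm EisensteinSeries ModularCurve CongruenceSubgroup
open Matrix.SpecialLinearGroup
open scoped MatrixGroups

/-- restriction of a modular form to a smaller group. -/
def h19_restrict {Γ Γ' : Subgroup (GL (Fin 2) ℝ)} (h : Γ' ≤ Γ) {k : ℤ} (f : ModularForm Γ k) :
    ModularForm Γ' k where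
  toFun := f
  slash_action_eq' γ hγ := SlashInvariantFormClass.slash_action_eq f γ (h hγ)
  holo' := ModularFormClass.holo f
  bdd_at_cusps' hc := ModularFormClass.bdd_at_cusps f (hc.mono h)

@[simp] theorem h19_restrict_apply {Γ Γ' : Subgroup (GL (Fin 2) ℝ)} (h : Γ' ≤ Γ) {k : ℤ}
    (f : ModularForm Γ k) (z : ℍ) : h19_restrict h f z = f z := rfl

variable (N : ℕ) [NeZero N]

omit [NeZero N] in
theorem h19_Gamma0_le : ((Gamma0 N : Subgroup SL(2, ℤ)).map (mapGL ℝ)) ≤ 𝒮ℒ :=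
  Subgroup.map_le_range _ _

/-- `E₄` on `Γ₀(N)`. -/
def h19_E4N : ModularForm (Gamma0 N) 4 := h19_restrict (h19_Gamma0_le N) E₄

/-- `E₆` on `Γ₀(N)`. -/
def h19_E6N : ModularForm (Gamma0 N) 6 := h19_restrict (h19_Gamma0_le N) E₆

variable {N}

/-- The weight-8 form `Q = (-G⁴ + 6 G² E₄ - 8 G E₆ + 3 E₄²)/256`. -/
def h19_Qform (G : ModularForm (Gamma0 N) 2) : ModularForm (Gamma0 N) 8 :=
  (1 / 256 : ℂ) • (-(((G.mul G).mul (G.mul G)).mcast (by norm_num) : ModularForm (Gamma0 N) 8)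
    + (6 : ℂ) • (((G.mul G).mul (h19_E4N N)).mcast (by norm_num) : ModularForm (Gamma0 N) 8)
    - (8 : ℂ) • ((G.mul (h19_E6N N)).mcast (by norm_num) : ModularForm (Gamma0 N) 8)
    + (3 : ℂ) • (((h19_E4N N).mul (h19_E4N N)).mcast (by norm_num) : ModularForm (Gamma0 N) 8))

/-- The weight-24 form `K = Q³`. -/
def h19_Kform (G : ModularForm (Gamma0 N) 2) : ModularForm (Gamma0 N) 24 :=
  (((h19_Qform G).mul (h19_Qform G)).mul (h19_Qform G)).mcast (by norm_num)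

/-- the function `Q` -/
def h19_Qfun (G : ℍ → ℂ) : ℍ → ℂ :=
  (1 / 256 : ℂ) • (((6 : ℂ) • (G ^ 2 * ⇑E₄) + (3 : ℂ) • (⇑E₄) ^ 2) - (G ^ 4 + (8 : ℂ) • (G * ⇑E₆)))

omit [NeZero N] in
theorem h19_coe_E4N : (⇑(h19_E4N N) : ℍ → ℂ) = ⇑E₄ := rfl

omit [NeZero N] in
theorem h19_coe_E6N : (⇑(h19_E6N N) : ℍ → ℂ) = ⇑E₆ := rfl

theorem h19_coe_Qform (G : ModularForm (Gamma0 N) 2) :
    (⇑(h19_Qform G) : ℍ → ℂ) = h19_Qfun ⇑G := by
  simp only [h19_Qform, h19_Qfun, FunLike.coe_smul, FunLike.coe_add, FunLike.coe_sub,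
    FunLike.coe_neg, ModularForm.coe_mcast, ModularForm.coe_mul, h19_coe_E4N, h19_coe_E6N]
  funext z
  simp only [Pi.smul_apply, Pi.add_apply, Pi.sub_apply, Pi.neg_apply, Pi.mul_apply,
    Pi.pow_apply, smul_eq_mul]
  ring

theorem h19_coe_Kform (G : ModularForm (Gamma0 N) 2) :
    (⇑(h19_Kform G) : ℍ → ℂ) = (h19_Qfun ⇑G) ^ 3 := by
  simp only [h19_Kform, ModularForm.coe_mcast, ModularForm.coe_mul, h19_coe_Qform]
  funext z
  simp only [Pi.mul_apply, Pi.pow_apply]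
  ring


/-! ### `q`-expansions -/

open H23 H23.Rel

theorem h19_nice {k : ℤ} (G : ModularForm (Gamma0 N) k) : Nice (⇑G) :=
  ⟨ModularFormClass.holo G,
    (by
      simpa using SlashInvariantFormClass.periodic_comp_ofComplex G
        (CongruenceSubgroup.one_mem_strictPeriods_Gamma0 N)),
    ModularFormClass.bdd_at_infty G⟩

theorem h19_nice_smul {F : ℍ → ℂ} (hF : Nice F) (a : ℂ) : Nice (a • F) := by
  have : a • F = (fun _ => a) * F := by funext z; simp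
  rw [this]
  exact nice_mul (nice_const a) hF

theorem h19_qExpansion_smul {F : ℍ → ℂ} (hF : Nice F) (a : ℂ) :
    qExpansion 1 (a • F) = PowerSeries.C a * qExpansion 1 F := by
  rw [qExpansion_smul_of_nice hF, PowerSeries.smul_eq_C_mul]

/-- the `q`-expansion of `Q`, in terms of those of `G`, `E₄`, `E₆`. -/
theorem h19_qExpansion_Qfun {G : ℍ → ℂ} (hG : Nice G) :
    qExpansion 1 (h19_Qfun G) = PowerSeries.C (1 / 256 : ℂ) *
      ((PowerSeries.C (6 : ℂ) * (qExpansion 1 G ^ 2 * qExpansion 1 (⇑E₄))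
          + PowerSeries.C (3 : ℂ) * qExpansion 1 (⇑E₄) ^ 2)
        - (qExpansion 1 G ^ 4
          + PowerSeries.C (8 : ℂ) * (qExpansion 1 G * qExpansion 1 (⇑E₆)))) := by
  have n1 : Nice (G ^ 2 * ⇑E₄) := nice_mul (nice_pow hG 2) nice_E4
  have n2 : Nice ((⇑E₄ : ℍ → ℂ) ^ 2) := nice_pow nice_E4 2
  have n3 : Nice (G ^ 4) := nice_pow hG 4
  have n4 : Nice (G * ⇑E₆) := nice_mul hG nice_E6
  have n5 : Nice ((6 : ℂ) • (G ^ 2 * ⇑E₄) + (3 : ℂ) • (⇑E₄ : ℍ → ℂ) ^ 2) :=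
    nice_add (h19_nice_smul n1 6) (h19_nice_smul n2 3)
  have n6 : Nice (G ^ 4 + (8 : ℂ) • (G * ⇑E₆)) := nice_add n3 (h19_nice_smul n4 8)
  rw [h19_Qfun, h19_qExpansion_smul (nice_sub n5 n6), qExpansion_sub_of_nice n5 n6,
    qExpansion_add_of_nice (h19_nice_smul n1 6) (h19_nice_smul n2 3),
    qExpansion_add_of_nice n3 (h19_nice_smul n4 8),
    h19_qExpansion_smul n1, h19_qExpansion_smul n2, h19_qExpansion_smul n4,
    qExpansion_mul_of_nice (nice_pow hG 2) nice_E4, qExpansion_pow_of_nice hG,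
    qExpansion_pow_of_nice nice_E4, qExpansion_pow_of_nice hG,
    qExpansion_mul_of_nice hG nice_E6]

/-- the rational `q`-series of `Q` attached to a rational series `g` (`= q`-series of `G`). -/
def h19_kappaQ (g : PowerSeries ℚ) : PowerSeries ℚ :=
  PowerSeries.C (1 / 256 : ℚ) *
    ((PowerSeries.C (6 : ℚ) * (g ^ 2 * eisenstein4.map (Int.castRingHom ℚ))
        + PowerSeries.C (3 : ℚ) * (eisenstein4.map (Int.castRingHom ℚ)) ^ 2)
      - (g ^ 4 + PowerSeries.C (8 : ℚ) * (g * h19_e6.map (Int.castRingHom ℚ))))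

theorem h19_map_map_int (s : PowerSeries ℤ) :
    (s.map (Int.castRingHom ℚ)).map (algebraMap ℚ ℂ) = s.map (Int.castRingHom ℂ) := by
  ext n
  simp

theorem h19_qExpansion_Kform (G : ModularForm (Gamma0 N) 2) (g : PowerSeries ℚ)
    (hG : qExpansion 1 (⇑G) = g.map (algebraMap ℚ ℂ)) :
    qExpansion 1 (⇑(h19_Kform G)) = (h19_kappaQ g ^ 3).map (algebraMap ℚ ℂ) := by
  have hn : Nice (⇑G) := h19_nice G
  have hQn : Nice (h19_Qfun ⇑G) := by
    rw [← h19_coe_Qform]; exact h19_nice _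
  rw [h19_coe_Kform, qExpansion_pow_of_nice hQn, h19_qExpansion_Qfun hn, map_pow, hG,
    H23M.qExpansion_E4, h19_qExpansion_E6, h19_kappaQ]
  simp only [map_mul, map_sub, map_add, map_pow, PowerSeries.map_C, h19_map_map_int]
  simp


/-! ### Laurent series and the final contradiction -/

open H28S28

theorem h19_ofPS_mem (x : PowerSeries ℚ)
    (hx : ∀ n, PowerSeries.coeff n x ∈ GaloisRep.ratLocalizedAt 2) :
    HahnSeries.ofPowerSeries ℤ ℚ x ∈ Obig 2 := by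
  apply h28_mem_Obig_of_coeff
  intro n
  rcases le_or_gt 0 n with hn | hn
  · lift n to ℕ using hn
    rw [HahnSeries.ofPowerSeries_apply_coeff]
    exact hx n
  · rw [ModularCurve.ofPowerSeries_coeff_of_neg _ hn]
    exact zero_mem _

theorem h19_int_mem (m : ℤ) : (m : ℚ) ∈ GaloisRep.ratLocalizedAt 2 := by
  show ((m : ℚ).den).Coprime 2
  simp

theorem h19_ofPS_int_mem (s : PowerSeries ℤ) :
    HahnSeries.ofPowerSeries ℤ ℚ (s.map (Int.castRingHom ℚ)) ∈ Obig 2 :=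
  h19_ofPS_mem _ (fun n => by rw [PowerSeries.coeff_map]; exact h19_int_mem _)

/-- the ring hom `ℤ⟦q⟧ → ℚ((q))`. -/
def h19_phi : PowerSeries ℤ →+* LaurentSeries ℚ :=
  (HahnSeries.ofPowerSeries ℤ ℚ).comp (PowerSeries.map (Int.castRingHom ℚ))

theorem h19_phi_apply (s : PowerSeries ℤ) :
    h19_phi s = HahnSeries.ofPowerSeries ℤ ℚ (s.map (Int.castRingHom ℚ)) := rfl

theorem h19_phi_mem (s : PowerSeries ℤ) : h19_phi s ∈ Obig 2 := h19_ofPS_int_mem s

theorem h19_phi_delta : h19_phi (PowerSeries.X * dedekindEtaUnit) = deltaq ℚ := by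
  rw [map_mul, h19_phi_apply, h19_phi_apply, PowerSeries.map_X, HahnSeries.ofPowerSeries_X,
    deltaq]

theorem h19_phi_e4 : h19_phi eisenstein4 = H23M.e4q ℚ := rfl

theorem h19_deltaq_mem : deltaq ℚ ∈ Obig 2 := by
  rw [← h19_phi_delta]; exact h19_phi_mem _

theorem h19_deltaqInv_mem : deltaqInv ℚ ∈ Obig 2 := by
  have h : deltaqInv ℚ = epsL 2 (deltaqInv ↥(GaloisRep.ratLocalizedAt 2)) :=
    (H23M.h21_coeffMap_deltaqInv (GaloisRep.ratLocalizedAt 2).subtype).symm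
  rw [h]
  exact epsL_mem_Obig 2 _

theorem h19_coe_ofNat {L : Type*} [Ring L] (O : Subring L) (n : ℕ) [n.AtLeastTwo] :
    ((ofNat(n) : O) : L) = ofNat(n) := rfl

theorem h19_redHom_eight (x : ↥(Obig 2)) : redHom 2 (8 * x) = 0 := by
  have h8 : (8 : ↥(Obig 2)) = ((2 : ℕ) : ↥(Obig 2)) * 4 := by norm_num
  rw [map_mul, h8, map_mul, map_natCast, natCast_eq_zero_Lk, zero_mul, zero_mul]

theorem h19_ofPS_kappaQ (g : PowerSeries ℚ) :
    256 * HahnSeries.ofPowerSeries ℤ ℚ (h19_kappaQ g) =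
      (6 * (HahnSeries.ofPowerSeries ℤ ℚ g ^ 2 * H23M.e4q ℚ) + 3 * H23M.e4q ℚ ^ 2)
        - (HahnSeries.ofPowerSeries ℤ ℚ g ^ 4
          + 8 * (HahnSeries.ofPowerSeries ℤ ℚ g * h19_phi h19_e6)) := by
  have hC : ∀ r : ℚ, HahnSeries.ofPowerSeries ℤ ℚ (PowerSeries.C r)
      = (HahnSeries.C r : LaurentSeries ℚ) := fun r => HahnSeries.ofPowerSeries_C r
  have hn : ∀ n : ℕ, (HahnSeries.C (n : ℚ) : LaurentSeries ℚ) = (n : LaurentSeries ℚ) :=
    fun n => map_natCast (HahnSeries.C : ℚ →+* LaurentSeries ℚ) n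
  have e1 : (256 : LaurentSeries ℚ) * (HahnSeries.C (1 / 256 : ℚ) : LaurentSeries ℚ) = 1 := by
    have h256 : (256 : LaurentSeries ℚ) = (HahnSeries.C (256 : ℚ) : LaurentSeries ℚ) := by
      have := hn 256
      push_cast at this
      exact this.symm
    rw [h256, ← map_mul]
    norm_num
  have h6 : (HahnSeries.C (6 : ℚ) : LaurentSeries ℚ) = 6 := by
    have := hn 6
    push_cast at this
    exact this
  have h3 : (HahnSeries.C (3 : ℚ) : LaurentSeries ℚ) = 3 := by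
    have := hn 3
    push_cast at this
    exact this
  have h8 : (HahnSeries.C (8 : ℚ) : LaurentSeries ℚ) = 8 := by
    have := hn 8
    push_cast at this
    exact this
  rw [h19_kappaQ, map_mul, hC, ← mul_assoc, e1, one_mul]
  simp only [map_mul, map_sub, map_add, map_pow, hC, h6, h3, h8]
  rfl

/-- **B3' (level one), conditional on BRIDGE for `K = Q³`**: for odd `N` there is no
`G ∈ M₂(Γ₀(N))` whose `q`-expansion is `1 + 8 α` with `α` a `2`-integral power series. -/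
theorem h19_b3 (hN : ¬ 2 ∣ N)
    (hBridge : ∀ (K : ModularForm (Gamma0 N) 24) (κ : PowerSeries ℚ),
      qExpansion 1 (⇑K) = κ.map (algebraMap ℚ ℂ) →
      (HahnSeries.ofPowerSeries ℤ ℚ κ * deltaqInv ℚ ^ 2 ∈ modularFunctionFieldFull N) ∧
      ∃ P : Polynomial (Polynomial ℚ), P.Monic ∧
        Polynomial.eval₂ ((Polynomial.aeval jq : Polynomial ℚ →ₐ[ℚ] LaurentSeries ℚ) :
          Polynomial ℚ →+* LaurentSeries ℚ)
          (HahnSeries.ofPowerSeries ℤ ℚ κ * deltaqInv ℚ ^ 2) P = 0)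
    (G : ModularForm (Gamma0 N) 2) (α : PowerSeries ℚ)
    (hα : ∀ n, PowerSeries.coeff n α ∈ GaloisRep.ratLocalizedAt 2)
    (hG : qExpansion 1 (⇑G) = (1 + 8 * α).map (algebraMap ℚ ℂ)) : False := by
  obtain ⟨hXF, hXint⟩ := hBridge (h19_Kform G) (h19_kappaQ (1 + 8 * α) ^ 3)
    (h19_qExpansion_Kform G _ hG)
  -- the elements of `O₂`
  obtain ⟨a, ha⟩ : ∃ a : ↥(Obig 2), (a : LaurentSeries ℚ) = HahnSeries.ofPowerSeries ℤ ℚ α :=
    ⟨⟨_, h19_ofPS_mem α hα⟩, rfl⟩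
  obtain ⟨b, hb⟩ : ∃ b : ↥(Obig 2), (b : LaurentSeries ℚ) = h19_phi h19_b4 :=
    ⟨⟨_, h19_phi_mem _⟩, rfl⟩
  obtain ⟨c, hc⟩ : ∃ c : ↥(Obig 2), (c : LaurentSeries ℚ) = h19_phi h19_c6 :=
    ⟨⟨_, h19_phi_mem _⟩, rfl⟩
  obtain ⟨d, hd⟩ : ∃ d : ↥(Obig 2), (d : LaurentSeries ℚ) = deltaq ℚ :=
    ⟨⟨_, h19_deltaq_mem⟩, rfl⟩
  obtain ⟨dinv, hdinv⟩ : ∃ d : ↥(Obig 2), (d : LaurentSeries ℚ) = deltaqInv ℚ :=
    ⟨⟨_, h19_deltaqInv_mem⟩, rfl⟩
  obtain ⟨j, hj⟩ : ∃ j : ↥(Obig 2), (j : LaurentSeries ℚ) = jq :=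
    ⟨⟨_, h28_jq_mem_Obig⟩, rfl⟩
  have hred : redHom 2 (1 + 8 * a) ≠ 0 := by
    rw [map_add, map_one, h19_redHom_eight, add_zero]
    exact one_ne_zero
  have hg0 : ((1 + 8 * a : ↥(Obig 2)) : LaurentSeries ℚ) ≠ 0 := by
    intro h0
    apply hred
    have : (1 + 8 * a : ↥(Obig 2)) = 0 := Subtype.ext h0
    rw [this, map_zero]
  obtain ⟨ginv, hginv⟩ : ∃ x : ↥(Obig 2),
      (x : LaurentSeries ℚ) = ((1 + 8 * a : ↥(Obig 2)) : LaurentSeries ℚ)⁻¹ :=
    ⟨⟨_, inv_mem_Obig 2 _ hred⟩, rfl⟩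
  have h2 : (2 : ↥(Obig 2)) ≠ 0 := by
    intro h
    have h' := congrArg Subtype.val h
    push_cast [h19_coe_ofNat] at h'
    exact natCast_ne_zero_LQ 2 (by rw [Nat.cast_ofNat]; exact h')
  have hgg : (1 + 8 * a) * ginv = 1 := by
    apply Subtype.ext
    rw [Subring.coe_mul, hginv, mul_inv_cancel₀ hg0]
    rfl
  have hdd : d * dinv = 1 := by
    apply Subtype.ext
    rw [Subring.coe_mul, hd, hdinv, H23M.deltaq_mul_deltaqInv]
    rfl
  have he4 : H23M.e4q ℚ = ((1 + 16 * b : ↥(Obig 2)) : LaurentSeries ℚ) := by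
    rw [← h19_phi_e4, h19_eisenstein4_eq, Subring.coe_add, Subring.coe_mul, Subring.coe_one, hb,
      map_add, map_one, map_mul, map_ofNat]
    rfl
  have he6 : h19_phi h19_e6 = ((1 + 8 * c : ↥(Obig 2)) : LaurentSeries ℚ) := by
    rw [h19_e6_eq, Subring.coe_add, Subring.coe_mul, Subring.coe_one, hc,
      map_add, map_one, map_mul, map_ofNat]
    rfl
  have hrel : (1 + 16 * b) ^ 3 - (1 + 8 * c) ^ 2 = 1728 * d := by
    apply Subtype.ext
    have h := congrArg h19_phi h19_formal_rel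
    rw [map_sub, map_pow, map_pow, map_mul, h19_phi_delta, h19_phi_e4, he4, he6, map_ofNat] at h
    push_cast [h19_coe_ofNat] at h ⊢
    rw [hd]
    exact h
  have hjd : j * d = (1 + 16 * b) ^ 3 := by
    apply Subtype.ext
    have h := H23M.jqModC_mul_deltaq ℚ
    rw [he4, jqModC_rat] at h
    push_cast [h19_coe_ofNat] at h ⊢
    rw [hj, hd]
    exact h
  obtain ⟨Q, Z, hQ, hjX⟩ := h19_b3_alg h2 a b c d dinv ginv j hgg hdd hrel hjd
  -- identify `Q` with the `q`-series of the form `Q`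
  have hQeq : (Q : LaurentSeries ℚ) = HahnSeries.ofPowerSeries ℤ ℚ (h19_kappaQ (1 + 8 * α)) := by
    have h256 : (256 : LaurentSeries ℚ) ≠ 0 := by
      have h4 : (256 : LaurentSeries ℚ) = (2 : LaurentSeries ℚ) ^ 8 := by norm_num
      rw [h4]
      refine pow_ne_zero 8 ?_
      have := natCast_ne_zero_LQ 2
      rwa [Nat.cast_ofNat] at this
    apply mul_left_cancel₀ h256
    have h1 := congrArg Subtype.val hQ
    have hg' : HahnSeries.ofPowerSeries ℤ ℚ (1 + 8 * α)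
        = ((1 + 8 * a : ↥(Obig 2)) : LaurentSeries ℚ) := by
      rw [Subring.coe_add, Subring.coe_mul, Subring.coe_one, ha, map_add, map_one, map_mul,
        map_ofNat]
      rfl
    rw [h19_ofPS_kappaQ, he4, he6, hg']
    have h3 : (256 : LaurentSeries ℚ) * (Q : LaurentSeries ℚ)
        = ((256 * Q : ↥(Obig 2)) : LaurentSeries ℚ) := rfl
    rw [h3, hQ]
    push_cast [h19_coe_ofNat]
    ring
  have hX : HahnSeries.ofPowerSeries ℤ ℚ (h19_kappaQ (1 + 8 * α) ^ 3) * deltaqInv ℚ ^ 2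
      = ((Q ^ 3 * dinv ^ 2 : ↥(Obig 2)) : LaurentSeries ℚ) := by
    rw [Subring.coe_mul, Subring.coe_pow, Subring.coe_pow, hQeq, hdinv, map_pow]
  rw [hX] at hXF hXint
  refine h28_no_unit_relation (ℓ := 2) hN _ (Z : LaurentSeries ℚ) hXF (Q ^ 3 * dinv ^ 2).2 Z.2
    hXint 19683 (by norm_num) ?_
  have h := congrArg Subtype.val hjX
  push_cast [h19_coe_ofNat] at h ⊢
  rw [← hj]
  exact h

end H19S16
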