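import Mathlib
import Fermat.Agent.S16.B3_helper19
import Fermat.Agent.S16.H4BDefs
import Fermat.Agent.S28.ZlDvr
import Fermat.Agent.Lib.H3_QExp

/-!
# S16, slice B3' (helper19): `H4S16.B3Statement` from BRIDGE in weight 24

`H19S16.h19_B3Statement : (∀ N odd, h19_Bridge24 N) → H4S16.B3Statement`.

`h19_Bridge24 N` is the instance of BRIDGE that B3' needs: for a weight-24 form `K` on `Γ₀(N)`
with rational `q`-expansion `κ`, the series `κ/Δ²` lies in `F_N` and is a root of a monic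
polynomial over `ℚ[j]`.
-/

set_option autoImplicit false

noncomputable section

namespace H19S16

open UpperHalfPlane ModularForm ModularCurve CongruenceSubgroup ModularFormClass
open Matrix.SpecialLinearGroup H28S28
open scoped MatrixGroups

/-- The instance of BRIDGE needed by B3': weight `24 = 12 · 2`. -/
def h19_Bridge24 (N : ℕ) [NeZero N] : Prop :=
  ∀ (K : ModularForm (Gamma0 N) 24) (κ : PowerSeries ℚ),
    qExpansion 1 (⇑K) = κ.map (algebraMap ℚ ℂ) →
    (HahnSeries.ofPowerSeries ℤ ℚ κ * deltaqInv ℚ ^ 2 ∈ modularFunctionFieldFull N) ∧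
    ∃ P : Polynomial (Polynomial ℚ), P.Monic ∧
      Polynomial.eval₂ ((Polynomial.aeval jq : Polynomial ℚ →ₐ[ℚ] LaurentSeries ℚ) :
        Polynomial ℚ →+* LaurentSeries ℚ)
        (HahnSeries.ofPowerSeries ℤ ℚ κ * deltaqInv ℚ ^ 2) P = 0

/-- a quotient of integers with odd denominator is `2`-integral. -/
theorem h19_div_odd_mem (b a : ℤ) (ha : ¬ (2 : ℤ) ∣ a) :
    (b : ℚ) / (a : ℚ) ∈ GaloisRep.ratLocalizedAt 2 := by
  obtain ⟨d, hd⟩ : ∃ d : ℕ, a = (d : ℤ) ∨ a = -(d : ℤ) := ⟨a.natAbs, Int.natAbs_eq a⟩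
  have hcop : d.Coprime 2 := by
    rw [Nat.coprime_comm, Nat.Prime.coprime_iff_not_dvd Nat.prime_two]
    intro h
    have h' : (2 : ℤ) ∣ (d : ℤ) := by exact_mod_cast h
    rcases hd with rfl | rfl
    · exact ha h'
    · exact ha ((dvd_neg).mpr h')
  rcases hd with rfl | rfl
  · have h := h10_div_mem 2 b hcop
    push_cast
    exact h
  · have h := h10_div_mem 2 (-b) hcop
    have heq : (b : ℚ) / ((-(d : ℤ) : ℤ) : ℚ) = ((-b : ℤ) : ℚ) / (d : ℚ) := by
      push_cast
      rw [div_neg, neg_div]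
    rw [heq]
    exact h

/-- **B3'** in helper4's shape, from BRIDGE in weight 24. -/
theorem h19_B3Statement (hB : ∀ (N : ℕ) [NeZero N], ¬ 2 ∣ N → h19_Bridge24 N) :
    H4S16.B3Statement := by
  intro N hodd hU
  obtain ⟨a, ha, G, hG0, hGj⟩ := hU
  have : NeZero N := ⟨by
    rintro rfl
    exact (by decide : ¬ Odd 0) hodd⟩
  have hN2 : ¬ 2 ∣ N := by
    rw [← even_iff_two_dvd, Nat.not_even_iff_odd]
    exact hodd
  have ha2 : ¬ (2 : ℤ) ∣ a := by
    intro h
    exact ha (by exact_mod_cast h)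
  have ha0 : (a : ℂ) ≠ 0 := by
    intro h0
    have : a = 0 := by exact_mod_cast h0
    exact ha2 (this ▸ dvd_zero _)
  choose! b hb using hGj
  refine h19_b3 hN2 (hB N hN2) ((a : ℂ)⁻¹ • G)
    (PowerSeries.mk fun j => if j = 0 then 0 else (b j : ℚ) / (a : ℚ)) ?_ ?_
  · intro n
    rw [PowerSeries.coeff_mk]
    split_ifs
    · exact zero_mem _
    · exact h19_div_odd_mem _ _ ha2
  · have h1 : (⇑((a : ℂ)⁻¹ • G) : ℍ → ℂ) = (a : ℂ)⁻¹ • ⇑G := by
      ext z
      simp
    rw [h1, ModularForm.qExpansion_smul one_pos (Fermat.Agent.H3.h3_one_mem_strictPeriods N)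
      (a : ℂ)⁻¹ G]
    ext n
    rw [PowerSeries.coeff_map, map_add, PowerSeries.coeff_one,
      show (8 : PowerSeries ℚ) = PowerSeries.C (8 : ℚ) from (map_ofNat PowerSeries.C 8).symm,
      PowerSeries.coeff_C_mul, PowerSeries.coeff_mk, PowerSeries.coeff_smul]
    by_cases hn : n = 0
    · subst hn
      have : (PowerSeries.coeff 0) (qExpansion 1 ⇑G) = (a : ℂ) := hG0
      rw [this]
      simp [ha0]
    · have hn1 : 1 ≤ n := Nat.one_le_iff_ne_zero.mpr hn
      have : (PowerSeries.coeff n) (qExpansion 1 ⇑G) = ((((2 : ℕ) : ℤ) ^ 3 * b n : ℤ) : ℂ) :=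
        hb n hn1
      rw [this]
      simp only [hn, if_false, zero_add, smul_eq_mul, map_mul, map_div₀, eq_ratCast, map_ofNat]
      push_cast
      field_simp

end H19S16
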