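/-
S16, part (B), slice B-EIS (helper22): the weight-2 Eisenstein series of level `p`
`E = p E₂(p z) - E₂(z) = (p - 1) + 24 Σ σ'(k) q^k` is a modular form on `Γ₀(p)`:
construction of the modular form (slash invariance, holomorphy, boundedness at the cusps).
-/
import Mathlib
import Fermat.Agent.H23.DeltaN

set_option autoImplicit false
set_option linter.style.haveILetI false
set_option linter.unusedSectionVars false

noncomputable section

open UpperHalfPlane ModularForm SlashInvariantForm SlashInvariantFormClass ModularFormClass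
  MatrixGroups OnePoint Filter EisensteinSeries Asymptotics Matrix.SpecialLinearGroup

open scoped Topology Manifold Real

namespace H22S16

/-- `p E₂(p z)` -/
def h22e_F (p : ℕ) : ℍ → ℂ := E2 ∣[(2 : ℤ)] heckeDiagMatrix p

/-- `p E₂(p z) - E₂(z)` -/
def h22e_E (p : ℕ) : ℍ → ℂ := h22e_F p - E2

/-- the constant `1 / (2 ζ(2))` -/
def h22e_c : ℂ := 1 / (2 * riemannZeta 2)

lemma h22e_E2_slash (γ : SL(2, ℤ)) :
    E2 ∣[(2 : ℤ)] (mapGL ℝ γ : GL (Fin 2) ℝ) = E2 - h22e_c • D2 γ := by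
  have := E2_slash_action γ
  rw [ModularForm.SL_slash] at this
  exact this

/-- `D2 γ'` slashed by `diag(p, 1)` is `D2 γ` when `diag(p,1) γ = γ' diag(p,1)`. -/
lemma h22e_D2_slash_diag {p : ℕ} (hp : p ≠ 0) (γ γ' : SL(2, ℤ))
    (h : heckeDiagMatrix p * mapGL ℝ γ = mapGL ℝ γ' * heckeDiagMatrix p) :
    (D2 γ') ∣[(2 : ℤ)] heckeDiagMatrix p = D2 γ := by
  funext z
  rw [slash_heckeDiagMatrix_apply 2 hp]
  -- compare entries
  have hval := congrArg (fun g : GL (Fin 2) ℝ => (g : Matrix (Fin 2) (Fin 2) ℝ)) h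
  simp only [Units.val_mul, H23.h12_mapGL_val, val_heckeDiagMatrix hp] at hval
  have h10 := congrFun (congrFun hval 1) 0
  have h11 := congrFun (congrFun hval 1) 1
  simp [Matrix.mul_apply, Fin.sum_univ_two] at h10 h11
  have h10' : ((γ 1 0 : ℤ) : ℂ) = (γ' 1 0 : ℤ) * (p : ℂ) := by
    have := congrArg (fun x : ℝ => (x : ℂ)) h10
    push_cast at this
    exact this
  have h11' : ((γ 1 1 : ℤ) : ℂ) = (γ' 1 1 : ℤ) := by
    rw [h11]
  simp only [D2]
  have hd : denom (γ' : GL (Fin 2) ℝ) ((heckeDiagMatrix p • z : ℍ) : ℂ) =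
      denom (γ : GL (Fin 2) ℝ) (z : ℂ) := by
    simp only [denom]
    rw [coe_heckeDiagMatrix_smul hp]
    simp only [Matrix.SpecialLinearGroup.coe_GL_coe_matrix, Matrix.SpecialLinearGroup.map_apply_coe,
      RingHom.mapMatrix_apply, Int.coe_castRingHom, Matrix.map_apply]
    push_cast
    linear_combination (-(z : ℂ)) * h10' - h11'
  rw [hd, h10']
  have hne : denom (γ : GL (Fin 2) ℝ) (z : ℂ) ≠ 0 := denom_ne_zero _ z
  field_simp
  norm_num
  ring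

lemma h22e_F_slash {p : ℕ} (hp : p ≠ 0) (γ γ' : SL(2, ℤ))
    (h : heckeDiagMatrix p * mapGL ℝ γ = mapGL ℝ γ' * heckeDiagMatrix p) :
    (h22e_F p) ∣[(2 : ℤ)] (mapGL ℝ γ : GL (Fin 2) ℝ) = h22e_F p - h22e_c • D2 γ := by
  unfold h22e_F
  rw [← SlashAction.slash_mul, h, SlashAction.slash_mul, h22e_E2_slash, sub_eq_add_neg,
    SlashAction.add_slash, SlashAction.neg_slash, ModularForm.smul_slash, σ_heckeDiagMatrix,
    h22e_D2_slash_diag hp γ γ' h, ← sub_eq_add_neg]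
  rfl

/-- slash invariance of `E` under `Γ₀(p)` -/
lemma h22e_E_slash_of_mem_Gamma0 (p : ℕ) [NeZero p] (γ : SL(2, ℤ))
    (hγ : γ ∈ CongruenceSubgroup.Gamma0 p) :
    (h22e_E p) ∣[(2 : ℤ)] (mapGL ℝ γ : GL (Fin 2) ℝ) = h22e_E p := by
  rw [CongruenceSubgroup.Gamma0_mem] at hγ
  obtain ⟨e, he⟩ : (p : ℤ) ∣ γ 1 0 := (ZMod.intCast_zmod_eq_zero_iff_dvd _ _).mp hγ
  obtain ⟨g', hg'⟩ := H23.h12_diag_mul_of_dvd (NeZero.ne p) γ e he
  unfold h22e_E
  rw [sub_eq_add_neg, SlashAction.add_slash, SlashAction.neg_slash, h22e_F_slash (NeZero.ne p) γ g' hg',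
    h22e_E2_slash]
  abel

lemma h22e_mdifferentiable_F (p : ℕ) : MDiff (h22e_F p) :=
  E2_mdifferentiable.slash 2 (heckeDiagMatrix p)

lemma h22e_mdifferentiable_E (p : ℕ) : MDiff (h22e_E p) :=
  (h22e_mdifferentiable_F p).sub E2_mdifferentiable

/-! ### boundedness at the cusps -/

lemma h22e_isBoundedAtImInfty_D2 (γ : SL(2, ℤ)) : IsBoundedAtImInfty (D2 γ) := by
  rw [isBoundedAtImInfty_iff]
  refine ⟨2 * π, 1, fun z hz => ?_⟩
  simp only [D2]
  by_cases hc : (γ 1 0 : ℤ) = 0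
  · rw [hc]
    simp only [Int.cast_zero, mul_zero, zero_div, norm_zero]
    positivity
  · have hcR : ((γ 1 0 : ℤ) : ℝ) ≠ 0 := by exact_mod_cast hc
    have hden : denom (γ : GL (Fin 2) ℝ) (z : ℂ) = ((γ 1 0 : ℤ) : ℂ) * z + ((γ 1 1 : ℤ) : ℂ) := by
      simp only [denom]
      simp only [Matrix.SpecialLinearGroup.coe_GL_coe_matrix,
        Matrix.SpecialLinearGroup.map_apply_coe, RingHom.mapMatrix_apply, Int.coe_castRingHom,
        Matrix.map_apply]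
      push_cast
      ring
    have him : |((γ 1 0 : ℤ) : ℝ)| * z.im ≤ ‖denom (γ : GL (Fin 2) ℝ) (z : ℂ)‖ := by
      have h1 : (denom (γ : GL (Fin 2) ℝ) (z : ℂ)).im = ((γ 1 0 : ℤ) : ℝ) * z.im := by
        rw [hden]
        simp
      calc |((γ 1 0 : ℤ) : ℝ)| * z.im = |((γ 1 0 : ℤ) : ℝ) * z.im| := by
            rw [abs_mul, abs_of_pos z.im_pos]
        _ = |(denom (γ : GL (Fin 2) ℝ) (z : ℂ)).im| := by rw [h1]
        _ ≤ ‖denom (γ : GL (Fin 2) ℝ) (z : ℂ)‖ := Complex.abs_im_le_norm _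
    have hpos : 0 < |((γ 1 0 : ℤ) : ℝ)| := abs_pos.mpr hcR
    have hden_pos : 0 < ‖denom (γ : GL (Fin 2) ℝ) (z : ℂ)‖ :=
      lt_of_lt_of_le (mul_pos hpos z.im_pos) him
    rw [norm_div, div_le_iff₀ hden_pos]
    have hnum : ‖2 * (π : ℂ) * Complex.I * ((γ 1 0 : ℤ) : ℂ)‖ = 2 * π * |((γ 1 0 : ℤ) : ℝ)| := by
      rw [norm_mul, norm_mul, norm_mul, Complex.norm_I, mul_one]
      simp [abs_of_pos Real.pi_pos]
    rw [hnum]
    have h2 : |((γ 1 0 : ℤ) : ℝ)| ≤ ‖denom (γ : GL (Fin 2) ℝ) (z : ℂ)‖ := by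
      calc |((γ 1 0 : ℤ) : ℝ)| = |((γ 1 0 : ℤ) : ℝ)| * 1 := (mul_one _).symm
        _ ≤ |((γ 1 0 : ℤ) : ℝ)| * z.im := by
            exact mul_le_mul_of_nonneg_left hz hpos.le
        _ ≤ _ := him
    have : 0 ≤ 2 * π := by positivity
    nlinarith

lemma h22e_isBoundedAtImInfty_E2_slash (γ : SL(2, ℤ)) :
    IsBoundedAtImInfty (E2 ∣[(2 : ℤ)] (mapGL ℝ γ : GL (Fin 2) ℝ)) := by
  rw [h22e_E2_slash, sub_eq_add_neg]
  refine BoundedAtFilter.add isBoundedAtImInfty_E2 (BoundedAtFilter.neg ?_)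
  exact BoundedAtFilter.smul _ (h22e_isBoundedAtImInfty_D2 γ)

lemma h22e_isBoundedAtImInfty_F_slash {p : ℕ} (hp : p ≠ 0) (γ : SL(2, ℤ)) :
    IsBoundedAtImInfty ((h22e_F p) ∣[(2 : ℤ)] (mapGL ℝ γ : GL (Fin 2) ℝ)) := by
  obtain ⟨δ, g, D, β, hgD, -, -, h⟩ := H23.h12_hermite hp γ
  unfold h22e_F
  rw [← SlashAction.slash_mul, h, SlashAction.slash_mul]
  refine IsBoundedAtImInfty.slash 2 ?_ (h22e_isBoundedAtImInfty_E2_slash δ)
  simp [val_upperTriangularGL]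

lemma h22e_isBoundedAtImInfty_E_slash {p : ℕ} (hp : p ≠ 0) (γ : SL(2, ℤ)) :
    IsBoundedAtImInfty ((h22e_E p) ∣[(2 : ℤ)] (mapGL ℝ γ : GL (Fin 2) ℝ)) := by
  unfold h22e_E
  rw [sub_eq_add_neg, SlashAction.add_slash, SlashAction.neg_slash]
  exact BoundedAtFilter.add (h22e_isBoundedAtImInfty_F_slash hp γ)
    (BoundedAtFilter.neg (h22e_isBoundedAtImInfty_E2_slash γ))

/-- **The Eisenstein series** `p E₂(p z) - E₂(z)` as a modular form of weight 2 on `Γ₀(p)`. -/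
def h22e_form (p : ℕ) [NeZero p] : ModularForm (CongruenceSubgroup.Gamma0 p) 2 where
  toFun := h22e_E p
  slash_action_eq' := by
    rintro _ ⟨γ, hγ, rfl⟩
    exact h22e_E_slash_of_mem_Gamma0 p γ hγ
  holo' := h22e_mdifferentiable_E p
  bdd_at_cusps' := by
    intro c hc
    have hc' : IsCusp c 𝒮ℒ := hc.mono (Subgroup.map_le_range _ _)
    rw [isBoundedAt_iff_forall_SL2Z hc']
    intro γ _
    rw [ModularForm.SL_slash]
    exact h22e_isBoundedAtImInfty_E_slash (NeZero.ne p) γ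

@[simp] lemma h22e_coe_form (p : ℕ) [NeZero p] :
    ⇑(h22e_form p) = E2 ∣[(2 : ℤ)] heckeDiagMatrix p - E2 := rfl

lemma h22e_form_apply (p : ℕ) [NeZero p] (z : ℍ) :
    h22e_form p z = (p : ℂ) * E2 (heckeDiagMatrix p • z) - E2 z := by
  rw [h22e_coe_form, Pi.sub_apply, slash_heckeDiagMatrix_apply 2 (NeZero.ne p)]
  norm_num

end H22S16
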