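import Mathlib
import Fermat.Agent.S16.H4BDefs
import Fermat.Agent.S16.Eis_helper22
import Fermat.Prelude.Def_ModularForm_HeckeOperator
import Fermat.Prelude.Thm_CongruenceSubgroup_one_mem_strictPeriods_Gamma0

/-!
# S16, part (B), slice B-EIS, `q`-expansion half (helper10)

`E = p E₂(p z) - E₂(z)` has `q`-expansion `(p - 1) + 24 Σ σ'(k) q^k`, where `σ'(k)` is the sum of
the divisors of `k` prime to `p`.  Together with helper22's construction of the modular form
(`H22S16.h22e_form`) this gives `H4S16.EisStatement`.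
-/

set_option autoImplicit false

namespace H10S16

open UpperHalfPlane ModularForm EisensteinSeries ModularFormClass

/-- The level-`p` Eisenstein function `p E₂(pz) - E₂(z)`. -/
noncomputable def h10eis_fun (p : ℕ) : ℍ → ℂ :=
  (E2 ∣[(2:ℤ)] heckeDiagMatrix p) - E2

theorem h10eis_fun_apply {p : ℕ} (hp : p ≠ 0) (τ : ℍ) :
    h10eis_fun p τ = (p : ℂ) * E2 (heckeDiagMatrix p • τ) - E2 τ := by
  rw [h10eis_fun, Pi.sub_apply, slash_heckeDiagMatrix_apply 2 hp]
  norm_num

/-- The divisors of `n` divisible by `p` are `p` times the divisors of `n / p`. -/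
theorem h10eis_sum_dvd (p n : ℕ) (hp : 0 < p) :
    ∑ d ∈ n.divisors.filter (fun d => p ∣ d), d
      = if p ∣ n then p * ∑ d ∈ (n / p).divisors, d else 0 := by
  split_ifs with h
  · obtain ⟨m, rfl⟩ := h
    rw [Nat.mul_div_cancel_left m hp, Finset.mul_sum]
    rcases Nat.eq_zero_or_pos m with rfl | hm
    · simp
    symm
    apply Finset.sum_bij (fun d _ => p * d)
    · intro d hd
      rw [Nat.mem_divisors] at hd
      simp only [Finset.mem_filter, Nat.mem_divisors, dvd_mul_right, and_true]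
      exact ⟨Nat.mul_dvd_mul_left p hd.1, by positivity⟩
    · intro a _ b _ hab
      exact Nat.eq_of_mul_eq_mul_left hp hab
    · intro d hd
      simp only [Finset.mem_filter, Nat.mem_divisors] at hd
      obtain ⟨⟨hd1, hd2⟩, e, rfl⟩ := hd
      refine ⟨e, ?_, rfl⟩
      rw [Nat.mem_divisors]
      exact ⟨(Nat.mul_dvd_mul_iff_left hp).mp hd1, hm.ne'⟩
    · intro d _; rfl
  · apply Finset.sum_eq_zero
    intro d hd
    simp only [Finset.mem_filter, Nat.mem_divisors] at hd
    exact absurd (hd.2.trans hd.1.1) h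

/-- `σ₁(n) = σ'(n) + [p ∣ n] p σ₁(n/p)`. -/
theorem h10eis_sigma_split (p n : ℕ) (hp : 0 < p) :
    ArithmeticFunction.sigma 1 n
      = H4S16.sigmaPrime p n + (if p ∣ n then p * ArithmeticFunction.sigma 1 (n / p) else 0) := by
  rw [ArithmeticFunction.sigma_one_apply, ArithmeticFunction.sigma_one_apply, H4S16.sigmaPrime,
    ← h10eis_sum_dvd p n hp]
  exact (Finset.sum_filter_not_add_sum_filter _ (fun d => p ∣ d) _).symm

/-- coefficients of `E₂`. -/
noncomputable def h10eis_a (m : ℕ) : ℂ :=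
  if m = 0 then 1 else -24 * (ArithmeticFunction.sigma 1 m : ℂ)

/-- coefficients of `E₂(pz)`. -/
noncomputable def h10eis_b (p m : ℕ) : ℂ := if p ∣ m then h10eis_a (m / p) else 0

/-- coefficients of `p E₂(pz) - E₂(z)`. -/
noncomputable def h10eis_c (p m : ℕ) : ℂ :=
  if m = 0 then (p : ℂ) - 1 else 24 * (H4S16.sigmaPrime p m : ℂ)

theorem h10eis_c_eq {p : ℕ} (hp : p ≠ 0) (m : ℕ) :
    h10eis_c p m = (p : ℂ) * h10eis_b p m - h10eis_a m := by
  by_cases hm : m = 0
  · subst hm
    simp [h10eis_b, h10eis_a, h10eis_c]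
  · have hs := h10eis_sigma_split p m (Nat.pos_of_ne_zero hp)
    have hs' : (ArithmeticFunction.sigma 1 m : ℂ) = (H4S16.sigmaPrime p m : ℂ)
        + (if p ∣ m then (p : ℂ) * (ArithmeticFunction.sigma 1 (m / p) : ℂ) else 0) := by
      rw [hs]; push_cast; split_ifs <;> simp
    simp only [h10eis_b, h10eis_a, h10eis_c, if_neg hm]
    rw [hs']
    by_cases hpm : p ∣ m
    · have hmp : m / p ≠ 0 := by
        obtain ⟨e, rfl⟩ := hpm
        rw [Nat.mul_div_cancel_left e (Nat.pos_of_ne_zero hp)]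
        rintro rfl; exact hm (by simp)
      simp only [if_pos hpm, if_neg hmp]
      ring
    · simp only [if_neg hpm]
      ring

theorem h10eis_hasSum_E2 (τ : ℍ) :
    HasSum (fun m : ℕ => h10eis_a m • Function.Periodic.qParam 1 τ ^ m) (E2 τ) := by
  have := hasSum_qExpansion_E2 τ
  simpa only [Function.Periodic.qParam, Complex.ofReal_one, div_one, h10eis_a] using this

theorem h10eis_hasSum_E2p {p : ℕ} (hp : p ≠ 0) (τ : ℍ) :
    HasSum (fun m : ℕ => h10eis_b p m • Function.Periodic.qParam 1 τ ^ m)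
      (E2 (heckeDiagMatrix p • τ)) := by
  have h := h10eis_hasSum_E2 (heckeDiagMatrix p • τ)
  have hq : Function.Periodic.qParam 1 ((heckeDiagMatrix p • τ : ℍ) : ℂ)
      = Function.Periodic.qParam 1 τ ^ p := by
    rw [coe_heckeDiagMatrix_smul hp]
    simp only [Function.Periodic.qParam, Complex.ofReal_one, div_one]
    rw [← Complex.exp_nat_mul]
    congr 1; ring
  rw [hq] at h
  have hinj : Function.Injective (fun m : ℕ => p * m) :=
    fun a b hab => Nat.eq_of_mul_eq_mul_left (Nat.pos_of_ne_zero hp) hab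
  rw [← hinj.hasSum_iff]
  · convert h using 2 with m
    simp only [Function.comp_apply, h10eis_b, dvd_mul_right, if_true,
      Nat.mul_div_cancel_left m (Nat.pos_of_ne_zero hp), pow_mul]
  · intro n hn
    have : ¬ p ∣ n := fun ⟨m, hm⟩ => hn ⟨m, hm.symm⟩
    simp [h10eis_b, this]

theorem h10eis_hasSum {p : ℕ} (hp : p ≠ 0) (τ : ℍ) :
    HasSum (fun m : ℕ => h10eis_c p m • Function.Periodic.qParam 1 τ ^ m) (h10eis_fun p τ) := by
  rw [h10eis_fun_apply hp]
  have h := ((h10eis_hasSum_E2p hp τ).mul_left (p : ℂ)).sub (h10eis_hasSum_E2 τ)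
  have hfun : (fun m : ℕ => h10eis_c p m • Function.Periodic.qParam 1 (τ : ℂ) ^ m)
      = fun m : ℕ => (p : ℂ) * h10eis_b p m • Function.Periodic.qParam 1 (τ : ℂ) ^ m
          - h10eis_a m • Function.Periodic.qParam 1 (τ : ℂ) ^ m := by
    funext m
    rw [h10eis_c_eq hp, smul_eq_mul, smul_eq_mul, smul_eq_mul]
    ring
  rw [hfun]
  exact h

/-- **`q`-expansion of the Eisenstein series of level `p`**: any modular form on `Γ₀(p)` whose
underlying function is `p E₂(pz) - E₂(z)` has `q`-expansion `(p - 1) + 24 Σ σ'(k) q^k`. -/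
theorem h10eis_qcoeff {p : ℕ} (hp : p ≠ 0) (E : ModularForm (CongruenceSubgroup.Gamma0 p) 2)
    (hE : ⇑E = h10eis_fun p) :
    qCoeff E 0 = ((p : ℂ) - 1) ∧
      ∀ k : ℕ, 1 ≤ k → qCoeff E k = (24 * (H4S16.sigmaPrime p k : ℂ)) := by
  have key : ∀ m : ℕ, h10eis_c p m = (qExpansion 1 E).coeff m := by
    intro m
    refine ModularFormClass.qExpansion_coeff_unique (h := 1) (c := h10eis_c p) one_pos
      (CongruenceSubgroup.one_mem_strictPeriods_Gamma0 p) (f := E) ?_ m
    intro τ
    rw [hE]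
    exact h10eis_hasSum hp τ
  refine ⟨?_, fun k hk => ?_⟩
  · rw [qCoeff, ← key 0]; simp [h10eis_c]
  · rw [qCoeff, ← key k, h10eis_c, if_neg (by omega)]

/-- **B-EIS**: the Eisenstein series `(p - 1) + 24 Σ σ'(k) q^k` is a weight-2 modular form on
`Γ₀(p)` (construction of the form: helper22, `H22S16.h22e_form`). -/
theorem h10eis_statement : H4S16.EisStatement := by
  intro p hp
  have : NeZero p := ⟨hp.ne_zero⟩
  exact ⟨H22S16.h22e_form p, h10eis_qcoeff hp.ne_zero (H22S16.h22e_form p) rfl⟩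

end H10S16
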