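import Mathlib
import Fermat.Agent.S16.H13BridgeE
import Fermat.Agent.S16.B3_helper19

/-!
# S16 BRIDGE → B3' (helper13): the BRIDGE hypothesis of `H19S16.h19_b3` is a theorem

`H13Br.bridge_for_b3 N` is exactly the hypothesis `hBridge` of `H19S16.h19_b3`, and
`H13Br.b3_level_one` is `h19_b3` without that hypothesis.
-/

set_option autoImplicit false

noncomputable section

open UpperHalfPlane ModularForm ModularCurve H28S28 CongruenceSubgroup
open scoped MatrixGroups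

namespace H13Br

/-- integrality over `ℚ[j] = adjoin ℚ {j}` gives a monic relation with coefficients in `ℚ[T]`. -/
theorem exists_monic_of_isIntegral_adjoin (x : LaurentSeries ℚ)
    (h : IsIntegral ↥(Algebra.adjoin ℚ {jq}) x) :
    ∃ P : Polynomial (Polynomial ℚ), P.Monic ∧
      Polynomial.eval₂ ((Polynomial.aeval jq : Polynomial ℚ →ₐ[ℚ] LaurentSeries ℚ) :
        Polynomial ℚ →+* LaurentSeries ℚ) x P = 0 := by
  obtain ⟨p, hp, hpx⟩ := h
  set jA : ↥(Algebra.adjoin ℚ {jq}) := ⟨jq, Algebra.subset_adjoin (Set.mem_singleton _)⟩ with hjA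
  set φ : Polynomial ℚ →+* ↥(Algebra.adjoin ℚ {jq}) :=
    ((Polynomial.aeval jA : Polynomial ℚ →ₐ[ℚ] ↥(Algebra.adjoin ℚ {jq})) :
      Polynomial ℚ →+* ↥(Algebra.adjoin ℚ {jq})) with hφ
  have hval : ∀ q : Polynomial ℚ, ((φ q : ↥(Algebra.adjoin ℚ {jq})) : LaurentSeries ℚ)
      = Polynomial.aeval jq q := by
    intro q
    have := Subalgebra.aeval_coe (Algebra.adjoin ℚ {jq}) jA q
    rw [hφ]
    exact this.symm
  have hsurj : Function.Surjective φ := by
    rintro ⟨y, hy⟩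
    rw [Algebra.adjoin_singleton_eq_range_aeval] at hy
    obtain ⟨q, hq⟩ := hy
    refine ⟨q, Subtype.ext ?_⟩
    rw [hval]
    exact hq
  have hlift : p ∈ Polynomial.lifts φ :=
    (Polynomial.mem_lifts p).2 (Polynomial.map_surjective φ hsurj p)
  obtain ⟨P, hPp, -, hPm⟩ := Polynomial.lifts_and_degree_eq_and_monic hlift hp
  refine ⟨P, hPm, ?_⟩
  have hcomp : ((Polynomial.aeval jq : Polynomial ℚ →ₐ[ℚ] LaurentSeries ℚ) :
        Polynomial ℚ →+* LaurentSeries ℚ)
      = (algebraMap ↥(Algebra.adjoin ℚ {jq}) (LaurentSeries ℚ)).comp φ := by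
    ext q
    · simp
    · simp [hφ, hjA]
  rw [hcomp, ← Polynomial.eval₂_map, hPp]
  exact hpx

/-- **BRIDGE for B3'**: exactly the hypothesis `hBridge` of `H19S16.h19_b3`. -/
theorem bridge_for_b3 (N : ℕ) [NeZero N] :
    ∀ (K : ModularForm (Gamma0 N) 24) (κ : PowerSeries ℚ),
      qExpansion 1 (⇑K) = κ.map (algebraMap ℚ ℂ) →
      (HahnSeries.ofPowerSeries ℤ ℚ κ * deltaqInv ℚ ^ 2 ∈ modularFunctionFieldFull N) ∧
      ∃ P : Polynomial (Polynomial ℚ), P.Monic ∧
        Polynomial.eval₂ ((Polynomial.aeval jq : Polynomial ℚ →ₐ[ℚ] LaurentSeries ℚ) :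
          Polynomial ℚ →+* LaurentSeries ℚ)
          (HahnSeries.ofPowerSeries ℤ ℚ κ * deltaqInv ℚ ^ 2) P = 0 := by
  intro K κ hκ
  have hm := bridge_mem N 2 K (by norm_num) κ hκ
  have hi := bridge_isIntegral N 2 K (by norm_num) κ hκ
  exact ⟨hm, exists_monic_of_isIntegral_adjoin _ hi⟩

/-- **B3' (level-one form), unconditional**: for odd `N` there is no `G ∈ M₂(Γ₀(N))` whose
`q`-expansion is `1 + 8 α` with `α` a `2`-integral power series. -/
theorem b3_level_one (N : ℕ) [NeZero N] (hN : ¬ 2 ∣ N)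
    (G : ModularForm (Gamma0 N) 2) (α : PowerSeries ℚ)
    (hα : ∀ n, PowerSeries.coeff n α ∈ GaloisRep.ratLocalizedAt 2)
    (hG : qExpansion 1 (⇑G) = (1 + 8 * α).map (algebraMap ℚ ℂ)) : False :=
  H19S16.h19_b3 hN (bridge_for_b3 N) G α hα hG

end H13Br
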