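import Fermat.Agent.S16.H4BRed
import Fermat.Agent.S16.Eis_helper10
import Fermat.Agent.S16.B1Stmt_helper16
import Fermat.Agent.S16.H12B2
import Fermat.Agent.S16.B3Stmt_helper19
import Fermat.Agent.S16.H13BridgeB3

/-!
# S16, part (B) (helper4): final wiring of the upper bound

* `H4S16.h4s16_B3` : `B3Statement` (helper19's B3' + helper13's BRIDGE), unconditional;
* `H4S16.h4s16_partB_of_b0` : `PartB` from the only remaining interface `H12B2.B0Six`
  (Eisenstein form: helper22 + helper10; B1: helper16; B2 algebra: helper12).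
-/

set_option autoImplicit false

namespace H4S16

/-- **B3**, unconditional. -/
theorem h4s16_B3 : B3Statement :=
  H19S16.h19_B3Statement (fun N _ _ => H13Br.bridge_for_b3 N)

/-- **Part (B)** from `B0Six`. -/
theorem h4s16_partB_of_b0
    (h : ∀ (p : ℕ) [NeZero p], p.Prime →
      (p % 3 = 1 → H12B2.B0Six p 3) ∧ (p % 4 = 1 → H12B2.B0Six p 4)) : PartB :=
  h4s16_partB H10S16.h10eis_statement H16S16.h16_B1Statement (H12B2.b2_of_b0 h) h4s16_B3

end H4S16
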