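/-
S16 (W2-A), slice RED (helper26), part 2: the Hecke recursion for `σ'(k)` = sum of the divisors
of `k` prime to `p` (`H4S16.sigmaPrime`).
-/
import Mathlib
import Fermat.Agent.S16.H4BDefs

set_option autoImplicit false
set_option linter.style.haveILetI false

namespace H26S16

open H4S16

theorem sigmaPrime_one {p : ℕ} (hp : p.Prime) : sigmaPrime p 1 = 1 := by
  have h : ¬ p ∣ 1 := hp.one_lt.ne' ∘ Nat.dvd_one.mp
  simp [sigmaPrime, Finset.filter_singleton, h]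

/-- `σ'(j p) = σ'(j)` -/
theorem sigmaPrime_mul_self {p j : ℕ} (hp : p.Prime) (hj : j ≠ 0) :
    sigmaPrime p (j * p) = sigmaPrime p j := by
  unfold sigmaPrime
  congr 1
  ext d
  simp only [Finset.mem_filter, Nat.mem_divisors]
  constructor
  · rintro ⟨⟨h1, -⟩, h2⟩
    refine ⟨⟨?_, hj⟩, h2⟩
    have hc : Nat.Coprime d p := ((Nat.Prime.coprime_iff_not_dvd hp).mpr h2).symm
    exact hc.dvd_of_dvd_mul_right h1
  · rintro ⟨⟨h1, -⟩, h2⟩
    exact ⟨⟨h1.mul_right p, Nat.mul_ne_zero hj hp.ne_zero⟩, h2⟩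

/-- `σ'(j ℓ) + [ℓ ∣ j] ℓ σ'(j / ℓ) = (1 + ℓ) σ'(j)` for a prime `ℓ ≠ p` -/
theorem sigmaPrime_mul_prime {p ℓ j : ℕ} (hp : p.Prime) (hℓ : ℓ.Prime) (hne : ℓ ≠ p)
    (hj : j ≠ 0) :
    sigmaPrime p (j * ℓ) + (if ℓ ∣ j then ℓ * sigmaPrime p (j / ℓ) else 0) =
      (1 + ℓ) * sigmaPrime p j := by
  classical
  have hpℓ : ¬ p ∣ ℓ := fun h => hne ((Nat.prime_dvd_prime_iff_eq hp hℓ).mp h).symm
  have hpmul : ∀ e : ℕ, p ∣ ℓ * e ↔ p ∣ e := fun e =>
    ⟨fun h => (hp.dvd_mul.mp h).resolve_left hpℓ, fun h => h.mul_left ℓ⟩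
  set S : ℕ → Finset ℕ := fun k => k.divisors.filter (fun d => ¬ p ∣ d) with hS
  have hsig : ∀ k, sigmaPrime p k = ∑ d ∈ S k, d := fun k => rfl
  have hinj : ∀ T : Finset ℕ, ∑ d ∈ T.image (fun e => ℓ * e), d = ℓ * ∑ d ∈ T, d := by
    intro T
    rw [Finset.sum_image (fun a _ b _ h => Nat.eq_of_mul_eq_mul_left hℓ.pos h), Finset.mul_sum]
  have hmemS : ∀ k d, d ∈ S k ↔ (d ∣ k ∧ k ≠ 0) ∧ ¬ p ∣ d := by
    intro k d
    simp only [hS, Finset.mem_filter, Nat.mem_divisors]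
  have hunion : S (j * ℓ) = S j ∪ (S j).image (fun e => ℓ * e) := by
    ext d
    simp only [Finset.mem_union, Finset.mem_image, hmemS]
    constructor
    · rintro ⟨⟨h1, -⟩, h2⟩
      by_cases hd : ℓ ∣ d
      · obtain ⟨e, rfl⟩ := hd
        right
        refine ⟨e, ⟨⟨?_, hj⟩, fun h => h2 ((hpmul e).mpr h)⟩, rfl⟩
        rw [mul_comm j ℓ] at h1
        exact Nat.dvd_of_mul_dvd_mul_left hℓ.pos h1
      · left
        refine ⟨⟨?_, hj⟩, h2⟩
        have hc : Nat.Coprime d ℓ := ((Nat.Prime.coprime_iff_not_dvd hℓ).mpr hd).symm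
        exact hc.dvd_of_dvd_mul_right h1
    · rintro (⟨⟨h1, -⟩, h2⟩ | ⟨e, ⟨⟨h1, -⟩, h2⟩, rfl⟩)
      · exact ⟨⟨h1.mul_right ℓ, Nat.mul_ne_zero hj hℓ.ne_zero⟩, h2⟩
      · refine ⟨⟨?_, Nat.mul_ne_zero hj hℓ.ne_zero⟩, fun h => h2 ((hpmul e).mp h)⟩
        rw [mul_comm j ℓ]
        exact Nat.mul_dvd_mul_left ℓ h1
  have hinter : S j ∩ (S j).image (fun e => ℓ * e) =
      if ℓ ∣ j then (S (j / ℓ)).image (fun e => ℓ * e) else ∅ := by
    ext d
    simp only [Finset.mem_inter, Finset.mem_image, hmemS]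
    split_ifs with hℓj
    · simp only [Finset.mem_image, hmemS]
      constructor
      · rintro ⟨⟨⟨h1, -⟩, h2⟩, e, -, rfl⟩
        refine ⟨e, ⟨⟨?_, ?_⟩, fun h => h2 ((hpmul e).mpr h)⟩, rfl⟩
        · exact (Nat.dvd_div_iff_mul_dvd hℓj).mpr h1
        · intro h0
          have := Nat.div_mul_cancel hℓj
          rw [h0, zero_mul] at this
          exact hj this.symm
      · rintro ⟨e, ⟨⟨h1, -⟩, h2⟩, rfl⟩
        have h3 : ℓ * e ∣ j := (Nat.dvd_div_iff_mul_dvd hℓj).mp h1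
        exact ⟨⟨⟨h3, hj⟩, fun h => h2 ((hpmul e).mp h)⟩, e,
          ⟨⟨(Dvd.intro_left ℓ rfl).trans h3, hj⟩, h2⟩, rfl⟩
    · simp only [Finset.notMem_empty, iff_false, not_and, not_exists]
      rintro ⟨⟨h1, -⟩, -⟩ e - rfl
      exact hℓj ((Dvd.intro e rfl).trans h1)
  have hsum := Finset.sum_union_inter (s₁ := S j) (s₂ := (S j).image (fun e => ℓ * e))
    (f := fun d => d)
  rw [← hunion, hinter] at hsum
  rw [hsig, hsig j]
  split_ifs with hℓj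
  · rw [if_pos hℓj, hinj, hinj] at hsum
    rw [hsig (j / ℓ), hsum]
    ring
  · rw [if_neg hℓj, hinj, Finset.sum_empty] at hsum
    rw [add_zero] at hsum ⊢
    rw [hsum]
    ring

end H26S16
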