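/-
S16 (W2-A), slice RED (helper26), part 3: pure algebra.
-/
import Mathlib

set_option autoImplicit false
set_option linter.style.haveILetI false

namespace H26S16

/-- If `π : A → T` and `ev : A → ℤ` are surjective ring homomorphisms and `ev (ker π) = (n)`, then
`T ⧸ π (ker ev)` has `n` elements (`Nat.card`, so infinitely many if `n = 0`). -/
theorem h26_card_quot {A T : Type*} [CommRing A] [CommRing T] (π : A →+* T)
    (hπ : Function.Surjective π) (ev : A →+* ℤ) (hev : Function.Surjective ev) (n : ℕ)
    (h : Ideal.map ev (RingHom.ker π) = Ideal.span {(n : ℤ)}) :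
    Nat.card (T ⧸ Ideal.map π (RingHom.ker ev)) = n := by
  set q1 : A →+* T ⧸ Ideal.map π (RingHom.ker ev) := (Ideal.Quotient.mk _).comp π with hq1d
  set q2 : A →+* ℤ ⧸ Ideal.map ev (RingHom.ker π) := (Ideal.Quotient.mk _).comp ev with hq2d
  have hq1 : Function.Surjective q1 := Ideal.Quotient.mk_surjective.comp hπ
  have hq2 : Function.Surjective q2 := Ideal.Quotient.mk_surjective.comp hev
  have hk1 : RingHom.ker q1 = RingHom.ker ev ⊔ RingHom.ker π := by
    ext x
    rw [RingHom.mem_ker, hq1d, RingHom.comp_apply, Ideal.Quotient.eq_zero_iff_mem,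
      ← Ideal.mem_comap, Ideal.comap_map_of_surjective π hπ]
    rfl
  have hk2 : RingHom.ker q2 = RingHom.ker π ⊔ RingHom.ker ev := by
    ext x
    rw [RingHom.mem_ker, hq2d, RingHom.comp_apply, Ideal.Quotient.eq_zero_iff_mem,
      ← Ideal.mem_comap, Ideal.comap_map_of_surjective ev hev]
    rfl
  have hk : RingHom.ker q1 = RingHom.ker q2 := by rw [hk1, hk2, sup_comm]
  have e : (T ⧸ Ideal.map π (RingHom.ker ev)) ≃+* (ℤ ⧸ Ideal.map ev (RingHom.ker π)) :=
    (RingHom.quotientKerEquivOfSurjective hq1).symm.trans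
      ((Ideal.quotEquivOfEq hk).trans (RingHom.quotientKerEquivOfSurjective hq2))
  rw [Nat.card_congr e.toEquiv, h, Nat.card_congr (Int.quotientSpanNatEquivZMod n).toEquiv,
    Nat.card_zmod]

/-- lifting the character: if `T` is a free `ℤ`-module, there is a linear form `φ` on `T` with
`φ (π P) ≡ ev P` modulo `ev (ker π)`. -/
theorem h26_exists_lift {A T : Type*} [CommRing A] [CommRing T] [Module.Free ℤ T] (π : A →+* T)
    (hπ : Function.Surjective π) (ev : A →+* ℤ) :
    ∃ φ : T →ₗ[ℤ] ℤ, ∀ P : A, ev P - φ (π P) ∈ Ideal.map ev (RingHom.ker π) := by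
  classical
  set b := Module.Free.chooseBasis ℤ T with hb
  choose Q hQ using fun i => hπ (b i)
  refine ⟨b.constr ℤ (fun i => ev (Q i)), fun P => ?_⟩
  set c := b.repr (π P) with hc
  set R : A := c.sum (fun i a => a • Q i) with hR
  have h1 : π R = π P := by
    rw [hR, Finsupp.sum, map_sum]
    have : ∀ i ∈ c.support, π (c i • Q i) = c i • b i := by
      intro i _
      rw [map_zsmul, hQ]
    rw [Finset.sum_congr rfl this]
    have := b.linearCombination_repr (π P)
    rw [Finsupp.linearCombination_apply, Finsupp.sum] at this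
    exact this
  have h2 : ev R = b.constr ℤ (fun i => ev (Q i)) (π P) := by
    rw [Module.Basis.constr_apply, hR, Finsupp.sum, map_sum, Finsupp.sum]
    refine Finset.sum_congr rfl fun i _ => ?_
    rw [map_zsmul]
  have h3 : P - R ∈ RingHom.ker π := by
    rw [RingHom.mem_ker, map_sub, h1, sub_self]
  have h4 := Ideal.mem_map_of_mem ev h3
  rw [map_sub, h2] at h4
  exact h4

/-- the cokernel of an injective map between modules of the same finite rank is torsion -/
theorem h26_exists_smul_mem_range {R L H : Type*} [CommRing R] [IsDomain R] [AddCommGroup L]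
    [Module R L] [AddCommGroup H] [Module R H] [Module.Finite R H] (Ψ : L →ₗ[R] H)
    (hΨ : Function.Injective Ψ) (hrank : Module.finrank R H ≤ Module.finrank R L) (h : H) :
    ∃ d : R, d ≠ 0 ∧ d • h ∈ LinearMap.range Ψ := by
  have h1 : Module.finrank R (LinearMap.range Ψ) = Module.finrank R L :=
    LinearMap.finrank_range_of_inj hΨ
  have h2 := Submodule.finrank_quotient_add_finrank (LinearMap.range Ψ)
  have h3 : Module.finrank R (H ⧸ LinearMap.range Ψ) = 0 := by omega
  rw [Module.finrank_eq_zero_iff] at h3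
  obtain ⟨a, ha, ha'⟩ := h3 (Submodule.Quotient.mk h)
  refine ⟨a, ha, ?_⟩
  rw [← Submodule.Quotient.mk_smul, Submodule.Quotient.mk_eq_zero] at ha'
  exact ha'

end H26S16
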