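/-
S16 (W2-A), slice RED (helper26), part 1: integral `q`-coefficients on the lattice
`intLattice N 2`, the surjection `ℤ[X_ℓ] → T = heckeLatticeAlgebra N ∅` and the Hecke recursion
for the coefficients.
-/
import Mathlib
import Fermat.Prelude.Def_CuspForm_HeckeLocal
import Fermat.Prelude.Def_CuspForm_HeckeEvalForms
import Fermat.Prelude.Def_HeckeGalois_EichlerShimura
import Fermat.Prelude.Thm_ModularFormClass_qCoeff_heckeT
import Fermat.Prelude.Thm_ModularFormClass_qCoeff_heckeU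
import Fermat.Prelude.Thm_UpperHalfPlane_eq_of_forall_qCoeff_eq
import Fermat.Prelude.Thm_CongruenceSubgroup_one_mem_strictPeriods_Gamma0
import Fermat.Prelude.Sol.S_CuspForm_mem_intLattice_of_coe_eq_heckeT

set_option autoImplicit false
set_option linter.style.haveILetI false
set_option linter.unusedSectionVars false

noncomputable section

namespace H26S16

open CuspForm ModularCurve ModularFormClass
open P2MW.S_CuspForm_mem_intLattice_of_coe_eq_heckeT.W3WsD (mem_intLattice_iff)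

variable (N : ℕ) [NeZero N]

/-- the ring homomorphism `ℤ[X_ℓ] → T` of the statement S16 -/
def piL : HeckeAlg →+* ↥(heckeLatticeAlgebra N ∅) :=
  (latticeRestrictHom N ∅).toRingHom.comp (heckeEvalForms N 2)

theorem h26_strict (N : ℕ) : (1 : ℝ) ∈ (Subgroup.map (Matrix.SpecialLinearGroup.mapGL ℝ)
    (CongruenceSubgroup.Gamma0 N)).strictPeriods :=
  CongruenceSubgroup.one_mem_strictPeriods_Gamma0 N

variable {N}

/-- the integral `q`-coefficients of an element of the lattice -/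
def aZ (f : ↥(intLattice N 2)) (k : ℕ) : ℤ :=
  Classical.choose ((mem_intLattice_iff f.1).mp f.2 k)

theorem aZ_spec (f : ↥(intLattice N 2)) (k : ℕ) :
    qCoeff (f : CuspForm (CongruenceSubgroup.Gamma0 N) 2) k = (aZ f k : ℂ) :=
  Classical.choose_spec ((mem_intLattice_iff f.1).mp f.2 k)

theorem aZ_eq_of (f : ↥(intLattice N 2)) (k : ℕ) (c : ℤ)
    (h : qCoeff (f : CuspForm (CongruenceSubgroup.Gamma0 N) 2) k = (c : ℂ)) : aZ f k = c := by
  have := aZ_spec f k
  rw [h] at this
  exact_mod_cast this.symm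

theorem h26_qCoeff_add (f g : CuspForm (CongruenceSubgroup.Gamma0 N) 2) (n : ℕ) :
    qCoeff ⇑(f + g) n = qCoeff ⇑f n + qCoeff ⇑g n :=
  P2MW.S_CuspForm_mem_intLattice_of_coe_eq_heckeT.W3WsD.qCoeff_add f g n

theorem h26_qCoeff_smul (c : ℂ) (f : CuspForm (CongruenceSubgroup.Gamma0 N) 2) (n : ℕ) :
    qCoeff ⇑(c • f) n = c * qCoeff ⇑f n := by
  have h1 : ⇑(c • f) = c • ⇑f := by
    ext z
    simp
  simp only [qCoeff, h1]
  rw [ModularForm.qExpansion_smul one_pos (h26_strict N) c f]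
  simp

theorem h26_qCoeff_zero (f : CuspForm (CongruenceSubgroup.Gamma0 N) 2) :
    qCoeff ⇑f 0 = 0 := by
  simp only [qCoeff]
  exact CuspFormClass.qExpansion_coeff_zero f one_pos (h26_strict N)

theorem aZ_add (f g : ↥(intLattice N 2)) (k : ℕ) : aZ (f + g) k = aZ f k + aZ g k := by
  apply aZ_eq_of
  rw [Submodule.coe_add, h26_qCoeff_add, aZ_spec, aZ_spec]
  push_cast
  rfl

theorem aZ_zero_right (f : ↥(intLattice N 2)) : aZ f 0 = 0 := by
  apply aZ_eq_of
  rw [h26_qCoeff_zero]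
  simp

/-- the `k`-th coefficient as an additive map -/
def aZhom (k : ℕ) : ↥(intLattice N 2) →+ ℤ where
  toFun f := aZ f k
  map_zero' := by
    have := aZ_add (0 : ↥(intLattice N 2)) 0 k
    rw [add_zero] at this
    omega
  map_add' f g := aZ_add f g k

theorem aZhom_apply (k : ℕ) (f : ↥(intLattice N 2)) : aZhom k f = aZ f k := rfl

theorem aZ_zero_left (k : ℕ) : aZ (0 : ↥(intLattice N 2)) k = 0 := (aZhom k).map_zero

theorem aZ_sub (f g : ↥(intLattice N 2)) (k : ℕ) : aZ (f - g) k = aZ f k - aZ g k :=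
  (aZhom k).map_sub f g

theorem aZ_neg (f : ↥(intLattice N 2)) (k : ℕ) : aZ (-f) k = -aZ f k :=
  (aZhom k).map_neg f

theorem aZ_zsmul (c : ℤ) (f : ↥(intLattice N 2)) (k : ℕ) : aZ (c • f) k = c * aZ f k := by
  have := map_zsmul (aZhom (N := N) k) c f
  simpa [aZhom_apply] using this

/-- an element of the lattice is determined by its coefficients -/
theorem eq_zero_of_aZ (f : ↥(intLattice N 2)) (h : ∀ k : ℕ, 1 ≤ k → aZ f k = 0) : f = 0 := by
  apply Subtype.ext
  rw [Submodule.coe_zero]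
  apply DFunLike.coe_injective
  have hΓ := h26_strict N
  refine UpperHalfPlane.eq_of_forall_qCoeff_eq ?_ ?_ ?_ ?_ ?_ ?_ ?_
  · exact SlashInvariantFormClass.periodic_comp_ofComplex
      (f : CuspForm (CongruenceSubgroup.Gamma0 N) 2) hΓ
  · exact CuspFormClass.holo (f : CuspForm (CongruenceSubgroup.Gamma0 N) 2)
  · exact ModularFormClass.bdd_at_infty (f : CuspForm (CongruenceSubgroup.Gamma0 N) 2)
  · exact SlashInvariantFormClass.periodic_comp_ofComplex
      (0 : CuspForm (CongruenceSubgroup.Gamma0 N) 2) hΓ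
  · exact CuspFormClass.holo (0 : CuspForm (CongruenceSubgroup.Gamma0 N) 2)
  · exact ModularFormClass.bdd_at_infty (0 : CuspForm (CongruenceSubgroup.Gamma0 N) 2)
  · intro n
    have h0 : qCoeff ⇑(0 : CuspForm (CongruenceSubgroup.Gamma0 N) 2) n = 0 := by
      have := aZ_spec (0 : ↥(intLattice N 2)) n
      rw [aZ_zero_left] at this
      simpa using this
    rw [h0, aZ_spec]
    rcases Nat.eq_zero_or_pos n with rfl | hn
    · rw [aZ_zero_right]; simp
    · rw [h n hn]; simp

variable (N) in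
/-- the action of `P ∈ ℤ[X_ℓ]` on the lattice -/
def act (P : HeckeAlg) : Module.End ℤ ↥(intLattice N 2) :=
  ((piL N P : ↥(heckeLatticeAlgebra N ∅)) : Module.End ℤ ↥(intLattice N 2))

theorem act_def (P : HeckeAlg) :
    act N P = ((piL N P : ↥(heckeLatticeAlgebra N ∅)) : Module.End ℤ ↥(intLattice N 2)) := rfl

theorem act_mul (P Q : HeckeAlg) (f : ↥(intLattice N 2)) :
    act N (P * Q) f = act N P (act N Q f) := by
  simp only [act_def, map_mul, Subalgebra.coe_mul, Module.End.mul_apply]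

theorem act_add (P Q : HeckeAlg) (f : ↥(intLattice N 2)) :
    act N (P + Q) f = act N P f + act N Q f := by
  simp only [act_def, map_add, Subalgebra.coe_add, LinearMap.add_apply]

theorem act_one (f : ↥(intLattice N 2)) : act N 1 f = f := by
  simp only [act_def, map_one, Subalgebra.coe_one, Module.End.one_apply]

theorem act_zero (f : ↥(intLattice N 2)) : act N 0 f = 0 := by
  simp only [act_def, map_zero, ZeroMemClass.coe_zero, LinearMap.zero_apply]

theorem act_eq_zero_of_piL (P : HeckeAlg) (h : piL N P = 0) (f : ↥(intLattice N 2)) :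
    act N P f = 0 := by
  simp only [act_def, h, ZeroMemClass.coe_zero, LinearMap.zero_apply]

theorem piL_eq_zero_of_act (P : HeckeAlg) (h : ∀ f : ↥(intLattice N 2), act N P f = 0) :
    piL N P = 0 := by
  apply Subtype.ext
  apply LinearMap.ext
  intro f
  exact h f

theorem act_heckeGen_coe_of_not_dvd (ℓ : Nat.Primes) (h : ¬ (ℓ : ℕ) ∣ N)
    (f : ↥(intLattice N 2)) :
    ((act N (heckeGen ℓ) f : ↥(intLattice N 2)) : CuspForm (CongruenceSubgroup.Gamma0 N) 2) =
      heckeTLin 2 ℓ.2 h (f : CuspForm (CongruenceSubgroup.Gamma0 N) 2) := by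
  have h1 : piL N (heckeGen ℓ) =
      latticeRestrictHom N ∅ (heckeAlgebra.T ℓ.2 h (Set.notMem_empty _)) := by
    simp only [piL, RingHom.comp_apply]
    rw [heckeEvalForms_heckeGen_of_not_dvd h]
    rfl
  rw [act_def, h1]
  rfl

theorem act_heckeGen_coe_of_dvd (ℓ : Nat.Primes) (h : (ℓ : ℕ) ∣ N)
    (f : ↥(intLattice N 2)) :
    ((act N (heckeGen ℓ) f : ↥(intLattice N 2)) : CuspForm (CongruenceSubgroup.Gamma0 N) 2) =
      heckeULin 2 h (f : CuspForm (CongruenceSubgroup.Gamma0 N) 2) := by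
  have h1 : piL N (heckeGen ℓ) =
      latticeRestrictHom N ∅ (heckeAlgebra.U ℓ.2 h (Set.notMem_empty _)) := by
    simp only [piL, RingHom.comp_apply]
    rw [heckeEvalForms_heckeGen_of_dvd h]
    rfl
  rw [act_def, h1]
  rfl

/-- the Hecke recursion, `ℓ ∤ N` -/
theorem aZ_act_heckeGen_of_not_dvd (ℓ : Nat.Primes) (h : ¬ (ℓ : ℕ) ∣ N)
    (f : ↥(intLattice N 2)) (j : ℕ) :
    aZ (act N (heckeGen ℓ) f) j =
      aZ f (j * ℓ) + if (ℓ : ℕ) ∣ j then (ℓ : ℤ) * aZ f (j / ℓ) else 0 := by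
  apply aZ_eq_of
  rw [act_heckeGen_coe_of_not_dvd ℓ h f, CuspForm.coe_heckeTLin_apply,
    ModularFormClass.qCoeff_heckeT (f : CuspForm (CongruenceSubgroup.Gamma0 N) 2) (h26_strict N)
      ℓ.2.ne_zero j, ModularForm.coeffHeckeT_apply, aZ_spec, aZ_spec]
  split_ifs <;> simp

/-- the Hecke recursion, `ℓ ∣ N` -/
theorem aZ_act_heckeGen_of_dvd (ℓ : Nat.Primes) (h : (ℓ : ℕ) ∣ N)
    (f : ↥(intLattice N 2)) (j : ℕ) :
    aZ (act N (heckeGen ℓ) f) j = aZ f (j * ℓ) := by
  apply aZ_eq_of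
  rw [act_heckeGen_coe_of_dvd ℓ h f, CuspForm.coe_heckeULin_apply,
    ModularFormClass.qCoeff_heckeU (f : CuspForm (CongruenceSubgroup.Gamma0 N) 2) (h26_strict N)
      ℓ.2.ne_zero j, ModularForm.coeffHeckeU_apply, aZ_spec]

end H26S16
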