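/-
S16 (W2-A), slice RED (helper26), part 4: surjectivity of `ℤ[X_ℓ] → T`, propagation of
congruences along the Hecke recursion, and the duality `L ≅ Hom(T, ℤ)`, `f ↦ (t ↦ a_1(t f))`.
-/
import Mathlib
import Fermat.Agent.S16.RedHecke_helper26
import Fermat.Agent.S16.RedAlg_helper26

set_option autoImplicit false
set_option linter.style.haveILetI false
set_option linter.unusedSectionVars false

noncomputable section

namespace H26S16

open CuspForm ModularCurve ModularFormClass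

variable {N : ℕ} [NeZero N]

variable (N) in
theorem heckeEvalForms_surjective : Function.Surjective (heckeEvalForms N 2) := by
  have hrange : (MvPolynomial.aeval (heckeFormsGen N 2) :
      HeckeAlg →ₐ[ℤ] heckeAlgebra N 2 ∅).range = ⊤ := by
    rw [← Algebra.adjoin_range_eq_range_aeval]
    have h := Algebra.adjoin_adjoin_coe_preimage (R := ℤ) (s := heckeGenerators N 2 ∅)
    rw [eq_top_iff]
    refine le_trans (le_of_eq h.symm) ?_
    apply Algebra.adjoin_mono
    rintro ⟨x, hx⟩ hmem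
    rcases hmem with ⟨ℓ, hℓ, hℓN, -, rfl⟩ | ⟨q, hqN, hq, -, rfl⟩
    · exact ⟨⟨ℓ, hℓ⟩, by rw [heckeFormsGen_of_not_dvd (ℓ := ⟨ℓ, hℓ⟩) hℓN]; rfl⟩
    · exact ⟨⟨q, hq⟩, by rw [heckeFormsGen_of_dvd (q := ⟨q, hq⟩) hqN]; rfl⟩
  intro t
  have ht : t ∈ (MvPolynomial.aeval (heckeFormsGen N 2) :
      HeckeAlg →ₐ[ℤ] heckeAlgebra N 2 ∅).range := by rw [hrange]; trivial
  obtain ⟨P, hP⟩ := ht
  exact ⟨P, hP⟩

variable (N) in
theorem piL_surjective : Function.Surjective (piL N) := by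
  intro t
  obtain ⟨s, hs⟩ := latticeRestrictHom_surjective N ∅ t
  obtain ⟨P, hP⟩ := heckeEvalForms_surjective N s
  exact ⟨P, by simp only [piL, RingHom.comp_apply, hP]; exact hs⟩

/-- the recursion in the form used below, `ℓ ∤ N` -/
theorem aZ_rec_T (ℓ : Nat.Primes) (h : ¬ (ℓ : ℕ) ∣ N) (f : ↥(intLattice N 2)) (P : HeckeAlg)
    (j : ℕ) :
    aZ (act N P f) (j * ℓ) = aZ (act N (heckeGen ℓ * P) f) j -
      if (ℓ : ℕ) ∣ j then (ℓ : ℤ) * aZ (act N P f) (j / ℓ) else 0 := by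
  rw [act_mul, aZ_act_heckeGen_of_not_dvd ℓ h]
  ring

/-- the recursion in the form used below, `ℓ ∣ N` -/
theorem aZ_rec_U (ℓ : Nat.Primes) (h : (ℓ : ℕ) ∣ N) (f : ↥(intLattice N 2)) (P : HeckeAlg)
    (j : ℕ) :
    aZ (act N P f) (j * ℓ) = aZ (act N (heckeGen ℓ * P) f) j := by
  rw [act_mul, aZ_act_heckeGen_of_dvd ℓ h]

variable (N) in
/-- a family satisfying the Hecke recursion and vanishing for `k = 1` vanishes -/
theorem rec_unique {G : Type*} [AddCommGroup G] (d : ℕ → HeckeAlg → G)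
    (hT : ∀ ℓ : Nat.Primes, ¬ (ℓ : ℕ) ∣ N → ∀ j : ℕ, 1 ≤ j → ∀ P : HeckeAlg,
      d (j * ℓ) P = d j (heckeGen ℓ * P) - if (ℓ : ℕ) ∣ j then (ℓ : ℕ) • d (j / ℓ) P else 0)
    (hU : ∀ ℓ : Nat.Primes, (ℓ : ℕ) ∣ N → ∀ j : ℕ, 1 ≤ j → ∀ P : HeckeAlg,
      d (j * ℓ) P = d j (heckeGen ℓ * P))
    (h1 : ∀ P : HeckeAlg, d 1 P = 0) : ∀ k : ℕ, 1 ≤ k → ∀ P : HeckeAlg, d k P = 0 := by
  intro k
  induction k using Nat.strong_induction_on with
  | _ k ih =>
    intro hk P
    rcases eq_or_lt_of_le hk with h | h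
    · rw [← h]; exact h1 P
    · have hk1 : k ≠ 1 := by omega
      obtain ⟨ℓ, j, hj⟩ : ∃ ℓ : Nat.Primes, ∃ j : ℕ, k = j * (ℓ : ℕ) := by
        obtain ⟨j, hj⟩ := Nat.minFac_dvd k
        exact ⟨⟨k.minFac, Nat.minFac_prime hk1⟩, j, by rw [mul_comm]; exact hj⟩
      subst hj
      have hℓ : (ℓ : ℕ).Prime := ℓ.2
      have hj1 : 1 ≤ j := by
        rcases Nat.eq_zero_or_pos j with h0 | h0
        · rw [h0] at hk; simp at hk
        · exact h0
      have hjk : j < j * (ℓ : ℕ) := by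
        have := hℓ.two_le
        nlinarith
      by_cases hN : (ℓ : ℕ) ∣ N
      · rw [hU ℓ hN j hj1 P]
        exact ih j hjk hj1 _
      · rw [hT ℓ hN j hj1 P, ih j hjk hj1 _]
        split_ifs with hd
        · have h2 : 1 ≤ j / (ℓ : ℕ) := by
            obtain ⟨c, rfl⟩ := hd
            rw [Nat.mul_div_cancel_left _ hℓ.pos]
            rcases Nat.eq_zero_or_pos c with h0 | h0
            · rw [h0] at hj1; simp at hj1
            · exact h0
          have h3 : j / (ℓ : ℕ) < j * (ℓ : ℕ) := lt_of_le_of_lt (Nat.div_le_self _ _) hjk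
          rw [ih (j / (ℓ : ℕ)) h3 h2 P]
          simp
        · simp

/-- propagation of congruences: if `e` satisfies the Hecke recursion and
`a_1(P f) ≡ e_1(P) mod m` for all `P`, then `a_k(P f) ≡ e_k(P) mod m` for all `k ≥ 1`, `P`. -/
theorem aZ_propagate (m : ℤ) (f : ↥(intLattice N 2)) (e : ℕ → HeckeAlg → ℤ)
    (heT : ∀ ℓ : Nat.Primes, ¬ (ℓ : ℕ) ∣ N → ∀ j : ℕ, 1 ≤ j → ∀ P : HeckeAlg,
      e (j * ℓ) P = e j (heckeGen ℓ * P) - if (ℓ : ℕ) ∣ j then (ℓ : ℤ) * e (j / ℓ) P else 0)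
    (heU : ∀ ℓ : Nat.Primes, (ℓ : ℕ) ∣ N → ∀ j : ℕ, 1 ≤ j → ∀ P : HeckeAlg,
      e (j * ℓ) P = e j (heckeGen ℓ * P))
    (h1 : ∀ P : HeckeAlg, m ∣ aZ (act N P f) 1 - e 1 P) :
    ∀ k : ℕ, 1 ≤ k → ∀ P : HeckeAlg, m ∣ aZ (act N P f) k - e k P := by
  set d : ℕ → HeckeAlg → ℤ ⧸ Ideal.span {m} :=
    fun k P => Ideal.Quotient.mk (Ideal.span {m}) (aZ (act N P f) k - e k P) with hd
  have hdef : ∀ k P, d k P = Ideal.Quotient.mk (Ideal.span {m}) (aZ (act N P f) k - e k P) :=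
    fun _ _ => rfl
  have key := rec_unique N (G := ℤ ⧸ Ideal.span {m}) d ?_ ?_ ?_
  · intro k hk P
    have := key k hk P
    rwa [hdef, Ideal.Quotient.eq_zero_iff_mem, Ideal.mem_span_singleton] at this
  · intro ℓ hℓ j hj P
    rw [hdef, hdef, aZ_rec_T ℓ hℓ, heT ℓ hℓ j hj]
    split_ifs with hdv
    · rw [hdef, ← map_nsmul, ← map_sub]
      congr 1
      simp only [nsmul_eq_mul]
      ring
    · simp
  · intro ℓ hℓ j hj P
    rw [hdef, hdef, aZ_rec_U ℓ hℓ, heU ℓ hℓ j hj]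
  · intro P
    rw [hdef, Ideal.Quotient.eq_zero_iff_mem, Ideal.mem_span_singleton]
    exact h1 P

/-- the pairing is nondegenerate on the lattice side -/
theorem eq_zero_of_pairing (f : ↥(intLattice N 2)) (h : ∀ P : HeckeAlg, aZ (act N P f) 1 = 0) :
    f = 0 := by
  apply eq_zero_of_aZ
  intro k hk
  have := aZ_propagate 0 f (fun _ _ => 0) (by intros; simp) (by intros; simp)
    (by intro P; simp [h P]) k hk 1
  rw [act_one] at this
  simpa using this

/-- the pairing is nondegenerate on the Hecke side -/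
theorem piL_eq_zero_of_pairing (Q : HeckeAlg)
    (h : ∀ f : ↥(intLattice N 2), aZ (act N Q f) 1 = 0) : piL N Q = 0 := by
  apply piL_eq_zero_of_act
  intro f
  apply eq_zero_of_pairing
  intro P
  rw [← act_mul, mul_comm, act_mul]
  exact h _

variable (N) in
/-- the pairing `L × T → ℤ`, `(f, t) ↦ a_1(t f)` -/
def pairL : ↥(intLattice N 2) →ₗ[ℤ] (↥(heckeLatticeAlgebra N ∅) →ₗ[ℤ] ℤ) :=
  LinearMap.mk₂ ℤ (fun f t => aZ ((t : Module.End ℤ ↥(intLattice N 2)) f) 1)
    (fun f g t => by simp only [map_add, aZ_add])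
    (fun c f t => by simp only [map_zsmul, aZ_zsmul, smul_eq_mul])
    (fun f s t => by simp only [Subalgebra.coe_add, LinearMap.add_apply, aZ_add])
    (fun c f t => by
      simp only [Subalgebra.coe_smul, LinearMap.smul_apply, aZ_zsmul, smul_eq_mul])

theorem pairL_apply (f : ↥(intLattice N 2)) (t : ↥(heckeLatticeAlgebra N ∅)) :
    pairL N f t = aZ ((t : Module.End ℤ ↥(intLattice N 2)) f) 1 := rfl

theorem pairL_piL (f : ↥(intLattice N 2)) (P : HeckeAlg) :
    pairL N f (piL N P) = aZ (act N P f) 1 := rfl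

variable (N) in
theorem pairL_flip_injective : Function.Injective (pairL N).flip := by
  rw [injective_iff_map_eq_zero]
  intro t ht
  obtain ⟨Q, rfl⟩ := piL_surjective N t
  apply piL_eq_zero_of_pairing
  intro f
  have := LinearMap.congr_fun ht f
  rw [LinearMap.flip_apply, pairL_piL] at this
  simpa using this

variable (N) in
theorem pairL_injective : Function.Injective (pairL N) := by
  rw [injective_iff_map_eq_zero]
  intro f hf
  apply eq_zero_of_pairing
  intro P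
  rw [← pairL_piL, hf]
  rfl

variable (N) in
theorem finrank_dual_le :
    Module.finrank ℤ (↥(heckeLatticeAlgebra N ∅) →ₗ[ℤ] ℤ) ≤
      Module.finrank ℤ ↥(intLattice N 2) := by
  haveI := intLattice.moduleFinite N
  haveI := intLattice.moduleFree N
  rw [Module.finrank_linearMap, Module.finrank_self, mul_one]
  have := LinearMap.finrank_le_finrank_of_injective (pairL_flip_injective N)
  rwa [Module.finrank_linearMap, Module.finrank_self, mul_one] at this

variable (N) in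
/-- **duality**: every linear form on `T` is `t ↦ a_1(t f)` for some `f` in the lattice -/
theorem exists_of_functional (φ : ↥(heckeLatticeAlgebra N ∅) →ₗ[ℤ] ℤ) :
    ∃ f : ↥(intLattice N 2), ∀ P : HeckeAlg, aZ (act N P f) 1 = φ (piL N P) := by
  haveI := intLattice.moduleFinite N
  haveI := intLattice.moduleFree N
  obtain ⟨d, hd0, g, hg⟩ := h26_exists_smul_mem_range (pairL N) (pairL_injective N)
    (finrank_dual_le N) φ
  have hgP : ∀ P : HeckeAlg, aZ (act N P g) 1 = d * φ (piL N P) := by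
    intro P
    rw [← pairL_piL, hg]
    rfl
  have hdiv : ∀ k : ℕ, d ∣ aZ g k := by
    intro k
    rcases Nat.eq_zero_or_pos k with rfl | hk
    · rw [aZ_zero_right]; exact dvd_zero d
    · have := aZ_propagate d g (fun _ _ => 0) (by intros; simp) (by intros; simp)
        (by intro P; rw [hgP P]; simp) k hk 1
      rw [act_one] at this
      simpa using this
  have hdC : (d : ℂ) ≠ 0 := by exact_mod_cast hd0
  obtain ⟨f', hf'⟩ : ∃ f' : CuspForm (CongruenceSubgroup.Gamma0 N) 2,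
      f' = ((d : ℂ)⁻¹) • (g : CuspForm (CongruenceSubgroup.Gamma0 N) 2) := ⟨_, rfl⟩
  have hf'mem : f' ∈ intLattice N 2 := by
    rw [P2MW.S_CuspForm_mem_intLattice_of_coe_eq_heckeT.W3WsD.mem_intLattice_iff]
    intro n
    obtain ⟨c, hc⟩ := hdiv n
    refine ⟨c, ?_⟩
    rw [hf', h26_qCoeff_smul, aZ_spec, hc]
    push_cast
    field_simp
  have hdf : d • (⟨f', hf'mem⟩ : ↥(intLattice N 2)) = g := by
    apply Subtype.ext
    rw [Submodule.coe_smul]
    change d • f' = _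
    rw [hf', ← Int.cast_smul_eq_zsmul ℂ, smul_smul, mul_inv_cancel₀ hdC, one_smul]
  refine ⟨⟨f', hf'mem⟩, fun P => ?_⟩
  have h1 : aZ (act N P g) 1 = d * aZ (act N P ⟨f', hf'mem⟩) 1 := by
    rw [← hdf, map_zsmul, aZ_zsmul]
  rw [hgP P] at h1
  exact (mul_left_cancel₀ hd0 h1).symm

end H26S16
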