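/-
S16 (W2-A), slice RED (helper26): S16 follows from

* (A) `H21S16.LowerBound p` (helper21): every relation among the Hecke operators on
  `S₂(Γ₀(p))` holds for the Eisenstein system modulo `n = eisensteinNumerator p`;
* (B) `∀ m, H4S16.EisMod p m → m ∣ n` (helper4): a cusp form with integral `q`-expansion
  congruent to the Eisenstein series `∑ σ'(k) q^k` modulo `m` forces `m ∣ n`.

Proof: `T ⧸ I_T ≅ ℤ ⧸ ev (ker π)`, `ev (ker π) = (m)`; (A) gives `n ∣ m`; the duality
`L ≅ Hom(T, ℤ)` turns the character `T → ℤ/m` into a form `f ≡ e' mod m`, so (B) gives `m ∣ n`.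
-/
import Mathlib
import Fermat.Agent.S16.RedDual_helper26
import Fermat.Agent.S16.RedArith_helper26
import Fermat.Agent.S16.H4BDefs
import Fermat.Agent.S16.H21ADefs

set_option autoImplicit false
set_option linter.style.haveILetI false
set_option linter.unusedSectionVars false

noncomputable section

namespace H26S16

open CuspForm ModularCurve ModularFormClass H4S16

variable (p : ℕ) [Fact p.Prime]

/-- evaluation at the Eisenstein system -/
def evE : HeckeAlg →+* ℤ :=
  (MvPolynomial.aeval (R := ℤ) (eisensteinSystem p) : HeckeAlg →ₐ[ℤ] ℤ).toRingHom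

theorem evE_apply (P : HeckeAlg) : evE p P = MvPolynomial.aeval (eisensteinSystem p) P := rfl

theorem evE_surjective : Function.Surjective (evE p) := fun a =>
  ⟨MvPolynomial.C a, by rw [evE_apply, MvPolynomial.aeval_C]; rfl⟩

theorem evE_heckeGen (ℓ : Nat.Primes) : evE p (heckeGen ℓ) = eisensteinSystem p ℓ := by
  rw [evE_apply, aeval_heckeGen]

theorem eisensteinIdeal_eq_ker : eisensteinIdeal p = RingHom.ker (evE p) := by
  ext P
  rw [eisensteinIdeal, mem_eigenIdeal_iff, RingHom.mem_ker, evE_apply]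

theorem eis_rec_T (ℓ : Nat.Primes) (h : ¬ (ℓ : ℕ) ∣ p) (j : ℕ) (hj : 1 ≤ j) (P : HeckeAlg) :
    evE p P * (sigmaPrime p (j * ℓ) : ℤ) =
      evE p (heckeGen ℓ * P) * (sigmaPrime p j : ℤ) -
        if (ℓ : ℕ) ∣ j then (ℓ : ℤ) * (evE p P * (sigmaPrime p (j / ℓ) : ℤ)) else 0 := by
  have hp : p.Prime := Fact.out
  have hne : (ℓ : ℕ) ≠ p := fun h' => h (h' ▸ dvd_rfl)
  have key := sigmaPrime_mul_prime hp ℓ.2 hne (by omega : j ≠ 0)
  rw [map_mul, evE_heckeGen, eisensteinSystem_of_not_dvd h]
  split_ifs with hd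
  · rw [if_pos hd] at key
    have key' : (sigmaPrime p (j * ℓ) : ℤ) + (ℓ : ℤ) * (sigmaPrime p (j / ℓ) : ℤ) =
        (1 + (ℓ : ℤ)) * (sigmaPrime p j : ℤ) := by exact_mod_cast key
    linear_combination (evE p P) * key'
  · rw [if_neg hd, add_zero] at key
    have key' : (sigmaPrime p (j * ℓ) : ℤ) = (1 + (ℓ : ℤ)) * (sigmaPrime p j : ℤ) := by
      exact_mod_cast key
    linear_combination (evE p P) * key'

theorem eis_rec_U (ℓ : Nat.Primes) (h : (ℓ : ℕ) ∣ p) (j : ℕ) (hj : 1 ≤ j) (P : HeckeAlg) :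
    evE p P * (sigmaPrime p (j * ℓ) : ℤ) = evE p (heckeGen ℓ * P) * (sigmaPrime p j : ℤ) := by
  have hp : p.Prime := Fact.out
  have he : (ℓ : ℕ) = p := (Nat.prime_dvd_prime_iff_eq ℓ.2 hp).mp h
  rw [map_mul, evE_heckeGen, eisensteinSystem_of_dvd h, he,
    sigmaPrime_mul_self hp (by omega : j ≠ 0), one_mul]

theorem eisensteinNumerator_pos : 0 < eisensteinNumerator p := by
  have hp : p.Prime := Fact.out
  have h1 : 0 < p - 1 := by have := hp.two_le; omega
  unfold eisensteinNumerator
  exact Nat.div_pos (Nat.le_of_dvd h1 (Nat.gcd_dvd_left _ _)) (Nat.gcd_pos_of_pos_left _ h1)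

/-- **RED**: S16 from part (A) in kernel form and part (B). -/
theorem h26_red (hA : H21S16.LowerBound p)
    (hB : ∀ m : ℕ, H4S16.EisMod p m → m ∣ eisensteinNumerator p) :
    Nat.card (↥(heckeLatticeAlgebra p ∅) ⧸
        Ideal.map ((latticeRestrictHom p ∅).toRingHom.comp (heckeEvalForms p 2))
          (eisensteinIdeal p)) =
      eisensteinNumerator p := by
  have hp : p.Prime := Fact.out
  obtain ⟨m, hm⟩ : ∃ m : ℕ,
      Ideal.map (evE p) (RingHom.ker (piL p)) = Ideal.span {(m : ℤ)} := by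
    obtain ⟨g, hg⟩ :=
      (IsPrincipalIdealRing.principal (Ideal.map (evE p) (RingHom.ker (piL p)))).principal
    refine ⟨g.natAbs, ?_⟩
    rw [Int.span_natAbs]
    exact hg
  -- (A): `n ∣ m`
  have h1 : ((eisensteinNumerator p : ℕ) : ℤ) ∣ (m : ℤ) := by
    have hmJ : (m : ℤ) ∈ Ideal.map (evE p) (RingHom.ker (piL p)) := by
      rw [hm]; exact Ideal.mem_span_singleton_self _
    have hle : Ideal.map (evE p) (RingHom.ker (piL p)) ≤
        Ideal.span {((eisensteinNumerator p : ℕ) : ℤ)} := by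
      rw [Ideal.map_le_iff_le_comap]
      intro P hP
      rw [Ideal.mem_comap, Ideal.mem_span_singleton]
      exact hA P hP
    exact Ideal.mem_span_singleton.mp (hle hmJ)
  -- duality: `EisMod p m`
  have h2 : H4S16.EisMod p m := by
    obtain ⟨φ, hφ⟩ := h26_exists_lift (piL p) (piL_surjective p) (evE p)
    obtain ⟨f, hf⟩ := exists_of_functional p φ
    refine ⟨f.1, f.2, fun k hk => ⟨aZ f k, aZ_spec f k, ?_⟩⟩
    have := aZ_propagate (m : ℤ) f (fun k P => evE p P * (sigmaPrime p k : ℤ))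
      (fun ℓ h j hj P => eis_rec_T p ℓ h j hj P) (fun ℓ h j hj P => eis_rec_U p ℓ h j hj P)
      (by
        intro P
        have h3 := hφ P
        rw [hm, Ideal.mem_span_singleton] at h3
        rw [hf P, sigmaPrime_one hp]
        have : φ (piL p P) - evE p P * ((1 : ℕ) : ℤ) = -(evE p P - φ (piL p P)) := by
          push_cast; ring
        rw [this]
        exact (dvd_neg).mpr h3) k hk 1
    rw [act_one, map_one, one_mul] at this
    exact this
  have h3 := hB m h2
  have hmn : m = eisensteinNumerator p :=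
    Nat.dvd_antisymm h3 (Int.natCast_dvd_natCast.mp h1)
  have hcard := h26_card_quot (piL p) (piL_surjective p) (evE p) (evE_surjective p) m hm
  rw [← hmn, eisensteinIdeal_eq_ker]
  exact hcard

/-- the same with part (B) in `H4S16.PartB` form -/
theorem h26_red' (hA : H21S16.LowerBound p) (hB : H4S16.PartB) :
    Nat.card (↥(heckeLatticeAlgebra p ∅) ⧸
        Ideal.map ((latticeRestrictHom p ∅).toRingHom.comp (heckeEvalForms p 2))
          (eisensteinIdeal p)) =
      eisensteinNumerator p :=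
  h26_red p hA (hB p Fact.out)

end H26S16
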