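/-
S16 (Eisenstein ideal index), part (A), slice C (helper29): ANALYTIC half.

For a holomorphic logarithm `Λ` of the modular unit `u = Δ(pz)/Δ(z)` whose periods
`Λ(γz) - Λ(z)`, `γ ∈ Γ₀(p)`, all lie in `2πi e ℤ`, the function
`K = c · exp(Λ/e) · Δ` is a modular form of weight `12` on `Γ₀(p)` with `K^e = c^e Δ(pz) Δ^(e-1)`;
its `q`-series `X = K/Δ` satisfies `X^e = c^e · Δ(q^p)/Δ(q)` in `ℂ((q))`.
-/
import Mathlib
import Fermat.Agent.S16.H21ADefs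
import Fermat.Agent.S16.H13BridgeL

set_option autoImplicit false
set_option linter.style.haveILetI false
set_option linter.unusedSectionVars false

noncomputable section

open UpperHalfPlane ModularForm CongruenceSubgroup ModularCurve H23 H23.Rel H23M H28S28
  Matrix.SpecialLinearGroup
open scoped MatrixGroups Manifold Real Topology

namespace H29C

/-- `c · exp(Λ/e) · Δ` -/
def h29c_K (Λ : ℍ → ℂ) (e : ℕ) (c : ℂ) : ℍ → ℂ :=
  fun z => c * Complex.exp (Λ z / (e : ℂ)) * ModularForm.discriminant z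

theorem h29c_K_apply (Λ : ℍ → ℂ) (e : ℕ) (c : ℂ) (z : ℍ) :
    h29c_K Λ e c z = c * Complex.exp (Λ z / (e : ℂ)) * ModularForm.discriminant z := rfl

theorem h29c_mdiff_K (Λ : ℍ → ℂ) (hΛ : MDiff Λ) (e : ℕ) (c : ℂ) : MDiff (h29c_K Λ e c) := by
  have hΔ : MDiff (ModularForm.discriminant : ℍ → ℂ) :=
    ModularFormClass.holo CuspForm.discriminant
  rw [UpperHalfPlane.mdifferentiable_iff] at hΛ hΔ ⊢
  have h : DifferentiableOn ℂ
      (fun w : ℂ => c * Complex.exp ((Λ ∘ ofComplex) w / (e : ℂ))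
        * ((ModularForm.discriminant : ℍ → ℂ) ∘ ofComplex) w) {z : ℂ | 0 < z.im} :=
    ((hΛ.div_const _).cexp.const_mul c).mul hΔ
  exact h

variable (p : ℕ) [NeZero p]

/-- `K^e = c^e Δ(pz) Δ(z)^(e-1)` -/
theorem h29c_K_pow (Λ : ℍ → ℂ)
    (hexp : ∀ z : ℍ, Complex.exp (Λ z)
      = ModularForm.discriminant (ModularForm.heckeDiagMatrix p • z) / ModularForm.discriminant z)
    (e : ℕ) (he : 0 < e) (c : ℂ) (z : ℍ) :
    h29c_K Λ e c z ^ e = c ^ e * (deltaN p z * ModularForm.discriminant z ^ (e - 1)) := by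
  have hΔ : ModularForm.discriminant z ≠ 0 := discriminant_ne_zero z
  have he' : (e : ℂ) ≠ 0 := by exact_mod_cast he.ne'
  rw [h29c_K_apply, mul_pow, mul_pow, ← Complex.exp_nat_mul, mul_div_cancel₀ _ he', hexp]
  obtain ⟨k, rfl⟩ : ∃ k, e = k + 1 := ⟨e - 1, by omega⟩
  simp only [Nat.add_sub_cancel]
  rw [pow_succ (ModularForm.discriminant z)]
  unfold deltaN
  field_simp

/-- `Δ` is invariant under `SL(2,ℤ)`, pointwise form -/
theorem h29c_disc_smul (γ : SL(2, ℤ)) (z : ℍ) :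
    ModularForm.discriminant (γ • z) * denom γ z ^ (-(12 : ℤ)) = ModularForm.discriminant z := by
  have h : ((ModularForm.discriminant : ℍ → ℂ) ∣[(12 : ℤ)] γ) z = ModularForm.discriminant z :=
    congrFun (H23.h12_discriminant_slash γ) z
  rw [ModularForm.SL_slash_apply] at h
  exact h

/-- the `e`-th power of a translate of `K` -/
theorem h29c_K_slash_pow (Λ : ℍ → ℂ)
    (hexp : ∀ z : ℍ, Complex.exp (Λ z)
      = ModularForm.discriminant (ModularForm.heckeDiagMatrix p • z) / ModularForm.discriminant z)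
    (e : ℕ) (he : 0 < e) (c : ℂ) (γ : SL(2, ℤ)) (z : ℍ) :
    ((h29c_K Λ e c) ∣[(12 : ℤ)] γ) z ^ e
      = c ^ e * (((deltaN p) ∣[(12 : ℤ)] γ) z * ModularForm.discriminant z ^ (e - 1)) := by
  rw [ModularForm.SL_slash_apply, ModularForm.SL_slash_apply, mul_pow, h29c_K_pow p Λ hexp e he,
    ← h29c_disc_smul γ z]
  obtain ⟨k, rfl⟩ : ∃ k, e = k + 1 := ⟨e - 1, by omega⟩
  simp only [Nat.add_sub_cancel]
  ring

/-- invariance of `K` under `Γ₀(p)` -/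
theorem h29c_K_slash (Λ : ℍ → ℂ) (e : ℕ) (he : 0 < e) (c : ℂ) (γ : SL(2, ℤ)) (t : ℤ)
    (hper : ∀ z : ℍ, Λ (γ • z) - Λ z = 2 * π * Complex.I * (((e : ℤ) * t : ℤ) : ℂ)) :
    (h29c_K Λ e c) ∣[(12 : ℤ)] γ = h29c_K Λ e c := by
  funext z
  have he' : (e : ℂ) ≠ 0 := by exact_mod_cast he.ne'
  rw [ModularForm.SL_slash_apply, h29c_K_apply, h29c_K_apply, mul_assoc, mul_assoc,
    h29c_disc_smul γ z]
  have h1 : Λ (γ • z) / (e : ℂ) = Λ z / (e : ℂ) + (t : ℂ) * (2 * π * Complex.I) := by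
    have h2 : Λ (γ • z) = Λ z + 2 * π * Complex.I * (((e : ℤ) * t : ℤ) : ℂ) := by
      rw [← hper z]; ring
    rw [h2]
    push_cast
    field_simp
  rw [h1, Complex.exp_add, Complex.exp_int_mul_two_pi_mul_I, mul_one, mul_assoc]

/-- all `SL(2,ℤ)`-translates of `K` are bounded at `i∞` -/
theorem h29c_K_bdd (Λ : ℍ → ℂ)
    (hexp : ∀ z : ℍ, Complex.exp (Λ z)
      = ModularForm.discriminant (ModularForm.heckeDiagMatrix p • z) / ModularForm.discriminant z)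
    (e : ℕ) (he : 0 < e) (c : ℂ) (γ : SL(2, ℤ)) :
    IsBoundedAtImInfty ((h29c_K Λ e c) ∣[(12 : ℤ)] γ) := by
  have h1 : IsBoundedAtImInfty ((deltaN p) ∣[(12 : ℤ)] γ) := isBoundedAtImInfty_deltaN_slash p γ
  have h2 : IsBoundedAtImInfty (ModularForm.discriminant : ℍ → ℂ) :=
    ModularFormClass.bdd_at_infty CuspForm.discriminant
  rw [isBoundedAtImInfty_iff] at h1 h2 ⊢
  obtain ⟨M₁, A₁, hM₁⟩ := h1
  obtain ⟨M₂, A₂, hM₂⟩ := h2
  refine ⟨max 1 (‖c‖ ^ e * (M₁ * M₂ ^ (e - 1))), max A₁ A₂, fun z hz => ?_⟩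
  have hz1 : A₁ ≤ z.im := le_trans (le_max_left _ _) hz
  have hz2 : A₂ ≤ z.im := le_trans (le_max_right _ _) hz
  have hpow := congrArg norm (h29c_K_slash_pow p Λ hexp e he c γ z)
  rw [norm_pow, norm_mul, norm_mul, norm_pow, norm_pow] at hpow
  set x := ‖((h29c_K Λ e c) ∣[(12 : ℤ)] γ) z‖ with hx
  have hx0 : 0 ≤ x := norm_nonneg _
  have hb : x ^ e ≤ ‖c‖ ^ e * (M₁ * M₂ ^ (e - 1)) := by
    rw [hpow]
    have hM₁0 : 0 ≤ M₁ := le_trans (norm_nonneg _) (hM₁ z hz1)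
    refine mul_le_mul_of_nonneg_left ?_ (pow_nonneg (norm_nonneg _) _)
    exact mul_le_mul (hM₁ z hz1) (pow_le_pow_left₀ (norm_nonneg _) (hM₂ z hz2) _)
      (pow_nonneg (norm_nonneg _) _) hM₁0
  by_cases h1x : x ≤ 1
  · exact le_trans h1x (le_max_left _ _)
  · have h1x' : 1 ≤ x := le_of_not_ge h1x
    have : x ≤ x ^ e := le_self_pow₀ h1x' he.ne'
    exact le_trans (le_trans this hb) (le_max_right _ _)

/-- **the form `K = c · exp(Λ/e) · Δ`** of weight `12` on `Γ₀(p)` -/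
def h29c_form (Λ : ℍ → ℂ) (hΛ : MDiff Λ)
    (hexp : ∀ z : ℍ, Complex.exp (Λ z)
      = ModularForm.discriminant (ModularForm.heckeDiagMatrix p • z) / ModularForm.discriminant z)
    (e : ℕ) (he : 0 < e)
    (hper : ∀ γ : Gamma0 p, ∃ t : ℤ, ∀ z : ℍ,
      Λ ((γ : SL(2, ℤ)) • z) - Λ z = 2 * π * Complex.I * (((e : ℤ) * t : ℤ) : ℂ))
    (c : ℂ) : ModularForm (Gamma0 p) (((12 * 1 : ℕ) : ℤ)) where
  toFun := h29c_K Λ e c
  slash_action_eq' := by
    rintro _ ⟨γ, hγ, rfl⟩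
    obtain ⟨t, ht⟩ := hper ⟨γ, hγ⟩
    exact h29c_K_slash Λ e he c γ t ht
  holo' := h29c_mdiff_K Λ hΛ e c
  bdd_at_cusps' := by
    intro c' hc
    have hc' : IsCusp c' 𝒮ℒ := hc.mono (Subgroup.map_le_range _ _)
    rw [OnePoint.isBoundedAt_iff_forall_SL2Z hc']
    intro γ _
    exact h29c_K_bdd p Λ hexp e he c γ

theorem h29c_coe_form (Λ : ℍ → ℂ) (hΛ : MDiff Λ)
    (hexp : ∀ z : ℍ, Complex.exp (Λ z)
      = ModularForm.discriminant (ModularForm.heckeDiagMatrix p • z) / ModularForm.discriminant z)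
    (e : ℕ) (he : 0 < e)
    (hper : ∀ γ : Gamma0 p, ∃ t : ℤ, ∀ z : ℍ,
      Λ ((γ : SL(2, ℤ)) • z) - Λ z = 2 * π * Complex.I * (((e : ℤ) * t : ℤ) : ℂ))
    (c : ℂ) : ⇑(h29c_form p Λ hΛ hexp e he hper c) = h29c_K Λ e c := rfl

/-- `K^e = c^e · Δ(p·) Δ^(e-1)` in the algebra of nice functions -/
theorem h29c_Kn_pow (Λ : ℍ → ℂ) (hΛ : MDiff Λ)
    (hexp : ∀ z : ℍ, Complex.exp (Λ z)
      = ModularForm.discriminant (ModularForm.heckeDiagMatrix p • z) / ModularForm.discriminant z)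
    (e : ℕ) (he : 0 < e)
    (hper : ∀ γ : Gamma0 p, ∃ t : ℤ, ∀ z : ℍ,
      Λ ((γ : SL(2, ℤ)) • z) - Λ z = 2 * π * Complex.I * (((e : ℤ) * t : ℤ) : ℂ))
    (c : ℂ) :
    H13Br.Kn p 1 (h29c_form p Λ hΛ hexp e he hper c) ^ e
      = algebraMap ℂ niceAlg (c ^ e) * H13Br.Tn p e := by
  apply niceAlg_ext
  intro w
  rw [map_pow, map_mul, H13Br.evw_Tn, AlgHom.commutes]
  exact h29c_K_pow p Λ hexp e he c w

theorem h29c_LamA_algebraMap (c : ℂ) : LamA (algebraMap ℂ niceAlg c) = HahnSeries.C c := by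
  rw [LamA_apply, Lam_algebraMap]

/-- **the `q`-series identity** `X^e = c^e · Δ(q^p)/Δ(q)` for `X = K/Δ` -/
theorem h29c_Xc_pow (Λ : ℍ → ℂ) (hΛ : MDiff Λ)
    (hexp : ∀ z : ℍ, Complex.exp (Λ z)
      = ModularForm.discriminant (ModularForm.heckeDiagMatrix p • z) / ModularForm.discriminant z)
    (e : ℕ) (he : 0 < e)
    (hper : ∀ γ : Gamma0 p, ∃ t : ℤ, ∀ z : ℍ,
      Λ ((γ : SL(2, ℤ)) • z) - Λ z = 2 * π * Complex.I * (((e : ℤ) * t : ℤ) : ℂ))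
    (c : ℂ) :
    H13Br.Xc p 1 (h29c_form p Λ hΛ hexp e he hper c) ^ e = HahnSeries.C (c ^ e) * H13Br.uNq p := by
  have h := congrArg LamA (h29c_Kn_pow p Λ hΛ hexp e he hper c)
  rw [map_pow, map_mul, H13Br.LamA_Kn, H13Br.LamA_Tn p e he, h29c_LamA_algebraMap, pow_one,
    mul_pow, ← mul_assoc] at h
  exact mul_right_cancel₀ (H13Br.deltaq_pow_ne_zero e) h

/-- dependence on the constant: `X_c = c · X_1` -/
theorem h29c_Xc_const (Λ : ℍ → ℂ) (hΛ : MDiff Λ)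
    (hexp : ∀ z : ℍ, Complex.exp (Λ z)
      = ModularForm.discriminant (ModularForm.heckeDiagMatrix p • z) / ModularForm.discriminant z)
    (e : ℕ) (he : 0 < e)
    (hper : ∀ γ : Gamma0 p, ∃ t : ℤ, ∀ z : ℍ,
      Λ ((γ : SL(2, ℤ)) • z) - Λ z = 2 * π * Complex.I * (((e : ℤ) * t : ℤ) : ℂ))
    (c : ℂ) :
    H13Br.Xc p 1 (h29c_form p Λ hΛ hexp e he hper c)
      = HahnSeries.C c * H13Br.Xc p 1 (h29c_form p Λ hΛ hexp e he hper 1) := by
  have h0 : H13Br.Kn p 1 (h29c_form p Λ hΛ hexp e he hper c)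
      = algebraMap ℂ niceAlg c * H13Br.Kn p 1 (h29c_form p Λ hΛ hexp e he hper 1) := by
    apply niceAlg_ext
    intro w
    rw [map_mul, AlgHom.commutes]
    show h29c_K Λ e c w = c * h29c_K Λ e 1 w
    rw [h29c_K_apply, h29c_K_apply]
    simp [mul_assoc]
  have h := congrArg LamA h0
  rw [map_mul, H13Br.LamA_Kn, H13Br.LamA_Kn, h29c_LamA_algebraMap, pow_one, ← mul_assoc] at h
  exact mul_right_cancel₀ (deltaq_ne_zero ℂ) h

end H29C

end
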