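import Fermat.Agent.S16.DescQ2_helper23

/-!
# S16 (A), slice C: formal `e`-th roots of rational series are rational (helper23)

* `h23r_exists_root_powerSeries`: `F ∈ ℂ⟦q⟧` with constant coefficient `1` and `F ^ e` rational
  (`e > 0`) is itself rational;
* `h23r_exists_root`: the same for Laurent series with leading coefficient `1`:
  `F ^ e = hatQ G`, `F.leadingCoeff = 1`  ⟹  `∃ x, hatQ x = F ∧ x ^ e = G`.
-/

set_option autoImplicit false

noncomputable section

namespace H23R

open ModularCurve H23Q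

theorem h23r_coeff_mem (F : PowerSeries ℂ) (G : PowerSeries ℚ) (e : ℕ) (he : 0 < e)
    (h : F ^ e = G.map (algebraMap ℚ ℂ)) (h0 : PowerSeries.constantCoeff F = 1) :
    ∀ n, ∃ c : ℚ, PowerSeries.coeff n F = algebraMap ℚ ℂ c := by
  intro n
  induction n using Nat.strong_induction_on with
  | _ n ih =>
    rcases Nat.eq_zero_or_pos n with rfl | hn
    · refine ⟨1, ?_⟩
      rw [PowerSeries.coeff_zero_eq_constantCoeff_apply, h0, map_one]
    choose! c hc using ih
    set A₀ : PowerSeries ℚ := PowerSeries.mk (fun k => if k < n then c k else 0) with hA₀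
    set A : PowerSeries ℂ := A₀.map (algebraMap ℚ ℂ) with hA
    have hAcoeff : ∀ m, PowerSeries.coeff m A = if m < n then PowerSeries.coeff m F else 0 := by
      intro m
      rw [hA, PowerSeries.coeff_map, hA₀, PowerSeries.coeff_mk]
      split_ifs with hm
      · exact (hc m hm).symm
      · exact map_zero _
    have hdvd : (PowerSeries.X : PowerSeries ℂ) ^ n ∣ F - A := by
      rw [PowerSeries.X_pow_dvd_iff]
      intro m hm
      rw [map_sub, hAcoeff, if_pos hm, sub_self]
    obtain ⟨B, hB⟩ := hdvd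
    have hB0 : PowerSeries.constantCoeff B = PowerSeries.coeff n F := by
      have h1 : PowerSeries.coeff n (F - A) = PowerSeries.coeff n F := by
        rw [map_sub, hAcoeff, if_neg (lt_irrefl n), sub_zero]
      rw [← h1, hB]
      have := PowerSeries.coeff_X_pow_mul B n 0
      rw [zero_add] at this
      rw [this, PowerSeries.coeff_zero_eq_constantCoeff_apply]
    set S : PowerSeries ℂ := ∑ i ∈ Finset.range e, F ^ i * A ^ (e - 1 - i) with hS
    have hSmul : S * (F - A) = F ^ e - A ^ e := (Commute.all F A).geom_sum₂_mul e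
    have hA0 : PowerSeries.constantCoeff A = 1 := by
      rw [← PowerSeries.coeff_zero_eq_constantCoeff_apply, hAcoeff, if_pos hn,
        PowerSeries.coeff_zero_eq_constantCoeff_apply, h0]
    have hS0 : PowerSeries.constantCoeff S = (e : ℂ) := by
      rw [hS, map_sum]
      simp only [map_mul, map_pow, h0, hA0, one_pow, mul_one, Finset.sum_const, Finset.card_range,
        nsmul_eq_mul]
    have hkey : PowerSeries.coeff n (F ^ e - A ^ e) = (e : ℂ) * PowerSeries.coeff n F := by
      rw [← hSmul, hB]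
      have h2 : S * (PowerSeries.X ^ n * B) = PowerSeries.X ^ n * (S * B) := by ring
      rw [h2]
      have := PowerSeries.coeff_X_pow_mul (S * B) n 0
      rw [zero_add] at this
      rw [this, PowerSeries.coeff_zero_eq_constantCoeff_apply, map_mul, hS0, hB0]
    have hAe : A ^ e = (A₀ ^ e).map (algebraMap ℚ ℂ) := by
      rw [hA, map_pow]
    rw [h, hAe, map_sub, PowerSeries.coeff_map, PowerSeries.coeff_map, ← map_sub] at hkey
    have he0 : (e : ℂ) ≠ 0 := by exact_mod_cast he.ne'
    refine ⟨(PowerSeries.coeff n G - PowerSeries.coeff n (A₀ ^ e)) / (e : ℚ), ?_⟩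
    rw [map_div₀, hkey, map_natCast, mul_div_cancel_left₀ _ he0]

/-- **ROOT, power series version.** -/
theorem h23r_exists_root_powerSeries (F : PowerSeries ℂ) (G : PowerSeries ℚ) (e : ℕ) (he : 0 < e)
    (h : F ^ e = G.map (algebraMap ℚ ℂ)) (h0 : PowerSeries.constantCoeff F = 1) :
    ∃ x : PowerSeries ℚ, x.map (algebraMap ℚ ℂ) = F ∧ x ^ e = G := by
  choose c hc using h23r_coeff_mem F G e he h h0
  refine ⟨PowerSeries.mk c, ?_, ?_⟩
  · ext n
    rw [PowerSeries.coeff_map, PowerSeries.coeff_mk, hc]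
  · have hinj : Function.Injective (PowerSeries.map (algebraMap ℚ ℂ)) := by
      intro a b hab
      ext n
      have := congrArg (PowerSeries.coeff n) hab
      rw [PowerSeries.coeff_map, PowerSeries.coeff_map] at this
      exact (algebraMap ℚ ℂ).injective this
    apply hinj
    rw [map_pow, ← h]
    congr 1
    ext n
    rw [PowerSeries.coeff_map, PowerSeries.coeff_mk, hc]

theorem h23r_hatQ_injective : Function.Injective hatQ := by
  intro a b hab
  ext n
  have := congrArg (fun z : LaurentSeries ℂ => z.coeff n) hab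
  simp only [coeffMap_coeff] at this
  exact (algebraMap ℚ ℂ).injective this

theorem h23r_hatQ_single (k : ℤ) (r : ℚ) :
    hatQ (HahnSeries.single k r) = HahnSeries.single k (algebraMap ℚ ℂ r) :=
  coeffMap_single _ k r

/-- **ROOT, Laurent series version.** -/
theorem h23r_exists_root (F : LaurentSeries ℂ) (G : LaurentSeries ℚ) (e : ℕ) (he : 0 < e)
    (h : F ^ e = hatQ G) (hl : F.leadingCoeff = 1) :
    ∃ x : LaurentSeries ℚ, hatQ x = F ∧ x ^ e = G := by
  -- normalise the order to `0`
  set r : ℤ := F.order with hr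
  set F₀ : PowerSeries ℂ := F.powerSeriesPart with hF₀
  have hF : (HahnSeries.single r (1 : ℂ) : LaurentSeries ℂ) * HahnSeries.ofPowerSeries ℤ ℂ F₀ = F :=
    LaurentSeries.single_order_mul_powerSeriesPart F
  have hF0 : PowerSeries.constantCoeff F₀ = 1 := by
    rw [← PowerSeries.coeff_zero_eq_constantCoeff_apply, hF₀, LaurentSeries.powerSeriesPart_coeff,
      Nat.cast_zero, add_zero, ← HahnSeries.leadingCoeff_eq, hl]
  -- the rational series `G' = q^(-e r) G`
  set G' : LaurentSeries ℚ := HahnSeries.single (-(e • r)) (1 : ℚ) * G with hG'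
  have hsingle : (HahnSeries.single (-(e • r)) (1 : ℂ) : LaurentSeries ℂ) *
      (HahnSeries.single r (1 : ℂ)) ^ e = 1 := by
    rw [HahnSeries.single_pow, one_pow, HahnSeries.single_mul_single, neg_add_cancel, one_mul]
    rfl
  have hG'F : hatQ G' = HahnSeries.ofPowerSeries ℤ ℂ (F₀ ^ e) := by
    rw [hG', map_mul, h23r_hatQ_single, map_one, ← h, ← hF, mul_pow, ← mul_assoc, hsingle, one_mul,
      map_pow]
  -- `G'` is a power series
  set G₀ : PowerSeries ℚ := PowerSeries.mk (fun n => G'.coeff (n : ℤ)) with hG₀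
  have hG'0 : HahnSeries.ofPowerSeries ℤ ℚ G₀ = G' := by
    apply h23r_hatQ_injective
    rw [hatQ_ofPowerSeries, hG'F]
    congr 1
    ext n
    rw [PowerSeries.coeff_map, hG₀, PowerSeries.coeff_mk, ← coeffMap_coeff, hG'F,
      LaurentSeries.coeff_coe_powerSeries]
  have hpow : F₀ ^ e = G₀.map (algebraMap ℚ ℂ) := by
    apply HahnSeries.ofPowerSeries_injective (Γ := ℤ)
    rw [← hG'F, ← hG'0, hatQ_ofPowerSeries]
  obtain ⟨x₀, hx₀, hx₀e⟩ := h23r_exists_root_powerSeries F₀ G₀ e he hpow hF0
  refine ⟨HahnSeries.single r (1 : ℚ) * HahnSeries.ofPowerSeries ℤ ℚ x₀, ?_, ?_⟩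
  · rw [map_mul, h23r_hatQ_single, map_one, hatQ_ofPowerSeries, hx₀, hF]
  · have hxe : HahnSeries.ofPowerSeries ℤ ℚ x₀ ^ e = G' := by
      rw [← map_pow (HahnSeries.ofPowerSeries ℤ ℚ), hx₀e, hG'0]
    have hs : (HahnSeries.single r (1 : ℚ) : LaurentSeries ℚ) ^ e *
        HahnSeries.single (-(e • r)) (1 : ℚ) = 1 := by
      rw [HahnSeries.single_pow, one_pow, HahnSeries.single_mul_single, add_neg_cancel, one_mul]
      rfl
    rw [mul_pow, hxe, hG', ← mul_assoc, hs, one_mul]

end H23R

end
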