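import Mathlib
import Fermat.Prelude.Def_ModularCurve_LaurentCoeff
import Fermat.Prelude.Def_ModularCurve_X0

/-!
# S16 (B), BRIDGE helper (helper23): descent `ℂ → ℚ` for Laurent series

A `ℚ`-linear functional `l : ℂ → ℚ`, applied coefficientwise, is a `ℚ((q))`-linear map
`ℂ((q)) → ℚ((q))`.  Consequences:

* `mem_of_hat_mul_eq`: if `x ∈ ℚ((q))` satisfies `x̂ · b = a` with `a, b` in the `ℂ`-span of (the
  image of) a subfield `K₀ ⊆ ℚ((q))` and `b ≠ 0`, then `x ∈ K₀`;
* `isIntegral_of_hat`: if `x̂` is a root of a monic polynomial with coefficients in the `ℂ`-span of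
  a `ℚ`-subalgebra `R₀ ⊆ ℚ((q))`, then `x` is integral over `R₀`.
-/

set_option autoImplicit false

noncomputable section

namespace H23Q

open ModularCurve

/-- the coefficient embedding `ℚ((q)) → ℂ((q))` -/
abbrev hatQ : LaurentSeries ℚ →+* LaurentSeries ℂ := coeffMap (algebraMap ℚ ℂ)

/-- coefficientwise application of a `ℚ`-linear functional -/
def lamMap (l : ℂ →ₗ[ℚ] ℚ) (y : LaurentSeries ℂ) : LaurentSeries ℚ := y.map l

@[simp] theorem lamMap_coeff (l : ℂ →ₗ[ℚ] ℚ) (y : LaurentSeries ℂ) (k : ℤ) :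
    (lamMap l y).coeff k = l (y.coeff k) := rfl

theorem lamMap_add (l : ℂ →ₗ[ℚ] ℚ) (y z : LaurentSeries ℂ) :
    lamMap l (y + z) = lamMap l y + lamMap l z := by
  ext k
  simp

@[simp] theorem lamMap_zero (l : ℂ →ₗ[ℚ] ℚ) : lamMap l 0 = 0 := by
  ext k
  simp

theorem lamMap_sum {ι : Type*} (l : ℂ →ₗ[ℚ] ℚ) (s : Finset ι) (f : ι → LaurentSeries ℂ) :
    lamMap l (∑ i ∈ s, f i) = ∑ i ∈ s, lamMap l (f i) := by
  classical
  induction s using Finset.induction_on with
  | empty => simp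
  | insert i s hi ih => rw [Finset.sum_insert hi, Finset.sum_insert hi, lamMap_add, ih]

theorem support_hatQ_subset (w : LaurentSeries ℚ) : (hatQ w).support ⊆ w.support := by
  intro k hk
  rw [HahnSeries.mem_support] at hk ⊢
  intro h0
  apply hk
  rw [coeffMap_coeff, h0, map_zero]

theorem support_lamMap_subset (l : ℂ →ₗ[ℚ] ℚ) (y : LaurentSeries ℂ) :
    (lamMap l y).support ⊆ y.support := by
  intro k hk
  rw [HahnSeries.mem_support] at hk ⊢
  intro h0
  apply hk
  rw [lamMap_coeff, h0, map_zero]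

/-- `lamMap l` is `ℚ((q))`-linear. -/
theorem lamMap_hat_mul (l : ℂ →ₗ[ℚ] ℚ) (w : LaurentSeries ℚ) (y : LaurentSeries ℂ) :
    lamMap l (hatQ w * y) = w * lamMap l y := by
  ext a
  rw [lamMap_coeff, HahnSeries.coeff_mul_left' w.isPWO_support (support_hatQ_subset w),
    HahnSeries.coeff_mul_right' y.isPWO_support (support_lamMap_subset l y), map_sum]
  refine Finset.sum_congr rfl fun ij _ => ?_
  rw [coeffMap_coeff, lamMap_coeff]
  have : (algebraMap ℚ ℂ) (w.coeff ij.1) * y.coeff ij.2 = (w.coeff ij.1) • y.coeff ij.2 := by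
    rw [Algebra.smul_def]
  rw [this, map_smul, smul_eq_mul]

theorem lamMap_mul_hat (l : ℂ →ₗ[ℚ] ℚ) (w : LaurentSeries ℚ) (y : LaurentSeries ℂ) :
    lamMap l (y * hatQ w) = lamMap l y * w := by
  rw [mul_comm, lamMap_hat_mul, mul_comm]

theorem lamMap_one (l : ℂ →ₗ[ℚ] ℚ) (h1 : l 1 = 1) : lamMap l 1 = 1 := by
  ext k
  rw [lamMap_coeff, HahnSeries.coeff_one, HahnSeries.coeff_one]
  split_ifs with h
  · exact h1
  · exact map_zero l

theorem lamMap_hat (l : ℂ →ₗ[ℚ] ℚ) (h1 : l 1 = 1) (w : LaurentSeries ℚ) :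
    lamMap l (hatQ w) = w := by
  have := lamMap_hat_mul l w 1
  rwa [mul_one, lamMap_one l h1, mul_one] at this

/-- scalar multiplication by a complex number turns into a change of the functional -/
theorem lamMap_smul (l : ℂ →ₗ[ℚ] ℚ) (c : ℂ) (y : LaurentSeries ℂ) :
    lamMap l (c • y) = lamMap (l.comp (LinearMap.mulLeft ℚ c)) y := by
  ext k
  simp

theorem lamMap_hat_eq (l : ℂ →ₗ[ℚ] ℚ) (w : LaurentSeries ℚ) :
    lamMap l (hatQ w) = HahnSeries.C (l 1) * w := by
  ext k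
  rw [lamMap_coeff, coeffMap_coeff, HahnSeries.C_apply, HahnSeries.coeff_single_zero_mul]
  have : (algebraMap ℚ ℂ) (w.coeff k) = (w.coeff k) • (1 : ℂ) := by
    rw [Algebra.smul_def, mul_one]
  rw [this, map_smul, smul_eq_mul, mul_comm]

/-- `lamMap l` maps the `ℂ`-span of the image of a set `V` into `V`, if `V` is closed under
addition and multiplication by rational constants. -/
theorem lamMap_mem_of_mem_span (V : Set (LaurentSeries ℚ)) (h0 : (0 : LaurentSeries ℚ) ∈ V)
    (hadd : ∀ a b, a ∈ V → b ∈ V → a + b ∈ V)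
    (hmul : ∀ (c : ℚ) (a : LaurentSeries ℚ), a ∈ V → HahnSeries.C c * a ∈ V)
    {y : LaurentSeries ℂ}
    (hy : y ∈ Submodule.span ℂ (hatQ '' V)) :
    ∀ l : ℂ →ₗ[ℚ] ℚ, lamMap l y ∈ V := by
  induction hy using Submodule.span_induction with
  | mem y hy =>
    intro l
    obtain ⟨w, hw, rfl⟩ := hy
    rw [lamMap_hat_eq]
    exact hmul _ _ hw
  | zero => intro l; rw [lamMap_zero]; exact h0
  | add y z _ _ hy hz => intro l; rw [lamMap_add]; exact hadd _ _ (hy l) (hz l)
  | smul c y _ hy => intro l; rw [lamMap_smul]; exact hy _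

theorem C_eq_algebraMap (c : ℚ) :
    (HahnSeries.C c : LaurentSeries ℚ) = algebraMap ℚ (LaurentSeries ℚ) c := by
  rw [algebraMap_laurentSeries_eq_single]
  rfl

/-- existence of a `ℚ`-linear functional with a prescribed nonzero value -/
theorem exists_functional {c : ℂ} (hc : c ≠ 0) : ∃ l : ℂ →ₗ[ℚ] ℚ, l c ≠ 0 := by
  by_contra h
  rw [not_exists] at h
  apply hc
  rw [← Module.forall_dual_apply_eq_zero_iff ℚ c]
  intro f
  exact not_not.mp (h f)

theorem exists_functional_one : ∃ l : ℂ →ₗ[ℚ] ℚ, l 1 = 1 := by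
  obtain ⟨l, hl⟩ := exists_functional (one_ne_zero : (1 : ℂ) ≠ 0)
  refine ⟨(l 1)⁻¹ • l, ?_⟩
  rw [LinearMap.smul_apply, smul_eq_mul, inv_mul_cancel₀ hl]

/-- **Descent of field membership.** -/
theorem mem_of_hat_mul_eq (K₀ : IntermediateField ℚ (LaurentSeries ℚ)) (x : LaurentSeries ℚ)
    (a b : LaurentSeries ℂ)
    (ha : a ∈ Submodule.span ℂ (hatQ '' (K₀ : Set (LaurentSeries ℚ))))
    (hb : b ∈ Submodule.span ℂ (hatQ '' (K₀ : Set (LaurentSeries ℚ))))
    (hb0 : b ≠ 0) (h : hatQ x * b = a) : x ∈ K₀ := by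
  obtain ⟨k, hk⟩ : ∃ k, b.coeff k ≠ 0 := by
    by_contra h0
    rw [not_exists] at h0
    apply hb0
    ext k
    rw [HahnSeries.coeff_zero]
    exact not_not.mp (h0 k)
  obtain ⟨l, hl⟩ := exists_functional hk
  have hK : ∀ (c : ℚ) (w : LaurentSeries ℚ), w ∈ (K₀ : Set (LaurentSeries ℚ)) →
      HahnSeries.C c * w ∈ (K₀ : Set (LaurentSeries ℚ)) := fun c w hw => by
    rw [C_eq_algebraMap]
    exact K₀.mul_mem (K₀.algebraMap_mem c) hw
  have hA : lamMap l a ∈ K₀ :=
    lamMap_mem_of_mem_span (K₀ : Set (LaurentSeries ℚ)) K₀.zero_mem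
      (fun _ _ h1 h2 => K₀.add_mem h1 h2) hK ha l
  have hB : lamMap l b ∈ K₀ :=
    lamMap_mem_of_mem_span (K₀ : Set (LaurentSeries ℚ)) K₀.zero_mem
      (fun _ _ h1 h2 => K₀.add_mem h1 h2) hK hb l
  have hB0 : lamMap l b ≠ 0 := by
    intro h0
    apply hl
    have := congrArg (fun z : LaurentSeries ℚ => z.coeff k) h0
    simpa using this
  have hx : x * lamMap l b = lamMap l a := by rw [← lamMap_hat_mul, h]
  have hx' : x = lamMap l a / lamMap l b := by
    rw [eq_div_iff hB0, hx]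
  rw [hx']
  exact K₀.div_mem hA hB

/-- **Descent of integrality.** -/
theorem isIntegral_of_hat (R₀ : Subalgebra ℚ (LaurentSeries ℚ)) (x : LaurentSeries ℚ)
    (p : Polynomial (LaurentSeries ℂ)) (hp : p.Monic)
    (hc : ∀ i, p.coeff i ∈ Submodule.span ℂ (hatQ '' (R₀ : Set (LaurentSeries ℚ))))
    (h0 : p.eval (hatQ x) = 0) : IsIntegral R₀ x := by
  obtain ⟨l, hl⟩ := exists_functional_one
  set n := p.natDegree with hn
  have hR : ∀ (c : ℚ) (w : LaurentSeries ℚ), w ∈ (R₀ : Set (LaurentSeries ℚ)) →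
      HahnSeries.C c * w ∈ (R₀ : Set (LaurentSeries ℚ)) := fun c w hw => by
    rw [C_eq_algebraMap]
    exact R₀.mul_mem (R₀.algebraMap_mem c) hw
  have hmem : ∀ i, lamMap l (p.coeff i) ∈ R₀ := fun i =>
    lamMap_mem_of_mem_span (R₀ : Set (LaurentSeries ℚ)) R₀.zero_mem
      (fun _ _ h1 h2 => R₀.add_mem h1 h2) hR (hc i) l
  -- the descended polynomial
  set r : Polynomial R₀ :=
    ∑ i ∈ Finset.range n, Polynomial.C (⟨lamMap l (p.coeff i), hmem i⟩ : R₀) * Polynomial.X ^ i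
    with hr
  have hdeg : r.degree < n := by
    rw [Polynomial.degree_lt_iff_coeff_zero]
    intro m hm
    rw [hr, Polynomial.finsetSum_coeff]
    refine Finset.sum_eq_zero fun i hi => ?_
    rw [Polynomial.coeff_C_mul_X_pow, if_neg]
    have := Finset.mem_range.mp hi
    omega
  refine ⟨Polynomial.X ^ n + r, Polynomial.monic_X_pow_add hdeg, ?_⟩
  -- evaluation
  have hev : p.eval (hatQ x) =
      (hatQ x) ^ n + ∑ i ∈ Finset.range n, p.coeff i * (hatQ x) ^ i := by
    rw [Polynomial.eval_eq_sum_range, Finset.sum_range_succ, ← hn, hp.coeff_natDegree, one_mul,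
      add_comm]
  rw [hev] at h0
  have h1 := congrArg (lamMap l) h0
  rw [lamMap_add, lamMap_zero, lamMap_sum, ← map_pow, lamMap_hat l hl] at h1
  rw [Polynomial.eval₂_add, Polynomial.eval₂_X_pow, hr, Polynomial.eval₂_finsetSum]
  rw [← h1]
  congr 1
  refine Finset.sum_congr rfl fun i _ => ?_
  rw [Polynomial.eval₂_mul, Polynomial.eval₂_C, Polynomial.eval₂_X_pow, ← map_pow,
    lamMap_mul_hat]
  rfl

/-! ### Producing elements of the span -/

theorem hat_mem_span (V : Set (LaurentSeries ℚ)) {w : LaurentSeries ℚ} (hw : w ∈ V) :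
    hatQ w ∈ Submodule.span ℂ (hatQ '' V) :=
  Submodule.subset_span ⟨w, hw, rfl⟩

theorem span_mul_hat (S : Subalgebra ℚ (LaurentSeries ℚ)) {y : LaurentSeries ℂ}
    (hy : y ∈ Submodule.span ℂ (hatQ '' (S : Set (LaurentSeries ℚ))))
    {w : LaurentSeries ℚ} (hw : w ∈ S) :
    y * hatQ w ∈ Submodule.span ℂ (hatQ '' (S : Set (LaurentSeries ℚ))) := by
  induction hy using Submodule.span_induction with
  | mem y hy =>
    obtain ⟨v, hv, rfl⟩ := hy
    rw [← map_mul]
    exact hat_mem_span _ (S.mul_mem hv hw)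
  | zero => rw [zero_mul]; exact Submodule.zero_mem _
  | add y z _ _ hy hz => rw [add_mul]; exact Submodule.add_mem _ hy hz
  | smul c y _ hy =>
    have h1 : c • y * hatQ w = c • (y * hatQ w) := by
      rw [← HahnSeries.C_mul_eq_smul, ← HahnSeries.C_mul_eq_smul, mul_assoc]
    rw [h1]
    exact Submodule.smul_mem _ c hy

theorem C_mem_span (S : Subalgebra ℚ (LaurentSeries ℚ)) (c : ℂ) :
    (HahnSeries.C c : LaurentSeries ℂ) ∈ Submodule.span ℂ (hatQ '' (S : Set (LaurentSeries ℚ))) := by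
  have h1 : (HahnSeries.C c : LaurentSeries ℂ) = c • hatQ 1 := by
    rw [map_one, ← HahnSeries.C_mul_eq_smul, mul_one]
  rw [h1]
  exact Submodule.smul_mem _ c (hat_mem_span _ S.one_mem)

/-- polynomial expressions (complex coefficients) in elements of `S` lie in the span -/
theorem mvEval₂_mem_span (S : Subalgebra ℚ (LaurentSeries ℚ)) {ι : Type*}
    (w : ι → LaurentSeries ℚ) (hw : ∀ i, w i ∈ S) (P : MvPolynomial ι ℂ) :
    MvPolynomial.eval₂ (HahnSeries.C : ℂ →+* LaurentSeries ℂ) (fun i => hatQ (w i)) P ∈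
      Submodule.span ℂ (hatQ '' (S : Set (LaurentSeries ℚ))) := by
  induction P using MvPolynomial.induction_on with
  | C a => rw [MvPolynomial.eval₂_C]; exact C_mem_span S a
  | add p q hp hq => rw [MvPolynomial.eval₂_add]; exact Submodule.add_mem _ hp hq
  | mul_X p i hp =>
    rw [MvPolynomial.eval₂_mul, MvPolynomial.eval₂_X]
    exact span_mul_hat S hp (hw i)

theorem eval₂_mem_span (S : Subalgebra ℚ (LaurentSeries ℚ)) {w : LaurentSeries ℚ} (hw : w ∈ S)
    (P : Polynomial ℂ) :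
    Polynomial.eval₂ (HahnSeries.C : ℂ →+* LaurentSeries ℂ) (hatQ w) P ∈
      Submodule.span ℂ (hatQ '' (S : Set (LaurentSeries ℚ))) := by
  induction P using Polynomial.induction_on' with
  | add p q hp hq => rw [Polynomial.eval₂_add]; exact Submodule.add_mem _ hp hq
  | monomial n a =>
    rw [Polynomial.eval₂_monomial, ← map_pow]
    exact span_mul_hat S (C_mem_span S a) (S.pow_mem hw n)

end H23Q

end
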