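import Fermat.Agent.S24.BJ3
import Fermat.Agent.S24.BA12
import Fermat.Agent.S24.BJ12
import Fermat.Agent.S16.H12B2Key
import Fermat.Agent.S16.DescQ_helper23

/-!
# S16 BRIDGE, slice BR-W (helper11): the Fricke involution `W_N` on the function field `F_N`

* `h11w_sigma N : F_N →+* F_N` with `σ (j(q^d)) = j(q^{N/d})` (in particular `σ j = j(q^N)`),
  characterised by `hatQ (σ x) = φ_W (x̄)`;
* `h11w_realise` : compatibility with the analytic substitution `z ↦ W_N z = -1/(N z)`:
  if `x ∈ F_N` is the `q`-series of `A/B` (`A`, `B` nice, `B` nowhere zero) and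
  `(A/B) ∘ W_N = A'/B'`, then `σ x` is the `q`-series of `A'/B'`;
* `h11w_slash` : for `K` of weight `12 k` on `Γ₀(N)` with `x = K/Δ^k`:
  `q-series (K ∣[12k] W_N) = N^(12k-1) · σ(x) · Δ(q^N)^k` (so it is rational).
-/

set_option autoImplicit false
set_option linter.style.longLine false
set_option linter.unusedVariables false
set_option linter.unusedSectionVars false
set_option linter.style.haveILetI false

noncomputable section

open UpperHalfPlane ModularForm MatrixGroups CongruenceSubgroup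
open H23 H23.Rel H23M ModularCurve H28S28 RH24
open scoped Manifold

namespace H11BR

variable (N : ℕ) [NeZero N]

/-- the swap `d ↦ N / d` on divisors of `N` -/
def h11w_swap : Dv N → Dv N := fun d => ⟨N / d.1, Nat.div_dvd_of_dvd d.2⟩

omit [NeZero N] in
@[simp] theorem h11w_swap_val (d : Dv N) : (h11w_swap N d).1 = N / d.1 := rfl

theorem h11w_swap_swap (d : Dv N) : h11w_swap N (h11w_swap N d) = d := by
  apply Subtype.ext
  show N / (N / d.1) = d.1
  exact Nat.div_div_self d.2 (NeZero.ne N)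

theorem h11w_mul_swap (d : Dv N) : d.1 * (N / d.1) = N := Nat.mul_div_cancel' d.2

/-- `W_N z = -1/(N z)` -/
theorem h11w_coe_Wp_smul (z : ℍ) : ((H12B2.Wp N • z : ℍ) : ℂ) = -1 / ((N : ℂ) * z) := by
  rw [UpperHalfPlane.coe_smul_of_det_pos (H12B2.det_Wp_pos N)]
  simp [UpperHalfPlane.num, UpperHalfPlane.denom]

theorem h11w_jf_neg_inv (w w' : ℍ) (h : (w' : ℂ) = -1 / (w : ℂ)) : RH24.jf w' = RH24.jf w := by
  have h1 : w' = ModularGroup.S • w := by
    apply UpperHalfPlane.ext
    rw [h, UpperHalfPlane.modular_S_smul]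
    simp [div_eq_mul_inv]
  rw [h1]
  exact RH24.jf_smul ModularGroup.S w

/-- `j(d · W_N z) = j((N/d) z)` -/
theorem h11w_jd_Wp (d : Dv N) (z : ℍ) : jd d.1 (H12B2.Wp N • z) = jd (N / d.1) z := by
  have hd0 : d.1 ≠ 0 := Dv_ne_zero d
  have hs0 : N / d.1 ≠ 0 := Dv_ne_zero (h11w_swap N d)
  have hN : (N : ℂ) ≠ 0 := by exact_mod_cast NeZero.ne N
  unfold jd
  apply h11w_jf_neg_inv
  rw [ModularForm.coe_heckeDiagMatrix_smul hd0, h11w_coe_Wp_smul,
    ModularForm.coe_heckeDiagMatrix_smul hs0]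
  have hcast : ((d.1 : ℂ)) * ((N / d.1 : ℕ) : ℂ) = (N : ℂ) := by
    exact_mod_cast h11w_mul_swap N d
  have hz : (z : ℂ) ≠ 0 := UpperHalfPlane.ne_zero z
  have hd0' : (d.1 : ℂ) ≠ 0 := by exact_mod_cast hd0
  have hs0' : ((N / d.1 : ℕ) : ℂ) ≠ 0 := by exact_mod_cast hs0
  rw [← hcast]
  field_simp

/-- evaluation at the swapped analytic generators -/
theorem h11w_eval_rename (P : MvPolynomial (Dv N) ℂ) (z : ℍ) :
    MvPolynomial.eval (fun d : Dv N => jd d.1 z) (MvPolynomial.rename (h11w_swap N) P) =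
      MvPolynomial.eval (fun d : Dv N => jd d.1 (H12B2.Wp N • z)) P := by
  have hfun : ((fun d : Dv N => jd d.1 z) ∘ h11w_swap N) =
      fun d : Dv N => jd d.1 (H12B2.Wp N • z) := by
    funext d
    simp only [Function.comp_apply, h11w_swap_val]
    rw [h11w_jd_Wp]
  rw [MvPolynomial.eval_rename, hfun]

theorem h11w_rename_rename (P : MvPolynomial (Dv N) ℂ) :
    MvPolynomial.rename (h11w_swap N) (MvPolynomial.rename (h11w_swap N) P) = P := by
  rw [MvPolynomial.rename_rename]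
  have : h11w_swap N ∘ h11w_swap N = id := by
    funext d
    exact h11w_swap_swap N d
  rw [this, MvPolynomial.rename_id_apply]

theorem h11w_formal_swap_imp (P : MvPolynomial (Dv N) ℂ) (h : formalEval N P = 0) :
    formalEval N (MvPolynomial.rename (h11w_swap N) P) = 0 := by
  rw [qexp_principle] at h ⊢
  intro z
  rw [h11w_eval_rename]
  exact h _

/-- a formal relation holds iff the swapped one holds -/
theorem h11w_formal_swap (P : MvPolynomial (Dv N) ℂ) :
    formalEval N P = 0 ↔ formalEval N (MvPolynomial.rename (h11w_swap N) P) = 0 := by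
  constructor
  · exact h11w_formal_swap_imp N P
  · intro h
    have := h11w_formal_swap_imp N _ h
    rwa [h11w_rename_rename] at this

theorem h11w_exists_phiW :
    ∃ φ : ModularCurve.modularFunctionFieldBar N →+* LaurentSeries ℂ,
      (∀ d, φ (Jgen d) = JC (h11w_swap N d)) ∧
      ∀ c : Kbar, φ (algebraMap Kbar _ c) = algebraMap ℂ (LaurentSeries ℂ) (iota c) := by
  refine exists_real N (algebraMap ℂ (LaurentSeries ℂ)) (fun d => JC (h11w_swap N d)) ?_
  intro P
  rw [h11w_formal_swap]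
  have : MvPolynomial.eval₂ (algebraMap ℂ (LaurentSeries ℂ)) (fun d => JC (h11w_swap N d)) P =
      formalEval N (MvPolynomial.rename (h11w_swap N) P) := by
    unfold formalEval
    rw [MvPolynomial.aeval_rename]
    rfl
  rw [this]

/-- the swapped realisation `F̄_N → ℂ((q))`, `j(q^d) ↦ j(q^{N/d})` -/
def h11w_phiW : ModularCurve.modularFunctionFieldBar N →+* LaurentSeries ℂ :=
  (h11w_exists_phiW N).choose

theorem h11w_phiW_Jgen (d : Dv N) : h11w_phiW N (Jgen d) = JC (h11w_swap N d) :=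
  (h11w_exists_phiW N).choose_spec.1 d

theorem h11w_phiW_const (c : Kbar) :
    h11w_phiW N (algebraMap Kbar _ c) = algebraMap ℂ (LaurentSeries ℂ) (iota c) :=
  (h11w_exists_phiW N).choose_spec.2 c

/-! ### The involution `σ` of `F_N` -/

/-- the embedding `F_N → F̄_N` -/
def h11w_emb : ↥(modularFunctionFieldFull N) →+* ModularCurve.modularFunctionFieldBar N where
  toFun x := ⟨coeffEmb Kbar (x : LaurentSeries ℚ), coeffEmb_mem_laurentBaseChange _ x.2⟩
  map_one' := Subtype.ext (map_one (coeffEmb Kbar))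
  map_mul' x y := Subtype.ext (map_mul (coeffEmb Kbar) _ _)
  map_zero' := Subtype.ext (map_zero (coeffEmb Kbar))
  map_add' x y := Subtype.ext (map_add (coeffEmb Kbar) _ _)

omit [NeZero N] in
theorem h11w_emb_coe (x : ↥(modularFunctionFieldFull N)) :
    ((h11w_emb N x : ModularCurve.modularFunctionFieldBar N) : LaurentSeries Kbar) =
      coeffEmb Kbar (x : LaurentSeries ℚ) := rfl

/-- `τ = φ_W ∘ emb : F_N → ℂ((q))` -/
def h11w_tau : ↥(modularFunctionFieldFull N) →+* LaurentSeries ℂ :=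
  (h11w_phiW N).comp (h11w_emb N)

/-- `ρ = hatQ` on `F_N` -/
def h11w_rho : ↥(modularFunctionFieldFull N) →+* LaurentSeries ℂ :=
  (H23Q.hatQ).comp (algebraMap ↥(modularFunctionFieldFull N) (LaurentSeries ℚ))

omit [NeZero N] in
theorem h11w_rho_apply (x : ↥(modularFunctionFieldFull N)) :
    h11w_rho N x = H23Q.hatQ (x : LaurentSeries ℚ) := rfl

theorem h11w_hatQ_injective : Function.Injective (H23Q.hatQ) := by
  intro x y h
  ext k
  apply (algebraMap ℚ ℂ).injective
  have := congrArg (fun z : LaurentSeries ℂ => z.coeff k) h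
  simpa using this

omit [NeZero N] in
theorem h11w_rho_injective : Function.Injective (h11w_rho N) := by
  intro x y h
  exact Subtype.ext (h11w_hatQ_injective h)

theorem h11w_hatQ_jd (d : ℕ) [NeZero d] :
    H23Q.hatQ (qExpand ℚ d jq) = qExpand ℂ d (jqModC ℂ) := by
  show coeffMap (algebraMap ℚ ℂ) (qExpand ℚ d jq) = _
  rw [coeffMap_qExpand, ← jqModC_rat, coeffMap_jqModC]

theorem h11w_tau_jd (d : ℕ) [NeZero d] (hd : d ∣ N) [NeZero (N / d)] :
    h11w_tau N ⟨qExpand ℚ d jq, jqd_mem_full N hd⟩ = qExpand ℂ (N / d) (jqModC ℂ) := by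
  have h1 : h11w_emb N ⟨qExpand ℚ d jq, jqd_mem_full N hd⟩ = Jgen (⟨d, hd⟩ : Dv N) :=
    Subtype.ext rfl
  show h11w_phiW N (h11w_emb N _) = _
  rw [h1, h11w_phiW_Jgen]
  rfl

theorem h11w_iota_rat (c : ℚ) : iota (algebraMap ℚ Kbar c) = algebraMap ℚ ℂ c := by
  unfold iota
  exact (complexEmbedding).commutes c

theorem h11w_tau_algebraMap (c : ℚ) :
    h11w_tau N (algebraMap ℚ ↥(modularFunctionFieldFull N) c) =
      algebraMap ℂ (LaurentSeries ℂ) (algebraMap ℚ ℂ c) := by
  have h1 : h11w_emb N (algebraMap ℚ ↥(modularFunctionFieldFull N) c) =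
      algebraMap Kbar (ModularCurve.modularFunctionFieldBar N) (algebraMap ℚ Kbar c) := by
    apply Subtype.ext
    rw [h11w_emb_coe]
    have hc : ((algebraMap ℚ ↥(modularFunctionFieldFull N) c : ↥(modularFunctionFieldFull N)) :
        LaurentSeries ℚ) = algebraMap ℚ (LaurentSeries ℚ) c := by simp
    rw [hc, h22b_coeffEmb_algebraMap c]
    rfl
  show h11w_phiW N (h11w_emb N _) = _
  rw [h1, h11w_phiW_const, h11w_iota_rat]

omit [NeZero N] in
theorem h11w_rho_algebraMap (c : ℚ) :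
    h11w_rho N (algebraMap ℚ ↥(modularFunctionFieldFull N) c) =
      algebraMap ℂ (LaurentSeries ℂ) (algebraMap ℚ ℂ c) := by
  rw [h11w_rho_apply]
  have hc : ((algebraMap ℚ ↥(modularFunctionFieldFull N) c : ↥(modularFunctionFieldFull N)) :
      LaurentSeries ℚ) = algebraMap ℚ (LaurentSeries ℚ) c := by simp
  rw [hc]
  show coeffMap (algebraMap ℚ ℂ) (algebraMap ℚ (LaurentSeries ℚ) c) = _
  rw [algebraMap_laurentSeries_eq_single, algebraMap_laurentSeries_eq_single, coeffMap_single]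

/-- the range of `τ` is contained in the range of `ρ` -/
theorem h11w_tau_mem_range (x : ↥(modularFunctionFieldFull N)) :
    h11w_tau N x ∈ (h11w_rho N).range := by
  obtain ⟨x, hx⟩ := x
  have hx' : x ∈ IntermediateField.adjoin ℚ (divisorExpansions N) := hx
  induction hx' using IntermediateField.adjoin_induction with
  | mem y hy =>
    obtain ⟨d, hne, hdvd, rfl⟩ := hy
    haveI := hne
    haveI : NeZero (N / d) := ⟨Dv_ne_zero (h11w_swap N ⟨d, hdvd⟩)⟩
    refine ⟨⟨qExpand ℚ (N / d) jq, jqd_mem_full N (Nat.div_dvd_of_dvd hdvd)⟩, ?_⟩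
    rw [h11w_rho_apply, h11w_hatQ_jd]
    exact (h11w_tau_jd N d hdvd).symm
  | algebraMap c =>
    refine ⟨algebraMap ℚ ↥(modularFunctionFieldFull N) c, ?_⟩
    rw [h11w_rho_algebraMap]
    have h2 := (h11w_tau_algebraMap N c).symm
    have hx_eq : (⟨algebraMap ℚ (LaurentSeries ℚ) c, hx⟩ : ↥(modularFunctionFieldFull N)) =
        algebraMap ℚ ↥(modularFunctionFieldFull N) c := Subtype.ext (by simp)
    rw [hx_eq]
    exact h2
  | add a b ha hb iha ihb =>
    obtain ⟨ya, hya⟩ := iha ha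
    obtain ⟨yb, hyb⟩ := ihb hb
    refine ⟨ya + yb, ?_⟩
    rw [map_add, hya, hyb, ← map_add]
    rfl
  | inv a ha iha =>
    obtain ⟨ya, hya⟩ := iha ha
    refine ⟨ya⁻¹, ?_⟩
    rw [map_inv₀, hya, ← map_inv₀]
    rfl
  | mul a b ha hb iha ihb =>
    obtain ⟨ya, hya⟩ := iha ha
    obtain ⟨yb, hyb⟩ := ihb hb
    refine ⟨ya * yb, ?_⟩
    rw [map_mul, hya, hyb, ← map_mul]
    rfl

/-- `F_N ≃ range ρ` -/
def h11w_rhoEquiv : ↥(modularFunctionFieldFull N) ≃+* (h11w_rho N).range :=
  RingEquiv.ofBijective (h11w_rho N).rangeRestrict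
    ⟨fun x y h => h11w_rho_injective N (congrArg Subtype.val h),
      (h11w_rho N).rangeRestrict_surjective⟩

/-- **the Fricke involution** `σ = W_N^*` of `F_N` -/
def h11w_sigma : ↥(modularFunctionFieldFull N) →+* ↥(modularFunctionFieldFull N) :=
  (h11w_rhoEquiv N).symm.toRingHom.comp
    ((h11w_tau N).codRestrict (h11w_rho N).range (h11w_tau_mem_range N))

/-- characterisation of `σ` -/
theorem h11w_hatQ_sigma (x : ↥(modularFunctionFieldFull N)) :
    H23Q.hatQ ((h11w_sigma N x : ↥(modularFunctionFieldFull N)) : LaurentSeries ℚ) =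
      h11w_phiW N (h11w_emb N x) := by
  have h := (h11w_rhoEquiv N).apply_symm_apply
    ((h11w_tau N).codRestrict (h11w_rho N).range (h11w_tau_mem_range N) x)
  have h' := congrArg Subtype.val h
  exact h'

/-- `σ (j(q^d)) = j(q^{N/d})` -/
theorem h11w_sigma_jd (d : ℕ) [NeZero d] (hd : d ∣ N) [NeZero (N / d)] :
    ((h11w_sigma N ⟨qExpand ℚ d jq, jqd_mem_full N hd⟩ : ↥(modularFunctionFieldFull N)) :
      LaurentSeries ℚ) = qExpand ℚ (N / d) jq := by
  apply h11w_hatQ_injective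
  rw [h11w_hatQ_sigma, h11w_hatQ_jd]
  exact h11w_tau_jd N d hd

/-- **(W1)** `σ j = j(q^N)` -/
theorem h11w_sigma_jFull :
    ((h11w_sigma N (IgusaScheme.jFull N) : ↥(modularFunctionFieldFull N)) : LaurentSeries ℚ) =
      qExpand ℚ N jq := by
  haveI : NeZero (N / 1) := ⟨by rw [Nat.div_one]; exact NeZero.ne N⟩
  have h := h11w_sigma_jd N 1 (one_dvd N)
  have h1 : (⟨qExpand ℚ 1 jq, jqd_mem_full N (one_dvd N)⟩ : ↥(modularFunctionFieldFull N)) =
      IgusaScheme.jFull N := by
    apply Subtype.ext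
    show qExpand ℚ 1 jq = jq
    rw [qExpand_one_apply]
  rw [h1] at h
  rw [h]
  exact qExpand_congr (Nat.div_one N) jq

/-- `σ (j(q^N)) = j` -/
theorem h11w_sigma_jN :
    ((h11w_sigma N ⟨qExpand ℚ N jq, jqd_mem_full N dvd_rfl⟩ : ↥(modularFunctionFieldFull N)) :
      LaurentSeries ℚ) = jq := by
  haveI : NeZero (N / N) := ⟨by rw [Nat.div_self (Nat.pos_of_ne_zero (NeZero.ne N))]; exact one_ne_zero⟩
  rw [h11w_sigma_jd N N dvd_rfl]
  rw [qExpand_congr (Nat.div_self (Nat.pos_of_ne_zero (NeZero.ne N))) jq, qExpand_one_apply]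

end H11BR

end
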