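import Fermat.Agent.S16.A_CFormal_helper23
import Fermat.Agent.S16.BridgeW_helper11
import Fermat.Agent.S16.A_CRoot_helper23
import Fermat.Agent.S16.H13BridgeE

/-!
# S16 (A), slice C, formal half, unconditional (helper23)

With helper11's `σ = H11BR.h11w_sigma p : F_p → F_p` (swap of `j(q)` and `j(q^p)`):

* `h23cf_sigma_u'`: `σ(u) · u · p^12 = 1` for `u = Δ(q^p)/Δ(q)`;
* `h23cf_dvd_twelve'`: `x ∈ F_p`, `x ^ e = u`  ⟹  `e ∣ 12`.
-/

set_option autoImplicit false
set_option linter.style.longLine false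
set_option linter.style.haveILetI false

open ModularCurve H28S28

noncomputable section

namespace H23CF

variable (p : ℕ) [Fact p.Prime]

/-- helper11's `σ`, composed with the inclusion `F_p ⊆ ℚ((q))` -/
def h23cf_sigma : ↥(modularFunctionFieldFull p) →+* LaurentSeries ℚ :=
  haveI : NeZero p := ⟨(Fact.out : p.Prime).ne_zero⟩
  (h28incl p).comp (H11BR.h11w_sigma p)

theorem h23cf_sigma_J : h23cf_sigma p (h23cf_J p) = qExpand ℚ p jq := by
  haveI : NeZero p := ⟨(Fact.out : p.Prime).ne_zero⟩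
  exact H11BR.h11w_sigma_jFull p

theorem h23cf_sigma_Jp : h23cf_sigma p (h23cf_Jp p) = jq := by
  haveI : NeZero p := ⟨(Fact.out : p.Prime).ne_zero⟩
  exact H11BR.h11w_sigma_jN p

/-- **(F1), unconditional** -/
theorem h23cf_sigma_u' :
    h23cf_sigma p ⟨h23cf_u p, h23cf_u_mem p⟩ * h23cf_u p * (p : LaurentSeries ℚ) ^ 12 = 1 :=
  h23cf_sigma_u p (h23cf_sigma p) (h23cf_sigma_J p) (h23cf_sigma_Jp p)

/-- **(F2), unconditional**: an `e`-th root in `F_p` of the modular unit `Δ(q^p)/Δ(q)` exists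
only if `e ∣ 12`. -/
theorem h23cf_dvd_twelve' (x : LaurentSeries ℚ) (hx : x ∈ modularFunctionFieldFull p) (e : ℕ)
    (hxe : x ^ e = h23cf_u p) : e ∣ 12 :=
  h23cf_dvd_twelve p (h23cf_sigma p) (h23cf_sigma_J p) (h23cf_sigma_Jp p) x hx e hxe

section Lead

theorem h23cf_leadingCoeff_of_coeff {A : Type*} [Field A] (y : LaurentSeries A) (n : ℤ)
    (h0 : ∀ k, k < n → y.coeff k = 0) (h1 : y.coeff n = 1) : y.leadingCoeff = 1 := by
  have hne : y.coeff n ≠ 0 := by rw [h1]; exact one_ne_zero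
  have hle : y.order ≤ n := HahnSeries.order_le_of_coeff_ne_zero hne
  have hy : y ≠ 0 := HahnSeries.ne_zero_of_coeff_ne_zero hne
  have hge : n ≤ y.order := by
    by_contra hlt
    rw [not_le] at hlt
    have := h0 _ hlt
    rw [← HahnSeries.leadingCoeff_eq] at this
    exact (HahnSeries.leadingCoeff_ne_zero.mpr hy) this
  rw [HahnSeries.leadingCoeff_eq, le_antisymm hle hge, h1]

theorem h23cf_leadingCoeff_ofPowerSeries (f : PowerSeries ℂ)
    (hf : PowerSeries.constantCoeff f = 1) :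
    (HahnSeries.ofPowerSeries ℤ ℂ f).leadingCoeff = 1 := by
  refine h23cf_leadingCoeff_of_coeff _ 0 ?_ ?_
  · intro k hk
    exact ofPowerSeries_coeff_of_neg f hk
  · have := LaurentSeries.coeff_coe_powerSeries f 0
    rw [Nat.cast_zero] at this
    rw [this, PowerSeries.coeff_zero_eq_constantCoeff_apply, hf]

theorem h23cf_leadingCoeff_qExpand_ofPowerSeries (N : ℕ) [NeZero N] (f : PowerSeries ℂ)
    (hf : PowerSeries.constantCoeff f = 1) :
    (qExpand ℂ N (HahnSeries.ofPowerSeries ℤ ℂ f)).leadingCoeff = 1 := by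
  refine h23cf_leadingCoeff_of_coeff _ 0 ?_ ?_
  · intro k hk
    by_cases hd : (N : ℤ) ∣ k
    · obtain ⟨m, rfl⟩ := hd
      rw [qExpand_coeff_mul]
      refine ofPowerSeries_coeff_of_neg f ?_
      have hN : (0 : ℤ) < N := by exact_mod_cast Nat.pos_of_ne_zero (NeZero.ne N)
      by_contra hm
      rw [not_lt] at hm
      have := mul_nonneg hN.le hm
      omega
    · exact qExpand_coeff_of_not_dvd N _ hd
  · have h := qExpand_coeff_mul (R := ℂ) N (HahnSeries.ofPowerSeries ℤ ℂ f) 0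
    rw [mul_zero] at h
    rw [h]
    have := LaurentSeries.coeff_coe_powerSeries f 0
    rw [Nat.cast_zero] at this
    rw [this, PowerSeries.coeff_zero_eq_constantCoeff_apply, hf]

theorem h23cf_constantCoeff_map_one (f : PowerSeries ℤ) (hf : PowerSeries.constantCoeff f = 1) :
    PowerSeries.constantCoeff (f.map (Int.castRingHom ℂ)) = 1 := by
  rw [← PowerSeries.coeff_zero_eq_constantCoeff_apply, PowerSeries.coeff_map,
    PowerSeries.coeff_zero_eq_constantCoeff_apply, hf, map_one]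

theorem h23cf_leadingCoeff_uNq (N : ℕ) [NeZero N] : (H13Br.uNq N).leadingCoeff = 1 := by
  unfold H13Br.uNq
  rw [HahnSeries.leadingCoeff_mul]
  have h1 : (deltaqInv ℂ).leadingCoeff = 1 := by
    unfold deltaqInv
    rw [HahnSeries.leadingCoeff_mul, HahnSeries.leadingCoeff_of_single, one_mul]
    exact h23cf_leadingCoeff_ofPowerSeries _
      (h23cf_constantCoeff_map_one _ constantCoeff_dedekindEtaUnitInv)
  have h2 : (qExpand ℂ N (deltaq ℂ)).leadingCoeff = 1 := by
    unfold deltaq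
    rw [map_mul, qExpand_single, HahnSeries.leadingCoeff_mul, HahnSeries.leadingCoeff_of_single,
      one_mul]
    exact h23cf_leadingCoeff_qExpand_ofPowerSeries N _
      (h23cf_constantCoeff_map_one _ constantCoeff_dedekindEtaUnit)
  rw [h1, h2, one_mul]

theorem h23cf_leadingCoeff_powC (y : LaurentSeries ℂ) (e : ℕ) :
    (y ^ e).leadingCoeff = y.leadingCoeff ^ e := by
  induction e with
  | zero =>
    rw [pow_zero, pow_zero]
    exact HahnSeries.leadingCoeff_of_single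
  | succ n ih => rw [pow_succ, pow_succ, HahnSeries.leadingCoeff_mul, ih]

end Lead

/-- **(N) normalisation**: an `e`-th root `F ∈ ℂ((q))` of (the `q`-series of) `Δ(q^p)/Δ(q)` is,
up to an `e`-th root of unity, a rational series. -/
theorem h23cf_normalise (F : LaurentSeries ℂ) (e : ℕ) (he : 0 < e)
    (h : F ^ e = (haveI : NeZero p := ⟨(Fact.out : p.Prime).ne_zero⟩; H13Br.uNq p)) :
    ∃ c : ℂ, c ^ e = 1 ∧ ∃ x : LaurentSeries ℚ,
      H23Q.hatQ x = HahnSeries.C c⁻¹ * F ∧ x ^ e = h23cf_u p := by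
  haveI : NeZero p := ⟨(Fact.out : p.Prime).ne_zero⟩
  have hc : F.leadingCoeff ^ e = 1 := by
    rw [← h23cf_leadingCoeff_powC, h, h23cf_leadingCoeff_uNq]
  have hc0 : F.leadingCoeff ≠ 0 := by
    intro h0
    rw [h0, zero_pow he.ne'] at hc
    exact zero_ne_one hc
  refine ⟨F.leadingCoeff, hc, ?_⟩
  have hu : H13Br.uNq p = H23Q.hatQ (h23cf_u p) := (H13Br.hatQ_uN p).symm
  have hF' : (HahnSeries.C F.leadingCoeff⁻¹ * F) ^ e = H23Q.hatQ (h23cf_u p) := by
    rw [mul_pow, ← map_pow, inv_pow, hc, inv_one, map_one, one_mul, h, hu]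
  have hl : (HahnSeries.C F.leadingCoeff⁻¹ * F).leadingCoeff = 1 := by
    rw [HahnSeries.leadingCoeff_mul]
    have : (HahnSeries.C F.leadingCoeff⁻¹ : LaurentSeries ℂ).leadingCoeff = F.leadingCoeff⁻¹ :=
      HahnSeries.leadingCoeff_of_single
    rw [this, inv_mul_cancel₀ hc0]
  exact H23R.h23r_exists_root _ _ e he hF' hl

/-- **Slice C, everything except the construction of the form**: if `K` is a modular form of
weight `12` on `Γ₀(p)` such that the `q`-series `X = K/Δ` has leading coefficient `1` and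
satisfies `X ^ e = Δ(q^p)/Δ(q)`, `e > 0`, then `e ∣ 12`. -/
theorem h23cf_dvd_twelve_of_form
    (K : ModularForm (CongruenceSubgroup.Gamma0 p) (((12 * 1 : ℕ) : ℤ))) (e : ℕ) (he : 0 < e)
    (hKe : (haveI : NeZero p := ⟨(Fact.out : p.Prime).ne_zero⟩; H13Br.Xc p 1 K) ^ e =
      (haveI : NeZero p := ⟨(Fact.out : p.Prime).ne_zero⟩; H13Br.uNq p))
    (hlead : (haveI : NeZero p := ⟨(Fact.out : p.Prime).ne_zero⟩;
      H13Br.Xc p 1 K).leadingCoeff = 1) : e ∣ 12 := by
  haveI : NeZero p := ⟨(Fact.out : p.Prime).ne_zero⟩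
  have hu : H13Br.uNq p = H23Q.hatQ (h23cf_u p) := (H13Br.hatQ_uN p).symm
  rw [hu] at hKe
  obtain ⟨x, hx, hxe⟩ := H23R.h23r_exists_root _ _ e he hKe hlead
  obtain ⟨P, Q, hQ, h⟩ := H13Br.bridge_field p 1 K le_rfl
  have hxmem : x ∈ modularFunctionFieldFull p :=
    H23Q.mem_full_of_rel p _ x (H11BR.h11br_uN_mem p) (H13Br.uNq p) (H13Br.Xc p 1 K)
      (H13Br.hatQ_uN p) hx P Q hQ h
  exact h23cf_dvd_twelve' p x hxmem e hxe

/-- **Slice C, everything except the construction of the form, without normalisation**: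
if `K` is a modular form of weight `12` on `Γ₀(p)` whose `q`-series `X = K/Δ` satisfies
`X ^ e = Δ(q^p)/Δ(q)`, `e > 0`, then `e ∣ 12`. -/
theorem h23cf_dvd_twelve_of_form'
    (K : ModularForm (CongruenceSubgroup.Gamma0 p) (((12 * 1 : ℕ) : ℤ))) (e : ℕ) (he : 0 < e)
    (hKe : (haveI : NeZero p := ⟨(Fact.out : p.Prime).ne_zero⟩; H13Br.Xc p 1 K) ^ e =
      (haveI : NeZero p := ⟨(Fact.out : p.Prime).ne_zero⟩; H13Br.uNq p)) : e ∣ 12 := by
  haveI : NeZero p := ⟨(Fact.out : p.Prime).ne_zero⟩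
  obtain ⟨c, hc, x, hx, hxe⟩ := h23cf_normalise p _ e he hKe
  obtain ⟨P, Q, hQ, h⟩ := H13Br.bridge_field p 1 K le_rfl
  have hrel : (HahnSeries.C c⁻¹ * H13Br.Xc p 1 K) *
      MvPolynomial.aeval ![jqModC ℂ, H13Br.uNq p] Q =
      MvPolynomial.aeval ![jqModC ℂ, H13Br.uNq p] (MvPolynomial.C c⁻¹ * P) := by
    rw [map_mul, MvPolynomial.aeval_C, mul_assoc, h, H23Q.algebraMap_eq_C_complex]
  have hxmem : x ∈ modularFunctionFieldFull p :=
    H23Q.mem_full_of_rel p _ x (H11BR.h11br_uN_mem p) (H13Br.uNq p) _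
      (H13Br.hatQ_uN p) hx _ Q hQ hrel
  exact h23cf_dvd_twelve' p x hxmem e hxe

end H23CF

end
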