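import Fermat.Agent.S16.A_CFormal2_helper23

/-!
# S16 (A), slice C: from the pointwise identity to `e ∣ 12` (helper23)

* `h23cf_Xc_pow`: if `K : ModularForm Γ₀(p) 12` satisfies `K(w)^e = Δ(p w) Δ(w)^(e-1)` on `ℍ`, then
  its `q`-series `X = K/Δ` satisfies `X^e = Δ(q^p)/Δ(q)`;
* `h23cf_dvd_twelve_of_fun`: hence `e ∣ 12`.
-/

set_option autoImplicit false
set_option linter.style.longLine false
set_option linter.style.haveILetI false

open UpperHalfPlane ModularForm H23 H23.Rel H23M ModularCurve H28S28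
open scoped MatrixGroups Manifold Topology Real

noncomputable section

namespace H23CF

theorem h23cf_Xc_pow (N : ℕ) [NeZero N]
    (K : ModularForm (CongruenceSubgroup.Gamma0 N) (((12 * 1 : ℕ) : ℤ))) (e : ℕ) (he : 0 < e)
    (hK : ∀ w : ℍ, K w ^ e =
      ModularForm.discriminant (ModularForm.heckeDiagMatrix N • w) *
        ModularForm.discriminant w ^ (e - 1)) :
    H13Br.Xc N 1 K ^ e = H13Br.uNq N := by
  have hnice : H13Br.Kn N 1 K ^ e = H13Br.Tn N 1 * Dn ^ (e - 1) := by
    apply niceAlg_ext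
    intro w
    rw [map_pow, map_mul, map_pow, H13Br.evw_Tn, Nat.sub_self, pow_zero, mul_one]
    exact hK w
  have hL := congrArg LamA hnice
  rw [map_pow, map_mul, map_pow, H13Br.LamA_Kn, H13Br.LamA_Tn N 1 le_rfl, LamA_apply Dn,
    Lam_Dn qExpansion_disc, pow_one, mul_pow, mul_assoc, ← pow_succ'] at hL
  have he1 : e - 1 + 1 = e := Nat.sub_add_cancel he
  rw [he1] at hL
  exact mul_right_cancel₀ (H13Br.deltaq_pow_ne_zero e) hL

/-- **Slice C from the pointwise identity**: if `K` is a modular form of weight `12` on `Γ₀(p)`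
with `K ^ e = Δ(p ·) Δ ^ (e-1)` on the upper half plane (`e > 0`), then `e ∣ 12`. -/
theorem h23cf_dvd_twelve_of_fun (p : ℕ) [Fact p.Prime]
    (K : ModularForm (CongruenceSubgroup.Gamma0 p) (((12 * 1 : ℕ) : ℤ))) (e : ℕ) (he : 0 < e)
    (hK : ∀ w : ℍ, K w ^ e =
      ModularForm.discriminant (ModularForm.heckeDiagMatrix p • w) *
        ModularForm.discriminant w ^ (e - 1)) : e ∣ 12 :=
  haveI : NeZero p := ⟨(Fact.out : p.Prime).ne_zero⟩
  h23cf_dvd_twelve_of_form' p K e he (h23cf_Xc_pow p K e he hK)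

end H23CF

end
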