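import Fermat.Agent.S16.BridgeU_helper11
import Fermat.Agent.S28.WP3Crux
import Fermat.Agent.S28.ConcreteDefs

/-!
# S16 (A), slice C, formal half (helper23)

`u := Δ(q^p)/Δ(q) ∈ F_p = ℚ(j(q), j(q^p)) ⊆ ℚ((q))`.

* `h23cf_G_rel_swap_int`: the Lagrange relation of `HasModEq p` at the root `j(s)`:
  `G(j(q^p), j(q)) = Δ(q)/Δ(q^p) · (∂Φ/∂X)(j(q^p), j(q))`;
* `h23cf_sigma_u`: for every ring homomorphism `σ : F_p → ℚ((q))` which swaps `j(q)` and `j(q^p)`:
  `σ(u) · u · p^12 = 1`;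
* `h23cf_dvd_twelve`: if moreover `x ∈ F_p` satisfies `x ^ e = u` with `e > 0`, then `e ∣ 12`.
-/

set_option autoImplicit false
set_option linter.style.longLine false
set_option linter.unusedVariables false
set_option linter.unusedSectionVars false
set_option linter.style.haveILetI false

open ModularCurve HahnSeries Polynomial H28S28

noncomputable section

namespace H23CF

section Rel

variable (p : ℕ) [NeZero p] (Φ G : Polynomial (Polynomial ℤ))
  (hΦG : H11BR.h11br_IsModPair p Φ G)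

include hΦG

/-- the Lagrange relation over `ℤ` at the root `j(s)`:
`G(j_p, j) = Δ(q) Δ(q^p)⁻¹ · Φ'(j_p, j)`. -/
theorem h23cf_G_rel_swap_int :
    h10ev2 G (qExpand ℤ p (jqModC ℤ)) (jqModC ℤ) =
      (deltaq ℤ * qExpand ℤ p (deltaqInv ℤ)) *
        h10ev2 (Polynomial.derivative Φ) (qExpand ℤ p (jqModC ℤ)) (jqModC ℤ) := by
  obtain ⟨ζ, hζ⟩ := h10_exists_zeta p
  set i₀ : Option (Fin p) := some ⟨0, Nat.pos_of_ne_zero (NeZero.ne p)⟩ with hi₀
  have hkey : (G.map (baseEval h10Qbar p)).eval (xconj h10Qbar p ζ i₀) =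
      yconj h10Qbar p ζ i₀ *
        (Polynomial.derivative (Φ.map (baseEval h10Qbar p))).eval (xconj h10Qbar p ζ i₀) := by
    rw [(hΦG h10Qbar ζ hζ).2, (hΦG h10Qbar ζ hζ).1, H11BR.h11br_eval_lag,
      H11BR.h11br_eval_deriv]
  set ι : LaurentSeries ℤ →+* LaurentSeries h10Qbar :=
    coeffMap (Int.castRingHom h10Qbar) with hι
  have hinj : Function.Injective ι := h10_coeffMap_injective _ h10_intCast_Qbar_injective
  apply hinj
  rw [map_mul, h10ev2_hom, h10ev2_hom]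
  have h1 : ι (qExpand ℤ p (jqModC ℤ)) = qExpand h10Qbar p (jqModC h10Qbar) := by
    rw [hι, coeffMap_qExpand, coeffMap_jqModC]
  have h2 : ι (jqModC ℤ) = xconj h10Qbar p ζ i₀ := by
    rw [hι, coeffMap_jqModC]
    show _ = tw (ζ ^ ((⟨0, Nat.pos_of_ne_zero (NeZero.ne p)⟩ : Fin p) : ℕ)) (jqModC h10Qbar)
    simp only [pow_zero]
    rw [h10_tw_one_apply]
  have h3 : ι (deltaq ℤ * qExpand ℤ p (deltaqInv ℤ)) = yconj h10Qbar p ζ i₀ := by
    rw [map_mul, hι, coeffMap_qExpand, H23M.h21_coeffMap_deltaq, H23M.h21_coeffMap_deltaqInv]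
    show _ = tw (ζ ^ ((⟨0, Nat.pos_of_ne_zero (NeZero.ne p)⟩ : Fin p) : ℕ)) (deltaq h10Qbar) *
      qExpand h10Qbar p (deltaqInv h10Qbar)
    simp only [pow_zero]
    rw [h10_tw_one_apply]
  rw [h1, h2, h3, h10ev2_eq_eval_map, h10ev2_eq_eval_map, ← h10_baseEval_eq,
    ← Polynomial.derivative_map]
  exact hkey

/-- nonvanishing of `Φ'(j_p, j)` over `ℤ`. -/
theorem h23cf_dPhi_swap_ne_zero_int (hp : 1 < p) :
    h10ev2 (Polynomial.derivative Φ) (qExpand ℤ p (jqModC ℤ)) (jqModC ℤ) ≠ 0 := by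
  obtain ⟨ζ, hζ⟩ := h10_exists_zeta p
  set i₀ : Option (Fin p) := some ⟨0, Nat.pos_of_ne_zero (NeZero.ne p)⟩ with hi₀
  have hkey : (Polynomial.derivative (Φ.map (baseEval h10Qbar p))).eval (xconj h10Qbar p ζ i₀) =
      ∏ i' ∈ Finset.univ.erase i₀, (xconj h10Qbar p ζ i₀ - xconj h10Qbar p ζ i') := by
    rw [(hΦG h10Qbar ζ hζ).1, H11BR.h11br_eval_deriv]
  have hprim : IsPrimitiveRoot (ζ : h10Qbar) p := by
    haveI : NeZero ((p : ℕ) : h10Qbar) := ⟨by exact_mod_cast NeZero.ne p⟩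
    exact (Polynomial.isRoot_cyclotomic_iff).mp hζ
  set ι : LaurentSeries ℤ →+* LaurentSeries h10Qbar :=
    coeffMap (Int.castRingHom h10Qbar) with hι
  intro h0
  have h0' := congrArg ι h0
  rw [map_zero, h10ev2_hom] at h0'
  have h1 : ι (qExpand ℤ p (jqModC ℤ)) = qExpand h10Qbar p (jqModC h10Qbar) := by
    rw [hι, coeffMap_qExpand, coeffMap_jqModC]
  have h2 : ι (jqModC ℤ) = xconj h10Qbar p ζ i₀ := by
    rw [hι, coeffMap_jqModC]
    show _ = tw (ζ ^ ((⟨0, Nat.pos_of_ne_zero (NeZero.ne p)⟩ : Fin p) : ℕ)) (jqModC h10Qbar)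
    simp only [pow_zero]
    rw [h10_tw_one_apply]
  rw [h1, h2, h10ev2_eq_eval_map, ← h10_baseEval_eq, ← Polynomial.derivative_map, hkey] at h0'
  rw [Finset.prod_eq_zero_iff] at h0'
  obtain ⟨i, hi, hi0⟩ := h0'
  have hne : i ≠ i₀ := (Finset.mem_erase.mp hi).1
  have heq : xconj h10Qbar p ζ i₀ = xconj h10Qbar p ζ i := sub_eq_zero.mp hi0
  cases i with
  | none => exact H13Crux.xconj_none_ne_some h10Qbar p hp ζ _ heq.symm
  | some b =>
    have hc := congrArg (fun x : LaurentSeries h10Qbar => x.coeff (-1)) heq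
    have hc0 : (xconj h10Qbar p ζ i₀).coeff (-1) = 1 := by
      rw [← h2, hι, coeffMap_jqModC, coeff_jqModC_neg_one]
    simp only [H13Crux.coeff_neg_one_xconj_some, hc0] at hc
    have hb : (b : ℕ) ≠ 0 := by
      intro hb0
      apply hne
      rw [hi₀]
      congr 1
      exact Fin.ext hb0
    have hpow : (ζ : h10Qbar) ^ (b : ℕ) ≠ 1 :=
      hprim.pow_ne_one_of_pos_of_lt hb b.2
    apply hpow
    have hc' : ((ζ ^ (b : ℕ)) ^ (-1 : ℤ) : h10Qbarˣ) = 1 := by
      apply Units.ext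
      rw [← hc]
      rfl
    have hc'' : (ζ ^ (b : ℕ) : h10Qbarˣ) = 1 := by
      have := congrArg (fun z : h10Qbarˣ => z⁻¹) hc'
      simpa using this
    have := congrArg (fun z : h10Qbarˣ => (z : h10Qbar)) hc''
    simpa using this

/-- the swapped Lagrange relation over `ℚ` -/
theorem h23cf_G_rel_swap :
    h10ev2 G (qExpand ℚ p (jqModC ℚ)) (jqModC ℚ) =
      (deltaq ℚ * qExpand ℚ p (deltaqInv ℚ)) *
        h10ev2 (Polynomial.derivative Φ) (qExpand ℚ p (jqModC ℚ)) (jqModC ℚ) := by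
  have h := h23cf_G_rel_swap_int p Φ G hΦG
  have h' := congrArg (coeffMap (Int.castRingHom ℚ)) h
  rw [map_mul, h10ev2_hom, h10ev2_hom] at h'
  simpa [coeffMap_jqModC, coeffMap_qExpand, H23M.h21_coeffMap_deltaq,
    H23M.h21_coeffMap_deltaqInv] using h'

/-- nonvanishing of `Φ'(j_p, j)` over `ℚ` -/
theorem h23cf_dPhi_swap_ne_zero (hp : 1 < p) :
    h10ev2 (Polynomial.derivative Φ) (qExpand ℚ p (jqModC ℚ)) (jqModC ℚ) ≠ 0 := by
  have h := h23cf_dPhi_swap_ne_zero_int p Φ G hΦG hp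
  have hinj : Function.Injective (coeffMap (Int.castRingHom ℚ)) :=
    h10_coeffMap_injective _ (Int.castRingHom ℚ).injective_int
  intro h0
  apply h
  apply hinj
  rw [map_zero, h10ev2_hom]
  simpa [coeffMap_jqModC, coeffMap_qExpand] using h0

/-- the Lagrange relation over `ℚ` -/
theorem h23cf_G_rel :
    h10ev2 G (jqModC ℚ) (qExpand ℚ p (jqModC ℚ)) =
      ((p : LaurentSeries ℚ) ^ 12 * qExpand ℚ p (deltaq ℚ) * deltaqInv ℚ) *
        h10ev2 (Polynomial.derivative Φ) (jqModC ℚ) (qExpand ℚ p (jqModC ℚ)) := by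
  have h := H11BR.h11br_G_rel_int p Φ G hΦG
  have h' := congrArg (coeffMap (Int.castRingHom ℚ)) h
  rw [map_mul, h10ev2_hom, h10ev2_hom] at h'
  simpa [coeffMap_jqModC, coeffMap_qExpand, H23M.h21_coeffMap_deltaq,
    H23M.h21_coeffMap_deltaqInv] using h'

end Rel

section Ev

variable {R S : Type*} [CommRing R] [CommRing S]

/-- evaluation of a two-variable integer polynomial in an arbitrary commutative ring -/
def h23cf_ev2 (Ψ : Polynomial (Polynomial ℤ)) (a b : R) : R :=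
  Ψ.eval₂ (Polynomial.eval₂RingHom (Int.castRingHom R) a) b

theorem h23cf_ev2_hom (φ : R →+* S) (Ψ : Polynomial (Polynomial ℤ)) (a b : R) :
    φ (h23cf_ev2 Ψ a b) = h23cf_ev2 Ψ (φ a) (φ b) := by
  unfold h23cf_ev2
  rw [Polynomial.hom_eval₂]
  congr 1
  refine Polynomial.ringHom_ext' (Subsingleton.elim _ _) ?_
  simp

theorem h23cf_ev2_eq {A : Type} [CommRing A] (Ψ : Polynomial (Polynomial ℤ))
    (a b : LaurentSeries A) : h23cf_ev2 Ψ a b = h10ev2 Ψ a b := rfl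

end Ev

section Sigma

variable (p : ℕ) [Fact p.Prime]

/-- `j` as an element of `F_p` -/
def h23cf_J : ↥(modularFunctionFieldFull p) :=
  haveI : NeZero p := ⟨(Fact.out : p.Prime).ne_zero⟩
  ⟨jq, by
    have h := jqd_mem_full p (one_dvd p)
    rwa [qExpand_one_apply] at h⟩

/-- `j(q^p)` as an element of `F_p` -/
def h23cf_Jp : ↥(modularFunctionFieldFull p) :=
  haveI : NeZero p := ⟨(Fact.out : p.Prime).ne_zero⟩
  ⟨qExpand ℚ p jq, jqd_mem_full p dvd_rfl⟩

/-- the modular unit `u = Δ(q^p)/Δ(q)` as a rational Laurent series -/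
def h23cf_u : LaurentSeries ℚ :=
  haveI : NeZero p := ⟨(Fact.out : p.Prime).ne_zero⟩
  qExpand ℚ p (deltaq ℚ) * deltaqInv ℚ

theorem h23cf_u_mem : h23cf_u p ∈ modularFunctionFieldFull p :=
  haveI : NeZero p := ⟨(Fact.out : p.Prime).ne_zero⟩
  H11BR.h11br_uN_mem p

theorem h23cf_natCast_ne_zero : (p : LaurentSeries ℚ) ≠ 0 := by
  have hC : (p : LaurentSeries ℚ) = HahnSeries.C (p : ℚ) := by simp
  rw [hC]
  intro h0
  have := HahnSeries.C_injective (Γ := ℤ) (R := ℚ) (h0.trans (map_zero _).symm)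
  exact (Fact.out : p.Prime).ne_zero (by exact_mod_cast this)

/-- **(F1)** every ring homomorphism `F_p → ℚ((q))` swapping `j(q)` and `j(q^p)` maps
`u = Δ(q^p)/Δ(q)` to `p^(-12) / u`. -/
theorem h23cf_sigma_u (σ : ↥(modularFunctionFieldFull p) →+* LaurentSeries ℚ)
    (hσ1 : σ (h23cf_J p) = qExpand ℚ p jq) (hσ2 : σ (h23cf_Jp p) = jq) :
    σ ⟨h23cf_u p, h23cf_u_mem p⟩ * h23cf_u p * (p : LaurentSeries ℚ) ^ 12 = 1 := by
  haveI : NeZero p := ⟨(Fact.out : p.Prime).ne_zero⟩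
  obtain ⟨Φ, G, hΦG⟩ := H11BR.h11br_exists_modPair p (H23M.h15g_hasModEq p)
  have hrel := h23cf_G_rel p Φ G hΦG
  have hrel' := h23cf_G_rel_swap p Φ G hΦG
  have hne' := h23cf_dPhi_swap_ne_zero p Φ G hΦG (Fact.out : p.Prime).one_lt
  rw [jqModC_rat] at hrel hrel' hne'
  set U : ↥(modularFunctionFieldFull p) := ⟨h23cf_u p, h23cf_u_mem p⟩ with hU
  set ι : ↥(modularFunctionFieldFull p) →+* LaurentSeries ℚ := h28incl p with hι
  have hιinj : Function.Injective ι := h28incl_injective p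
  -- the Lagrange relation inside `F_p`
  have hF : h23cf_ev2 G (h23cf_J p) (h23cf_Jp p) =
      ((p : ↥(modularFunctionFieldFull p)) ^ 12 * U) *
        h23cf_ev2 (Polynomial.derivative Φ) (h23cf_J p) (h23cf_Jp p) := by
    apply hιinj
    rw [map_mul, map_mul, map_pow, map_natCast, h23cf_ev2_hom, h23cf_ev2_hom]
    have h1 : ι (h23cf_J p) = jq := rfl
    have h2 : ι (h23cf_Jp p) = qExpand ℚ p jq := rfl
    have h3 : ι U = qExpand ℚ p (deltaq ℚ) * deltaqInv ℚ := rfl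
    rw [h1, h2, h3, h23cf_ev2_eq, h23cf_ev2_eq, hrel]
    ring
  have hσF := congrArg σ hF
  rw [map_mul, map_mul, map_pow, map_natCast, h23cf_ev2_hom, h23cf_ev2_hom, hσ1, hσ2,
    h23cf_ev2_eq, h23cf_ev2_eq, hrel'] at hσF
  have hcancel := mul_right_cancel₀ hne' hσF
  -- `Δ(q) Δ(q^p)⁻¹ · u = 1`
  have hinv : (deltaq ℚ * qExpand ℚ p (deltaqInv ℚ)) * h23cf_u p = 1 := by
    have h1' : qExpand ℚ p (deltaqInv ℚ) * qExpand ℚ p (deltaq ℚ) = 1 := by
      rw [← map_mul, mul_comm, H23M.deltaq_mul_deltaqInv, map_one]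
    calc (deltaq ℚ * qExpand ℚ p (deltaqInv ℚ)) * h23cf_u p
        = (qExpand ℚ p (deltaqInv ℚ) * qExpand ℚ p (deltaq ℚ)) *
            (deltaq ℚ * deltaqInv ℚ) := by
          unfold h23cf_u
          ring
      _ = 1 := by rw [h1', H23M.deltaq_mul_deltaqInv, mul_one]
  calc σ U * h23cf_u p * (p : LaurentSeries ℚ) ^ 12
      = ((p : LaurentSeries ℚ) ^ 12 * σ U) * h23cf_u p := by ring
    _ = (deltaq ℚ * qExpand ℚ p (deltaqInv ℚ)) * h23cf_u p := by rw [← hcancel]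
    _ = 1 := hinv

end Sigma

section Const

/-- a Laurent series over `ℚ` whose `e`-th power is a constant `c` has a rational
`e`-th root of `c` as leading coefficient -/
theorem h23cf_leadingCoeff_pow (y : LaurentSeries ℚ) (e : ℕ) :
    (y ^ e).leadingCoeff = y.leadingCoeff ^ e := by
  induction e with
  | zero =>
    rw [pow_zero, pow_zero]
    exact HahnSeries.leadingCoeff_of_single
  | succ n ih => rw [pow_succ, pow_succ, HahnSeries.leadingCoeff_mul, ih]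

theorem h23cf_exists_root_of_pow_eq_C (y : LaurentSeries ℚ) (e : ℕ) (c : ℚ)
    (h : y ^ e = HahnSeries.C c) : ∃ d : ℚ, d ^ e = c := by
  refine ⟨y.leadingCoeff, ?_⟩
  rw [← h23cf_leadingCoeff_pow, h]
  exact HahnSeries.leadingCoeff_of_single

/-- if `p^(-12)` is an `e`-th power in `ℚ` (`e > 0`), then `e ∣ 12` -/
theorem h23cf_dvd_twelve_of_root (p : ℕ) (hp : p.Prime) (e : ℕ) (d : ℚ)
    (h : d ^ e * (p : ℚ) ^ 12 = 1) : e ∣ 12 := by
  haveI : Fact p.Prime := ⟨hp⟩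
  have hp0 : (p : ℚ) ≠ 0 := by exact_mod_cast hp.ne_zero
  have hd0 : d ≠ 0 := by
    rintro rfl
    rcases Nat.eq_zero_or_pos e with he | he
    · subst he
      rw [pow_zero, one_mul] at h
      have h12 : ((p : ℚ)) ^ 12 = 1 := h
      have : (p : ℚ) ^ 12 ≠ 1 := by
        have h1 : (1 : ℚ) < p := by exact_mod_cast hp.one_lt
        exact (one_lt_pow₀ h1 (by norm_num)).ne'
      exact absurd h12 this
    · rw [zero_pow he.ne', zero_mul] at h
      exact absurd h zero_ne_one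
  have hv := congrArg (padicValRat p) h
  rw [padicValRat.mul (pow_ne_zero _ hd0) (pow_ne_zero _ hp0), padicValRat.pow,
    padicValRat.pow, padicValRat.self hp.one_lt, padicValRat.one] at hv
  have h2 : (e : ℤ) ∣ 12 := by
    refine ⟨-padicValRat p d, ?_⟩
    push_cast at hv
    linarith
  exact_mod_cast h2

end Const

section Main

variable (p : ℕ) [Fact p.Prime]

/-- **(F2)** if `x ∈ F_p` is an `e`-th root of the modular unit `u = Δ(q^p)/Δ(q)` and there is a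
ring homomorphism `σ : F_p → ℚ((q))` swapping `j(q)` and `j(q^p)`, then `e ∣ 12`. -/
theorem h23cf_dvd_twelve (σ : ↥(modularFunctionFieldFull p) →+* LaurentSeries ℚ)
    (hσ1 : σ (h23cf_J p) = qExpand ℚ p jq) (hσ2 : σ (h23cf_Jp p) = jq)
    (x : LaurentSeries ℚ) (hx : x ∈ modularFunctionFieldFull p) (e : ℕ)
    (hxe : x ^ e = h23cf_u p) : e ∣ 12 := by
  have hσu := h23cf_sigma_u p σ hσ1 hσ2
  set X : ↥(modularFunctionFieldFull p) := ⟨x, hx⟩ with hX
  have hXe : X ^ e = ⟨h23cf_u p, h23cf_u_mem p⟩ := by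
    apply Subtype.ext
    show x ^ e = h23cf_u p
    exact hxe
  rw [← hXe, map_pow, ← hxe, ← mul_pow] at hσu
  set y : LaurentSeries ℚ := σ X * x with hy
  have hp0 : (p : ℚ) ≠ 0 := by exact_mod_cast (Fact.out : p.Prime).ne_zero
  have hC : (p : LaurentSeries ℚ) ^ 12 = HahnSeries.C ((p : ℚ) ^ 12) := by simp
  have hy' : y ^ e = HahnSeries.C (((p : ℚ) ^ 12)⁻¹) := by
    have h1 : HahnSeries.C ((p : ℚ) ^ 12) * HahnSeries.C (((p : ℚ) ^ 12)⁻¹) =
        (1 : LaurentSeries ℚ) := by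
      rw [← map_mul, mul_inv_cancel₀ (pow_ne_zero _ hp0), map_one]
    calc y ^ e = y ^ e * (HahnSeries.C ((p : ℚ) ^ 12) * HahnSeries.C (((p : ℚ) ^ 12)⁻¹)) := by
          rw [h1, mul_one]
      _ = (y ^ e * (p : LaurentSeries ℚ) ^ 12) * HahnSeries.C (((p : ℚ) ^ 12)⁻¹) := by
          rw [hC]; ring
      _ = HahnSeries.C (((p : ℚ) ^ 12)⁻¹) := by rw [hσu, one_mul]
  obtain ⟨d, hd⟩ := h23cf_exists_root_of_pow_eq_C y e _ hy'
  refine h23cf_dvd_twelve_of_root p (Fact.out : p.Prime) e d ?_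
  rw [hd, inv_mul_cancel₀ (pow_ne_zero _ hp0)]

end Main

end H23CF

end
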