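/-
S16 (Eisenstein ideal index), part (A), slice C (helper29): the CONTENT of the
Dedekind–Rademacher homomorphism.

`H21S16.isDR_content`: if `e` divides all values of the Dedekind–Rademacher homomorphism `φ` of the
modular unit `u = Δ(pz)/Δ(z)`, then `e ∣ gcd(p-1, 12)`.

* `e ∣ p - 1` because `φ(T) = p - 1` (DR1', helper15);
* `e ∣ 12`: `K = exp(Λ/e)·Δ` is a modular form of weight `12` on `Γ₀(p)` whose `q`-series
  `X = K/Δ` is an `e`-th root of `u` (analytic half, `A_CAnalytic_helper29`); by the BRIDGE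
  (helper13/helper11/helper23) `X` is, after normalisation, an element of `ℚ(j, j_p)`, and the
  Fricke swap `σ` gives `(X σ(X))^e = p^(-12)` with `X σ(X) ∈ ℚ`, whence `e ∣ 12`
  (formal half, helper23: `H23CF.h23cf_dvd_twelve_of_form'`).
-/
import Mathlib
import Fermat.Agent.S16.A_CAnalytic_helper29
import Fermat.Agent.S16.A_CFormal2_helper23
import Fermat.Agent.S16.A_DR1_helper15

set_option autoImplicit false

noncomputable section

open UpperHalfPlane ModularForm CongruenceSubgroup ModularCurve ModularCurve.Period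
open scoped MatrixGroups Manifold Real

namespace H21S16

variable (p : ℕ) [Fact p.Prime]

/-- **Slice C**: the content of the Dedekind–Rademacher homomorphism divides `gcd(p-1, 12)`. -/
theorem isDR_content (φ : Additive (Gamma0 p) →+ ℤ) (h : IsDR p φ) (e : ℕ)
    (he : ∀ γ : Gamma0 p, (e : ℤ) ∣ φ (Additive.ofMul γ)) : e ∣ Nat.gcd (p - 1) 12 := by
  have hp : p.Prime := Fact.out
  have : NeZero p := ⟨hp.ne_zero⟩
  have hT := isDR_T p φ h
  have he1 : e ∣ p - 1 := by
    have h1 := he (Tg p)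
    rw [hT] at h1
    have h2 : ((p - 1 : ℕ) : ℤ) = (p : ℤ) - 1 := by
      have := hp.one_lt
      omega
    rw [← h2] at h1
    exact_mod_cast h1
  have hepos : 0 < e := by
    rcases Nat.eq_zero_or_pos e with h0 | h0
    · subst h0
      rw [zero_dvd_iff] at he1
      have := hp.one_lt
      omega
    · exact h0
  obtain ⟨Λ, hΛd, hΛe, hΛγ⟩ := h
  have hper : ∀ γ : Gamma0 p, ∃ t : ℤ, ∀ z : ℍ,
      Λ ((γ : SL(2, ℤ)) • z) - Λ z = 2 * π * Complex.I * (((e : ℤ) * t : ℤ) : ℂ) := by
    intro γ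
    obtain ⟨t, ht⟩ := he γ
    exact ⟨t, fun z => by rw [hΛγ γ z, ht]⟩
  have h12 : e ∣ 12 :=
    H23CF.h23cf_dvd_twelve_of_form' p (H29C.h29c_form p Λ hΛd hΛe e hepos hper 1) e hepos
      (by rw [H29C.h29c_Xc_pow, one_pow, map_one, one_mul])
  exact Nat.dvd_gcd he1 h12

end H21S16

end
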