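import Mathlib
import Fermat.Agent.S16.H8GroupPar

/-!
# S16, part (A), group theory slice G1 (helper8): a homomorphism `ψ₁ : Γ₀(p) → ℤ` with `ψ₁(T) = 1`

"Space with walls", in purely algebraic terms.  For `g = [[a,b],[c,d]] ∈ SL(2,ℤ)` put
`q(g) = 2ac + ad + bc + 2bd` (`= 2 Re (g z₀) |c z₀ + d|²` for `z₀ = e^{π i/3}`), an odd integer, and
`σ(g) = [q(g) < 0]` (the side of the wall `g⁻¹ (iℝ₊)` on which `z₀` lies).  The set
`Sep(h) = {g | σ(g h) ≠ σ(g)}` (walls separating `z₀` and `h z₀`) is finite: explicitly for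
`h = S, T` since `q(g) q(g h) = 4 (x² + x y + y²) - 1`, and in general by the triangle inequality.
Then `ψ(γ) = ∑_{g ∈ Γ} (σ(g γ) - σ(g))` is a homomorphism `Γ → ℤ` with even values and `ψ(T) = -2`.
-/

set_option autoImplicit false
set_option linter.unusedSectionVars false
set_option linter.style.haveILetI false

namespace H8S16

open MatrixGroups CongruenceSubgroup

/-! ## the invariant `q` and the side function `σ` -/

/-- `q(g) = 2ac + ad + bc + 2bd` -/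
def h8w_q (g : SL(2, ℤ)) : ℤ :=
  2 * g 0 0 * g 1 0 + g 0 0 * g 1 1 + g 0 1 * g 1 0 + 2 * g 0 1 * g 1 1

/-- the side function -/
def h8w_sig (g : SL(2, ℤ)) : ℤ := if h8w_q g < 0 then 1 else 0

theorem h8w_det (g : SL(2, ℤ)) : g 0 0 * g 1 1 - g 0 1 * g 1 0 = 1 := by
  have h := Matrix.det_fin_two (g : Matrix (Fin 2) (Fin 2) ℤ)
  rw [g.det_coe] at h
  exact h.symm

theorem h8w_q_odd (g : SL(2, ℤ)) :
    h8w_q g = 2 * (g 0 0 * g 1 0 + g 0 1 * g 1 1 + g 0 1 * g 1 0) + 1 := by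
  unfold h8w_q
  linear_combination h8w_det g

theorem h8w_q_ne_zero (g : SL(2, ℤ)) : h8w_q g ≠ 0 := by
  rw [h8w_q_odd]
  omega

theorem h8w_mul_S (g : SL(2, ℤ)) :
    (g * ModularGroup.S) 0 0 = g 0 1 ∧ (g * ModularGroup.S) 0 1 = -g 0 0 ∧
    (g * ModularGroup.S) 1 0 = g 1 1 ∧ (g * ModularGroup.S) 1 1 = -g 1 0 := by
  rw [Matrix.SpecialLinearGroup.coe_mul, ModularGroup.coe_S]
  simp [Matrix.mul_apply, Fin.sum_univ_two]

theorem h8w_mul_T (g : SL(2, ℤ)) :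
    (g * ModularGroup.T) 0 0 = g 0 0 ∧ (g * ModularGroup.T) 0 1 = g 0 0 + g 0 1 ∧
    (g * ModularGroup.T) 1 0 = g 1 0 ∧ (g * ModularGroup.T) 1 1 = g 1 0 + g 1 1 := by
  rw [Matrix.SpecialLinearGroup.coe_mul, ModularGroup.coe_T]
  simp [Matrix.mul_apply, Fin.sum_univ_two]

theorem h8w_S_sq_mul (g : SL(2, ℤ)) (i j : Fin 2) :
    (ModularGroup.S ^ 2 * g) i j = - g i j := by
  rw [Matrix.SpecialLinearGroup.coe_mul, RH24.h8_S_sq_coe]
  fin_cases i <;> fin_cases j <;> simp [Matrix.mul_apply, Fin.sum_univ_two]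

theorem h8w_q_neg (g : SL(2, ℤ)) : h8w_q (ModularGroup.S ^ 2 * g) = h8w_q g := by
  unfold h8w_q
  simp only [h8w_S_sq_mul]
  ring

theorem h8w_sig_neg (g : SL(2, ℤ)) : h8w_sig (ModularGroup.S ^ 2 * g) = h8w_sig g := by
  unfold h8w_sig
  rw [h8w_q_neg]

/-- the key identities -/
theorem h8w_q_mul_S (g : SL(2, ℤ)) :
    h8w_q g * h8w_q (g * ModularGroup.S)
      = 4 * ((g 0 0 * g 1 0) ^ 2 + (g 0 0 * g 1 0) * (g 0 1 * g 1 1) + (g 0 1 * g 1 1) ^ 2) - 1 := by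
  obtain ⟨h1, h2, h3, h4⟩ := h8w_mul_S g
  unfold h8w_q
  rw [h1, h2, h3, h4]
  linear_combination (-(g 0 0 * g 1 1 - g 0 1 * g 1 0 + 1)) * h8w_det g

theorem h8w_q_mul_T (g : SL(2, ℤ)) :
    h8w_q g * h8w_q (g * ModularGroup.T)
      = 4 * (((g 0 0 + g 0 1) * (g 1 0 + g 1 1)) ^ 2
          + ((g 0 0 + g 0 1) * (g 1 0 + g 1 1)) * (g 0 0 * g 1 0) + (g 0 0 * g 1 0) ^ 2) - 1 := by
  obtain ⟨h1, h2, h3, h4⟩ := h8w_mul_T g
  unfold h8w_q
  rw [h1, h2, h3, h4]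
  linear_combination (-(g 0 0 * g 1 1 - g 0 1 * g 1 0 + 1)) * h8w_det g

/-- a sign change forces a negative product -/
theorem h8w_mul_neg_of_sig_ne {g g' : SL(2, ℤ)} (h : h8w_sig g' ≠ h8w_sig g) :
    h8w_q g * h8w_q g' < 0 := by
  unfold h8w_sig at h
  have h0 := h8w_q_ne_zero g
  have h0' := h8w_q_ne_zero g'
  by_cases h1 : h8w_q g < 0
  · by_cases h2 : h8w_q g' < 0
    · rw [if_pos h1, if_pos h2] at h
      exact absurd rfl h
    · have h3 : 0 < h8w_q g' := lt_of_le_of_ne (not_lt.mp h2) (Ne.symm h0')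
      exact mul_neg_of_neg_of_pos h1 h3
  · have h3 : 0 < h8w_q g := lt_of_le_of_ne (not_lt.mp h1) (Ne.symm h0)
    by_cases h2 : h8w_q g' < 0
    · exact mul_neg_of_pos_of_neg h3 h2
    · rw [if_neg h1, if_neg h2] at h
      exact absurd rfl h

theorem h8w_xy_zero {x y : ℤ} (h : 4 * (x ^ 2 + x * y + y ^ 2) - 1 < 0) : x = 0 ∧ y = 0 := by
  have h1 : (2 * x + y) ^ 2 + 3 * y ^ 2 ≤ 0 := by nlinarith
  have h2 : y ^ 2 ≤ 0 := by nlinarith [sq_nonneg (2 * x + y)]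
  have hy : y = 0 := by
    have := sq_nonneg y
    exact pow_eq_zero_iff (by norm_num : (2 : ℕ) ≠ 0) |>.mp (le_antisymm h2 this)
  subst hy
  have h3 : x ^ 2 ≤ 0 := by nlinarith
  have hx : x = 0 := by
    have := sq_nonneg x
    exact pow_eq_zero_iff (by norm_num : (2 : ℕ) ≠ 0) |>.mp (le_antisymm h3 this)
  exact ⟨hx, rfl⟩

/-! ## the separating sets -/

/-- the walls separating the base point from its translate by `h` -/
def h8w_Sep (h : SL(2, ℤ)) : Set SL(2, ℤ) := {g | h8w_sig (g * h) ≠ h8w_sig g}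

theorem h8w_Sep_S_subset :
    h8w_Sep ModularGroup.S ⊆ {g | g 0 0 * g 1 0 = 0 ∧ g 0 1 * g 1 1 = 0} := by
  intro g hg
  have h1 := h8w_mul_neg_of_sig_ne hg
  rw [h8w_q_mul_S] at h1
  exact h8w_xy_zero h1

theorem h8w_Sep_T_subset :
    h8w_Sep ModularGroup.T ⊆
      {g | g 0 0 * g 1 0 = 0 ∧ (g 0 0 + g 0 1) * (g 1 0 + g 1 1) = 0} := by
  intro g hg
  have h1 := h8w_mul_neg_of_sig_ne hg
  rw [h8w_q_mul_T] at h1
  have h2 := h8w_xy_zero h1
  exact ⟨h2.2, h2.1⟩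

/-- matrices with entries bounded by `1` -/
theorem h8w_finite_bdd : {g : SL(2, ℤ) | ∀ i j, |g i j| ≤ 1}.Finite := by
  have hinj : Function.Injective
      (fun g : SL(2, ℤ) => ((g 0 0, g 0 1), (g 1 0, g 1 1))) := by
    intro g g' h
    simp only [Prod.mk.injEq] at h
    apply Subtype.ext
    ext i j
    fin_cases i <;> fin_cases j
    · exact h.1.1
    · exact h.1.2
    · exact h.2.1
    · exact h.2.2
  have hfin : ((Set.Icc (-1 : ℤ) 1 ×ˢ Set.Icc (-1 : ℤ) 1) ×ˢ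
      (Set.Icc (-1 : ℤ) 1 ×ˢ Set.Icc (-1 : ℤ) 1)).Finite :=
    ((Set.finite_Icc _ _).prod (Set.finite_Icc _ _)).prod
      ((Set.finite_Icc _ _).prod (Set.finite_Icc _ _))
  refine (hfin.preimage hinj.injOn).subset ?_
  intro g hg
  simp only [Set.mem_preimage, Set.mem_prod, Set.mem_Icc]
  have h := fun i j => abs_le.mp (hg i j)
  exact ⟨⟨h 0 0, h 0 1⟩, ⟨h 1 0, h 1 1⟩⟩

theorem h8w_abs_le_one_of_mul_eq {x y : ℤ} (h : x * y = 1 ∨ x * y = -1) : |x| ≤ 1 ∧ |y| ≤ 1 := by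
  have hu : IsUnit x := by
    rcases h with h | h
    · exact IsUnit.of_mul_eq_one _ h
    · exact IsUnit.of_mul_eq_one (-y) (by linarith)
  have hv : IsUnit y := by
    rcases h with h | h
    · exact IsUnit.of_mul_eq_one x (by linarith)
    · exact IsUnit.of_mul_eq_one (-x) (by linarith)
  rcases Int.isUnit_iff.mp hu with rfl | rfl <;> rcases Int.isUnit_iff.mp hv with rfl | rfl <;>
    simp

theorem h8w_Sep_S_finite : (h8w_Sep ModularGroup.S).Finite := by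
  refine h8w_finite_bdd.subset (h8w_Sep_S_subset.trans ?_)
  rintro g ⟨h1, h2⟩
  have hdet := h8w_det g
  have key : |g 0 0| ≤ 1 ∧ |g 0 1| ≤ 1 ∧ |g 1 0| ≤ 1 ∧ |g 1 1| ≤ 1 := by
    rcases mul_eq_zero.mp h1 with ha | hc
    · -- a = 0
      rw [ha] at hdet
      have hbc : g 0 1 * g 1 0 = -1 := by linarith
      have hb : g 0 1 ≠ 0 := by
        intro h0
        rw [h0] at hbc
        simp at hbc
      have hd : g 1 1 = 0 := (mul_eq_zero.mp h2).resolve_left hb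
      have := h8w_abs_le_one_of_mul_eq (Or.inr hbc)
      rw [ha, hd]
      simp [this.1, this.2]
    · rw [hc] at hdet
      have had : g 0 0 * g 1 1 = 1 := by linarith
      have hd : g 1 1 ≠ 0 := by
        intro h0
        rw [h0] at had
        simp at had
      have hb : g 0 1 = 0 := (mul_eq_zero.mp h2).resolve_right hd
      have := h8w_abs_le_one_of_mul_eq (Or.inl had)
      rw [hc, hb]
      simp [this.1, this.2]
  intro i j
  fin_cases i <;> fin_cases j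
  · exact key.1
  · exact key.2.1
  · exact key.2.2.1
  · exact key.2.2.2

/-- the elements of `Sep(T)` -/
theorem h8w_Sep_T_cases {g : SL(2, ℤ)} (hg : g ∈ h8w_Sep ModularGroup.T) :
    (g 1 0 = 0 ∧ g 0 1 = -g 0 0 ∧ g 0 0 * g 1 1 = 1) ∨
    (g 0 0 = 0 ∧ g 1 1 = -g 1 0 ∧ g 0 1 * g 1 0 = -1) := by
  obtain ⟨h1, h2⟩ := h8w_Sep_T_subset hg
  have hdet := h8w_det g
  rcases mul_eq_zero.mp h1 with ha | hc
  · right
    rw [ha] at hdet h2
    have hbc : g 0 1 * g 1 0 = -1 := by linarith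
    have hb : g 0 1 ≠ 0 := by
      intro h0
      rw [h0] at hbc
      simp at hbc
    rw [zero_add] at h2
    have hd : g 1 0 + g 1 1 = 0 := (mul_eq_zero.mp h2).resolve_left hb
    exact ⟨ha, by linarith, hbc⟩
  · left
    rw [hc] at hdet h2
    have had : g 0 0 * g 1 1 = 1 := by linarith
    have hd : g 1 1 ≠ 0 := by
      intro h0
      rw [h0] at had
      simp at had
    rw [zero_add] at h2
    have hb : g 0 0 + g 0 1 = 0 := (mul_eq_zero.mp h2).resolve_right hd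
    exact ⟨hc, by linarith, had⟩

theorem h8w_Sep_T_finite : (h8w_Sep ModularGroup.T).Finite := by
  refine h8w_finite_bdd.subset ?_
  intro g hg
  have key : |g 0 0| ≤ 1 ∧ |g 0 1| ≤ 1 ∧ |g 1 0| ≤ 1 ∧ |g 1 1| ≤ 1 := by
    rcases h8w_Sep_T_cases hg with ⟨hc, hb, had⟩ | ⟨ha, hd, hbc⟩
    · have := h8w_abs_le_one_of_mul_eq (Or.inl had)
      rw [hc, hb]
      simp [this.1, this.2]
    · have := h8w_abs_le_one_of_mul_eq (Or.inr hbc)
      rw [ha, hd]
      simp [this.1, this.2]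
  intro i j
  fin_cases i <;> fin_cases j
  · exact key.1
  · exact key.2.1
  · exact key.2.2.1
  · exact key.2.2.2

theorem h8w_Sep_one : h8w_Sep 1 = ∅ := by
  ext g
  simp [h8w_Sep]

theorem h8w_Sep_mul (h₁ h₂ : SL(2, ℤ)) :
    h8w_Sep (h₁ * h₂) ⊆ h8w_Sep h₁ ∪ (fun g => g * h₁) ⁻¹' h8w_Sep h₂ := by
  intro g hg
  by_cases h : h8w_sig (g * h₁) = h8w_sig g
  · right
    show h8w_sig (g * h₁ * h₂) ≠ h8w_sig (g * h₁)
    rw [h, mul_assoc]
    exact hg
  · left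
    exact h

theorem h8w_Sep_inv (h : SL(2, ℤ)) :
    h8w_Sep h⁻¹ = (fun g => g * h⁻¹) ⁻¹' h8w_Sep h := by
  ext g
  show h8w_sig (g * h⁻¹) ≠ h8w_sig g ↔ h8w_sig (g * h⁻¹ * h) ≠ h8w_sig (g * h⁻¹)
  rw [inv_mul_cancel_right]
  exact ne_comm

theorem h8w_Sep_finite (h : SL(2, ℤ)) : (h8w_Sep h).Finite := by
  have hmem : h ∈ Subgroup.closure ({ModularGroup.S, ModularGroup.T} : Set SL(2, ℤ)) := by
    rw [SpecialLinearGroup.SL2Z_generators]
    exact Subgroup.mem_top h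
  induction hmem using Subgroup.closure_induction with
  | mem x hx =>
    rcases hx with rfl | hx
    · exact h8w_Sep_S_finite
    · rw [Set.mem_singleton_iff] at hx
      rw [hx]
      exact h8w_Sep_T_finite
  | one => rw [h8w_Sep_one]; exact Set.finite_empty
  | mul x y _ _ hx hy =>
    refine (hx.union (hy.preimage ?_)).subset (h8w_Sep_mul x y)
    exact (mul_left_injective x).injOn
  | inv x _ hx =>
    rw [h8w_Sep_inv]
    exact hx.preimage (mul_left_injective x⁻¹).injOn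

/-! ## the homomorphism on a subgroup containing `-1` -/

section hom

variable (Γ : Subgroup SL(2, ℤ))

/-- the summand -/
def h8w_f (γ g : Γ) : ℤ := h8w_sig ((g : SL(2, ℤ)) * (γ : SL(2, ℤ))) - h8w_sig (g : SL(2, ℤ))

theorem h8w_support_f (γ : Γ) :
    Function.support (h8w_f Γ γ) ⊆ (fun g : Γ => (g : SL(2, ℤ))) ⁻¹' h8w_Sep (γ : SL(2, ℤ)) := by
  intro g hg
  rw [Function.mem_support] at hg
  show h8w_sig ((g : SL(2, ℤ)) * (γ : SL(2, ℤ))) ≠ h8w_sig (g : SL(2, ℤ))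
  intro h
  apply hg
  rw [h8w_f, h, sub_self]

theorem h8w_finite_pre (γ : Γ) :
    ((fun g : Γ => (g : SL(2, ℤ))) ⁻¹' h8w_Sep (γ : SL(2, ℤ))).Finite :=
  (h8w_Sep_finite (γ : SL(2, ℤ))).preimage Subtype.val_injective.injOn

theorem h8w_finite_support (γ : Γ) : (Function.support (h8w_f Γ γ)).Finite :=
  (h8w_finite_pre Γ γ).subset (h8w_support_f Γ γ)

/-- the (doubled) wall-crossing homomorphism -/
noncomputable def h8w_psi (γ : Γ) : ℤ := ∑ᶠ g : Γ, h8w_f Γ γ g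

theorem h8w_psi_mul (γ γ' : Γ) : h8w_psi Γ (γ * γ') = h8w_psi Γ γ + h8w_psi Γ γ' := by
  have h1 : h8w_f Γ (γ * γ') = fun g => h8w_f Γ γ' (g * γ) + h8w_f Γ γ g := by
    funext g
    simp only [h8w_f, Subgroup.coe_mul, mul_assoc]
    ring
  have hfin1 : (Function.support (fun g : Γ => h8w_f Γ γ' (g * γ))).Finite := by
    have : Function.support (fun g : Γ => h8w_f Γ γ' (g * γ))
        = (Equiv.mulRight γ) ⁻¹' Function.support (h8w_f Γ γ') := rfl
    rw [this]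
    exact (h8w_finite_support Γ γ').preimage (Equiv.injective _).injOn
  unfold h8w_psi
  rw [h1, finsum_add_distrib hfin1 (h8w_finite_support Γ γ), add_comm]
  congr 1
  exact finsum_comp_equiv (Equiv.mulRight γ) (f := h8w_f Γ γ')

/-- evenness -/
theorem h8w_psi_even (hneg : ModularGroup.S ^ 2 ∈ Γ) (γ : Γ) : (2 : ℤ) ∣ h8w_psi Γ γ := by
  classical
  set s : Γ := ⟨ModularGroup.S ^ 2, hneg⟩ with hs
  have hs2 : s * s = 1 := by
    apply Subtype.ext
    show ModularGroup.S ^ 2 * ModularGroup.S ^ 2 = 1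
    rw [← pow_add]
    exact Fermat.Agent.H16E2.h16e2_S_pow_four
  have hs1 : ∀ g : Γ, s * g ≠ g := by
    intro g h
    have h1 : s = 1 := by
      have := congrArg (fun x => x * g⁻¹) h
      simpa using this
    have h2 := congrArg (fun x : Γ => ((x : SL(2, ℤ)) : Matrix (Fin 2) (Fin 2) ℤ) 0 0) h1
    simp only [hs, RH24.h8_S_sq_coe] at h2
    simp at h2
  have hinv : ∀ g : Γ, h8w_f Γ γ (s * g) = h8w_f Γ γ g := by
    intro g
    simp only [h8w_f, Subgroup.coe_mul, hs]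
    rw [mul_assoc, h8w_sig_neg, h8w_sig_neg]
  set F : Finset Γ := (h8w_finite_pre Γ γ).toFinset with hF
  have hFmem : ∀ g : Γ, g ∈ F ↔ (g : SL(2, ℤ)) ∈ h8w_Sep (γ : SL(2, ℤ)) := by
    intro g
    rw [hF, Set.Finite.mem_toFinset]
    rfl
  have hFs : ∀ g : Γ, g ∈ F → s * g ∈ F := by
    intro g hg
    rw [hFmem] at hg ⊢
    show h8w_sig (((s * g : Γ) : SL(2, ℤ)) * (γ : SL(2, ℤ))) ≠ h8w_sig ((s * g : Γ) : SL(2, ℤ))
    simp only [Subgroup.coe_mul, hs]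
    rw [mul_assoc, h8w_sig_neg, h8w_sig_neg]
    exact hg
  have hsum : h8w_psi Γ γ = ∑ g ∈ F, h8w_f Γ γ g := by
    unfold h8w_psi
    apply finsum_eq_sum_of_support_subset
    intro g hg
    rw [Finset.mem_coe, hFmem]
    exact h8w_support_f Γ γ hg
  rw [hsum]
  have key : ((∑ g ∈ F, h8w_f Γ γ g : ℤ) : ZMod 2) = 0 := by
    rw [Int.cast_sum]
    apply Finset.sum_involution (fun g _ => s * g)
    · intro g _
      rw [hinv g, ← Int.cast_add, ← two_mul, Int.cast_mul]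
      have : ((2 : ℤ) : ZMod 2) = 0 := by decide
      rw [this, zero_mul]
    · intro g _ _
      exact hs1 g
    · intro g hg
      exact hFs g hg
    · intro g _
      rw [← mul_assoc, hs2, one_mul]
  have h2 := (ZMod.intCast_zmod_eq_zero_iff_dvd _ 2).mp key
  exact_mod_cast h2

/-- the wall-crossing homomorphism -/
noncomputable def h8w_psi1 (hneg : ModularGroup.S ^ 2 ∈ Γ) : Additive Γ →+ ℤ where
  toFun γ := -(h8w_psi Γ (Additive.toMul γ) / 2)
  map_zero' := by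
    have h := h8w_psi_mul Γ 1 1
    rw [mul_one] at h
    have h0 : h8w_psi Γ 1 = 0 := by linarith
    show -(h8w_psi Γ 1 / 2) = 0
    rw [h0]
    simp
  map_add' γ γ' := by
    show -(h8w_psi Γ (Additive.toMul γ * Additive.toMul γ') / 2)
      = -(h8w_psi Γ (Additive.toMul γ) / 2) + -(h8w_psi Γ (Additive.toMul γ') / 2)
    rw [h8w_psi_mul, Int.add_ediv_of_dvd_left (h8w_psi_even Γ hneg _)]
    ring

theorem h8w_psi1_apply (hneg : ModularGroup.S ^ 2 ∈ Γ) (γ : Γ) :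
    h8w_psi1 Γ hneg (Additive.ofMul γ) = -(h8w_psi Γ γ / 2) := rfl

end hom

/-! ## the value at `T` -/

section value

variable (p : ℕ) [Fact p.Prime]

theorem h8w_q_one : h8w_q 1 = 1 := by
  unfold h8w_q
  simp

theorem h8w_q_T_inv : h8w_q ModularGroup.T⁻¹ = -1 := by
  unfold h8w_q
  rw [← zpow_neg_one, ModularGroup.coe_T_zpow]
  simp

theorem h8w_sig_one : h8w_sig 1 = 0 := by
  unfold h8w_sig
  rw [h8w_q_one]
  simp

theorem h8w_sig_T_inv : h8w_sig ModularGroup.T⁻¹ = 1 := by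
  unfold h8w_sig
  rw [h8w_q_T_inv]
  simp

/-- the elements of `Sep(T) ∩ Γ₀(p)` -/
theorem h8w_Sep_T_Gamma0 (g : Gamma0 p) (hg : (g : SL(2, ℤ)) ∈ h8w_Sep ModularGroup.T) :
    (g : SL(2, ℤ)) = ModularGroup.T⁻¹ ∨ (g : SL(2, ℤ)) = ModularGroup.S ^ 2 * ModularGroup.T⁻¹ := by
  have hp : p.Prime := Fact.out
  have hmem : ((p : ℤ)) ∣ (g : SL(2, ℤ)) 1 0 :=
    (ZMod.intCast_zmod_eq_zero_iff_dvd _ _).mp (Gamma0_mem.mp g.2)
  have hTinv : ((ModularGroup.T⁻¹ : SL(2, ℤ)) : Matrix (Fin 2) (Fin 2) ℤ) = !![1, -1; 0, 1] := by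
    rw [← zpow_neg_one, ModularGroup.coe_T_zpow]
  rcases h8w_Sep_T_cases hg with ⟨hc, hb, had⟩ | ⟨ha, hd, hbc⟩
  · have hu : IsUnit ((g : SL(2, ℤ)) 0 0) := IsUnit.of_mul_eq_one _ had
    rcases Int.isUnit_iff.mp hu with h1 | h1
    · left
      have hd : (g : SL(2, ℤ)) 1 1 = 1 := by rw [h1] at had; linarith
      apply Subtype.ext
      rw [hTinv]
      ext i j
      fin_cases i <;> fin_cases j <;> simp [h1, hb, hc, hd]
    · right
      have hd : (g : SL(2, ℤ)) 1 1 = -1 := by rw [h1] at had; linarith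
      apply Subtype.ext
      ext i j
      rw [h8w_S_sq_mul, hTinv]
      fin_cases i <;> fin_cases j <;> simp [h1, hb, hc, hd]
  · exfalso
    have hu : IsUnit ((g : SL(2, ℤ)) 1 0) := IsUnit.of_mul_eq_one (-(g : SL(2, ℤ)) 0 1) (by linarith)
    have h1 : IsUnit (p : ℤ) := isUnit_of_dvd_unit hmem hu
    have h2 := Int.isUnit_iff.mp h1
    have h3 : (2 : ℤ) ≤ p := by exact_mod_cast hp.two_le
    omega

/-- `ψ(T) = -2` -/
theorem h8w_psi_T : h8w_psi (Gamma0 p) (h8g_T p) = -2 := by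
  classical
  set t1 : Gamma0 p := (h8g_T p)⁻¹ with ht1
  set t2 : Gamma0 p := ⟨ModularGroup.S ^ 2, h8g_S_sq_mem p⟩ * (h8g_T p)⁻¹ with ht2
  have hne : t1 ≠ t2 := by
    intro h
    have h2 := congrArg (fun x : Gamma0 p => ((x : SL(2, ℤ)) : Matrix (Fin 2) (Fin 2) ℤ) 0 0) h
    simp only [ht1, ht2, Subgroup.coe_mul, h8w_S_sq_mul] at h2
    have h3 : (((h8g_T p)⁻¹ : Gamma0 p) : SL(2, ℤ)) 0 0 = 1 := by
      show ((ModularGroup.T⁻¹ : SL(2, ℤ)) : Matrix (Fin 2) (Fin 2) ℤ) 0 0 = 1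
      rw [← zpow_neg_one, ModularGroup.coe_T_zpow]
      simp
    rw [h3] at h2
    omega
  have hsupp : Function.support (h8w_f (Gamma0 p) (h8g_T p)) ⊆ ↑({t1, t2} : Finset (Gamma0 p)) := by
    intro g hg
    have h1 := h8w_support_f (Gamma0 p) (h8g_T p) hg
    rcases h8w_Sep_T_Gamma0 p g h1 with h | h
    · have : g = t1 := Subtype.ext h
      simp [this]
    · have : g = t2 := Subtype.ext h
      simp [this]
  unfold h8w_psi
  rw [finsum_eq_sum_of_support_subset _ hsupp, Finset.sum_pair hne]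
  have e1 : h8w_f (Gamma0 p) (h8g_T p) t1 = -1 := by
    show h8w_sig (ModularGroup.T⁻¹ * ModularGroup.T) - h8w_sig ModularGroup.T⁻¹ = -1
    rw [inv_mul_cancel, h8w_sig_one, h8w_sig_T_inv]
    norm_num
  have e2 : h8w_f (Gamma0 p) (h8g_T p) t2 = -1 := by
    show h8w_sig (ModularGroup.S ^ 2 * ModularGroup.T⁻¹ * ModularGroup.T)
      - h8w_sig (ModularGroup.S ^ 2 * ModularGroup.T⁻¹) = -1
    rw [mul_assoc, h8w_sig_neg, h8w_sig_neg, inv_mul_cancel, h8w_sig_one, h8w_sig_T_inv]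
    norm_num
  rw [e1, e2]
  norm_num

/-- **(G1)** there is a homomorphism `ψ₁ : Γ₀(p) → ℤ` with `ψ₁(T) = 1`. -/
theorem h8w_exists_psi_one :
    ∃ ψ₁ : Additive (Gamma0 p) →+ ℤ, ψ₁ (Additive.ofMul (h8g_T p)) = 1 := by
  refine ⟨h8w_psi1 (Gamma0 p) (h8g_S_sq_mem p), ?_⟩
  rw [h8w_psi1_apply, h8w_psi_T]
  norm_num

end value

end H8S16
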