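import Fermat.Agent.S16.H21ADefs
import Fermat.Agent.S16.H8GroupWalls

/-!
# S16, part (A), slice G1 (helper8), in the shape of NOTES/W2A-S16-A.md
-/

set_option autoImplicit false

noncomputable section

open UpperHalfPlane ModularForm CongruenceSubgroup ModularCurve ModularCurve.Period
open scoped MatrixGroups Manifold Real

namespace H21S16

variable (p : ℕ) [Fact p.Prime]

/-- G1 -/
theorem exists_psi_one : ∃ ψ₁ : Additive (Gamma0 p) →+ ℤ, ψ₁ (Additive.ofMul (Tg p)) = 1 :=
  H8S16.h8w_exists_psi_one p

end H21S16

end
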