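import Mathlib
import Fermat.Agent.S16.B3Stmt_helper19
import Fermat.Agent.S16.H13BridgeB3

/-!
# S16, slice B3' (helper19): `H4S16.B3Statement`, unconditional

`H19S16.h19_B3 : H4S16.B3Statement`: no weight-2 modular form of odd level `N` with integral
`q`-expansion is congruent to an odd constant modulo `8`.

Ingredients: the level-one algebra (`h19_b3_alg`), the formal relation `e₄³ - e₆² = 1728 Δ`
(`h19_formal_rel`), BRIDGE (helper13, `H13Br.bridge_for_b3`) and the `q`-expansion principle
(helper28, `H28S28.h28_no_unit_relation`).
-/

set_option autoImplicit false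

namespace H19S16

/-- **B3'**, unconditional, in the shape of `H4S16`. -/
theorem h19_B3 : H4S16.B3Statement :=
  h19_B3Statement (fun N _ _ => H13Br.bridge_for_b3 N)

end H19S16
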