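import Fermat.Agent.S16.BridgeW_helper11
import Fermat.Agent.S16.H13BridgeE

/-!
# S16 BRIDGE, slice BR-W part 2 (helper11): analytic compatibility of the Fricke involution

`σ = H11BR.h11w_sigma N` is the involution of `F_N = modularFunctionFieldFull N` with
`σ (j(q^d)) = j(q^{N/d})` (part 1).  Here we prove that `σ` is the pull-back by
`W_N : z ↦ -1/(N z)` on the analytic side:

* `h11w_an_iff_formal` : `A · Q(j(d z)) = P(j(d z)) · B` on `ℍ` iff the same holds for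
  `q`-expansions (`A, B` nice functions);
* `h11w_realise` : if `A/B` has `q`-expansion `f ∈ F̄_N` and `A'/B' = (A/B) ∘ W_N`, then `A'/B'`
  has `q`-expansion `φ_W f`;
* `h11w_slash` : for `K ∈ M_{12k}(Γ₀(N))` with `x = K/Δ^k ∈ F_N`:
  `q-exp (K ∣[12k] W_N) = N^(12k-1) · σ(x) · Δ(q^N)^k`;
* `h11w_slash_rat`, `h11w_slash_exists_rat` : the same over `ℚ`.
-/

set_option autoImplicit false
set_option linter.style.haveILetI false

noncomputable section

open UpperHalfPlane ModularForm MatrixGroups CongruenceSubgroup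
open H23 H23.Rel H23M ModularCurve H28S28 RH24
open scoped Manifold

namespace H11BR

variable (N : ℕ) [NeZero N]

/-- nowhere vanishing nice functions have nonzero `q`-expansion -/
theorem h11w_Lam_ne_zero (u : niceAlg) (hu : ∀ z : ℍ, (u : ℍ → ℂ) z ≠ 0) : Lam u ≠ 0 := by
  intro h
  have h0 : u = 0 := h16bj_Lam_injective (by rw [h, map_zero])
  have z0 : ℍ := UpperHalfPlane.I
  apply hu z0
  rw [h0]
  rfl

/-- **analytic ⇔ formal** for fractions of polynomials in the `j(d z)` -/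
theorem h11w_an_iff_formal (A B : niceAlg) (P Q : MvPolynomial (Dv N) ℂ) :
    (∀ z : ℍ, (A : ℍ → ℂ) z * MvPolynomial.eval (fun d : Dv N => jd d.1 z) Q =
        MvPolynomial.eval (fun d : Dv N => jd d.1 z) P * (B : ℍ → ℂ) z) ↔
      Lam A * formalEval N Q = formalEval N P * Lam B := by
  obtain ⟨uP, QP, huP, hQP, hLP⟩ := h16bj_clear N P
  obtain ⟨uQ, QQ, huQ, hQQ, hLQ⟩ := h16bj_clear N Q
  have huP0 : Lam uP ≠ 0 := h11w_Lam_ne_zero uP huP
  have huQ0 : Lam uQ ≠ 0 := h11w_Lam_ne_zero uQ huQ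
  have key1 : (A * QQ * uP = QP * B * uQ) ↔
      ∀ z : ℍ, (A : ℍ → ℂ) z * MvPolynomial.eval (fun d : Dv N => jd d.1 z) Q =
        MvPolynomial.eval (fun d : Dv N => jd d.1 z) P * (B : ℍ → ℂ) z := by
    constructor
    · intro h z
      have h1 : (A : ℍ → ℂ) z * (QQ : ℍ → ℂ) z * (uP : ℍ → ℂ) z =
          (QP : ℍ → ℂ) z * (B : ℍ → ℂ) z * (uQ : ℍ → ℂ) z :=
        congrArg (fun F : niceAlg => (F : ℍ → ℂ) z) h
      rw [hQQ, hQP] at h1
      apply mul_left_cancel₀ (mul_ne_zero (huP z) (huQ z))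
      linear_combination h1
    · intro h
      apply Subtype.ext
      funext z
      show (A : ℍ → ℂ) z * (QQ : ℍ → ℂ) z * (uP : ℍ → ℂ) z =
          (QP : ℍ → ℂ) z * (B : ℍ → ℂ) z * (uQ : ℍ → ℂ) z
      rw [hQQ, hQP]
      linear_combination ((uP : ℍ → ℂ) z * (uQ : ℍ → ℂ) z) * h z
  have key2 : (A * QQ * uP = QP * B * uQ) ↔
      Lam A * formalEval N Q = formalEval N P * Lam B := by
    rw [← h16bj_Lam_injective.eq_iff, map_mul, map_mul, map_mul, map_mul, hLQ, hLP]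
    constructor
    · intro h
      apply mul_left_cancel₀ (mul_ne_zero huP0 huQ0)
      linear_combination h
    · intro h
      linear_combination (Lam uP * Lam uQ) * h
  exact key1.symm.trans key2

/-- `φ_W` on polynomials in the generators -/
theorem h11w_phiW_ev (P : MvPolynomial (Dv N) Kbar) :
    h11w_phiW N (h22b_ev N P) =
      formalEval N (MvPolynomial.rename (h11w_swap N) (MvPolynomial.map iota P)) := by
  have hcomp : (h11w_phiW N).comp (h22b_ev N) =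
      (((formalEval N : MvPolynomial (Dv N) ℂ →ₐ[ℂ] LaurentSeries ℂ).toRingHom).comp
        ((MvPolynomial.rename (h11w_swap N) :
          MvPolynomial (Dv N) ℂ →ₐ[ℂ] MvPolynomial (Dv N) ℂ).toRingHom)).comp
        (MvPolynomial.map iota) := by
    apply MvPolynomial.ringHom_ext
    · intro c
      simp only [RingHom.comp_apply, h22b_ev_C, MvPolynomial.map_C]
      rw [h11w_phiW_const]
      show _ = formalEval N (MvPolynomial.rename (h11w_swap N) (MvPolynomial.C (iota c)))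
      rw [MvPolynomial.rename_C, formalEval, MvPolynomial.aeval_C]
    · intro d
      simp only [RingHom.comp_apply, h22b_ev_X, MvPolynomial.map_X]
      rw [h11w_phiW_Jgen]
      show _ = formalEval N (MvPolynomial.rename (h11w_swap N) (MvPolynomial.X d))
      rw [MvPolynomial.rename_X, formalEval, MvPolynomial.aeval_X]
  exact RingHom.congr_fun hcomp P

/-- **(W2), abstract form**: if the quotient `A/B` of nice functions has `q`-expansion
`f ∈ F̄_N`, and `A'/B' = (A/B) ∘ W_N`, then `A'/B'` has `q`-expansion `φ_W f`. -/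
theorem h11w_realise (f : ModularCurve.modularFunctionFieldBar N) (A B A' B' : niceAlg)
    (hB : ∀ z : ℍ, (B : ℍ → ℂ) z ≠ 0)
    (hAB : Lam A =
      coeffMap iota ((f : ModularCurve.modularFunctionFieldBar N) : LaurentSeries Kbar) * Lam B)
    (hW : ∀ z : ℍ, (A : ℍ → ℂ) (H12B2.Wp N • z) * (B' : ℍ → ℂ) z =
        (A' : ℍ → ℂ) z * (B : ℍ → ℂ) (H12B2.Wp N • z)) :
    Lam A' = h11w_phiW N f * Lam B' := by
  obtain ⟨P, Q, hQ, hf⟩ := exists_frac N f
  have hQ' : h22b_ev N Q ≠ 0 := hQ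
  have hf' : f = h22b_ev N P / h22b_ev N Q := hf
  have hfQ : f * h22b_ev N Q = h22b_ev N P := by rw [hf', div_mul_cancel₀ _ hQ']
  have h0 : coeffMap iota ((f : ModularCurve.modularFunctionFieldBar N) : LaurentSeries Kbar) *
      formalEval N (MvPolynomial.map iota Q) = formalEval N (MvPolynomial.map iota P) := by
    rw [← h22b_coeffMap_ev, ← h22b_coeffMap_ev, ← map_mul]
    congr 1
    exact congrArg Subtype.val hfQ
  have h1 : Lam A * formalEval N (MvPolynomial.map iota Q) =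
      formalEval N (MvPolynomial.map iota P) * Lam B := by
    rw [hAB, ← h0]
    ring
  have h2 := (h11w_an_iff_formal N A B _ _).mpr h1
  have h3 : ∀ z : ℍ, (A' : ℍ → ℂ) z * MvPolynomial.eval (fun d : Dv N => jd d.1 z)
        (MvPolynomial.rename (h11w_swap N) (MvPolynomial.map iota Q)) =
      MvPolynomial.eval (fun d : Dv N => jd d.1 z)
        (MvPolynomial.rename (h11w_swap N) (MvPolynomial.map iota P)) * (B' : ℍ → ℂ) z := by
    intro z
    have h := h2 (H12B2.Wp N • z)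
    rw [h11w_eval_rename, h11w_eval_rename]
    apply mul_right_cancel₀ (hB (H12B2.Wp N • z))
    linear_combination
      (-(MvPolynomial.eval (fun d : Dv N => jd d.1 (H12B2.Wp N • z)) (MvPolynomial.map iota Q))) *
        hW z + (B' : ℍ → ℂ) z * h
  have h4 := (h11w_an_iff_formal N A' B' _ _).mp h3
  have h5 : h11w_phiW N f *
      formalEval N (MvPolynomial.rename (h11w_swap N) (MvPolynomial.map iota Q)) =
      formalEval N (MvPolynomial.rename (h11w_swap N) (MvPolynomial.map iota P)) := by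
    rw [← h11w_phiW_ev, ← h11w_phiW_ev, ← map_mul, hfQ]
  have hQne : formalEval N (MvPolynomial.rename (h11w_swap N) (MvPolynomial.map iota Q)) ≠ 0 := by
    rw [← h11w_phiW_ev]
    exact (map_ne_zero (h11w_phiW N)).mpr hQ'
  apply mul_right_cancel₀ hQne
  rw [h4, ← h5]
  ring

omit [NeZero N] in
/-- `φ₀ ∘ emb = hatQ` on `F_N` -/
theorem h11w_coeffMap_emb (x : ↥(modularFunctionFieldFull N)) :
    coeffMap iota ((h11w_emb N x : ModularCurve.modularFunctionFieldBar N) : LaurentSeries Kbar) =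
      H23Q.hatQ (x : LaurentSeries ℚ) := by
  rw [h11w_emb_coe, coeffEmb, coeffMap_coeffMap]
  have h : iota.comp (algebraMap ℚ Kbar) = algebraMap ℚ ℂ := Subsingleton.elim _ _
  rw [h]

/-- **(W2) on `F_N`** -/
theorem h11w_realise_full (x : ↥(modularFunctionFieldFull N)) (A B A' B' : niceAlg)
    (hB : ∀ z : ℍ, (B : ℍ → ℂ) z ≠ 0)
    (hAB : Lam A = H23Q.hatQ (x : LaurentSeries ℚ) * Lam B)
    (hW : ∀ z : ℍ, (A : ℍ → ℂ) (H12B2.Wp N • z) * (B' : ℍ → ℂ) z =
        (A' : ℍ → ℂ) z * (B : ℍ → ℂ) (H12B2.Wp N • z)) :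
    Lam A' = H23Q.hatQ ((h11w_sigma N x : ↥(modularFunctionFieldFull N)) : LaurentSeries ℚ) *
      Lam B' := by
  rw [h11w_hatQ_sigma]
  apply h11w_realise N (h11w_emb N x) A B A' B' hB _ hW
  rw [h11w_coeffMap_emb]
  exact hAB

/-! ### The slash action of `W_N` on forms of weight `12 k` -/

section slash

variable (k : ℕ) (K : ModularForm (Gamma0 N) (((12 * k : ℕ) : ℤ)))

/-- `W_N z = S (N z)` -/
theorem h11w_Wp_eq_S_diag (z : ℍ) :
    H12B2.Wp N • z = ModularGroup.S • (ModularForm.heckeDiagMatrix N • z) := by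
  apply UpperHalfPlane.ext
  rw [h11w_coe_Wp_smul, UpperHalfPlane.modular_S_smul]
  show _ = (-((ModularForm.heckeDiagMatrix N • z : ℍ) : ℂ))⁻¹
  rw [ModularForm.coe_heckeDiagMatrix_smul (NeZero.ne N)]
  rw [neg_div, one_div, inv_neg]

/-- `Δ(W_N z) = (N z)^12 Δ(N z)` -/
theorem h11w_disc_Wp (z : ℍ) :
    ModularForm.discriminant (H12B2.Wp N • z) =
      ((N : ℂ) * z) ^ 12 * ModularForm.discriminant (ModularForm.heckeDiagMatrix N • z) := by
  rw [h11w_Wp_eq_S_diag, H23.disc_smul, ModularGroup.denom_S,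
    ModularForm.coe_heckeDiagMatrix_smul (NeZero.ne N)]

/-- the slash action of `W_N` in weight `12 k` -/
theorem h11w_slash_apply (hk : 1 ≤ k) (z : ℍ) :
    ((⇑K : ℍ → ℂ) ∣[((12 * k : ℕ) : ℤ)] H12B2.Wp N) z =
      K (H12B2.Wp N • z) * (N : ℂ) ^ (12 * k - 1) * (((N : ℂ) * z) ^ (12 * k))⁻¹ := by
  rw [ModularForm.slash_apply, H12B2.σ_Wp, H12B2.det_Wp, H12B2.denom_Wp]
  simp only [ContinuousAlgEquiv.refl_apply]
  have h1 : |(N : ℝ)| = N := abs_of_nonneg (Nat.cast_nonneg N)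
  have h2 : (((12 * k : ℕ) : ℤ) - 1) = ((12 * k - 1 : ℕ) : ℤ) := by omega
  rw [h1, h2, zpow_natCast, zpow_neg, zpow_natCast]
  push_cast
  rfl

/-- `K ∣ W_N` as a nice function -/
def h11w_KW : niceAlg := H13Br.Kn N k (H12B2.fricke N K)

theorem h11w_KW_coe :
    ((h11w_KW N k K : niceAlg) : ℍ → ℂ) = (⇑K : ℍ → ℂ) ∣[((12 * k : ℕ) : ℤ)] H12B2.Wp N :=
  H12B2.coe_fricke N K

/-- the denominator `N^(12k-1) Δ(N z)^k` as a nice function -/
def h11w_BW : niceAlg :=
  algebraMap ℂ niceAlg ((N : ℂ) ^ (12 * k - 1)) * compDiag N Dn ^ k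

theorem h11w_BW_apply (z : ℍ) :
    ((h11w_BW N k : niceAlg) : ℍ → ℂ) z =
      (N : ℂ) ^ (12 * k - 1) *
        ModularForm.discriminant (ModularForm.heckeDiagMatrix N • z) ^ k := rfl

theorem h11w_Lam_BW :
    Lam (h11w_BW N k) =
      (N : LaurentSeries ℂ) ^ (12 * k - 1) * qExpand ℂ N (deltaq ℂ) ^ k := by
  unfold h11w_BW
  rw [map_mul, Lam_algebraMap, map_pow Lam, Lam_compDiag, Lam_Dn qExpansion_disc, map_pow,
    map_natCast]

/-- **(W2)** for `K ∈ M_{12k}(Γ₀(N))`, `x = K/Δ^k ∈ F_N`: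
`q-exp (K ∣[12k] W_N) = N^(12k-1) · σ(x) · Δ(q^N)^k` (over `ℂ`). -/
theorem h11w_slash_C (hk : 1 ≤ k) (x : ↥(modularFunctionFieldFull N))
    (hx : H23Q.hatQ (x : LaurentSeries ℚ) = H13Br.Xc N k K) :
    HahnSeries.ofPowerSeries ℤ ℂ
        (qExpansion 1 ((⇑K : ℍ → ℂ) ∣[((12 * k : ℕ) : ℤ)] H12B2.Wp N)) =
      H23Q.hatQ ((h11w_sigma N x : ↥(modularFunctionFieldFull N)) : LaurentSeries ℚ) *
        ((N : LaurentSeries ℂ) ^ (12 * k - 1) * qExpand ℂ N (deltaq ℂ) ^ k) := by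
  have hmain := h11w_realise_full N x (H13Br.Kn N k K) (Dn ^ k) (h11w_KW N k K) (h11w_BW N k)
    (fun z => pow_ne_zero k (discriminant_ne_zero z)) ?_ ?_
  · rw [h11w_Lam_BW, Lam_apply, h11w_KW_coe] at hmain
    exact hmain
  · rw [hx, map_pow, Lam_Dn qExpansion_disc]
    exact H13Br.LamA_Kn N k K
  · intro z
    rw [h11w_BW_apply, h11w_KW_coe, h11w_slash_apply N k K hk z]
    show K (H12B2.Wp N • z) * _ = _ * ModularForm.discriminant (H12B2.Wp N • z) ^ k
    rw [h11w_disc_Wp]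
    have hz : (N : ℂ) * (z : ℂ) ≠ 0 :=
      mul_ne_zero (by exact_mod_cast NeZero.ne N) (UpperHalfPlane.ne_zero z)
    have hz' : ((N : ℂ) * (z : ℂ)) ^ (12 * k) ≠ 0 := pow_ne_zero _ hz
    field_simp
    ring

/-- **(W2)**, all terms over `ℚ` inside `hatQ` -/
theorem h11w_slash (hk : 1 ≤ k) (x : ↥(modularFunctionFieldFull N))
    (hx : H23Q.hatQ (x : LaurentSeries ℚ) = H13Br.Xc N k K) :
    HahnSeries.ofPowerSeries ℤ ℂ
        (qExpansion 1 ((⇑K : ℍ → ℂ) ∣[((12 * k : ℕ) : ℤ)] H12B2.Wp N)) =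
      H23Q.hatQ ((N : LaurentSeries ℚ) ^ (12 * k - 1) *
        ((h11w_sigma N x : ↥(modularFunctionFieldFull N)) : LaurentSeries ℚ) *
        qExpand ℚ N (deltaq ℚ) ^ k) := by
  rw [h11w_slash_C N k K hk x hx, map_mul, map_mul, map_pow, map_pow, map_natCast,
    coeffMap_qExpand, h22u_coeffMap_deltaq]
  ring

/-- **(W2) over `ℚ`** (shape for B0): if `K` and `K ∣ W_N` have rational `q`-expansions
`κ`, `κ'` then `κ' = N^(12k-1) · σ(κ/Δ^k) · Δ(q^N)^k`. -/
theorem h11w_slash_rat (hk : 1 ≤ k) (κ κ' : PowerSeries ℚ)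
    (hκ : qExpansion 1 (⇑K) = κ.map (algebraMap ℚ ℂ))
    (hκ' : qExpansion 1 ((⇑K : ℍ → ℂ) ∣[((12 * k : ℕ) : ℤ)] H12B2.Wp N) =
      κ'.map (algebraMap ℚ ℂ)) :
    HahnSeries.ofPowerSeries ℤ ℚ κ' =
      (N : LaurentSeries ℚ) ^ (12 * k - 1) *
        ((h11w_sigma N ⟨H13Br.xQ k κ, H13Br.bridge_mem N k K hk κ hκ⟩ :
          ↥(modularFunctionFieldFull N)) : LaurentSeries ℚ) *
        qExpand ℚ N (deltaq ℚ) ^ k := by
  apply h11w_hatQ_injective
  rw [H23Q.hatQ_ofPowerSeries, ← hκ']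
  exact h11w_slash N k K hk ⟨H13Br.xQ k κ, H13Br.bridge_mem N k K hk κ hκ⟩
    (H13Br.hatQ_xQ N k K κ hκ)

/-- the `q`-expansion of `K ∣ W_N` is rational if that of `K` is -/
theorem h11w_slash_exists_rat (hk : 1 ≤ k) (κ : PowerSeries ℚ)
    (hκ : qExpansion 1 (⇑K) = κ.map (algebraMap ℚ ℂ)) :
    ∃ κ' : PowerSeries ℚ,
      qExpansion 1 ((⇑K : ℍ → ℂ) ∣[((12 * k : ℕ) : ℤ)] H12B2.Wp N) =
        κ'.map (algebraMap ℚ ℂ) := by
  have h := h11w_slash N k K hk ⟨H13Br.xQ k κ, H13Br.bridge_mem N k K hk κ hκ⟩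
    (H13Br.hatQ_xQ N k K κ hκ)
  set y : LaurentSeries ℚ := (N : LaurentSeries ℚ) ^ (12 * k - 1) *
        ((h11w_sigma N ⟨H13Br.xQ k κ, H13Br.bridge_mem N k K hk κ hκ⟩ :
          ↥(modularFunctionFieldFull N)) : LaurentSeries ℚ) *
        qExpand ℚ N (deltaq ℚ) ^ k with hy
  refine ⟨PowerSeries.mk fun n => y.coeff (n : ℤ), ?_⟩
  ext n
  rw [PowerSeries.coeff_map, PowerSeries.coeff_mk]
  have h1 := congrArg (fun w : LaurentSeries ℂ => w.coeff (n : ℤ)) h
  simp only [HahnSeries.ofPowerSeries_apply_coeff] at h1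
  rw [h1]
  simp

end slash

end H11BR

end
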