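import Mathlib
import Fermat.Agent.S28.ChartDomains
import Fermat.Agent.S28.DegreeBounds
import Fermat.Agent.S28.RQ

/-!
# S16 / B3', slices S3 + S4 (helper13): the `q`-expansion principle at `(N, ℓ)`, `ℓ ∤ N`

Everything is extracted from the internals of S28 (Igusa).  `F_N = modularFunctionFieldFull N`,
`O = h28O N ℓ` is the ring of elements of `F_N` with `ℓ`-integral `q`-expansion (Gauss valuation).

* `H13Ig.mem_chartAlgFin_of_isIntegral` (S3): an element of `F_N` with `ℓ`-integral `q`-expansion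
  which is integral over `ℚ[j]` is integral over `ℤ_(ℓ)[j]`.
* `H13Ig.isIntegral_red` : the reduction of such an element is integral over `𝔽_ℓ[J]`.
* `H13Ig.no_j_mul_eq_unit_add` (S4): there are no `X, Z ∈ O`, `X` integral over `ℚ[j]`, with
  `j * X = u + ℓ * Z`, `u` an integer prime to `ℓ`.
-/

set_option autoImplicit false
set_option linter.unusedSectionVars false

open ModularCurve ModularCurve.IgusaScheme H28S28

noncomputable section

namespace H13Ig

/-- If `t` is transcendental over the field `K`, then `t⁻¹` is not integral over `K[t]`. -/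
theorem not_isIntegral_inv_of_transcendental {K L : Type*} [Field K] [Field L] [Algebra K L]
    (t : L) (ht : Transcendental K t) : ¬ IsIntegral ↥(Algebra.adjoin K {t}) t⁻¹ := by
  classical
  rintro ⟨p, hp, hroot⟩
  have ht0 : t ≠ 0 := by
    rintro rfl
    exact ht isAlgebraic_zero
  have hc : ∀ i : ℕ, ∃ P : Polynomial K,
      Polynomial.aeval t P = ((p.coeff i : ↥(Algebra.adjoin K {t})) : L) := by
    intro i
    have h : ∀ c : L, c ∈ Algebra.adjoin K {t} → ∃ P : Polynomial K, Polynomial.aeval t P = c := by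
      intro c hc
      rw [Algebra.adjoin_singleton_eq_range_aeval] at hc
      exact hc
    exact h _ (p.coeff i).2
  choose P hP using hc
  set n := p.natDegree with hn
  rw [Polynomial.eval₂_eq_sum_range] at hroot
  have h1 : ∑ i ∈ Finset.range (n + 1),
      ((p.coeff i : ↥(Algebra.adjoin K {t})) : L) * t ^ (n - i) = 0 := by
    have h2 := congrArg (fun z => z * t ^ n) hroot
    simp only [zero_mul, Finset.sum_mul] at h2
    rw [← h2]
    refine Finset.sum_congr rfl fun i hi => ?_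
    have hi' : i ≤ n := Nat.lt_succ_iff.mp (Finset.mem_range.mp hi)
    have h3 : t ^ n = t ^ (n - i) * t ^ i := (pow_sub_mul_pow t hi').symm
    rw [h3, inv_pow]
    have h4 : t ^ i ≠ 0 := pow_ne_zero _ ht0
    have h5 : algebraMap ↥(Algebra.adjoin K {t}) L (p.coeff i) =
        ((p.coeff i : ↥(Algebra.adjoin K {t})) : L) := rfl
    rw [h5]
    field_simp
  rw [Finset.sum_range_succ, hp.coeff_natDegree, Nat.sub_self, pow_zero, mul_one,
    OneMemClass.coe_one] at h1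
  set Q : Polynomial K := ∑ i ∈ Finset.range n, P i * Polynomial.X ^ (n - i) + 1 with hQ
  have hQ0 : Polynomial.aeval t Q = 0 := by
    rw [hQ, map_add, map_one, map_sum, ← h1]
    congr 1
    refine Finset.sum_congr rfl fun i _ => ?_
    rw [map_mul, map_pow, Polynomial.aeval_X, hP]
  have hQne : Q ≠ 0 := by
    intro h
    have h5 : Q.coeff 0 = 1 := by
      rw [hQ, Polynomial.coeff_add, Polynomial.finsetSum_coeff, Polynomial.coeff_one_zero]
      rw [Finset.sum_eq_zero, zero_add]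
      intro i hi
      have hi' : i < n := Finset.mem_range.mp hi
      rw [Polynomial.coeff_mul_X_pow']
      rw [if_neg]
      omega
    rw [h, Polynomial.coeff_zero] at h5
    exact zero_ne_one h5
  exact ht ⟨Q, hQne, hQ0⟩

variable (N : ℕ) [NeZero N] (ℓ : ℕ) [Fact ℓ.Prime]

/-- **(S3)** the `q`-expansion principle at `(N, ℓ)`, `ℓ ∤ N`: an element of `F_N` whose
`q`-expansion is `ℓ`-integral and which is integral over `ℚ[j]` is integral over `ℤ_(ℓ)[j]`,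
i.e. lies in the chart algebra `chartAlgFin N ℓ`. -/
theorem mem_chartAlgFin_of_isIntegral (hℓN : ¬ ℓ ∣ N) (x : ↥(modularFunctionFieldFull N))
    (hxO : x ∈ h28O N ℓ) (hint : IsIntegral ↥(Algebra.adjoin ℚ {jFull N}) x) :
    x ∈ chartAlgFin N ℓ := by
  have hval : HValN N ℓ := h13_hval N ℓ
  have hL : DegreeLowerBound N ℓ := h10_degreeLowerBound_all N ℓ hℓN
  have hintO := h13_isIntegral_O_of_hbound N ℓ (h10_hbound_all N) hL
  haveI := h10_RQ_j_isIntegrallyClosed N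
  have hRQ := h10_RQ_j_isFractionRing N
  have ht0 : jFull N ∈ h28F0 N := h28_j_mem_F0 N
  rw [mem_chartAlg_iff]
  have h1 : IsIntegral ↥(h28RQ N (jFull N)) x := by
    have := IsIntegral.map_of_comp_eq
      (φ := (((Algebra.adjoin ℚ {jFull N}).toSubring.subtype).codRestrict
        (h28F0 N) (fun y => h10_adjoin_le_F0 N (jFull N) ht0 y.2)).codRestrict (h28RQ N (jFull N))
          (fun y => y.2))
      (ψ := RingHom.id ↥(modularFunctionFieldFull N)) (RingHom.ext fun r => rfl) hint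
    simpa using this
  have h2 : IsIntegral ↥(h28Vval hval) x := by
    have := IsIntegral.map_of_comp_eq
      (φ := (((h28O N ℓ ⊓ (h28F0 N).toSubring).subtype).codRestrict
        (h28F0 N) (fun y => y.2.2)).codRestrict (h28Vval hval) (fun y => y.2.1))
      (ψ := RingHom.id ↥(modularFunctionFieldFull N)) (RingHom.ext fun r => rfl) (hintO x hxO)
    simpa using this
  have h3 : IsIntegral ↥(h28R N ℓ (jFull N)) x :=
    h10_isIntegral_of_two ↥(h28F0 N) ↥(modularFunctionFieldFull N) (h28RQ N (jFull N)) hRQ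
      (h28Vval hval) (h28R N ℓ (jFull N)) (h28_hR (jFull N) h28_gauss_j) x h1 h2
  have := IsIntegral.map_of_comp_eq
    (φ := ((h28F0 N).subtype.comp (h28R N ℓ (jFull N)).subtype).codRestrict
      (Algebra.adjoin ↥(GaloisRep.ratLocalizedAt ℓ) {jFull N}) (fun y => y.2))
    (ψ := RingHom.id ↥(modularFunctionFieldFull N)) (RingHom.ext fun r => rfl) h3
  simpa using this

omit [NeZero N] in
theorem redHom_eq_rhoL (x : ↥(Obig ℓ)) (f : LaurentSeries ↥(GaloisRep.ratLocalizedAt ℓ))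
    (hx : (x : LaurentSeries ℚ) = epsL ℓ f) : redHom ℓ x = rhoL ℓ f := by
  have h : x = ⟨epsL ℓ f, epsL_mem_Obig ℓ f⟩ := Subtype.ext hx
  rw [h, redHom_epsL]

/-- the reduction of `j` is `J` -/
theorem h28red_j : h28red N ℓ ⟨jFull N, h28_j_mem_O N ℓ⟩ = jqModC (ZMod ℓ) := by
  rw [h28red_apply, redHom_eq_rhoL ℓ _ (jqModC ↥(GaloisRep.ratLocalizedAt ℓ)) (h13_epsL_j ℓ).symm,
    h13_rhoL_j]

/-- the reduction of `ℤ_(ℓ)[j]` lies in `𝔽_ℓ[J]` -/
theorem h28red_mem_adjoin (r : ↥(modularFunctionFieldFull N))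
    (hr : r ∈ Algebra.adjoin ↥(GaloisRep.ratLocalizedAt ℓ) {jFull N}) (hrO : r ∈ h28O N ℓ) :
    h28red N ℓ ⟨r, hrO⟩ ∈ Algebra.adjoin (ZMod ℓ) {jqModC (ZMod ℓ)} := by
  rw [Algebra.adjoin_singleton_eq_range_aeval] at hr
  obtain ⟨P, hP⟩ := hr
  have hP' : Polynomial.aeval (jFull N) P = r := hP
  have h1 : (r : LaurentSeries ℚ) =
      epsL ℓ (h13ev ℓ (jqModC ↥(GaloisRep.ratLocalizedAt ℓ)) P) := by
    rw [h13_epsL_ev, h13_epsL_j, ← coe_jFull N, ← h28_coe_aeval, ← hP']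
    congr 1
    exact (Polynomial.aeval_map_algebraMap (A := ℚ) (jFull N) P).symm
  rw [h28red_apply, redHom_eq_rhoL ℓ _ _ h1, h13_rhoL_ev, h13_rhoL_j]
  exact Polynomial.aeval_mem_adjoin_singleton _ _

/-- the reduction of an element of the chart algebra is integral over `𝔽_ℓ[J]` -/
theorem isIntegral_red_of_mem_chartAlgFin (x : ↥(modularFunctionFieldFull N))
    (hxO : x ∈ h28O N ℓ) (hA : x ∈ chartAlgFin N ℓ) :
    IsIntegral ↥(Algebra.adjoin (ZMod ℓ) {jqModC (ZMod ℓ)}) (h28red N ℓ ⟨x, hxO⟩) := by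
  rw [mem_chartAlg_iff] at hA
  obtain ⟨p, hp, hroot⟩ := hA
  have hS : ∀ s ∈ ({jFull N} : Set ↥(modularFunctionFieldFull N)), s ∈ h28O N ℓ := by
    intro s hs
    rw [Set.mem_singleton_iff.mp hs]
    exact h28_j_mem_O N ℓ
  set ι : ↥(Algebra.adjoin ↥(GaloisRep.ratLocalizedAt ℓ) {jFull N}) →+* ↥(h28O N ℓ) :=
    ((Algebra.adjoin ↥(GaloisRep.ratLocalizedAt ℓ) {jFull N}).toSubring.subtype).codRestrict
      (h28O N ℓ) (fun y => h28_adjoin_le_O N ℓ {jFull N} hS y y.2) with hι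
  set φ : ↥(Algebra.adjoin ↥(GaloisRep.ratLocalizedAt ℓ) {jFull N}) →+*
      ↥(Algebra.adjoin (ZMod ℓ) {jqModC (ZMod ℓ)}) :=
    ((h28red N ℓ).comp ι).codRestrict (Algebra.adjoin (ZMod ℓ) {jqModC (ZMod ℓ)})
      (fun y => h28red_mem_adjoin N ℓ y y.2 (h28_adjoin_le_O N ℓ {jFull N} hS y y.2)) with hφ
  refine ⟨p.map φ, hp.map φ, ?_⟩
  rw [Polynomial.eval₂_map]
  have hcomp : (algebraMap ↥(Algebra.adjoin (ZMod ℓ) {jqModC (ZMod ℓ)})
      (LaurentSeries (ZMod ℓ))).comp φ = (h28red N ℓ).comp ι := RingHom.ext fun r => rfl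
  rw [hcomp, ← Polynomial.hom_eval₂]
  have h0 : Polynomial.eval₂ ι ⟨x, hxO⟩ p = 0 := by
    apply Subtype.ext
    have h1 := Polynomial.hom_eval₂ p ι (h28O N ℓ).subtype ⟨x, hxO⟩
    rw [ZeroMemClass.coe_zero]
    exact h1.trans hroot
  rw [h0, map_zero]

/-- the reduction of an element with `ℓ`-integral `q`-expansion, integral over `ℚ[j]`, is
integral over `𝔽_ℓ[J]` -/
theorem isIntegral_red (hℓN : ¬ ℓ ∣ N) (x : ↥(modularFunctionFieldFull N))
    (hxO : x ∈ h28O N ℓ) (hint : IsIntegral ↥(Algebra.adjoin ℚ {jFull N}) x) :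
    IsIntegral ↥(Algebra.adjoin (ZMod ℓ) {jqModC (ZMod ℓ)}) (h28red N ℓ ⟨x, hxO⟩) :=
  isIntegral_red_of_mem_chartAlgFin N ℓ x hxO (mem_chartAlgFin_of_isIntegral N ℓ hℓN x hxO hint)

/-- **(S4)** no relation `j * X = u + ℓ * Z` with `X` in the chart algebra, `Z` with
`ℓ`-integral `q`-expansion and `u` an integer prime to `ℓ`. -/
theorem no_j_mul_eq_unit_add_of_mem (X Z : ↥(modularFunctionFieldFull N))
    (hXA : X ∈ chartAlgFin N ℓ) (hZO : Z ∈ h28O N ℓ) (u : ℤ) (hu : ¬ (ℓ : ℤ) ∣ u) :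
    jFull N * X ≠ (u : ↥(modularFunctionFieldFull N)) + (ℓ : ↥(modularFunctionFieldFull N)) * Z := by
  intro h
  have hval : HValN N ℓ := h13_hval N ℓ
  have hXO : X ∈ h28O N ℓ := h28_chartAlg_le_O hval {jFull N} (fun s hs => by
    rw [Set.mem_singleton_iff.mp hs]; exact h28_j_mem_O N ℓ) X hXA
  have hred := isIntegral_red_of_mem_chartAlgFin N ℓ X hXO hXA
  have hO : (⟨jFull N, h28_j_mem_O N ℓ⟩ : ↥(h28O N ℓ)) * ⟨X, hXO⟩ =
      (u : ↥(h28O N ℓ)) + (ℓ : ↥(h28O N ℓ)) * ⟨Z, hZO⟩ := Subtype.ext (by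
    push_cast
    exact h)
  have h1 := congrArg (h28red N ℓ) hO
  rw [map_mul, map_add, map_mul, map_intCast, map_natCast, natCast_eq_zero_Lk, zero_mul, add_zero,
    h28red_j] at h1
  have hu0 : ((u : ℤ) : LaurentSeries (ZMod ℓ)) ≠ 0 := by
    have h2 : ((u : ℤ) : LaurentSeries (ZMod ℓ)) = HahnSeries.C ((u : ℤ) : ZMod ℓ) := by
      rw [map_intCast]
    rw [h2]
    intro h3
    have h4 : ((u : ℤ) : ZMod ℓ) = 0 :=
      HahnSeries.C_injective (h3.trans (map_zero _).symm)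
    exact hu ((ZMod.intCast_zmod_eq_zero_iff_dvd u ℓ).mp h4)
  have hJ0 : jqModC (ZMod ℓ) ≠ 0 := by
    intro h5
    rw [h5, zero_mul] at h1
    exact hu0 h1.symm
  have hJinv : (jqModC (ZMod ℓ))⁻¹ =
      ((u : ℤ) : LaurentSeries (ZMod ℓ))⁻¹ * h28red N ℓ ⟨X, hXO⟩ := by
    have hX0 : h28red N ℓ ⟨X, hXO⟩ ≠ 0 := by
      intro h5
      rw [h5, mul_zero] at h1
      exact hu0 h1.symm
    rw [← h1, mul_inv, mul_assoc, inv_mul_cancel₀ hX0, mul_one]
  have htr : Transcendental (ZMod ℓ) (jqModC (ZMod ℓ)) := by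
    have := h13_transcendental_J ℓ
    rwa [h13_rhoL_j] at this
  apply not_isIntegral_inv_of_transcendental (jqModC (ZMod ℓ)) htr
  rw [hJinv]
  refine IsIntegral.mul ?_ hred
  have hmem : ((u : ℤ) : LaurentSeries (ZMod ℓ))⁻¹ ∈
      Algebra.adjoin (ZMod ℓ) {jqModC (ZMod ℓ)} := by
    have h6 : ((u : ℤ) : LaurentSeries (ZMod ℓ))⁻¹ =
        algebraMap (ZMod ℓ) (LaurentSeries (ZMod ℓ)) (((u : ℤ) : ZMod ℓ)⁻¹) := by
      rw [map_inv₀, map_intCast]
    rw [h6]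
    exact Subalgebra.algebraMap_mem _ _
  exact isIntegral_algebraMap (R := ↥(Algebra.adjoin (ZMod ℓ) {jqModC (ZMod ℓ)}))
    (A := LaurentSeries (ZMod ℓ)) (x := ⟨_, hmem⟩)

/-- **(S3 + S4)** no relation `j * X = u + ℓ * Z` with `X, Z ∈ F_N` with `ℓ`-integral
`q`-expansions, `X` integral over `ℚ[j]`, `ℓ ∤ N`, and `u` an integer prime to `ℓ`. -/
theorem no_j_mul_eq_unit_add (hℓN : ¬ ℓ ∣ N) (X Z : ↥(modularFunctionFieldFull N))
    (hXO : X ∈ h28O N ℓ) (hXint : IsIntegral ↥(Algebra.adjoin ℚ {jFull N}) X)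
    (hZO : Z ∈ h28O N ℓ) (u : ℤ) (hu : ¬ (ℓ : ℤ) ∣ u) :
    jFull N * X ≠ (u : ↥(modularFunctionFieldFull N)) + (ℓ : ↥(modularFunctionFieldFull N)) * Z :=
  no_j_mul_eq_unit_add_of_mem N ℓ X Z (mem_chartAlgFin_of_isIntegral N ℓ hℓN X hXO hXint) hZO u hu

/-! ## The same statements for series in `ℚ((q))` -/

/-- a series with coefficients in `ℤ_(ℓ)` lies in the Gauss valuation ring `Obig ℓ` -/
theorem mem_Obig_of_coeff (x : LaurentSeries ℚ)
    (hx : ∀ n, x.coeff n ∈ GaloisRep.ratLocalizedAt ℓ) : x ∈ Obig ℓ := by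
  obtain ⟨f, rfl⟩ := exists_epsL_eq ℓ x hx
  exact epsL_mem_Obig ℓ f

/-- `ℚ[j] ⊆ F_N` -/
theorem adjoin_jq_le_full {r : LaurentSeries ℚ} (hr : r ∈ Algebra.adjoin ℚ {jq}) :
    r ∈ modularFunctionFieldFull N :=
  h10_adjoin_j_le_full N (IntermediateField.algebra_adjoin_le_adjoin ℚ _ hr)

theorem mk_mem_adjoin_jFull {r : LaurentSeries ℚ} (hr : r ∈ Algebra.adjoin ℚ {jq}) :
    (⟨r, adjoin_jq_le_full N hr⟩ : ↥(modularFunctionFieldFull N)) ∈
      Algebra.adjoin ℚ {jFull N} := by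
  have hr' := hr
  rw [Algebra.adjoin_singleton_eq_range_aeval] at hr'
  obtain ⟨P, hP⟩ := hr'
  have hP' : Polynomial.aeval jq P = r := hP
  have h : (⟨r, adjoin_jq_le_full N hr⟩ : ↥(modularFunctionFieldFull N)) =
      Polynomial.aeval (jFull N) P := by
    apply Subtype.ext
    rw [h28_coe_aeval, coe_jFull]
    exact hP'.symm
  rw [h]
  exact Polynomial.aeval_mem_adjoin_singleton _ _

/-- integrality over `ℚ[j]` inside `ℚ((q))` gives integrality over `ℚ[j]` inside `F_N` -/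
theorem isIntegral_jFull_of_isIntegral_jq (X : LaurentSeries ℚ)
    (hXF : X ∈ modularFunctionFieldFull N) (hXint : IsIntegral ↥(Algebra.adjoin ℚ {jq}) X) :
    IsIntegral ↥(Algebra.adjoin ℚ {jFull N}) (⟨X, hXF⟩ : ↥(modularFunctionFieldFull N)) := by
  obtain ⟨p, hp, hroot⟩ := hXint
  set θ : ↥(Algebra.adjoin ℚ {jq}) →+* ↥(Algebra.adjoin ℚ {jFull N}) :=
    (((Algebra.adjoin ℚ {jq}).toSubring.subtype).codRestrict (modularFunctionFieldFull N)
      (fun r => adjoin_jq_le_full N r.2)).codRestrict (Algebra.adjoin ℚ {jFull N})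
        (fun r => mk_mem_adjoin_jFull N r.2) with hθ
  refine ⟨p.map θ, hp.map θ, ?_⟩
  rw [Polynomial.eval₂_map]
  apply h28incl_injective N
  rw [Polynomial.hom_eval₂, map_zero]
  have hcomp : (h28incl N).comp ((algebraMap ↥(Algebra.adjoin ℚ {jFull N})
      ↥(modularFunctionFieldFull N)).comp θ) =
      algebraMap ↥(Algebra.adjoin ℚ {jq}) (LaurentSeries ℚ) := RingHom.ext fun r => rfl
  rw [hcomp]
  exact hroot

/-- **(S3), series form.** -/
theorem mem_chartAlgFin_of_isIntegral_series (hℓN : ¬ ℓ ∣ N) (X : LaurentSeries ℚ)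
    (hXF : X ∈ modularFunctionFieldFull N) (hXO : X ∈ Obig ℓ)
    (hXint : IsIntegral ↥(Algebra.adjoin ℚ {jq}) X) :
    (⟨X, hXF⟩ : ↥(modularFunctionFieldFull N)) ∈ chartAlgFin N ℓ :=
  mem_chartAlgFin_of_isIntegral N ℓ hℓN ⟨X, hXF⟩ hXO
    (isIntegral_jFull_of_isIntegral_jq N X hXF hXint)

/-- **(S3 + S4), series form**: for `ℓ ∤ N` there are no `X ∈ F_N ⊆ ℚ((q))`, `Z ∈ ℚ((q))`, both
with `ℓ`-integral `q`-expansion, `X` integral over `ℚ[j]`, such that `j * X = u + ℓ * Z` with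
`u` an integer prime to `ℓ`. -/
theorem no_jq_mul_eq_unit_add (hℓN : ¬ ℓ ∣ N) (X Z : LaurentSeries ℚ)
    (hXF : X ∈ modularFunctionFieldFull N) (hXO : X ∈ Obig ℓ)
    (hXint : IsIntegral ↥(Algebra.adjoin ℚ {jq}) X) (hZO : Z ∈ Obig ℓ)
    (u : ℤ) (hu : ¬ (ℓ : ℤ) ∣ u) :
    jq * X ≠ (u : LaurentSeries ℚ) + (ℓ : LaurentSeries ℚ) * Z := by
  intro h
  have hℓ0 : ((ℓ : ℕ) : LaurentSeries ℚ) ≠ 0 := natCast_ne_zero_LQ ℓ
  have hZF : Z ∈ modularFunctionFieldFull N := by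
    have h1 : Z = ((ℓ : ℕ) : LaurentSeries ℚ)⁻¹ * (jq * X - (u : LaurentSeries ℚ)) := by
      rw [h, add_sub_cancel_left, ← mul_assoc, inv_mul_cancel₀ hℓ0, one_mul]
    rw [h1]
    exact mul_mem (inv_mem (natCast_mem _ ℓ))
      (sub_mem (mul_mem (jFull N).2 hXF) (intCast_mem _ u))
  refine no_j_mul_eq_unit_add N ℓ hℓN ⟨X, hXF⟩ ⟨Z, hZF⟩ hXO
    (isIntegral_jFull_of_isIntegral_jq N X hXF hXint) hZO u hu ?_
  apply Subtype.ext
  push_cast
  exact h

/-- **(S3 + S4), coefficient form**: the same with `ℓ`-integrality stated on coefficients. -/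
theorem no_jq_mul_eq_unit_add_of_coeff (hℓN : ¬ ℓ ∣ N) (X Z : LaurentSeries ℚ)
    (hXF : X ∈ modularFunctionFieldFull N)
    (hXc : ∀ n, X.coeff n ∈ GaloisRep.ratLocalizedAt ℓ)
    (hXint : IsIntegral ↥(Algebra.adjoin ℚ {jq}) X)
    (hZc : ∀ n, Z.coeff n ∈ GaloisRep.ratLocalizedAt ℓ)
    (u : ℤ) (hu : ¬ (ℓ : ℤ) ∣ u) :
    jq * X ≠ (u : LaurentSeries ℚ) + (ℓ : LaurentSeries ℚ) * Z :=
  no_jq_mul_eq_unit_add N ℓ hℓN X Z hXF (mem_Obig_of_coeff ℓ X hXc) hXint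
    (mem_Obig_of_coeff ℓ Z hZc) u hu

end H13Ig
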