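import Mathlib
import Fermat.Agent.S16.H4BDefs
import Fermat.Agent.Lib.H3_QExp

/-!
# S16, part (B): assembly (helper4)

`EisStatement → B1Statement → B2Statement → B3Statement → PartB`.
-/

set_option autoImplicit false


namespace H4S16

open ModularFormClass

local notation "Γ₀(" N ")" => CongruenceSubgroup.Gamma0 N

variable {N : ℕ}

theorem h4s16_qCoeff_sub (f g : ModularForm Γ₀(N) 2) (n : ℕ) :
    qCoeff ⇑(f - g) n = qCoeff ⇑f n - qCoeff ⇑g n := by
  simp only [qCoeff, FunLike.coe_sub]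
  rw [ModularForm.qExpansion_sub one_pos (Fermat.Agent.H3.h3_one_mem_strictPeriods N) f g, map_sub]

theorem h4s16_qCoeff_smul (c : ℂ) (f : ModularForm Γ₀(N) 2) (n : ℕ) :
    qCoeff ⇑(c • f) n = c * qCoeff ⇑f n := by
  have h1 : ⇑(c • f) = c • ⇑f := by
    ext z
    simp
  simp only [qCoeff, h1]
  rw [ModularForm.qExpansion_smul one_pos (Fermat.Agent.H3.h3_one_mem_strictPeriods N) c f]
  simp

/-- Step 1: from `EisMod p m` and the Eisenstein series, a form with constant term `p - 1` and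
higher coefficients divisible by `24 m`. -/
theorem h4s16_intCong_of_eisMod {p m : ℕ} (_hp : 1 ≤ p) (hE : EisForm p) (h : EisMod p m) :
    IntCong p ((p : ℤ) - 1) (24 * (m : ℤ)) := by
  obtain ⟨E, hE0, hEk⟩ := hE
  obtain ⟨f, -, hf⟩ := h
  refine ⟨E - (24 : ℂ) • (CuspForm.toModularFormₗ f : ModularForm Γ₀(p) 2), ?_, ?_⟩
  · rw [h4s16_qCoeff_sub, h4s16_qCoeff_smul, hE0]
    have : qCoeff ⇑(CuspForm.toModularFormₗ f : ModularForm Γ₀(p) 2) 0 = 0 :=
      Fermat.Agent.H3.h3_qCoeff_zero_index f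
    rw [this]
    push_cast
    ring
  · intro j hj
    obtain ⟨a, ha, c, hc⟩ := hf j hj
    refine ⟨-c, ?_⟩
    rw [h4s16_qCoeff_sub, h4s16_qCoeff_smul, hEk j hj]
    have : qCoeff ⇑(CuspForm.toModularFormₗ f : ModularForm Γ₀(p) 2) j = (a : ℂ) := ha
    rw [this]
    have ha' : (a : ℤ) = (sigmaPrime p j : ℤ) + (m : ℤ) * c := by linarith
    rw [ha']
    push_cast
    ring

/-- Step 2: dividing by the exact power of `l` in the constant term. -/
theorem h4s16_unitMod_of_intCong {a M a' : ℤ} {l v k : ℕ} (hl : l.Prime)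
    (ha : a = (l : ℤ) ^ v * a') (ha' : ¬ ((l : ℤ) ∣ a')) (hM : (l : ℤ) ^ (v + k) ∣ M)
    (h : IntCong N a M) : UnitMod N l k := by
  obtain ⟨G, hG0, hGk⟩ := h
  obtain ⟨M', hM'⟩ := hM
  have hl0 : ((l : ℂ) ^ v) ≠ 0 := pow_ne_zero _ (Nat.cast_ne_zero.mpr hl.ne_zero)
  refine ⟨a', ha', ((l : ℂ) ^ v)⁻¹ • G, ?_, ?_⟩
  · rw [h4s16_qCoeff_smul, hG0, ha]
    push_cast
    field_simp
  · intro j hj
    obtain ⟨b, hb⟩ := hGk j hj
    refine ⟨M' * b, ?_⟩
    rw [h4s16_qCoeff_smul, hb, hM']
    push_cast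
    rw [pow_add]
    field_simp

end H4S16

namespace H4S16

open ModularFormClass

/-- Step 3 (core): from the factorisations of `n` and `g`, a unit congruence modulo `l ^ k`. -/
theorem h4s16_unitMod_of_dvd {p m l k vg vn n g g' n' : ℕ} (hl : l.Prime) (hp1 : 1 ≤ p)
    (hpn : p - 1 = n * g)
    (hg : g = l ^ vg * g') (hg' : ¬ l ∣ g')
    (hn : n = l ^ vn * n') (hn' : ¬ l ∣ n')
    (h24 : l ^ (vg + k - 1) ∣ 24) (hk : 1 ≤ k)
    (hm : l ^ (vn + 1) ∣ m)
    (h : IntCong p ((p : ℤ) - 1) (24 * (m : ℤ))) : UnitMod p l k := by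
  refine h4s16_unitMod_of_intCong (v := vn + vg) (a' := ((n' * g' : ℕ) : ℤ)) hl ?_ ?_ ?_ h
  · have h1 : ((p - 1 : ℕ) : ℤ) = (p : ℤ) - 1 := by
      rw [Nat.cast_sub hp1]; simp
    rw [← h1, hpn, hn, hg]
    push_cast
    ring
  · intro hdvd
    have h2 : l ∣ n' * g' := by exact_mod_cast hdvd
    rcases (Nat.Prime.dvd_mul hl).mp h2 with h3 | h3
    · exact hn' h3
    · exact hg' h3
  · have h3 : l ^ (vn + vg + k) ∣ 24 * m := by
      have e : vn + vg + k = (vg + k - 1) + (vn + 1) := by omega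
      rw [e, pow_add]
      exact mul_dvd_mul h24 hm
    exact_mod_cast h3

theorem h4s16_dvd12_cases {g : ℕ} (hg : g ∣ 12) :
    g = 1 ∨ g = 2 ∨ g = 3 ∨ g = 4 ∨ g = 6 ∨ g = 12 := by
  have h1 : g ≤ 12 := Nat.le_of_dvd (by norm_num) hg
  interval_cases g <;> simp_all

/-- **Part (B)** from its slices. -/
theorem h4s16_partB (hE : EisStatement) (h1 : B1Statement) (h2 : B2Statement)
    (h3 : B3Statement) : PartB := by
  intro p hp m hm
  have hp1 : 1 ≤ p := hp.one_le
  have hp2 : 2 ≤ p := hp.two_le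
  have hI := h4s16_intCong_of_eisMod hp1 (hE p hp) hm
  unfold ModularCurve.eisensteinNumerator
  set g := Nat.gcd (p - 1) 12 with hgdef
  have hg12 : g ∣ 12 := Nat.gcd_dvd_right _ _
  have hgp : g ∣ p - 1 := Nat.gcd_dvd_left _ _
  have hg0 : 0 < g := Nat.pos_of_dvd_of_pos hg12 (by norm_num)
  set n := (p - 1) / g with hndef
  have hpn : p - 1 = n * g := (Nat.div_mul_cancel hgp).symm
  have hn0 : n ≠ 0 := by
    intro h0
    rw [h0, zero_mul] at hpn
    omega
  rw [Nat.dvd_iff_prime_pow_dvd_dvd]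
  intro l k' hl hlm
  by_contra hln
  obtain ⟨vn, n', hn', hn⟩ := Nat.exists_eq_pow_mul_and_not_dvd hn0 l hl.ne_one
  have hvn : vn + 1 ≤ k' := by
    by_contra hlt
    have : k' ≤ vn := by omega
    apply hln
    rw [hn]
    exact Dvd.dvd.mul_right (pow_dvd_pow l this) n'
  have hm' : l ^ (vn + 1) ∣ m := (pow_dvd_pow l hvn).trans hlm
  have h3g : 3 ∣ g ↔ 3 ∣ p - 1 := by
    rw [hgdef, Nat.dvd_gcd_iff]; simp
  have h2g : 2 ∣ g ↔ 2 ∣ p - 1 := by
    rw [hgdef, Nat.dvd_gcd_iff]; simp
  have h4g : 4 ∣ g ↔ 4 ∣ p - 1 := by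
    rw [hgdef, Nat.dvd_gcd_iff]; simp
  by_cases hl2 : l = 2
  · subst hl2
    by_cases hp2' : p = 2
    · subst hp2'
      -- g = 1, k = 4, B1 with r = 3
      have hg1 : g = 1 := by rw [hgdef]; decide
      have hU : UnitMod 2 2 4 :=
        h4s16_unitMod_of_dvd (vg := 0) (g' := 1) hl hp1 hpn (by rw [hg1]; norm_num)
          (by norm_num) hn hn' (by norm_num) (by norm_num) hm' hI
      exact h1 2 2 3 4 hp hl Nat.prime_three (by norm_num) (by norm_num) (by norm_num) hU
    · have hodd : Odd p := hp.odd_of_ne_two hp2'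
      have h2p : 2 ∣ p - 1 := by
        obtain ⟨t, ht⟩ := hodd
        exact ⟨t, by omega⟩
      by_cases h4p : 4 ∣ p - 1
      · -- g = 4 g', k = 2, B2
        have h4g' := h4g.mpr h4p
        obtain ⟨g', hg'⟩ := h4g'
        have hg'odd : ¬ 2 ∣ g' := by
          rcases h4s16_dvd12_cases hg12 with h | h | h | h | h | h <;> omega
        have hU : UnitMod p 2 2 :=
          h4s16_unitMod_of_dvd (vg := 2) (g' := g') hl hp1 hpn (by rw [hg']; norm_num)
            hg'odd hn hn' (by norm_num) (by norm_num) hm' hI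
        exact (h2 p hp).2 (by omega) hU
      · -- g = 2 g', k = 3, B3
        have h2g' := h2g.mpr h2p
        obtain ⟨g', hg'⟩ := h2g'
        have hg'odd : ¬ 2 ∣ g' := by
          intro hdv
          apply h4p
          apply h4g.mp
          obtain ⟨t, ht⟩ := hdv
          exact ⟨t, by omega⟩
        have hU : UnitMod p 2 3 :=
          h4s16_unitMod_of_dvd (vg := 1) (g' := g') hl hp1 hpn (by rw [hg']; norm_num)
            hg'odd hn hn' (by norm_num) (by norm_num) hm' hI
        exact h3 p hodd hU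
  · by_cases hl3 : l = 3
    · subst hl3
      by_cases h3p : 3 ∣ p - 1
      · -- g = 3 g', k = 1, B2
        have h3g' := h3g.mpr h3p
        obtain ⟨g', hg'⟩ := h3g'
        have hg'3 : ¬ 3 ∣ g' := by
          rcases h4s16_dvd12_cases hg12 with h | h | h | h | h | h <;> omega
        have hU : UnitMod p 3 1 :=
          h4s16_unitMod_of_dvd (vg := 1) (g' := g') hl hp1 hpn (by rw [hg']; norm_num)
            hg'3 hn hn' (by norm_num) (by norm_num) hm' hI
        exact (h2 p hp).1 (by omega) hU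
      · -- 3 ∤ g, k = 2, B1 with r = 2 (or 5 if p = 2)
        have hg3 : ¬ 3 ∣ g := fun h => h3p (h3g.mp h)
        have hU : UnitMod p 3 2 :=
          h4s16_unitMod_of_dvd (vg := 0) (g' := g) hl hp1 hpn (by norm_num)
            hg3 hn hn' (by norm_num) (by norm_num) hm' hI
        by_cases hp2' : p = 2
        · subst hp2'
          exact h1 2 3 5 2 hp hl Nat.prime_five (by norm_num) (by norm_num) (by norm_num) hU
        · exact h1 p 3 2 2 hp hl Nat.prime_two (fun h => hp2' h.symm) (by norm_num)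
            (by norm_num) hU
    · -- l ≥ 5
      have hl5 : 5 ≤ l := by
        have := hl.two_le
        by_contra hlt
        have hl4 : l = 4 := by omega
        rw [hl4] at hl
        exact absurd hl (by decide)
      have hgl : ¬ l ∣ g := by
        intro hdv
        have := Nat.le_of_dvd (by norm_num) (hdv.trans hg12)
        have h12 : l ∣ 12 := hdv.trans hg12
        interval_cases l <;> first | omega | exact absurd hl (by norm_num)
      have hU : UnitMod p l 1 :=
        h4s16_unitMod_of_dvd (vg := 0) (g' := g) hl hp1 hpn (by norm_num)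
          hgl hn hn' (by norm_num) (by norm_num) hm' hI
      by_cases hp2' : p = 2
      · subst hp2'
        refine h1 2 l 3 1 hp hl Nat.prime_three (by norm_num) (by omega) ?_ hU
        intro hdv
        have e8 : (3 : ℕ) ^ 2 - 1 = 8 := by norm_num
        rw [pow_one, e8] at hdv
        have hle := Nat.le_of_dvd (by norm_num) hdv
        have h2 : l ∣ 2 ^ 3 := by simpa using hdv
        have := (Nat.prime_dvd_prime_iff_eq hl Nat.prime_two).mp (hl.dvd_of_dvd_pow h2)
        omega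
      · refine h1 p l 2 1 hp hl Nat.prime_two (fun h => hp2' h.symm) (by omega) ?_ hU
        intro hdv
        have e3 : (2 : ℕ) ^ 2 - 1 = 3 := by norm_num
        rw [pow_one, e3] at hdv
        have := Nat.le_of_dvd (by norm_num) hdv
        omega

end H4S16
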